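/-
S35 (wave 7, Route C, package (C6a)): the level CORE of the Eichler–Shimura descent, from NAMED
contracts (the analogue of `S34.GAsm.dvrCoreG_of_contracts`).

`E` is a LEVEL OPERATOR: for every coefficient field `L`, every ring automorphism `s` of `L`
(the restriction of a Frobenius lift `σ`) and every automorphism `w` of `F_{Mq,L}` (the
Atkin–Lehner involution) a map `E L s w : F_{Mq,L} → F_{Mq,L}`.  In the application
`E L s w = EsNorm.esL M q s w`, the Eichler–Shimura operator

    `es y = s(y) * (s⁻¹ y) ^ q * (w y) ^ (q + 1) / (α (N_β y) * β (N_α y))`.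

For `div f = p ^ n • D` put `f₂ := DDGauss.dd (M * q) (s.trans s) fL = (σ² - 1)² fL`.

* `GaussContract E M q A σ` : Claim R — `E y` is `≡ 1` on the Gauss ring for EVERY `y ≠ 0`;
* `EsLoc₁ E M q p A σ`     : the local datum of `E f₂` at every closed point `𝔫 ∋ π` of the finite
                             chart (nodes: (C3); smooth points: (C4)), in the `hloc` shape of
                             `KummerIndCusp.kummer_descent_cusp`;
* `EsLoc₂ E M q p A σ`     : the same at the cusps of the chart `W[1/j]` ((C4)).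

`esCore_of_contracts` : then, at every sufficiently large Galois-stable level,
`E f₂ = a * H ^ (p ^ n)` with a nonzero constant `a` (`EsCoreProp`).

The proof is `S34.GLevel.kummer_at_level` (all instance plumbing discharged there).
-/
import Mathlib
import Fermat.Agent.S34.GLevel
import Fermat.Agent.S34.DDGauss
import Fermat.Agent.S34.GalLevel
import Fermat.Agent.S34.GDescent

set_option autoImplicit false
set_option linter.style.haveILetI false

noncomputable section

namespace Fermat.Agent.S35.EsCore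

open ModularCurve AlgebraicCurve Fermat.Agent.S18 Fermat.Agent.S18.Endgame Fermat.Agent.S37
open Fermat.Agent.S34 Fermat.Agent.S34.KummerStep Fermat.Agent.S34.GDescent

local notation "Qb" => AlgebraicClosure ℚ

/-- A level operator on the function fields `F_{N,L}`: a map `F_{N,L} → F_{N,L}` for every
coefficient field `L`, every ring automorphism of `L` and every `L`-automorphism of `F_{N,L}`. -/
abbrev LevelOp (N : ℕ) : Type 1 :=
  ∀ (L : Type) [Field L] [Algebra ℚ L], (L ≃+* L) → (S24.FF L N ≃ₐ[L] S24.FF L N) →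
    S24.FF L N → S24.FF L N

/-! ### The contracts -/

/-- **Claim R** as a contract: at every (sufficiently large, Galois-stable) level, for the
restriction `s` of `σ` and every Atkin–Lehner automorphism `w`, the function `E y` is `≡ 1`
modulo `π` on the Gauss ring, for every `y ≠ 0`. -/
def GaussContract (M q : ℕ) [NeZero M] [NeZero q] (E : LevelOp (M * q))
    (A : ValuationSubring Qb) (σ : Qb ≃ₐ[ℚ] Qb) : Prop :=
  ∃ S₀ : Finset Qb, ∀ (L : Type) [Field L] [Algebra ℚ L] (ι : L →+* Qb),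
    LevelChange.IsLevel A q S₀ ι → GalLevel.IsStable ι →
    ∀ ϖ : ↥(A.comap ι), Irreducible ϖ →
    ∀ s : L ≃+* L, (∀ c : L, ι (s c) = σ (ι c)) →
    ∀ w : S24.FF L (M * q) ≃ₐ[L] S24.FF L (M * q),
      (w : S24.FF L (M * q) →ₐ[L] S24.FF L (M * q)).comp (heckeAlphaBar L M q) =
        heckeBetaBar L M q →
      (w : S24.FF L (M * q) →ₐ[L] S24.FF L (M * q)).comp (heckeBetaBar L M q) =
        heckeAlphaBar L M q →
    ∀ y : S24.FF L (M * q), y ≠ 0 → GaussOne ϖ (S24.jBC L (M * q)) (E L s w y)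

/-- **(EsLoc₁)**: the local datum on the finite chart.  For `div f = p ^ n • D`, at every level
where `f = bc fL` and the support of `D` is rational, for the restriction `s` of `σ`, every
Atkin–Lehner `w`, and at every maximal ideal `𝔫 ∋ π` of the chart ring `B₁` (the integral closure
of `W[j]` in `F_{Mq,L}`) there is `g ≡ 1` on the Gauss ring such that
`E ((σ² - 1)² fL) * g ^ (p ^ n)` is integral at `𝔫`. -/
def EsLoc₁ (M q p : ℕ) [NeZero M] [NeZero q] (E : LevelOp (M * q))
    (A : ValuationSubring Qb) (σ : Qb ≃ₐ[ℚ] Qb) : Prop :=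
  ∀ (n : ℕ) (D : Divisor Qb (modularFunctionFieldBar (M * q)))
    (f : modularFunctionFieldBar (M * q)), f ≠ 0 →
    (∀ P : Place Qb (modularFunctionFieldBar (M * q)), P.ord f = (p : ℤ) ^ n * D P) →
    ∃ S₀ : Finset Qb, ∀ (L : Type) [Field L] [Algebra ℚ L] (ι : L →+* Qb),
      LevelChange.IsLevel A q S₀ ι → GalLevel.IsStable ι →
      ∀ fL : S24.FF L (M * q),
        S24.CoeffBC.bc ι (modularFunctionFieldFull (M * q)) fL = f →
      (∀ P : Place Qb (modularFunctionFieldBar (M * q)), D P ≠ 0 → RatAtLevel (M * q) ι P) →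
      ∀ ϖ : ↥(A.comap ι), Irreducible ϖ →
      ∀ s : L ≃+* L, (∀ c : L, ι (s c) = σ (ι c)) →
      ∀ w : S24.FF L (M * q) ≃ₐ[L] S24.FF L (M * q),
        (w : S24.FF L (M * q) →ₐ[L] S24.FF L (M * q)).comp (heckeAlphaBar L M q) =
          heckeBetaBar L M q →
        (w : S24.FF L (M * q) →ₐ[L] S24.FF L (M * q)).comp (heckeBetaBar L M q) =
          heckeAlphaBar L M q →
      ∀ 𝔫 : Ideal (integralClosure (Algebra.adjoin ↥(A.comap ι) {S24.jBC L (M * q)})
          (S24.FF L (M * q))), 𝔫.IsMaximal →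
        (∀ r : integralClosure (Algebra.adjoin ↥(A.comap ι) {S24.jBC L (M * q)})
            (S24.FF L (M * q)),
          (r : S24.FF L (M * q)) = algebraMap ↥(A.comap ι) (S24.FF L (M * q)) ϖ → r ∈ 𝔫) →
        ∃ g : S24.FF L (M * q), GaussOne ϖ (S24.jBC L (M * q)) g ∧
          ∃ d : integralClosure (Algebra.adjoin ↥(A.comap ι) {S24.jBC L (M * q)})
              (S24.FF L (M * q)), d ∉ 𝔫 ∧
            IsIntegral (Algebra.adjoin ↥(A.comap ι) {S24.jBC L (M * q)})
              ((d : S24.FF L (M * q)) *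
                (E L s w (DDGauss.dd (M * q) (s.trans s) fL) * g ^ (p ^ n)))

/-- **(EsLoc₂)**: the local datum at the cusps of the chart `W[1/j]`: the same statement for the
integral closure `B₂` of `W[1/j]`, only at the maximal ideals containing `π` and `1/j`. -/
def EsLoc₂ (M q p : ℕ) [NeZero M] [NeZero q] (E : LevelOp (M * q))
    (A : ValuationSubring Qb) (σ : Qb ≃ₐ[ℚ] Qb) : Prop :=
  ∀ (n : ℕ) (D : Divisor Qb (modularFunctionFieldBar (M * q)))
    (f : modularFunctionFieldBar (M * q)), f ≠ 0 →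
    (∀ P : Place Qb (modularFunctionFieldBar (M * q)), P.ord f = (p : ℤ) ^ n * D P) →
    ∃ S₀ : Finset Qb, ∀ (L : Type) [Field L] [Algebra ℚ L] (ι : L →+* Qb),
      LevelChange.IsLevel A q S₀ ι → GalLevel.IsStable ι →
      ∀ fL : S24.FF L (M * q),
        S24.CoeffBC.bc ι (modularFunctionFieldFull (M * q)) fL = f →
      (∀ P : Place Qb (modularFunctionFieldBar (M * q)), D P ≠ 0 → RatAtLevel (M * q) ι P) →
      ∀ ϖ : ↥(A.comap ι), Irreducible ϖ →
      ∀ s : L ≃+* L, (∀ c : L, ι (s c) = σ (ι c)) →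
      ∀ w : S24.FF L (M * q) ≃ₐ[L] S24.FF L (M * q),
        (w : S24.FF L (M * q) →ₐ[L] S24.FF L (M * q)).comp (heckeAlphaBar L M q) =
          heckeBetaBar L M q →
        (w : S24.FF L (M * q) →ₐ[L] S24.FF L (M * q)).comp (heckeBetaBar L M q) =
          heckeAlphaBar L M q →
      ∀ 𝔫 : Ideal (integralClosure (Algebra.adjoin ↥(A.comap ι) {(S24.jBC L (M * q))⁻¹})
          (S24.FF L (M * q))), 𝔫.IsMaximal →
        (∀ r : integralClosure (Algebra.adjoin ↥(A.comap ι) {(S24.jBC L (M * q))⁻¹})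
            (S24.FF L (M * q)),
          (r : S24.FF L (M * q)) = algebraMap ↥(A.comap ι) (S24.FF L (M * q)) ϖ → r ∈ 𝔫) →
        (∀ r : integralClosure (Algebra.adjoin ↥(A.comap ι) {(S24.jBC L (M * q))⁻¹})
            (S24.FF L (M * q)),
          (r : S24.FF L (M * q)) = (S24.jBC L (M * q))⁻¹ → r ∈ 𝔫) →
        ∃ g : S24.FF L (M * q), GaussOne ϖ (S24.jBC L (M * q)) g ∧
          ∃ d : integralClosure (Algebra.adjoin ↥(A.comap ι) {(S24.jBC L (M * q))⁻¹})
              (S24.FF L (M * q)), d ∉ 𝔫 ∧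
            IsIntegral (Algebra.adjoin ↥(A.comap ι) {(S24.jBC L (M * q))⁻¹})
              ((d : S24.FF L (M * q)) *
                (E L s w (DDGauss.dd (M * q) (s.trans s) fL) * g ^ (p ^ n)))

/-- **(CORE)**: the conclusion of the level descent.  For `div f = p ^ n • D`, at every
sufficiently large Galois-stable level where `f = bc fL` and the support of `D` is rational:
`E ((σ² - 1)² fL) = a * H ^ (p ^ n)` with a nonzero constant `a`. -/
def EsCoreProp (M q p : ℕ) [NeZero M] [NeZero q] (E : LevelOp (M * q))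
    (A : ValuationSubring Qb) (σ : Qb ≃ₐ[ℚ] Qb) : Prop :=
  ∀ (n : ℕ) (D : Divisor Qb (modularFunctionFieldBar (M * q)))
    (f : modularFunctionFieldBar (M * q)), f ≠ 0 →
    (∀ P : Place Qb (modularFunctionFieldBar (M * q)), P.ord f = (p : ℤ) ^ n * D P) →
    ∃ S₀ : Finset Qb, ∀ (L : Type) [Field L] [Algebra ℚ L] (ι : L →+* Qb),
      LevelChange.IsLevel A q S₀ ι → GalLevel.IsStable ι →
      ∀ fL : S24.FF L (M * q),
        S24.CoeffBC.bc ι (modularFunctionFieldFull (M * q)) fL = f →
      (∀ P : Place Qb (modularFunctionFieldBar (M * q)), D P ≠ 0 → RatAtLevel (M * q) ι P) →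
      ∀ s : L ≃+* L, (∀ c : L, ι (s c) = σ (ι c)) →
      ∀ w : S24.FF L (M * q) ≃ₐ[L] S24.FF L (M * q),
        (w : S24.FF L (M * q) →ₐ[L] S24.FF L (M * q)).comp (heckeAlphaBar L M q) =
          heckeBetaBar L M q →
        (w : S24.FF L (M * q) →ₐ[L] S24.FF L (M * q)).comp (heckeBetaBar L M q) =
          heckeAlphaBar L M q →
      ∃ (a : L) (H : S24.FF L (M * q)), a ≠ 0 ∧
        E L s w (DDGauss.dd (M * q) (s.trans s) fL) =
          algebraMap L (S24.FF L (M * q)) a * H ^ (p ^ n)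

/-! ### The assembly -/

section Assembly

variable (M q p : ℕ) [NeZero M] [NeZero q]

set_option maxHeartbeats 1600000 in
-- the instance `Algebra ↥W (FF L N)` is found slowly
/-- **The level core of the Eichler–Shimura descent from the three contracts.** -/
theorem esCore_of_contracts (E : LevelOp (M * q)) (hq : q.Prime) (hp : p.Prime) (hpq : p ≠ q)
    (A : ValuationSubring Qb) (σ : Qb ≃ₐ[ℚ] Qb)
    (hG : GaussContract M q E A σ) (h₁ : EsLoc₁ M q p E A σ) (h₂ : EsLoc₂ M q p E A σ) :
    EsCoreProp M q p E A σ := by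
  classical
  intro n D f hf hD
  obtain ⟨S₁, hS₁⟩ := hG
  obtain ⟨S₃, hS₃⟩ := h₁ n D f hf hD
  obtain ⟨S₄, hS₄⟩ := h₂ n D f hf hD
  refine ⟨S₁ ∪ (S₃ ∪ S₄), ?_⟩
  intro L _ _ ι hlev hst fL hfL hrat s hs w hα hβ
  have hl₁ : LevelChange.IsLevel A q S₁ ι := GalLevel.isLevel_mono hlev Finset.subset_union_left
  have hl₃ : LevelChange.IsLevel A q S₃ ι := GalLevel.isLevel_mono hlev
    (Finset.subset_union_left.trans Finset.subset_union_right)
  have hl₄ : LevelChange.IsLevel A q S₄ ι := GalLevel.isLevel_mono hlev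
    (Finset.subset_union_right.trans Finset.subset_union_right)
  have hfL0 : fL ≠ 0 := by
    rintro rfl
    exact hf (by rw [← hfL, map_zero])
  haveI := hlev.2.2.1
  obtain ⟨ϖ, hϖ⟩ := IsDiscreteValuationRing.exists_irreducible ↥(A.comap ι)
  have hf₂ : DDGauss.dd (M * q) (s.trans s) fL ≠ 0 := DDGauss.dd_ne_zero (M * q) (s.trans s) hfL0
  exact GLevel.kummer_at_level (M * q) hlev hq hp (Ne.symm hpq) ϖ hϖ n
    (E L s w (DDGauss.dd (M * q) (s.trans s) fL))
    (hS₁ L ι hl₁ hst ϖ hϖ s hs w hα hβ _ hf₂)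
    (hS₃ L ι hl₃ hst fL hfL hrat ϖ hϖ s hs w hα hβ)
    (hS₄ L ι hl₄ hst fL hfL hrat ϖ hϖ s hs w hα hβ)

end Assembly

end Fermat.Agent.S35.EsCore
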