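/-
S35 (wave 7, Route C, package (C6a), T-variant): the level CORE of the Eichler–Shimura descent
from NAMED contracts, where the prover of a local contract CHOOSES the finite set `T` of places
of `F̄_{Mq}` that must be rational at the level (e.g. the support of `div (es ((σ² - 1)² f))`
over `Q̄`, which does not depend on the level).

Twin of `S35/EsCore.lean` (same level operator `EsCore.LevelOp`, same Claim-R contract
`EsCore.GaussContract`, same `hloc` clause); the only difference is `∃ S₀ T` instead of `∃ S₀`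
together with the hypothesis "`supp D` is rational at the level".

* `EsLocT₁ M q p E A σ`, `EsLocT₂ M q p E A σ` : the local contracts (finite chart / cusps);
* `EsCorePropT M q p E A σ`                    : the conclusion `E f₂ = a * H ^ (p ^ n)`;
* `esCoreT_of_contracts`                       : `GaussContract → EsLocT₁ → EsLocT₂ → EsCorePropT`;
* `esLocT₁_of_esLoc₁`, `esLocT₂_of_esLoc₂`     : the `EsCore` contracts imply the T-contracts
                                                 (`T := D.support`);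
* `esCorePropT_of_esCoreProp`                  : same for the conclusions.
-/
import Mathlib
import Fermat.Agent.S35.EsCore

set_option autoImplicit false
set_option linter.style.haveILetI false

noncomputable section

namespace Fermat.Agent.S35.EsCoreT

open ModularCurve AlgebraicCurve Fermat.Agent.S18 Fermat.Agent.S18.Endgame Fermat.Agent.S37
open Fermat.Agent.S34 Fermat.Agent.S34.KummerStep Fermat.Agent.S34.GDescent
open Fermat.Agent.S35.EsCore

local notation "Qb" => AlgebraicClosure ℚ

/-! ### The contracts -/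

/-- **(EsLocT₁)**: the local datum on the finite chart.  For `div f = p ^ n • D` there are a
finite set `S₀ ⊆ Q̄` and a finite set `T` of places of `F̄_{Mq}` such that at every Galois-stable
level `⊇ S₀` where `f = bc fL` and the places of `T` are rational, for the restriction `s` of `σ`,
every Atkin–Lehner `w`, and at every maximal ideal `𝔫 ∋ π` of the chart ring `B₁` (the integral
closure of `W[j]` in `F_{Mq,L}`) there is `g ≡ 1` on the Gauss ring such that
`E ((σ² - 1)² fL) * g ^ (p ^ n)` is integral at `𝔫`. -/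
def EsLocT₁ (M q p : ℕ) [NeZero M] [NeZero q] (E : LevelOp (M * q))
    (A : ValuationSubring Qb) (σ : Qb ≃ₐ[ℚ] Qb) : Prop :=
  ∀ (n : ℕ) (D : Divisor Qb (modularFunctionFieldBar (M * q)))
    (f : modularFunctionFieldBar (M * q)), f ≠ 0 →
    (∀ P : Place Qb (modularFunctionFieldBar (M * q)), P.ord f = (p : ℤ) ^ n * D P) →
    ∃ (S₀ : Finset Qb) (T : Finset (Place Qb (modularFunctionFieldBar (M * q)))),
      ∀ (L : Type) [Field L] [Algebra ℚ L] (ι : L →+* Qb),
      LevelChange.IsLevel A q S₀ ι → GalLevel.IsStable ι →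
      ∀ fL : S24.FF L (M * q),
        S24.CoeffBC.bc ι (modularFunctionFieldFull (M * q)) fL = f →
      (∀ P ∈ T, RatAtLevel (M * q) ι P) →
      ∀ ϖ : ↥(A.comap ι), Irreducible ϖ →
      ∀ s : L ≃+* L, (∀ c : L, ι (s c) = σ (ι c)) →
      ∀ w : S24.FF L (M * q) ≃ₐ[L] S24.FF L (M * q),
        (w : S24.FF L (M * q) →ₐ[L] S24.FF L (M * q)).comp (heckeAlphaBar L M q) =
          heckeBetaBar L M q →
        (w : S24.FF L (M * q) →ₐ[L] S24.FF L (M * q)).comp (heckeBetaBar L M q) =
          heckeAlphaBar L M q →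
      ∀ 𝔫 : Ideal (integralClosure (Algebra.adjoin ↥(A.comap ι) {S24.jBC L (M * q)})
          (S24.FF L (M * q))), 𝔫.IsMaximal →
        (∀ r : integralClosure (Algebra.adjoin ↥(A.comap ι) {S24.jBC L (M * q)})
            (S24.FF L (M * q)),
          (r : S24.FF L (M * q)) = algebraMap ↥(A.comap ι) (S24.FF L (M * q)) ϖ → r ∈ 𝔫) →
        ∃ g : S24.FF L (M * q), GaussOne ϖ (S24.jBC L (M * q)) g ∧
          ∃ d : integralClosure (Algebra.adjoin ↥(A.comap ι) {S24.jBC L (M * q)})
              (S24.FF L (M * q)), d ∉ 𝔫 ∧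
            IsIntegral (Algebra.adjoin ↥(A.comap ι) {S24.jBC L (M * q)})
              ((d : S24.FF L (M * q)) *
                (E L s w (DDGauss.dd (M * q) (s.trans s) fL) * g ^ (p ^ n)))

/-- **(EsLocT₂)**: the local datum at the cusps of the chart `W[1/j]`: the same statement for the
integral closure `B₂` of `W[1/j]`, only at the maximal ideals containing `π` and `1/j`. -/
def EsLocT₂ (M q p : ℕ) [NeZero M] [NeZero q] (E : LevelOp (M * q))
    (A : ValuationSubring Qb) (σ : Qb ≃ₐ[ℚ] Qb) : Prop :=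
  ∀ (n : ℕ) (D : Divisor Qb (modularFunctionFieldBar (M * q)))
    (f : modularFunctionFieldBar (M * q)), f ≠ 0 →
    (∀ P : Place Qb (modularFunctionFieldBar (M * q)), P.ord f = (p : ℤ) ^ n * D P) →
    ∃ (S₀ : Finset Qb) (T : Finset (Place Qb (modularFunctionFieldBar (M * q)))),
      ∀ (L : Type) [Field L] [Algebra ℚ L] (ι : L →+* Qb),
      LevelChange.IsLevel A q S₀ ι → GalLevel.IsStable ι →
      ∀ fL : S24.FF L (M * q),
        S24.CoeffBC.bc ι (modularFunctionFieldFull (M * q)) fL = f →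
      (∀ P ∈ T, RatAtLevel (M * q) ι P) →
      ∀ ϖ : ↥(A.comap ι), Irreducible ϖ →
      ∀ s : L ≃+* L, (∀ c : L, ι (s c) = σ (ι c)) →
      ∀ w : S24.FF L (M * q) ≃ₐ[L] S24.FF L (M * q),
        (w : S24.FF L (M * q) →ₐ[L] S24.FF L (M * q)).comp (heckeAlphaBar L M q) =
          heckeBetaBar L M q →
        (w : S24.FF L (M * q) →ₐ[L] S24.FF L (M * q)).comp (heckeBetaBar L M q) =
          heckeAlphaBar L M q →
      ∀ 𝔫 : Ideal (integralClosure (Algebra.adjoin ↥(A.comap ι) {(S24.jBC L (M * q))⁻¹})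
          (S24.FF L (M * q))), 𝔫.IsMaximal →
        (∀ r : integralClosure (Algebra.adjoin ↥(A.comap ι) {(S24.jBC L (M * q))⁻¹})
            (S24.FF L (M * q)),
          (r : S24.FF L (M * q)) = algebraMap ↥(A.comap ι) (S24.FF L (M * q)) ϖ → r ∈ 𝔫) →
        (∀ r : integralClosure (Algebra.adjoin ↥(A.comap ι) {(S24.jBC L (M * q))⁻¹})
            (S24.FF L (M * q)),
          (r : S24.FF L (M * q)) = (S24.jBC L (M * q))⁻¹ → r ∈ 𝔫) →
        ∃ g : S24.FF L (M * q), GaussOne ϖ (S24.jBC L (M * q)) g ∧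
          ∃ d : integralClosure (Algebra.adjoin ↥(A.comap ι) {(S24.jBC L (M * q))⁻¹})
              (S24.FF L (M * q)), d ∉ 𝔫 ∧
            IsIntegral (Algebra.adjoin ↥(A.comap ι) {(S24.jBC L (M * q))⁻¹})
              ((d : S24.FF L (M * q)) *
                (E L s w (DDGauss.dd (M * q) (s.trans s) fL) * g ^ (p ^ n)))

/-- **(CORE), T-variant**: for `div f = p ^ n • D` there are finite `S₀ ⊆ Q̄` and a finite set
`T` of places such that at every Galois-stable level `⊇ S₀` where `f = bc fL` and the places of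
`T` are rational: `E ((σ² - 1)² fL) = a * H ^ (p ^ n)` with a nonzero constant `a`. -/
def EsCorePropT (M q p : ℕ) [NeZero M] [NeZero q] (E : LevelOp (M * q))
    (A : ValuationSubring Qb) (σ : Qb ≃ₐ[ℚ] Qb) : Prop :=
  ∀ (n : ℕ) (D : Divisor Qb (modularFunctionFieldBar (M * q)))
    (f : modularFunctionFieldBar (M * q)), f ≠ 0 →
    (∀ P : Place Qb (modularFunctionFieldBar (M * q)), P.ord f = (p : ℤ) ^ n * D P) →
    ∃ (S₀ : Finset Qb) (T : Finset (Place Qb (modularFunctionFieldBar (M * q)))),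
      ∀ (L : Type) [Field L] [Algebra ℚ L] (ι : L →+* Qb),
      LevelChange.IsLevel A q S₀ ι → GalLevel.IsStable ι →
      ∀ fL : S24.FF L (M * q),
        S24.CoeffBC.bc ι (modularFunctionFieldFull (M * q)) fL = f →
      (∀ P ∈ T, RatAtLevel (M * q) ι P) →
      ∀ s : L ≃+* L, (∀ c : L, ι (s c) = σ (ι c)) →
      ∀ w : S24.FF L (M * q) ≃ₐ[L] S24.FF L (M * q),
        (w : S24.FF L (M * q) →ₐ[L] S24.FF L (M * q)).comp (heckeAlphaBar L M q) =
          heckeBetaBar L M q →
        (w : S24.FF L (M * q) →ₐ[L] S24.FF L (M * q)).comp (heckeBetaBar L M q) =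
          heckeAlphaBar L M q →
      ∃ (a : L) (H : S24.FF L (M * q)), a ≠ 0 ∧
        E L s w (DDGauss.dd (M * q) (s.trans s) fL) =
          algebraMap L (S24.FF L (M * q)) a * H ^ (p ^ n)

/-! ### The assembly -/

section Assembly

variable (M q p : ℕ) [NeZero M] [NeZero q]

set_option maxHeartbeats 1600000 in
-- the instance `Algebra ↥W (FF L N)` is found slowly
/-- **The level core of the Eichler–Shimura descent from the three contracts (T-variant).** -/
theorem esCoreT_of_contracts (E : LevelOp (M * q)) (hq : q.Prime) (hp : p.Prime) (hpq : p ≠ q)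
    (A : ValuationSubring Qb) (σ : Qb ≃ₐ[ℚ] Qb)
    (hG : GaussContract M q E A σ) (h₁ : EsLocT₁ M q p E A σ) (h₂ : EsLocT₂ M q p E A σ) :
    EsCorePropT M q p E A σ := by
  classical
  intro n D f hf hD
  obtain ⟨S₁, hS₁⟩ := hG
  obtain ⟨S₃, T₃, hS₃⟩ := h₁ n D f hf hD
  obtain ⟨S₄, T₄, hS₄⟩ := h₂ n D f hf hD
  refine ⟨S₁ ∪ (S₃ ∪ S₄), T₃ ∪ T₄, ?_⟩
  intro L _ _ ι hlev hst fL hfL hrat s hs w hα hβ
  have hl₁ : LevelChange.IsLevel A q S₁ ι := GalLevel.isLevel_mono hlev Finset.subset_union_left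
  have hl₃ : LevelChange.IsLevel A q S₃ ι := GalLevel.isLevel_mono hlev
    (Finset.subset_union_left.trans Finset.subset_union_right)
  have hl₄ : LevelChange.IsLevel A q S₄ ι := GalLevel.isLevel_mono hlev
    (Finset.subset_union_right.trans Finset.subset_union_right)
  have hfL0 : fL ≠ 0 := by
    rintro rfl
    exact hf (by rw [← hfL, map_zero])
  haveI := hlev.2.2.1
  obtain ⟨ϖ, hϖ⟩ := IsDiscreteValuationRing.exists_irreducible ↥(A.comap ι)
  have hf₂ : DDGauss.dd (M * q) (s.trans s) fL ≠ 0 := DDGauss.dd_ne_zero (M * q) (s.trans s) hfL0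
  exact GLevel.kummer_at_level (M * q) hlev hq hp (Ne.symm hpq) ϖ hϖ n
    (E L s w (DDGauss.dd (M * q) (s.trans s) fL))
    (hS₁ L ι hl₁ hst ϖ hϖ s hs w hα hβ _ hf₂)
    (hS₃ L ι hl₃ hst fL hfL (fun P hP => hrat P (Finset.mem_union_left _ hP)) ϖ hϖ s hs w hα hβ)
    (hS₄ L ι hl₄ hst fL hfL (fun P hP => hrat P (Finset.mem_union_right _ hP)) ϖ hϖ s hs w hα hβ)

end Assembly

/-! ### Comparison with the contracts of `EsCore` -/

section Compare

variable (M q p : ℕ) [NeZero M] [NeZero q]

/-- The `EsCore` contract on the finite chart implies the T-contract (`T := D.support`). -/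
theorem esLocT₁_of_esLoc₁ (E : LevelOp (M * q)) (A : ValuationSubring Qb) (σ : Qb ≃ₐ[ℚ] Qb)
    (h : EsLoc₁ M q p E A σ) : EsLocT₁ M q p E A σ := by
  intro n D f hf hD
  obtain ⟨S₀, hS₀⟩ := h n D f hf hD
  refine ⟨S₀, D.support, ?_⟩
  intro L _ _ ι hlev hst fL hfL hrat
  exact hS₀ L ι hlev hst fL hfL (fun P hP => hrat P (Finsupp.mem_support_iff.mpr hP))

/-- The `EsCore` contract at the cusps implies the T-contract (`T := D.support`). -/
theorem esLocT₂_of_esLoc₂ (E : LevelOp (M * q)) (A : ValuationSubring Qb) (σ : Qb ≃ₐ[ℚ] Qb)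
    (h : EsLoc₂ M q p E A σ) : EsLocT₂ M q p E A σ := by
  intro n D f hf hD
  obtain ⟨S₀, hS₀⟩ := h n D f hf hD
  refine ⟨S₀, D.support, ?_⟩
  intro L _ _ ι hlev hst fL hfL hrat
  exact hS₀ L ι hlev hst fL hfL (fun P hP => hrat P (Finsupp.mem_support_iff.mpr hP))

/-- The `EsCore` conclusion implies the T-conclusion (`T := D.support`). -/
theorem esCorePropT_of_esCoreProp (E : LevelOp (M * q)) (A : ValuationSubring Qb)
    (σ : Qb ≃ₐ[ℚ] Qb) (h : EsCoreProp M q p E A σ) : EsCorePropT M q p E A σ := by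
  intro n D f hf hD
  obtain ⟨S₀, hS₀⟩ := h n D f hf hD
  refine ⟨S₀, D.support, ?_⟩
  intro L _ _ ι hlev hst fL hfL hrat
  exact hS₀ L ι hlev hst fL hfL (fun P hP => hrat P (Finsupp.mem_support_iff.mpr hP))

end Compare

end Fermat.Agent.S35.EsCoreT
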