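import Mathlib

/-!
# S35 (wave 7, route C): elimination of the Atkin–Lehner involution

For a field `F` with two endomorphisms `σ`, `σ'` (a Frobenius lift and its inverse) put
`eHat σ σ' q x = σ x * σ' x ^ q`.  If, for `f ≠ 0`,

* `eHat f * (w f) ^ (q + 1) = c₁ * P₁ ^ m`   and
* `eHat (w f) * f ^ (q + 1) = c₂ * P₂ ^ m`

with "constants" `c₁`, `c₂`, then `eHat (eHat f) = c * P ^ m * f ^ ((q + 1) ^ 2)` for a constant
`c` (`eHat_eHat_of_two`).  "Constant" is an arbitrary predicate `IsC` closed under products,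
inverses, `σ` and `σ'`.

`eHat_eHat_of_es` is the same statement with the two hypotheses in the shape produced by the
Eichler–Shimura operator `es f = eHat f * (w f) ^ (q + 1) / (α (N_β f) * β (N_α f))`:
`es f = c * H ^ m`, and the two norms are constants times `m`-th powers.
-/

set_option autoImplicit false

namespace Fermat.Agent.S35.EsElim

variable {F : Type*} [Field F]

/-- `x ↦ σ x * σ' x ^ q` -/
def eHat (σ σ' : F →+* F) (q : ℕ) (x : F) : F := σ x * σ' x ^ q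

theorem eHat_apply (σ σ' : F →+* F) (q : ℕ) (x : F) : eHat σ σ' q x = σ x * σ' x ^ q := rfl

theorem eHat_one (σ σ' : F →+* F) (q : ℕ) : eHat σ σ' q 1 = 1 := by
  rw [eHat_apply, map_one, map_one, one_pow, one_mul]

theorem eHat_mul (σ σ' : F →+* F) (q : ℕ) (x y : F) :
    eHat σ σ' q (x * y) = eHat σ σ' q x * eHat σ σ' q y := by
  simp only [eHat_apply, map_mul, mul_pow]
  ring

theorem eHat_inv (σ σ' : F →+* F) (q : ℕ) (x : F) :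
    eHat σ σ' q x⁻¹ = (eHat σ σ' q x)⁻¹ := by
  simp only [eHat_apply, map_inv₀, inv_pow, mul_inv]

theorem eHat_div (σ σ' : F →+* F) (q : ℕ) (x y : F) :
    eHat σ σ' q (x / y) = eHat σ σ' q x / eHat σ σ' q y := by
  rw [div_eq_mul_inv, eHat_mul, eHat_inv, div_eq_mul_inv]

theorem eHat_pow (σ σ' : F →+* F) (q : ℕ) (x : F) (n : ℕ) :
    eHat σ σ' q (x ^ n) = eHat σ σ' q x ^ n := by
  simp only [eHat_apply, map_pow, mul_pow]
  ring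

theorem eHat_ne_zero (σ σ' : F →+* F) (q : ℕ) {x : F} (hx : x ≠ 0) : eHat σ σ' q x ≠ 0 := by
  rw [eHat_apply]
  exact mul_ne_zero ((map_ne_zero σ).mpr hx) (pow_ne_zero q ((map_ne_zero σ').mpr hx))

/-- the monoid-hom form of `eHat` -/
def eHatHom (σ σ' : F →+* F) (q : ℕ) : F →* F where
  toFun := eHat σ σ' q
  map_one' := eHat_one σ σ' q
  map_mul' := eHat_mul σ σ' q

theorem eHatHom_apply (σ σ' : F →+* F) (q : ℕ) (x : F) : eHatHom σ σ' q x = eHat σ σ' q x := rfl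

/-- `eHat` commutes with a ring endomorphism commuting with `σ` and `σ'` -/
theorem eHat_comm (σ σ' w : F →+* F) (q : ℕ) (hσ : ∀ x, w (σ x) = σ (w x))
    (hσ' : ∀ x, w (σ' x) = σ' (w x)) (x : F) : w (eHat σ σ' q x) = eHat σ σ' q (w x) := by
  rw [eHat_apply, eHat_apply, map_mul, map_pow, hσ, hσ']

/-- closure of a predicate of "constants" under `eHat` -/
theorem isC_eHat (σ σ' : F →+* F) (q : ℕ) (IsC : F → Prop) (hC1 : IsC 1)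
    (hCmul : ∀ a b, IsC a → IsC b → IsC (a * b))
    (hCσ : ∀ a, IsC a → IsC (σ a)) (hCσ' : ∀ a, IsC a → IsC (σ' a)) {c : F} (hc : IsC c) :
    IsC (eHat σ σ' q c) := by
  have hpow : ∀ (a : F), IsC a → ∀ n : ℕ, IsC (a ^ n) := by
    intro a ha n
    induction n with
    | zero => rw [pow_zero]; exact hC1
    | succ n ih => rw [pow_succ]; exact hCmul _ _ ih ha
  exact hCmul _ _ (hCσ c hc) (hpow _ (hCσ' c hc) q)

theorem isC_pow (IsC : F → Prop) (hC1 : IsC 1) (hCmul : ∀ a b, IsC a → IsC b → IsC (a * b))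
    {a : F} (ha : IsC a) (n : ℕ) : IsC (a ^ n) := by
  induction n with
  | zero => rw [pow_zero]; exact hC1
  | succ n ih => rw [pow_succ]; exact hCmul _ _ ih ha

/-- **Elimination of `w`.** -/
theorem eHat_eHat_of_two (σ σ' : F →+* F) (w : F → F) (q m : ℕ) (IsC : F → Prop)
    (hC1 : IsC 1) (hCmul : ∀ a b, IsC a → IsC b → IsC (a * b)) (hCinv : ∀ a, IsC a → IsC a⁻¹)
    (hCσ : ∀ a, IsC a → IsC (σ a)) (hCσ' : ∀ a, IsC a → IsC (σ' a))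
    {f P₁ P₂ c₁ c₂ : F} (hf : f ≠ 0) (hwf : w f ≠ 0) (hc₁ : IsC c₁) (hc₁0 : c₁ ≠ 0)
    (hc₂ : IsC c₂) (hc₂0 : c₂ ≠ 0)
    (h1 : eHat σ σ' q f * w f ^ (q + 1) = c₁ * P₁ ^ m)
    (h2 : eHat σ σ' q (w f) * f ^ (q + 1) = c₂ * P₂ ^ m) :
    ∃ c P : F, IsC c ∧ c ≠ 0 ∧
      eHat σ σ' q (eHat σ σ' q f) = c * P ^ m * f ^ ((q + 1) ^ 2) := by
  have hwq : w f ^ (q + 1) ≠ 0 := pow_ne_zero _ hwf
  have hfq : f ^ (q + 1) ≠ 0 := pow_ne_zero _ hf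
  have e1 : eHat σ σ' q f = c₁ * P₁ ^ m / w f ^ (q + 1) := by
    rw [eq_div_iff hwq]; exact h1
  have e2 : eHat σ σ' q (w f) = c₂ * P₂ ^ m / f ^ (q + 1) := by
    rw [eq_div_iff hfq]; exact h2
  refine ⟨eHat σ σ' q c₁ / c₂ ^ (q + 1), eHat σ σ' q P₁ / P₂ ^ (q + 1), ?_, ?_, ?_⟩
  · rw [div_eq_mul_inv]
    exact hCmul _ _ (isC_eHat σ σ' q IsC hC1 hCmul hCσ hCσ' hc₁)
      (hCinv _ (isC_pow IsC hC1 hCmul hc₂ (q + 1)))
  · exact div_ne_zero (eHat_ne_zero σ σ' q hc₁0) (pow_ne_zero _ hc₂0)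
  · rw [e1, eHat_div, eHat_mul, eHat_pow, eHat_pow, e2]
    have h3 : f ^ ((q + 1) ^ 2) = (f ^ (q + 1)) ^ (q + 1) := by rw [← pow_mul, sq]
    rw [h3, div_pow, div_pow, mul_pow]
    field_simp
    ring

/-- **Elimination of `w`, Eichler–Shimura form.**  `α`, `β : F' →+* F` are the two degeneracy
maps, `IsC'` the constants of `F'`; the two hypotheses `hes₁`, `hes₂` say that the operator
`es x = eHat x * (w x) ^ (q + 1) / (α (N_β x) * β (N_α x))` takes the values `c₁ * H₁ ^ m` at `f`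
and `c₂ * H₂ ^ m` at `w f` (with `w (w f) = f`), where the norms `nB₁ = N_β f`, `nA₁ = N_α f`,
`nB₂ = N_β (w f)`, `nA₂ = N_α (w f)` are constants times `m`-th powers. -/
theorem eHat_eHat_of_es {F' : Type*} [Field F'] (σ σ' : F →+* F) (w : F → F) (α β : F' →+* F)
    (q m : ℕ) (IsC : F → Prop) (IsC' : F' → Prop)
    (hC1 : IsC 1) (hCmul : ∀ a b, IsC a → IsC b → IsC (a * b)) (hCinv : ∀ a, IsC a → IsC a⁻¹)
    (hCσ : ∀ a, IsC a → IsC (σ a)) (hCσ' : ∀ a, IsC a → IsC (σ' a))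
    (hCα : ∀ a, IsC' a → IsC (α a)) (hCβ : ∀ a, IsC' a → IsC (β a))
    {f : F} (hf : f ≠ 0) (hwf : w f ≠ 0)
    {c₁ H₁ c₂ H₂ : F} {nB₁ nA₁ nB₂ nA₂ b₁ hB₁ a₁ hA₁ b₂ hB₂ a₂ hA₂ : F'}
    (hc₁ : IsC c₁) (hc₁0 : c₁ ≠ 0) (hc₂ : IsC c₂) (hc₂0 : c₂ ≠ 0)
    (hb₁ : IsC' b₁) (hb₁0 : b₁ ≠ 0) (ha₁ : IsC' a₁) (ha₁0 : a₁ ≠ 0)
    (hb₂ : IsC' b₂) (hb₂0 : b₂ ≠ 0) (ha₂ : IsC' a₂) (ha₂0 : a₂ ≠ 0)
    (hnB₁ : nB₁ = b₁ * hB₁ ^ m) (hnA₁ : nA₁ = a₁ * hA₁ ^ m)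
    (hnB₂ : nB₂ = b₂ * hB₂ ^ m) (hnA₂ : nA₂ = a₂ * hA₂ ^ m)
    (hn₁ : α nB₁ * β nA₁ ≠ 0) (hn₂ : α nB₂ * β nA₂ ≠ 0)
    (hes₁ : eHat σ σ' q f * w f ^ (q + 1) / (α nB₁ * β nA₁) = c₁ * H₁ ^ m)
    (hes₂ : eHat σ σ' q (w f) * f ^ (q + 1) / (α nB₂ * β nA₂) = c₂ * H₂ ^ m) :
    ∃ c P : F, IsC c ∧ c ≠ 0 ∧
      eHat σ σ' q (eHat σ σ' q f) = c * P ^ m * f ^ ((q + 1) ^ 2) := by
  have k1 : eHat σ σ' q f * w f ^ (q + 1) =
      (c₁ * α b₁ * β a₁) * (H₁ * α hB₁ * β hA₁) ^ m := by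
    rw [div_eq_iff hn₁] at hes₁
    rw [hes₁, hnB₁, hnA₁]
    simp only [map_mul, map_pow, mul_pow]
    ring
  have k2 : eHat σ σ' q (w f) * f ^ (q + 1) =
      (c₂ * α b₂ * β a₂) * (H₂ * α hB₂ * β hA₂) ^ m := by
    rw [div_eq_iff hn₂] at hes₂
    rw [hes₂, hnB₂, hnA₂]
    simp only [map_mul, map_pow, mul_pow]
    ring
  exact eHat_eHat_of_two σ σ' w q m IsC hC1 hCmul hCinv hCσ hCσ' hf hwf
    (hCmul _ _ (hCmul _ _ hc₁ (hCα _ hb₁)) (hCβ _ ha₁))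
    (mul_ne_zero (mul_ne_zero hc₁0 ((map_ne_zero α).mpr hb₁0)) ((map_ne_zero β).mpr ha₁0))
    (hCmul _ _ (hCmul _ _ hc₂ (hCα _ hb₂)) (hCβ _ ha₂))
    (mul_ne_zero (mul_ne_zero hc₂0 ((map_ne_zero α).mpr hb₂0)) ((map_ne_zero β).mpr ha₂0))
    k1 k2

/-- the range of a ring homomorphism from a field as a predicate of constants: closure
properties -/
theorem isC_range_one {L : Type*} [Field L] (i : L →+* F) : ∃ a : L, (1 : F) = i a :=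
  ⟨1, (map_one i).symm⟩

theorem isC_range_mul {L : Type*} [Field L] (i : L →+* F) (a b : F)
    (ha : ∃ x : L, a = i x) (hb : ∃ x : L, b = i x) : ∃ x : L, a * b = i x := by
  obtain ⟨x, rfl⟩ := ha
  obtain ⟨y, rfl⟩ := hb
  exact ⟨x * y, (map_mul i x y).symm⟩

theorem isC_range_inv {L : Type*} [Field L] (i : L →+* F) (a : F)
    (ha : ∃ x : L, a = i x) : ∃ x : L, a⁻¹ = i x := by
  obtain ⟨x, rfl⟩ := ha
  exact ⟨x⁻¹, (map_inv₀ i x).symm⟩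

end Fermat.Agent.S35.EsElim
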