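import Mathlib
import Fermat.Agent.S34.DDLocal
import Fermat.Prelude.Def_AlgebraicCurve_Correspondence

/-!
# S35 (Route C, package (C3a)): the order formula of the Eichler–Shimura operator

Place currency over an algebraically closed constant field `K` (`K = ℚ̄`), no charts and no
level.  `F / K` is the function field of level `M' q`, `F' / K` the one of level `M'`,
`α β : F' →ₐ[K] F` the two degeneracy maps, `w` the Atkin–Lehner automorphism of `F / K`, `g` a
semilinear automorphism of `F / K` (a Frobenius lift).  With the norms `N_α`, `N_β : F → F'`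
along `α`, `β`,

`esBar g w α β q y = (g • y) * (g⁻¹ • y) ^ q * (w y) ^ (q + 1) / (α (N_β y) * β (N_α y))`.

* `esBar_mul`, `esBar_inv`, `esBar_pow`, `esBar_div`, `esBar_ne_zero`: `esBar` is multiplicative;
* `ord_esBar`: the order of `esBar y` at a place `Q`, in terms of the orders of `y` at
  `g⁻¹ • Q`, `g • Q`, `w⁻¹ • Q` and at the places of the two correspondence fibres
  (`P` with `P ∘ β = Q ∘ α`, resp. `P ∘ α = Q ∘ β`); the norm formula along `α`, `β`
  (`NormOrd`, the conclusion of `S37.FunctionFieldMaps.sum_fiberAlong_ord`) is a hypothesis;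
* `ord_esBar_eq_zero`: if `y` has order `0` on a class `C₀` of places containing these places,
  then `esBar y` has order `0` at `Q`;
* `ord_esBar_eq_of_eq`: if `y₁`, `y₂` have the same orders on `C₀`, then `esBar y₁`, `esBar y₂`
  have the same order at `Q`.
-/

set_option autoImplicit false

noncomputable section

namespace Fermat.Agent.S35.EsOrd

open AlgebraicCurve Fermat.Agent.S34.DDLocal

variable {K F F' : Type*} [Field K] [Field F] [Field F'] [Algebra K F] [Algebra K F']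

/-- The norm along `φ : F' →ₐ[K] F`, as a monoid hom `F →* F'`. -/
def normAlong (φ : F' →ₐ[K] F) : F →* F' :=
  letI := algebraAlong φ
  Algebra.norm F'

theorem normAlong_apply (φ : F' →ₐ[K] F) (y : F) :
    normAlong φ y = (letI := algebraAlong φ; Algebra.norm F' y) := rfl

theorem normAlong_ne_zero (φ : F' →ₐ[K] F) {y : F} (hy : y ≠ 0) : normAlong φ y ≠ 0 := by
  letI := algebraAlong φ
  show Algebra.norm F' y ≠ 0
  by_cases hfin : Module.Finite F' F
  · exact Algebra.norm_ne_zero_iff.mpr hy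
  · rw [Algebra.norm_eq_one_of_not_module_finite hfin]
    exact one_ne_zero

/-! ### The operator -/

/-- The Eichler–Shimura operator on nonzero functions. -/
def esBar (g : SemilinearAut K F) (w : F ≃ₐ[K] F) (α β : F' →ₐ[K] F) (q : ℕ) (y : F) : F :=
  (g • y) * (g⁻¹ • y) ^ q * (w y) ^ (q + 1) / (α (normAlong β y) * β (normAlong α y))

section Mult

variable (g : SemilinearAut K F) (w : F ≃ₐ[K] F) (α β : F' →ₐ[K] F) (q : ℕ)

theorem esBar_one : esBar g w α β q 1 = 1 := by
  unfold esBar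
  rw [smul_one, smul_one, map_one, map_one, map_one, map_one, map_one]
  simp

theorem esBar_mul (y₁ y₂ : F) :
    esBar g w α β q (y₁ * y₂) = esBar g w α β q y₁ * esBar g w α β q y₂ := by
  unfold esBar
  rw [smul_mul', smul_mul', map_mul, map_mul, map_mul, map_mul, map_mul, mul_pow, mul_pow,
    ← mul_div_mul_comm]
  congr 1 <;> ring

theorem esBar_ne_zero {y : F} (hy : y ≠ 0) : esBar g w α β q y ≠ 0 := by
  unfold esBar
  have h1 : g • y ≠ 0 := (smul_ne_zero_iff_ne g).mpr hy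
  have h2 : g⁻¹ • y ≠ 0 := (smul_ne_zero_iff_ne g⁻¹).mpr hy
  have h3 : w y ≠ 0 := (map_ne_zero w).mpr hy
  have h4 : α (normAlong β y) ≠ 0 := (map_ne_zero α).mpr (normAlong_ne_zero β hy)
  have h5 : β (normAlong α y) ≠ 0 := (map_ne_zero β).mpr (normAlong_ne_zero α hy)
  exact div_ne_zero (mul_ne_zero (mul_ne_zero h1 (pow_ne_zero q h2)) (pow_ne_zero _ h3))
    (mul_ne_zero h4 h5)

theorem esBar_inv {y : F} (hy : y ≠ 0) :
    esBar g w α β q y⁻¹ = (esBar g w α β q y)⁻¹ := by
  have h := esBar_mul g w α β q y y⁻¹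
  rw [mul_inv_cancel₀ hy, esBar_one] at h
  exact eq_inv_of_mul_eq_one_right h.symm

theorem esBar_div (y₁ : F) {y₂ : F} (hy₂ : y₂ ≠ 0) :
    esBar g w α β q (y₁ / y₂) = esBar g w α β q y₁ / esBar g w α β q y₂ := by
  rw [div_eq_mul_inv, esBar_mul, esBar_inv g w α β q hy₂, div_eq_mul_inv]

theorem esBar_pow (y : F) (m : ℕ) :
    esBar g w α β q (y ^ m) = esBar g w α β q y ^ m := by
  induction m with
  | zero => rw [pow_zero, pow_zero, esBar_one]
  | succ m ih => rw [pow_succ, pow_succ, esBar_mul, ih]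

/-- `esBar (f / γ ^ m) = esBar f * (esBar γ)⁻¹ ^ m`: the shape of the local datum of the Kummer
step (`g_𝔫 := (esBar γ)⁻¹`). -/
theorem esBar_div_pow (f : F) {γ : F} (hγ : γ ≠ 0) (m : ℕ) :
    esBar g w α β q (f / γ ^ m) = esBar g w α β q f * (esBar g w α β q γ)⁻¹ ^ m := by
  rw [esBar_div g w α β q f (pow_ne_zero m hγ), esBar_pow, div_eq_mul_inv, inv_pow]

end Mult

/-! ### The order formula -/

section Ord

variable [HasPrincipalDivisors K F]

/-- **The norm formula along `φ`** (the conclusion of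
`S37.FunctionFieldMaps.sum_fiberAlong_ord`): the orders of `f` at the places over `v` add up to
the order at `v` of the norm of `f`. -/
def NormOrd (φ : F' →ₐ[K] F) (hφ : φ.toRingHom.IsIntegral) : Prop :=
  ∀ (v : Place K F') (f : F), f ≠ 0 →
    ∑ P ∈ Place.fiberAlong φ hφ v, P.ord f = v.ord (normAlong φ f)

/-- The order at `Q` of `φ (N_ψ y)`: ramification index of `Q` along `φ` times the sum of the
orders of `y` over the places `P` with `P ∘ ψ = Q ∘ φ`. -/
theorem ord_map_norm (φ ψ : F' →ₐ[K] F) (hφ : φ.toRingHom.IsIntegral)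
    (hψ : ψ.toRingHom.IsIntegral) (hN : NormOrd ψ hψ) (Q : Place K F) {y : F} (hy : y ≠ 0) :
    Q.ord (φ (normAlong ψ y)) =
      (Place.ramificationIndexAlong φ Q : ℤ) *
        ∑ P ∈ Place.fiberAlong ψ hψ (Q.restrictAlong φ hφ), P.ord y := by
  rw [Place.ord_restrictAlong φ hφ Q, hN _ y hy]

omit [HasPrincipalDivisors K F] in
/-- `ord_Q (w y) = ord_{w⁻¹ Q} y` for an automorphism `w` of `F / K`. -/
theorem ord_algEquiv (w : F ≃ₐ[K] F) (Q : Place K F) (y : F) :
    Q.ord (w y) = (w⁻¹ • Q).ord y := by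
  have h := Place.ord_smul w (w⁻¹ • Q) y
  rwa [smul_inv_smul] at h

variable (g : SemilinearAut K F) (w : F ≃ₐ[K] F) (α β : F' →ₐ[K] F) (q : ℕ)
  (hα : α.toRingHom.IsIntegral) (hβ : β.toRingHom.IsIntegral)

/-- **The order of `esBar y` at a place `Q`.** -/
theorem ord_esBar (hNα : NormOrd α hα) (hNβ : NormOrd β hβ) (Q : Place K F) {y : F}
    (hy : y ≠ 0) :
    Q.ord (esBar g w α β q y) =
      (g⁻¹ • Q).ord y + (q : ℤ) * (g • Q).ord y + ((q : ℤ) + 1) * (w⁻¹ • Q).ord y
        - (Place.ramificationIndexAlong α Q : ℤ) *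
            ∑ P ∈ Place.fiberAlong β hβ (Q.restrictAlong α hα), P.ord y
        - (Place.ramificationIndexAlong β Q : ℤ) *
            ∑ P ∈ Place.fiberAlong α hα (Q.restrictAlong β hβ), P.ord y := by
  have h1 : g • y ≠ 0 := (smul_ne_zero_iff_ne g).mpr hy
  have h2 : g⁻¹ • y ≠ 0 := (smul_ne_zero_iff_ne g⁻¹).mpr hy
  have h3 : w y ≠ 0 := (map_ne_zero w).mpr hy
  have h4 : α (normAlong β y) ≠ 0 := (map_ne_zero α).mpr (normAlong_ne_zero β hy)
  have h5 : β (normAlong α y) ≠ 0 := (map_ne_zero β).mpr (normAlong_ne_zero α hy)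
  have h2q : (g⁻¹ • y) ^ q ≠ 0 := pow_ne_zero q h2
  have h3q : (w y) ^ (q + 1) ≠ 0 := pow_ne_zero _ h3
  unfold esBar
  rw [div_eq_mul_inv, Q.ord_mul (mul_ne_zero (mul_ne_zero h1 h2q) h3q)
      (inv_ne_zero (mul_ne_zero h4 h5)),
    Q.ord_mul (mul_ne_zero h1 h2q) h3q, Q.ord_mul h1 h2q, Place.ord_inv, Q.ord_mul h4 h5,
    ← zpow_natCast (g⁻¹ • y) q, Place.ord_zpow, ← zpow_natCast (w y) (q + 1), Place.ord_zpow,
    ord_smul_left, ord_inv_smul_left, ord_algEquiv,
    ord_map_norm α β hα hβ hNβ Q hy, ord_map_norm β α hβ hα hNα Q hy]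
  push_cast
  ring

/-- **No horizontal divisor.**  If `y` has order `0` at every place of a class `C₀` which
contains `g⁻¹ • Q`, `g • Q`, `w⁻¹ • Q` and the places of the two correspondence fibres of `Q`,
then `esBar y` has order `0` at `Q`. -/
theorem ord_esBar_eq_zero (hNα : NormOrd α hα) (hNβ : NormOrd β hβ) (C₀ : Place K F → Prop)
    (Q : Place K F) (hg : C₀ (g⁻¹ • Q)) (hg' : C₀ (g • Q)) (hw : C₀ (w⁻¹ • Q))
    (hfα : ∀ P : Place K F, P.restrictAlong β hβ = Q.restrictAlong α hα → C₀ P)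
    (hfβ : ∀ P : Place K F, P.restrictAlong α hα = Q.restrictAlong β hβ → C₀ P)
    {y : F} (hy : y ≠ 0) (hy₀ : ∀ P : Place K F, C₀ P → P.ord y = 0) :
    Q.ord (esBar g w α β q y) = 0 := by
  rw [ord_esBar g w α β q hα hβ hNα hNβ Q hy, hy₀ _ hg, hy₀ _ hg', hy₀ _ hw,
    Finset.sum_eq_zero (fun P hP => hy₀ P (hfα P (Place.mem_fiberAlong.mp hP))),
    Finset.sum_eq_zero (fun P hP => hy₀ P (hfβ P (Place.mem_fiberAlong.mp hP)))]
  ring

/-- **Same horizontal divisor.**  If `y₁`, `y₂` have the same orders on the class `C₀`, then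
`esBar y₁` and `esBar y₂` have the same order at `Q`. -/
theorem ord_esBar_eq_of_eq (hNα : NormOrd α hα) (hNβ : NormOrd β hβ) (C₀ : Place K F → Prop)
    (Q : Place K F) (hg : C₀ (g⁻¹ • Q)) (hg' : C₀ (g • Q)) (hw : C₀ (w⁻¹ • Q))
    (hfα : ∀ P : Place K F, P.restrictAlong β hβ = Q.restrictAlong α hα → C₀ P)
    (hfβ : ∀ P : Place K F, P.restrictAlong α hα = Q.restrictAlong β hβ → C₀ P)
    {y₁ y₂ : F} (hy₁ : y₁ ≠ 0) (hy₂ : y₂ ≠ 0)
    (h : ∀ P : Place K F, C₀ P → P.ord y₁ = P.ord y₂) :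
    Q.ord (esBar g w α β q y₁) = Q.ord (esBar g w α β q y₂) := by
  have h0 : ∀ P : Place K F, C₀ P → P.ord (y₁ / y₂) = 0 := by
    intro P hP
    rw [div_eq_mul_inv, P.ord_mul hy₁ (inv_ne_zero hy₂), Place.ord_inv, h P hP, add_neg_cancel]
  have h1 := ord_esBar_eq_zero g w α β q hα hβ hNα hNβ C₀ Q hg hg' hw hfα hfβ
    (div_ne_zero hy₁ hy₂) h0
  rw [esBar_div g w α β q y₁ hy₂, div_eq_mul_inv,
    Q.ord_mul (esBar_ne_zero g w α β q hy₁) (inv_ne_zero (esBar_ne_zero g w α β q hy₂)),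
    Place.ord_inv] at h1
  linarith

end Ord

end Fermat.Agent.S35.EsOrd
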