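/-
S35 (wave 7), interface file between the geometry and the forms/Galois side.

* `pushAlpha N q`, `pushBeta N q : JZero (N * q) →+ JZero N` : the push-forward maps `α_*`, `β_*`
  on `Pic⁰` along the two degeneracy maps `α` (inclusion of function fields) and `β` (`q ↦ q ^ ℓ`)
  of the Prelude (`heckeAlphaBar`, `heckeBetaBar` over `ℚ̄`), with their formulas on divisor
  classes and their equivariance for the action of `Gal(ℚ̄/ℚ)`.

* `FrobRel N q p R` : the polynomial `R ∈ ℤ[X]` in a Frobenius lift `σ` at `q` kills the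
  `p`-power torsion of the `q`-new part `ker α_* ∩ ker β_*` of `J₀(N q)(ℚ̄)`.  The geometric
  target of S35 is `∃ R k, R ∣ ((X² - 1)(X² - q²)) ^ k ∧ FrobRel N q p R`.
-/
import Mathlib
import Fermat.Agent.S37.HeckeInputs
import Fermat.Agent.S29.GalHeckeComm

set_option autoImplicit false
set_option linter.unusedSectionVars false

open Polynomial

namespace Fermat.Agent.S35.Push

open AlgebraicCurve ModularCurve Fermat.Agent.S37 Fermat.Agent.S29.CorrEquiv

local notation "Qb" => AlgebraicClosure ℚ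
local notation "GQ" => (AlgebraicClosure ℚ) ≃ₐ[ℚ] (AlgebraicClosure ℚ)

/-! ### push-forward on `Pic⁰` along an algebra homomorphism (generic) -/

section Generic

variable {K F F' : Type*} [Field K] [Field F] [Field F'] [Algebra K F] [Algebra K F']
variable [HasPrincipalDivisors K F] [HasPrincipalDivisors K F']
variable (φ : F →ₐ[K] F') (hφ : φ.toRingHom.IsIntegral)
variable (hfin : FiniteAlong K φ) (hN : NormFormulaAlong K φ hfin)

/-- push-forward of degree-zero divisors -/
noncomputable def degZeroPush :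
    Divisor.degZero (K := K) (F := F') →+ Divisor.degZero (K := K) (F := F) :=
  ((Divisor.pushforwardAlong φ hφ).domRestrict
    (Divisor.degZero (K := K) (F := F'))).codRestrict _
    (fun D => Divisor.pushforwardAlong_mem_degZero φ hφ D.2)

theorem coe_degZeroPush (D : Divisor.degZero (K := K) (F := F')) :
    (degZeroPush φ hφ D : Divisor K F) = Divisor.pushforwardAlong φ hφ (D : Divisor K F') :=
  rfl

/-- push-forward on `Pic⁰` -/
noncomputable def pic0Push : Pic0 K F' →+ Pic0 K F :=
  QuotientAddGroup.map _ _ (degZeroPush φ hφ) (by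
    rintro ⟨D, hD0⟩ hD
    simp only [AddSubgroup.mem_addSubgroupOf] at hD ⊢
    exact Divisor.isPrincipal_pushforwardAlong φ hφ hfin hN hD)

theorem pic0Push_mk (D : Divisor.degZero (K := K) (F := F')) :
    pic0Push φ hφ hfin hN (Pic0.mk D) = Pic0.mk (degZeroPush φ hφ D) :=
  rfl

omit [HasPrincipalDivisors K F'] in
/-- the class of a degree-zero divisor is zero iff the divisor is principal -/
theorem mk_eq_zero_iff (D : Divisor.degZero (K := K) (F := F)) :
    Pic0.mk D = 0 ↔ (D : Divisor K F).IsPrincipal :=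
  (QuotientAddGroup.eq_zero_iff D).trans AddSubgroup.mem_addSubgroupOf

/-- the push-forward on `Pic⁰` is equivariant for compatible semilinear automorphisms -/
theorem pic0Push_smul {g : SemilinearAut K F} {g' : SemilinearAut K F'}
    (h : CompatAlong φ g g') (x : Pic0 K F') :
    pic0Push φ hφ hfin hN (g' • x) = g • pic0Push φ hφ hfin hN x := by
  obtain ⟨D, rfl⟩ := Pic0.mk_surjective x
  rw [SemilinearAut.pic0_smul_mk, pic0Push_mk, pic0Push_mk, SemilinearAut.pic0_smul_mk]
  refine congrArg Pic0.mk (Subtype.ext ?_)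
  rw [coe_degZeroPush, SemilinearAut.coe_degZeroSMulHom, SemilinearAut.coe_degZeroSMulHom,
    coe_degZeroPush]
  exact pushforwardAlong_smul φ hφ h (D : Divisor K F')

end Generic

/-! ### the two degeneracy push-forwards `J₀(N q) → J₀(N)` -/

section Level

variable (N q : ℕ) [NeZero N] [NeZero q]

/-- `α_* : J₀(N q) → J₀(N)`, push-forward along the inclusion of function fields -/
noncomputable def pushAlpha : JZero (N * q) →+ JZero N :=
  pic0Push (heckeAlphaBar Qb N q) (HeckeInputs.alphaIntegral N q) (HeckeInputs.alphaFinite N q)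
    (HeckeInputs.alphaNormFormula N q)

/-- `β_* : J₀(N q) → J₀(N)`, push-forward along `q ↦ q ^ ℓ` -/
noncomputable def pushBeta : JZero (N * q) →+ JZero N :=
  pic0Push (heckeBetaBar Qb N q) (HeckeInputs.betaIntegral N q) (HeckeInputs.betaFinite N q)
    (HeckeInputs.betaNormFormula N q)

theorem pushAlpha_mk (D : Divisor.degZero (K := Qb) (F := modularFunctionFieldBar (N * q))) :
    pushAlpha N q (Pic0.mk D) =
      Pic0.mk (degZeroPush (heckeAlphaBar Qb N q) (HeckeInputs.alphaIntegral N q) D) :=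
  rfl

theorem pushBeta_mk (D : Divisor.degZero (K := Qb) (F := modularFunctionFieldBar (N * q))) :
    pushBeta N q (Pic0.mk D) =
      Pic0.mk (degZeroPush (heckeBetaBar Qb N q) (HeckeInputs.betaIntegral N q) D) :=
  rfl

/-- `α_*` of the class of a degree-zero divisor is zero iff the push-forward divisor is
principal -/
theorem pushAlpha_mk_eq_zero_iff
    (D : Divisor.degZero (K := Qb) (F := modularFunctionFieldBar (N * q))) :
    pushAlpha N q (Pic0.mk D) = 0 ↔
      (Divisor.pushforwardAlong (heckeAlphaBar Qb N q) (HeckeInputs.alphaIntegral N q)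
        (D : Divisor Qb (modularFunctionFieldBar (N * q)))).IsPrincipal := by
  rw [pushAlpha_mk, mk_eq_zero_iff]
  rfl

/-- `β_*` of the class of a degree-zero divisor is zero iff the push-forward divisor is
principal -/
theorem pushBeta_mk_eq_zero_iff
    (D : Divisor.degZero (K := Qb) (F := modularFunctionFieldBar (N * q))) :
    pushBeta N q (Pic0.mk D) = 0 ↔
      (Divisor.pushforwardAlong (heckeBetaBar Qb N q) (HeckeInputs.betaIntegral N q)
        (D : Divisor Qb (modularFunctionFieldBar (N * q)))).IsPrincipal := by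
  rw [pushBeta_mk, mk_eq_zero_iff]
  rfl

/-- `α_*` commutes with the action of `Gal(ℚ̄/ℚ)` -/
theorem pushAlpha_smul (σ : GQ) (x : JZero (N * q)) :
    pushAlpha N q (σ • x) = σ • pushAlpha N q x := by
  rw [galois_smul_pic0_def, galois_smul_pic0_def]
  exact pic0Push_smul _ _ _ _ (Fermat.Agent.S29.GalHeckeComm.compatAlong_alpha N q σ) x

/-- `β_*` commutes with the action of `Gal(ℚ̄/ℚ)` -/
theorem pushBeta_smul (σ : GQ) (x : JZero (N * q)) :
    pushBeta N q (σ • x) = σ • pushBeta N q x := by
  rw [galois_smul_pic0_def, galois_smul_pic0_def]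
  exact pic0Push_smul _ _ _ _ (Fermat.Agent.S29.GalHeckeComm.compatAlong_beta N q σ) x

end Level

/-! ### polynomials in a Galois element acting on a Galois module -/

section FrobPoly

variable (X : Type*) [AddCommGroup X] [DistribMulAction GQ X]

/-- `R(σ)` as an additive endomorphism of a Galois module, for `R ∈ ℤ[X]`. -/
noncomputable def frobPoly (σ : GQ) (R : ℤ[X]) : AddMonoid.End X :=
  aeval (DistribMulAction.toAddMonoidEnd GQ X σ) R

variable {X}

theorem frobPoly_X (σ : GQ) (x : X) : frobPoly X σ Polynomial.X x = σ • x := by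
  unfold frobPoly
  rw [aeval_X]
  rfl

theorem frobPoly_C (σ : GQ) (c : ℤ) (x : X) : frobPoly X σ (C c) x = c • x := by
  unfold frobPoly
  rw [aeval_C, eq_intCast, AddMonoid.End.intCast_apply]

theorem frobPoly_one (σ : GQ) (x : X) : frobPoly X σ 1 x = x := by
  unfold frobPoly
  rw [map_one]
  rfl

theorem frobPoly_zero (σ : GQ) (x : X) : frobPoly X σ 0 x = 0 := by
  unfold frobPoly
  rw [map_zero]
  rfl

theorem frobPoly_add (σ : GQ) (R R' : ℤ[X]) (x : X) :
    frobPoly X σ (R + R') x = frobPoly X σ R x + frobPoly X σ R' x := by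
  unfold frobPoly
  rw [map_add]
  rfl

theorem frobPoly_sub (σ : GQ) (R R' : ℤ[X]) (x : X) :
    frobPoly X σ (R - R') x = frobPoly X σ R x - frobPoly X σ R' x := by
  unfold frobPoly
  rw [map_sub]
  rfl

theorem frobPoly_neg (σ : GQ) (R : ℤ[X]) (x : X) :
    frobPoly X σ (-R) x = -frobPoly X σ R x := by
  unfold frobPoly
  rw [map_neg]
  rfl

theorem frobPoly_mul (σ : GQ) (R R' : ℤ[X]) (x : X) :
    frobPoly X σ (R * R') x = frobPoly X σ R (frobPoly X σ R' x) := by
  unfold frobPoly
  rw [map_mul]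
  rfl

theorem frobPoly_X_pow (σ : GQ) (k : ℕ) (x : X) :
    frobPoly X σ (Polynomial.X ^ k) x = σ ^ k • x := by
  induction k generalizing x with
  | zero => rw [pow_zero, pow_zero, frobPoly_one, one_smul]
  | succ k ih => rw [pow_succ, frobPoly_mul, frobPoly_X, ih, pow_succ, mul_smul]

/-- `R(σ)` commutes with every equivariant additive map. -/
theorem frobPoly_map {Y : Type*} [AddCommGroup Y] [DistribMulAction GQ Y] (f : X →+ Y)
    (σ : GQ) (hf : ∀ x : X, f (σ • x) = σ • f x) (R : ℤ[X]) (x : X) :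
    f (frobPoly X σ R x) = frobPoly Y σ R (f x) := by
  induction R using Polynomial.induction_on generalizing x with
  | C a => rw [frobPoly_C, frobPoly_C, map_zsmul]
  | add F G hF hG => rw [frobPoly_add, frobPoly_add, map_add, hF, hG]
  | monomial n a ih =>
    rw [pow_succ, ← mul_assoc, frobPoly_mul (R := C a * Polynomial.X ^ n),
      frobPoly_mul (R := C a * Polynomial.X ^ n), frobPoly_X, frobPoly_X, ih, hf]

/-- if `R(σ) x = 0` then `R'(σ) x = 0` for every multiple `R'` of `R` -/
theorem frobPoly_eq_zero_of_dvd (σ : GQ) {R R' : ℤ[X]} (hd : R ∣ R') {x : X}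
    (h : frobPoly X σ R x = 0) : frobPoly X σ R' x = 0 := by
  obtain ⟨Q, rfl⟩ := hd
  rw [mul_comm, frobPoly_mul, h, map_zero]

end FrobPoly

/-! ### the geometric contract of S35 -/

/-- **The bad-prime Eichler–Shimura relation on the `q`-new part**: the polynomial `R` in any
Frobenius lift `σ` at `q` kills the `p`-power torsion of `ker α_* ∩ ker β_* ⊆ J₀(N q)(ℚ̄)`. -/
def FrobRel (N q p : ℕ) [NeZero N] [NeZero q] (R : ℤ[X]) : Prop :=
  ∀ A : ValuationSubring Qb, A.LiesOverPrime q → ∀ σ : GQ, A.IsFrobeniusAt σ q →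
    ∀ (n : ℕ) (x : JZero (N * q)), p ^ n • x = 0 → pushAlpha N q x = 0 → pushBeta N q x = 0 →
      frobPoly (JZero (N * q)) σ R x = 0

/-- A multiple of a polynomial satisfying `FrobRel` satisfies it. -/
theorem FrobRel.of_dvd {N q p : ℕ} [NeZero N] [NeZero q] {R R' : ℤ[X]} (h : FrobRel N q p R)
    (hd : R ∣ R') : FrobRel N q p R' := fun A hA σ hσ n x hx ha hb =>
  frobPoly_eq_zero_of_dvd σ hd (h A hA σ hσ n x hx ha hb)

/-- `FrobRel` for `(X² - 1)(X² - q²)` in explicit form:
`σ⁴x - (q² + 1) σ²x + q² x = 0` on the `p`-power torsion of the `q`-new part. -/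
theorem frobRel_of_explicit {N q p : ℕ} [NeZero N] [NeZero q]
    (h : ∀ A : ValuationSubring Qb, A.LiesOverPrime q → ∀ σ : GQ, A.IsFrobeniusAt σ q →
      ∀ (n : ℕ) (x : JZero (N * q)), p ^ n • x = 0 → pushAlpha N q x = 0 → pushBeta N q x = 0 →
        σ ^ 4 • x - ((q : ℤ) ^ 2 + 1) • σ ^ 2 • x + ((q : ℤ) ^ 2) • x = 0) :
    FrobRel N q p ((Polynomial.X ^ 2 - 1) * (Polynomial.X ^ 2 - C ((q : ℤ) ^ 2))) := by
  intro A hA σ hσ n x hx ha hb
  have e : (Polynomial.X ^ 2 - 1) * (Polynomial.X ^ 2 - C ((q : ℤ) ^ 2)) =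
      Polynomial.X ^ 4 - C ((q : ℤ) ^ 2 + 1) * Polynomial.X ^ 2 + C ((q : ℤ) ^ 2) := by
    rw [C_add, C_1]
    ring
  rw [e, frobPoly_add, frobPoly_sub, frobPoly_mul, frobPoly_C, frobPoly_C, frobPoly_X_pow,
    frobPoly_X_pow]
  exact h A hA σ hσ n x hx ha hb

end Fermat.Agent.S35.Push
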