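/-
S35 (wave 7), Route C, package (C6b) "EsFinal", top part (findings 230, section 3, last step):
from the `w`-free function identity over `ℚ̄` to the contract `Push.FrobRel`.

Notation: `g` a semilinear automorphism of a function field `F / K`, `q : ℕ`,

* `Eb g q y = g y * (g⁻¹ y) ^ q`             (the function form of `Θ = g + q g⁻¹`),
* `ddf τ f = τ (τ f) * f / (τ f) ^ 2`        (the function form of `(τ - 1)²`),
* `thD g q D = g • D + q • g⁻¹ • D`          (`Θ` on divisors).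

* `es_mem_principal_of_eq` : if `div f = m • D` (`m ≠ 0`) and
  `Eb (Eb (ddf (g * g) f)) = c * H ^ m * (ddf (g * g) f) ^ ((q + 1) ^ 2)` with `c` a nonzero
  constant, then `Θ (Θ E) - (q + 1)² E` is principal, `E = (g² - 1)² D`.
* `class_rel` : the same relation for classes in `Pic⁰`.
* `FunEE N q p` : the `w`-free function identity over `ℚ̄` for every Frobenius lift `σ` at `q` and
  every `f` with `div f = p ^ n • D`, `α_* D` and `β_* D` principal.
* `frobRel_of_funEE` : `FunEE N q p → Push.FrobRel N q p ((X² - 1)³ (X² - q²))`.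
-/
import Mathlib
import Fermat.Agent.S35.Push
import Fermat.Agent.S34.GPush

set_option autoImplicit false

noncomputable section

namespace Fermat.Agent.S35.EsTop

open Polynomial
open ModularCurve AlgebraicCurve Fermat.Agent.S37
open Fermat.Agent.S34.GTop Fermat.Agent.S34

local notation "Qb" => AlgebraicClosure ℚ
local notation "GQ" => (AlgebraicClosure ℚ) ≃ₐ[ℚ] (AlgebraicClosure ℚ)

section General

variable {K F : Type*} [Field K] [Field F] [Algebra K F]

/-- `E^(y) = g y * (g⁻¹ y) ^ q`, the function form of `Θ = g + q g⁻¹`. -/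
def Eb (g : SemilinearAut K F) (q : ℕ) (y : F) : F := g • y * (g⁻¹ • y) ^ q

/-- `ddf τ f = τ (τ f) * f / (τ f) ^ 2`, the function form of `(τ - 1)²`. -/
def ddf (g : SemilinearAut K F) (f : F) : F := g • g • f * f / (g • f) ^ 2

/-- `Θ = g + q g⁻¹` on divisors. -/
def thD (g : SemilinearAut K F) (q : ℕ) (D : Divisor K F) : Divisor K F := g • D + q • (g⁻¹ • D)

theorem smul_ne_zero_of_ne (g : SemilinearAut K F) {y : F} (hy : y ≠ 0) : g • y ≠ 0 := by
  intro h0
  have h1 : g⁻¹ • g • y = g⁻¹ • (0 : F) := congrArg (g⁻¹ • ·) h0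
  rw [inv_smul_smul, smul_zero] at h1
  exact hy h1

theorem Eb_ne_zero (g : SemilinearAut K F) (q : ℕ) {y : F} (hy : y ≠ 0) : Eb g q y ≠ 0 :=
  mul_ne_zero (smul_ne_zero_of_ne g hy) (pow_ne_zero q (smul_ne_zero_of_ne g⁻¹ hy))

theorem ddf_ne_zero (g : SemilinearAut K F) {f : F} (hf : f ≠ 0) : ddf g f ≠ 0 :=
  div_ne_zero (mul_ne_zero (smul_ne_zero_of_ne g (smul_ne_zero_of_ne g hf)) hf)
    (pow_ne_zero 2 (smul_ne_zero_of_ne g hf))

theorem thD_apply (g : SemilinearAut K F) (q : ℕ) (D : Divisor K F) (P : Place K F) :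
    thD g q D P = D (g⁻¹ • P) + (q : ℤ) * D (g • P) := by
  unfold thD
  rw [Finsupp.add_apply, Finsupp.smul_apply, SemilinearAut.divisor_smul_apply,
    SemilinearAut.divisor_smul_apply, inv_inv, nsmul_eq_mul]

/-- `div (E^ y) = Θ (div y)`. -/
theorem ord_Eb (g : SemilinearAut K F) (q : ℕ) (P : Place K F) {y : F} (hy : y ≠ 0) :
    P.ord (Eb g q y) = (g⁻¹ • P).ord y + (q : ℤ) * (g • P).ord y := by
  unfold Eb
  rw [P.ord_mul (smul_ne_zero_of_ne g hy) (pow_ne_zero q (smul_ne_zero_of_ne g⁻¹ hy)),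
    ← zpow_natCast (g⁻¹ • y) q, P.ord_zpow, GPush.ord_smul_eq_inv, GPush.ord_smul_eq_inv, inv_inv]

/-- `div (E^ y) = m • Θ E` if `div y = m • E`. -/
theorem ord_Eb_of (g : SemilinearAut K F) (q : ℕ) {y : F} (hy : y ≠ 0) (m : ℤ) (E : Divisor K F)
    (hE : ∀ P : Place K F, P.ord y = m * E P) (P : Place K F) :
    P.ord (Eb g q y) = m * thD g q E P := by
  rw [ord_Eb g q P hy, hE, hE, thD_apply]
  ring

/-- `div (ddf τ f) = m • (τ - 1)² D` if `div f = m • D`. -/
theorem ord_ddf_of (g : SemilinearAut K F) {f : F} (hf : f ≠ 0) (m : ℤ) (D : Divisor K F)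
    (hD : ∀ P : Place K F, P.ord f = m * D P) (P : Place K F) :
    P.ord (ddf g f) = m * dd g D P := by
  have hgf : g • f ≠ 0 := smul_ne_zero_of_ne g hf
  have hggf : g • g • f ≠ 0 := smul_ne_zero_of_ne g hgf
  unfold ddf
  rw [div_eq_mul_inv, P.ord_mul (mul_ne_zero hggf hf) (inv_ne_zero (pow_ne_zero 2 hgf)),
    P.ord_mul hggf hf, P.ord_inv, ← zpow_natCast (g • f) 2, P.ord_zpow, GPush.ord_smul_eq_inv,
    GPush.ord_smul_eq_inv, GPush.ord_smul_eq_inv, hD, hD, hD, GRat.dd_apply]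
  push_cast
  ring

/-- **Divisor form of the `w`-free Eichler–Shimura identity.**  If `div f = m • D` (`m ≠ 0`) and
`E^(E^(f₂)) = c * H ^ m * f₂ ^ ((q + 1) ^ 2)` for `f₂ = ddf (g * g) f`, `c` a nonzero constant,
then `Θ (Θ E) - (q + 1)² E = div H` for `E = (g² - 1)² D`. -/
theorem es_mem_principal_of_eq (g : SemilinearAut K F) (q : ℕ) (D : Divisor K F) (f : F)
    (hf : f ≠ 0) (m : ℕ) (hm : m ≠ 0) (hD : ∀ P : Place K F, P.ord f = (m : ℤ) * D P)
    (c : K) (H : F) (hc : ∀ P : Place K F, P.ord (algebraMap K F c) = 0) (hc0 : c ≠ 0)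
    (hH : Eb g q (Eb g q (ddf (g * g) f)) =
      algebraMap K F c * H ^ m * ddf (g * g) f ^ ((q + 1) ^ 2)) :
    thD g q (thD g q (dd (g * g) D)) - ((q + 1) ^ 2) • dd (g * g) D
      ∈ Divisor.principal (K := K) (F := F) := by
  have hf2 : ddf (g * g) f ≠ 0 := ddf_ne_zero (g * g) hf
  have hE1 : Eb g q (ddf (g * g) f) ≠ 0 := Eb_ne_zero g q hf2
  have hE2 : Eb g q (Eb g q (ddf (g * g) f)) ≠ 0 := Eb_ne_zero g q hE1
  have hcF : algebraMap K F c ≠ 0 := by
    rw [Ne, map_eq_zero_iff _ (algebraMap K F).injective]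
    exact hc0
  have hH0 : H ≠ 0 := by
    rintro rfl
    rw [zero_pow hm, mul_zero, zero_mul] at hH
    exact hE2 hH
  refine ⟨H, hH0, fun P => ?_⟩
  have h1 := congrArg P.ord hH
  rw [ord_Eb_of g q hE1 (m : ℤ) (thD g q (dd (g * g) D))
      (ord_Eb_of g q hf2 (m : ℤ) (dd (g * g) D) (ord_ddf_of (g * g) hf (m : ℤ) D hD)) P,
    P.ord_mul (mul_ne_zero hcF (pow_ne_zero m hH0)) (pow_ne_zero _ hf2),
    P.ord_mul hcF (pow_ne_zero m hH0), hc P, zero_add, ← zpow_natCast H m, P.ord_zpow,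
    ← zpow_natCast (ddf (g * g) f) ((q + 1) ^ 2), P.ord_zpow,
    ord_ddf_of (g * g) hf (m : ℤ) D hD P] at h1
  rw [Finsupp.sub_apply, Finsupp.smul_apply, nsmul_eq_mul]
  have hm' : (m : ℤ) ≠ 0 := by exact_mod_cast hm
  apply mul_left_cancel₀ hm'
  push_cast at h1 ⊢
  linear_combination h1

/-- **Class form**: the relation `Θ (Θ y) = (q + 1)² y` in `Pic⁰` for `y = (g² - 1)² x`,
`x` the class of `D`, from its divisor form. -/
theorem class_rel (g : SemilinearAut K F) (q : ℕ) (D : Divisor.degZero (K := K) (F := F))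
    (h : thD g q (thD g q (dd (g * g) (D : Divisor K F))) -
      ((q + 1) ^ 2) • dd (g * g) (D : Divisor K F) ∈ Divisor.principal (K := K) (F := F)) :
    g • (g • ((g * g) • (g * g) • Pic0.mk D - 2 • (g * g) • Pic0.mk D + Pic0.mk D) +
          q • g⁻¹ • ((g * g) • (g * g) • Pic0.mk D - 2 • (g * g) • Pic0.mk D + Pic0.mk D)) +
        q • g⁻¹ • (g • ((g * g) • (g * g) • Pic0.mk D - 2 • (g * g) • Pic0.mk D + Pic0.mk D) +
          q • g⁻¹ • ((g * g) • (g * g) • Pic0.mk D - 2 • (g * g) • Pic0.mk D + Pic0.mk D)) =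
      ((q + 1) ^ 2) • ((g * g) • (g * g) • Pic0.mk D - 2 • (g * g) • Pic0.mk D + Pic0.mk D) := by
  -- the divisors of degree zero representing the classes
  set E : Divisor.degZero (K := K) (F := F) :=
    SemilinearAut.degZeroSMulHom (g * g) (SemilinearAut.degZeroSMulHom (g * g) D) -
      2 • SemilinearAut.degZeroSMulHom (g * g) D + D with hE
  set T : Divisor.degZero (K := K) (F := F) :=
    SemilinearAut.degZeroSMulHom g E + q • SemilinearAut.degZeroSMulHom g⁻¹ E with hT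
  set Z : Divisor.degZero (K := K) (F := F) :=
    SemilinearAut.degZeroSMulHom g T + q • SemilinearAut.degZeroSMulHom g⁻¹ T -
      ((q + 1) ^ 2) • E with hZ
  have hy : (g * g) • (g * g) • Pic0.mk D - 2 • (g * g) • Pic0.mk D + Pic0.mk D = Pic0.mk E := by
    rw [SemilinearAut.pic0_smul_mk, SemilinearAut.pic0_smul_mk]
    rfl
  rw [hy]
  have hT' : g • Pic0.mk E + q • g⁻¹ • Pic0.mk E = Pic0.mk T := by
    rw [SemilinearAut.pic0_smul_mk, SemilinearAut.pic0_smul_mk]
    rfl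
  rw [hT']
  have hZ' : g • Pic0.mk T + q • g⁻¹ • Pic0.mk T - ((q + 1) ^ 2) • Pic0.mk E = Pic0.mk Z := by
    rw [SemilinearAut.pic0_smul_mk, SemilinearAut.pic0_smul_mk]
    rfl
  rw [← sub_eq_zero, hZ']
  refine (QuotientAddGroup.eq_zero_iff _).mpr (AddSubgroup.mem_addSubgroupOf.mpr ?_)
  have hEc : (E : Divisor K F) = dd (g * g) (D : Divisor K F) := by
    rw [hE, AddMemClass.coe_add, AddSubgroupClass.coe_sub, AddSubgroupClass.coe_nsmul,
      SemilinearAut.coe_degZeroSMulHom, SemilinearAut.coe_degZeroSMulHom]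
    rfl
  have hTc : (T : Divisor K F) = thD g q (dd (g * g) (D : Divisor K F)) := by
    rw [hT, AddMemClass.coe_add, AddSubgroupClass.coe_nsmul,
      SemilinearAut.coe_degZeroSMulHom, SemilinearAut.coe_degZeroSMulHom, hEc]
    rfl
  have hZc : (Z : Divisor K F) = thD g q (thD g q (dd (g * g) (D : Divisor K F))) -
      ((q + 1) ^ 2) • dd (g * g) (D : Divisor K F) := by
    rw [hZ, AddSubgroupClass.coe_sub, AddMemClass.coe_add, AddSubgroupClass.coe_nsmul,
      AddSubgroupClass.coe_nsmul, SemilinearAut.coe_degZeroSMulHom,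
      SemilinearAut.coe_degZeroSMulHom, hTc, hEc]
    rfl
  rw [hZc]
  exact h

end General

/-! ### from the class relation to the polynomial relation -/

section Poly

variable {X : Type*} [AddCommGroup X] [DistribMulAction GQ X]

/-- `(σ² - 1)² x` in explicit form. -/
theorem frobPoly_sq (σ : GQ) (x : X) :
    Push.frobPoly X σ ((Polynomial.X ^ 2 - 1) ^ 2) x = σ • σ • σ • σ • x - 2 • σ • σ • x + x := by
  have e : ((Polynomial.X : ℤ[X]) ^ 2 - 1) ^ 2 =
      Polynomial.X ^ 4 - C (2 : ℤ) * Polynomial.X ^ 2 + 1 := by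
    rw [show (C (2 : ℤ) : ℤ[X]) = 2 from rfl]
    ring
  rw [e, Push.frobPoly_add, Push.frobPoly_sub, Push.frobPoly_mul, Push.frobPoly_C,
    Push.frobPoly_X_pow, Push.frobPoly_X_pow, Push.frobPoly_one]
  have h4 : σ ^ 4 • x = σ • σ • σ • σ • x := by
    rw [pow_succ, pow_succ, pow_succ, pow_one, mul_smul, mul_smul, mul_smul]
  have h2 : σ ^ 2 • x = σ • σ • x := by
    rw [pow_succ, pow_one, mul_smul]
  rw [h4, h2, ofNat_zsmul]

/-- **From `Θ² = (q + 1)²` on `y = (σ² - 1)² x` to `(σ² - 1)³ (σ² - q²) x = 0`.** -/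
theorem frobPoly_eq_zero_of_theta (σ : GQ) (q : ℕ) (x y : X)
    (hy : y = σ • σ • σ • σ • x - 2 • σ • σ • x + x)
    (h : σ • (σ • y + q • σ⁻¹ • y) + q • σ⁻¹ • (σ • y + q • σ⁻¹ • y) = ((q + 1) ^ 2) • y) :
    Push.frobPoly X σ ((Polynomial.X ^ 2 - 1) ^ 3 * (Polynomial.X ^ 2 - C ((q : ℤ) ^ 2))) x
      = 0 := by
  have e1 : ((Polynomial.X : ℤ[X]) ^ 2 - 1) ^ 3 * (Polynomial.X ^ 2 - C ((q : ℤ) ^ 2)) =
      (Polynomial.X ^ 4 - C ((q : ℤ) ^ 2 + 1) * Polynomial.X ^ 2 + C ((q : ℤ) ^ 2)) *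
        (Polynomial.X ^ 2 - 1) ^ 2 := by
    rw [C_add, C_1]
    ring
  rw [e1, Push.frobPoly_mul, frobPoly_sq, ← hy, Push.frobPoly_add, Push.frobPoly_sub,
    Push.frobPoly_mul, Push.frobPoly_C, Push.frobPoly_C, Push.frobPoly_X_pow, Push.frobPoly_X_pow]
  -- expand the hypothesis
  have h1 : σ • σ • y + ((q : ℤ) ^ 2) • σ⁻¹ • σ⁻¹ • y = ((q : ℤ) ^ 2 + 1) • y := by
    have h2 : σ • (σ • y + q • σ⁻¹ • y) + q • σ⁻¹ • (σ • y + q • σ⁻¹ • y) =
        σ • σ • y + ((q : ℤ) ^ 2) • σ⁻¹ • σ⁻¹ • y + (2 * (q : ℤ)) • y := by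
      rw [smul_add, smul_add, smul_comm σ q (σ⁻¹ • y), smul_inv_smul, inv_smul_smul,
        smul_comm σ⁻¹ q (σ⁻¹ • y), ← natCast_zsmul y q, ← natCast_zsmul (σ⁻¹ • σ⁻¹ • y) q,
        ← natCast_zsmul (y + _) q, smul_add, sq, mul_smul, two_mul, add_smul]
      abel
    rw [h2, ← natCast_zsmul y ((q + 1) ^ 2)] at h
    have h3 : (((q + 1) ^ 2 : ℕ) : ℤ) = ((q : ℤ) ^ 2 + 1) + 2 * (q : ℤ) := by
      push_cast
      ring
    rw [h3, add_smul] at h
    exact add_right_cancel h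
  have h4 : σ ^ 4 • y = σ • σ • σ • σ • y := by
    rw [pow_succ, pow_succ, pow_succ, pow_one, mul_smul, mul_smul, mul_smul]
  have h2 : σ ^ 2 • y = σ • σ • y := by
    rw [pow_succ, pow_one, mul_smul]
  rw [h4, h2]
  have h5 := congrArg (fun z => σ • σ • z) h1
  simp only [smul_add] at h5
  rw [smul_comm σ ((q : ℤ) ^ 2) (σ⁻¹ • σ⁻¹ • y), smul_comm σ ((q : ℤ) ^ 2) (σ • σ⁻¹ • σ⁻¹ • y),
    smul_inv_smul, smul_inv_smul, smul_comm σ ((q : ℤ) ^ 2 + 1) y,
    smul_comm σ ((q : ℤ) ^ 2 + 1) (σ • y)] at h5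
  rw [← h5]
  abel

end Poly

/-! ### the contract over `ℚ̄` and the top theorem -/

/-- **The `w`-free Eichler–Shimura function identity over `ℚ̄`** (Route C, after elimination of the
Atkin–Lehner involution on the `q`-new part): for a Frobenius lift `σ` at `q` with
`g := arithmeticGalois σ` on the function field of `X₀(N q)` over `ℚ̄`, and every `f ≠ 0` with
`div f = p ^ n • D`, `deg D = 0`, `α_* D` and `β_* D` principal, the function
`f₂ := ddf (g * g) f` satisfies `E^(E^(f₂)) = c * H ^ (p ^ n) * f₂ ^ ((q + 1) ^ 2)`. -/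
def FunEE (N q p : ℕ) [NeZero N] [NeZero q] : Prop :=
  ∀ A : ValuationSubring Qb, A.LiesOverPrime q → ∀ σ : GQ, A.IsFrobeniusAt σ q →
    ∀ (n : ℕ) (D : Divisor Qb (modularFunctionFieldBar (N * q)))
      (f : modularFunctionFieldBar (N * q)), f ≠ 0 →
      (∀ P : Place Qb (modularFunctionFieldBar (N * q)), P.ord f = (p : ℤ) ^ n * D P) →
      Divisor.degree D = 0 →
      (Divisor.pushforwardAlong (heckeAlphaBar Qb N q) (HeckeInputs.alphaIntegral N q)
        D).IsPrincipal →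
      (Divisor.pushforwardAlong (heckeBetaBar Qb N q) (HeckeInputs.betaIntegral N q)
        D).IsPrincipal →
      ∃ (c : Qb) (H : modularFunctionFieldBar (N * q)), c ≠ 0 ∧
        Eb (arithmeticGalois (modularFunctionFieldFull (N * q)) σ) q
            (Eb (arithmeticGalois (modularFunctionFieldFull (N * q)) σ) q
              (ddf (arithmeticGalois (modularFunctionFieldFull (N * q)) σ *
                arithmeticGalois (modularFunctionFieldFull (N * q)) σ) f)) =
          algebraMap Qb (modularFunctionFieldBar (N * q)) c * H ^ (p ^ n) *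
            ddf (arithmeticGalois (modularFunctionFieldFull (N * q)) σ *
              arithmeticGalois (modularFunctionFieldFull (N * q)) σ) f ^ ((q + 1) ^ 2)

/-- **(C6b), top: the function identity gives the bad-prime Eichler–Shimura relation
`(σ² - 1)³ (σ² - q²) = 0` on the `p`-power torsion of the `q`-new part.** -/
theorem frobRel_of_funEE {N q p : ℕ} [NeZero N] [NeZero q] (hp : p ≠ 0) (h : FunEE N q p) :
    Push.FrobRel N q p
      ((Polynomial.X ^ 2 - 1) ^ 3 * (Polynomial.X ^ 2 - C ((q : ℤ) ^ 2))) := by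
  intro A hA σ hσ n x hx ha hb
  obtain ⟨D, rfl⟩ := Pic0.mk_surjective x
  -- `p ^ n • D` is principal
  have h1 : Pic0.mk ((p ^ n) • D) = 0 := hx
  have h2 : ((p ^ n) • D : Divisor.degZero (K := Qb) (F := modularFunctionFieldBar (N * q))) ∈
      (Divisor.principal (K := Qb) (F := modularFunctionFieldBar (N * q))).addSubgroupOf
        (Divisor.degZero (K := Qb) (F := modularFunctionFieldBar (N * q))) :=
    (QuotientAddGroup.eq_zero_iff _).mp h1
  rw [AddSubgroup.mem_addSubgroupOf, AddSubgroupClass.coe_nsmul] at h2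
  obtain ⟨f, hf, hfD⟩ := h2
  have hfD' : ∀ P : Place Qb (modularFunctionFieldBar (N * q)),
      P.ord f = (p : ℤ) ^ n * (D : Divisor Qb (modularFunctionFieldBar (N * q))) P := by
    intro P
    rw [← hfD P, Finsupp.smul_apply, nsmul_eq_mul]
    push_cast
    rfl
  obtain ⟨c, H, hc, hH⟩ := h A hA σ hσ n (D : Divisor Qb (modularFunctionFieldBar (N * q))) f hf
    hfD' (Divisor.mem_degZero.mp D.2) ((Push.pushAlpha_mk_eq_zero_iff N q D).mp ha)
    ((Push.pushBeta_mk_eq_zero_iff N q D).mp hb)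
  have hfD'' : ∀ P : Place Qb (modularFunctionFieldBar (N * q)),
      P.ord f = ((p ^ n : ℕ) : ℤ) * (D : Divisor Qb (modularFunctionFieldBar (N * q))) P := by
    intro P
    rw [hfD' P]
    push_cast
    rfl
  have hpr := es_mem_principal_of_eq (arithmeticGalois (modularFunctionFieldFull (N * q)) σ) q
    (D : Divisor Qb (modularFunctionFieldBar (N * q))) f hf (p ^ n) (pow_ne_zero n hp) hfD'' c H
    (fun P => Fermat.Agent.S29.BCUnram.ord_const P c) hc hH
  have hcl := class_rel (arithmeticGalois (modularFunctionFieldFull (N * q)) σ) q D hpr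
  refine frobPoly_eq_zero_of_theta σ q (Pic0.mk D)
    (σ • σ • σ • σ • Pic0.mk D - 2 • σ • σ • Pic0.mk D + Pic0.mk D) rfl ?_
  have hinv : ∀ z : JZero (N * q),
      σ⁻¹ • z = (arithmeticGalois (modularFunctionFieldFull (N * q)) σ)⁻¹ • z := by
    intro z
    rw [galois_smul_pic0_def, map_inv]
  simp only [mul_smul] at hcl
  simp only [hinv, galois_smul_pic0_def]
  exact hcl

end Fermat.Agent.S35.EsTop
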