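import Mathlib
import Fermat.Agent.S35.Push
import Fermat.Agent.S35.EsOrd
import Fermat.Agent.S29.ConstOfOrd

/-!
# S35 (Route C, top): the norm data of a `q`-new torsion class

The `ℚ̄`-level input of the top of Route C (blueprint findings #230 §3).

* `exists_norm_eq_const_mul_pow` (generic): let `φ : F →ₐ[K] F'` be a finite map of function
  fields with the push-forward norm formula, `f ∈ F'` with `div f = m • D`, and `h ∈ F` with
  `div h = φ_* D`.  If functions of `F` with trivial divisor are constant, then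
  `N_φ f = c * h ^ m` for a constant `c ≠ 0`.
* `exists_norm_data`: for `x ∈ J₀(N q)(ℚ̄)` with `p ^ n • x = 0` and `α_* x = 0 = β_* x` there are
  a degree zero divisor `D` with `x = [D]`, a function `f` with `div f = p ^ n • D`, functions
  `hα`, `hβ` of level `N` with `div hα = α_* D`, `div hβ = β_* D` and constants `cα`, `cβ ≠ 0`
  such that `N_α f = cα * hα ^ (p ^ n)` and `N_β f = cβ * hβ ^ (p ^ n)`.
-/

set_option autoImplicit false
set_option linter.unusedVariables false
set_option linter.style.haveILetI false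

namespace Fermat.Agent.S35.NormData

open AlgebraicCurve ModularCurve Fermat.Agent.S37

section Generic

variable {K F F' : Type*} [Field K] [Field F] [Field F'] [Algebra K F] [Algebra K F']

/-- The norm of a function whose divisor is `m • D` is a constant times the `m`-th power of any
function whose divisor is the push-forward of `D`. -/
theorem exists_norm_eq_const_mul_pow (φ : F →ₐ[K] F') (hφ : φ.toRingHom.IsIntegral)
    (hfin : FiniteAlong K φ) (hN : NormFormulaAlong K φ hfin)
    (hconst : ∀ x : F, (∀ v : Place K F, v.ord x = 0) → ∃ c : K, x = algebraMap K F c)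
    (m : ℕ) (D : Divisor K F') (f : F') (hf : f ≠ 0)
    (hfD : ∀ P : Place K F', P.ord f = (m : ℤ) * D P)
    (h : F) (hh : h ≠ 0)
    (hhD : ∀ v : Place K F, v.ord h = Divisor.pushforwardAlong φ hφ D v) :
    ∃ c : K, c ≠ 0 ∧ EsOrd.normAlong φ f = algebraMap K F c * h ^ m := by
  have hnf : EsOrd.normAlong φ f ≠ 0 := EsOrd.normAlong_ne_zero φ hf
  have hhm : h ^ m ≠ 0 := pow_ne_zero m hh
  -- the order of the norm
  have hord : ∀ v : Place K F, v.ord (EsOrd.normAlong φ f) = (m : ℤ) * v.ord h := by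
    intro v
    rw [hhD v]
    letI := algebraAlong φ
    haveI := isScalarTower_along φ
    haveI := isIntegral_along φ hφ
    haveI : Module.Finite F F' := hfin
    have hN' : Divisor.PushforwardNormFormula K F F' := hN
    have h1 := hN' f hf (m • D) (fun w => by
      rw [Finsupp.smul_apply, hfD w, nsmul_eq_mul]) v
    have h2 : Divisor.pushforward F (m • D) v = (m : ℤ) * Divisor.pushforward F D v := by
      rw [map_nsmul, Finsupp.smul_apply, nsmul_eq_mul]
    rw [h2] at h1
    exact h1.symm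
  have h0 : ∀ v : Place K F, v.ord (EsOrd.normAlong φ f * (h ^ m)⁻¹) = 0 := by
    intro v
    rw [v.ord_mul hnf (inv_ne_zero hhm), v.ord_inv, ← zpow_natCast, v.ord_zpow, hord v]
    ring
  obtain ⟨c, hc⟩ := hconst _ h0
  have hc0 : c ≠ 0 := by
    rintro rfl
    rw [map_zero] at hc
    exact mul_ne_zero hnf (inv_ne_zero hhm) hc
  refine ⟨c, hc0, ?_⟩
  rw [← hc, mul_assoc, inv_mul_cancel₀ hhm, mul_one]

end Generic

section Level

local notation "Qb" => AlgebraicClosure ℚ

variable (N q : ℕ) [NeZero N] [NeZero q]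

/-- **Norm data of a `q`-new torsion class.** -/
theorem exists_norm_data (p n : ℕ) (x : JZero (N * q)) (hx : p ^ n • x = 0)
    (hA : Push.pushAlpha N q x = 0) (hB : Push.pushBeta N q x = 0) :
    ∃ (D : Divisor.degZero (K := Qb) (F := modularFunctionFieldBar (N * q)))
      (f : modularFunctionFieldBar (N * q)) (hα hβ : modularFunctionFieldBar N) (cα cβ : Qb),
      x = Pic0.mk D ∧ f ≠ 0 ∧
      (∀ P : Place Qb (modularFunctionFieldBar (N * q)),
        P.ord f = ((p ^ n : ℕ) : ℤ) * (D : Divisor Qb (modularFunctionFieldBar (N * q))) P) ∧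
      hα ≠ 0 ∧ hβ ≠ 0 ∧ cα ≠ 0 ∧ cβ ≠ 0 ∧
      (∀ P' : Place Qb (modularFunctionFieldBar N),
        P'.ord hα = Divisor.pushforwardAlong (heckeAlphaBar Qb N q) (HeckeInputs.alphaIntegral N q)
          (D : Divisor Qb (modularFunctionFieldBar (N * q))) P') ∧
      (∀ P' : Place Qb (modularFunctionFieldBar N),
        P'.ord hβ = Divisor.pushforwardAlong (heckeBetaBar Qb N q) (HeckeInputs.betaIntegral N q)
          (D : Divisor Qb (modularFunctionFieldBar (N * q))) P') ∧
      EsOrd.normAlong (heckeAlphaBar Qb N q) f =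
        algebraMap Qb (modularFunctionFieldBar N) cα * hα ^ (p ^ n) ∧
      EsOrd.normAlong (heckeBetaBar Qb N q) f =
        algebraMap Qb (modularFunctionFieldBar N) cβ * hβ ^ (p ^ n) := by
  obtain ⟨D, rfl⟩ := Pic0.mk_surjective x
  -- `p ^ n • D` is principal
  have h1 : Pic0.mk (p ^ n • D) = 0 := hx
  have h2 := (Push.mk_eq_zero_iff _).mp h1
  obtain ⟨f, hf, hfD⟩ := h2
  have hfD' : ∀ P : Place Qb (modularFunctionFieldBar (N * q)),
      P.ord f = ((p ^ n : ℕ) : ℤ) * (D : Divisor Qb (modularFunctionFieldBar (N * q))) P := by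
    intro P
    rw [← hfD P, AddSubgroup.coe_nsmul, Finsupp.smul_apply, nsmul_eq_mul]
  -- the push-forwards are principal
  obtain ⟨hα, hα0, hαD⟩ := (Push.pushAlpha_mk_eq_zero_iff N q D).mp hA
  obtain ⟨hβ, hβ0, hβD⟩ := (Push.pushBeta_mk_eq_zero_iff N q D).mp hB
  obtain ⟨cα, hcα0, hcα⟩ := exists_norm_eq_const_mul_pow (heckeAlphaBar Qb N q)
    (HeckeInputs.alphaIntegral N q) (HeckeInputs.alphaFinite N q) (HeckeInputs.alphaNormFormula N q)
    (Fermat.Agent.S29.ConstOfOrd.bar_const_of_ord_eq_zero N) (p ^ n)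
    (D : Divisor Qb (modularFunctionFieldBar (N * q))) f hf hfD' hα hα0 (fun v => (hαD v).symm)
  obtain ⟨cβ, hcβ0, hcβ⟩ := exists_norm_eq_const_mul_pow (heckeBetaBar Qb N q)
    (HeckeInputs.betaIntegral N q) (HeckeInputs.betaFinite N q) (HeckeInputs.betaNormFormula N q)
    (Fermat.Agent.S29.ConstOfOrd.bar_const_of_ord_eq_zero N) (p ^ n)
    (D : Divisor Qb (modularFunctionFieldBar (N * q))) f hf hfD' hβ hβ0 (fun v => (hβD v).symm)
  exact ⟨D, f, hα, hβ, cα, cβ, rfl, hf, hfD', hα0, hβ0, hcα0, hcβ0, fun v => (hαD v).symm,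
    fun v => (hβD v).symm, hcα, hcβ⟩

end Level

end Fermat.Agent.S35.NormData
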