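/-
S35 (wave 7), Route C, package (C6b) "EsFinal", middle part (findings 230, section 3):
from the Eichler–Shimura identity (ES-q) over `ℚ̄` to the `w`-free function identity
`EsTop.FunEE` on the `q`-new part (and hence, by `EsTop.frobRel_of_funEE`, to `Push.FrobRel`).

Everything happens over `ℚ̄` (no level): `F` the function field of `X₀(N q)`, `F'` the one of
`X₀(N)`, `α β : F' → F` the degeneracy maps, `w` an Atkin–Lehner automorphism of `F`,
`g = arithmeticGalois σ` for a Frobenius lift `σ` at `q`.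

* `EsQ N q p` : **the contract (ES-q)**: for every `f ≠ 0` with `div f = p ^ n • D`,
  `EsOrd.esBar g w α β q (ddf (g * g) f) = c * H ^ (p ^ n)` with `c` a nonzero constant
  (NO `q`-new hypothesis; this is the output of the Kummer descent (CORE) transported to `ℚ̄`).
* `normAlong_smul`, `normAlong_algEquiv`, `normAlong_ddf` : the norms along `α`, `β` commute with
  compatible semilinear automorphisms, with Atkin–Lehner, and with the double difference.
* `funEE_of_esQ` : `EsQ N q p → EsTop.FunEE N q p`: on the `q`-new part the norms of `f` are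
  constants times `p ^ n`-th powers (`NormData.exists_norm_eq_const_mul_pow`), hence so are the
  norms of `f₂ = ddf (g * g) f` and of `w f₂`; (ES-q) for `f` and for `w f` and the elimination
  of `w` (`EsElim.eHat_eHat_of_es`) give the identity of `FunEE`.
* `frobRel_of_esQ` : `EsQ N q p → Push.FrobRel N q p ((X² - 1)³ (X² - q²))`.
-/
import Mathlib
import Fermat.Agent.S35.EsTop
import Fermat.Agent.S35.EsOrd
import Fermat.Agent.S35.EsElim
import Fermat.Agent.S35.NormData
import Fermat.Agent.S35.NormLevel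
import Fermat.Agent.S34.CoeffAut
import Fermat.Agent.S34.DegreeL

set_option autoImplicit false
set_option linter.style.haveILetI false

noncomputable section

namespace Fermat.Agent.S35.EsFinal

open Polynomial
open ModularCurve AlgebraicCurve Fermat.Agent.S37
open Fermat.Agent.S35.EsTop

local notation "Qb" => AlgebraicClosure ℚ
local notation "GQ" => (AlgebraicClosure ℚ) ≃ₐ[ℚ] (AlgebraicClosure ℚ)

section General

variable {K F F' : Type*} [Field K] [Field F] [Field F'] [Algebra K F] [Algebra K F']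

/-! ### the double difference of functions is multiplicative -/

theorem ddf_mul (g : SemilinearAut K F) (x y : F) : ddf g (x * y) = ddf g x * ddf g y := by
  unfold ddf
  rw [smul_mul', smul_mul', mul_pow, ← mul_div_mul_comm]
  congr 1
  ring

theorem ddf_one (g : SemilinearAut K F) : ddf g (1 : F) = 1 := by
  unfold ddf
  rw [smul_one, smul_one, one_pow, mul_one, div_one]

theorem ddf_pow (g : SemilinearAut K F) (x : F) (m : ℕ) : ddf g (x ^ m) = ddf g x ^ m := by
  induction m with
  | zero => rw [pow_zero, pow_zero, ddf_one]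
  | succ m ih => rw [pow_succ, pow_succ, ddf_mul, ih]

/-- the double difference of a constant is a constant -/
theorem ddf_algebraMap (g : SemilinearAut K F) (c : K) :
    ∃ a : K, ddf g (algebraMap K F c) = algebraMap K F a := by
  refine ⟨SemilinearAut.baseAut g (SemilinearAut.baseAut g c) * c /
    SemilinearAut.baseAut g c ^ 2, ?_⟩
  unfold ddf
  rw [SemilinearAut.smul_algebraMap, SemilinearAut.smul_algebraMap, map_div₀, map_mul, map_pow]

/-- `ddf` commutes with a ring endomorphism commuting with `g` -/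
theorem map_ddf (g : SemilinearAut K F) (w : F →+* F) (hw : ∀ x : F, w (g • x) = g • w x)
    (f : F) : w (ddf g f) = ddf g (w f) := by
  unfold ddf
  rw [map_div₀, map_mul, map_pow, hw, hw]

/-! ### norms -/

/-- **(NS)** the norm along `φ` commutes with compatible semilinear automorphisms -/
theorem normAlong_smul (φ : F' →ₐ[K] F) (g' : SemilinearAut K F') (g : SemilinearAut K F)
    (h : ∀ x : F', φ (g' • x) = g • φ x) (y : F) :
    EsOrd.normAlong φ (g • y) = g' • EsOrd.normAlong φ y := by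
  letI := algebraAlong φ
  have he : RingHom.comp (algebraMap F' F) (SemilinearAut.toRingAut g' : F' →+* F') =
      RingHom.comp (SemilinearAut.toRingAut g : F →+* F) (algebraMap F' F) := by
    ext x
    exact h x
  have h1 := Algebra.norm_eq_of_equiv_equiv (SemilinearAut.toRingAut g')
    (SemilinearAut.toRingAut g) he y
  show Algebra.norm F' (SemilinearAut.toRingAut g y) =
    SemilinearAut.toRingAut g' (Algebra.norm F' y)
  rw [h1, RingEquiv.apply_symm_apply]

/-- **(NW)** the norm along `φ` is the norm along `w ∘ φ` after `w` -/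
theorem normAlong_algEquiv (φ ψ : F' →ₐ[K] F) (w : F ≃ₐ[K] F) (h : ∀ x : F', w (φ x) = ψ x)
    (y : F) : EsOrd.normAlong φ y = EsOrd.normAlong ψ (w y) := by
  have he : RingHom.comp (@algebraMap F' F _ _ (algebraAlong ψ))
      ((RingEquiv.refl F' : F' ≃+* F') : F' →+* F') =
      RingHom.comp ((w : F ≃+* F) : F →+* F) (@algebraMap F' F _ _ (algebraAlong φ)) := by
    ext x
    exact (h x).symm
  exact @Algebra.norm_eq_of_equiv_equiv F' F F' F _ _ _ _ (algebraAlong φ) (algebraAlong ψ)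
    (RingEquiv.refl F') (w : F ≃+* F) he y

/-- the norm commutes with the double difference -/
theorem normAlong_ddf (φ : F' →ₐ[K] F) (g' : SemilinearAut K F') (g : SemilinearAut K F)
    (h : ∀ x : F', φ (g' • x) = g • φ x) {y : F} (hy : y ≠ 0) :
    EsOrd.normAlong φ (ddf g y) = ddf g' (EsOrd.normAlong φ y) := by
  have hgy : g • y ≠ 0 := smul_ne_zero_of_ne g hy
  have hn : g' • EsOrd.normAlong φ y ≠ 0 :=
    smul_ne_zero_of_ne g' (EsOrd.normAlong_ne_zero φ hy)
  have h1 : ddf g y * (g • y) ^ 2 = g • g • y * y := by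
    unfold ddf
    rw [div_mul_cancel₀ _ (pow_ne_zero 2 hgy)]
  have h2 := congrArg (EsOrd.normAlong φ) h1
  rw [map_mul, map_pow, map_mul, normAlong_smul φ g' g h, normAlong_smul φ g' g h,
    normAlong_smul φ g' g h] at h2
  unfold ddf
  rw [eq_div_iff (pow_ne_zero 2 hn)]
  exact h2

/-! ### elimination of `w`, generic form -/

/-- **Elimination of the Atkin–Lehner involution** (generic form).  Suppose the norms of `f`
along `α`, `β` are constants times `m`-th powers, and the Eichler–Shimura operator takes values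
constant times `m`-th power at `ddf (g * g) f` and at `ddf (g * g) (w f)`.  Then
`E^(E^(f₂)) = c * H ^ m * f₂ ^ ((q + 1) ^ 2)` for `f₂ = ddf (g * g) f`. -/
theorem elim_general (g : SemilinearAut K F) (g' : SemilinearAut K F') (w : F ≃ₐ[K] F)
    (α β : F' →ₐ[K] F) (q m : ℕ)
    (hwα : ∀ x : F', w (α x) = β x) (hwβ : ∀ x : F', w (β x) = α x)
    (hww : ∀ x : F, w (w x) = x) (hwg : ∀ x : F, w (g • x) = g • w x)
    (hcα : ∀ x : F', α (g' • x) = g • α x) (hcβ : ∀ x : F', β (g' • x) = g • β x)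
    {f : F} (hf : f ≠ 0) {cα cβ : K} (hcα0 : cα ≠ 0) (hcβ0 : cβ ≠ 0) {hA hB : F'}
    (hNα : EsOrd.normAlong α f = algebraMap K F' cα * hA ^ m)
    (hNβ : EsOrd.normAlong β f = algebraMap K F' cβ * hB ^ m)
    {c₁ c₂ : K} {H₁ H₂ : F} (hc₁ : c₁ ≠ 0) (hc₂ : c₂ ≠ 0)
    (hH₁ : EsOrd.esBar g w α β q (ddf (g * g) f) = algebraMap K F c₁ * H₁ ^ m)
    (hH₂ : EsOrd.esBar g w α β q (ddf (g * g) (w f)) = algebraMap K F c₂ * H₂ ^ m) :
    ∃ (c : K) (H : F), c ≠ 0 ∧
      Eb g q (Eb g q (ddf (g * g) f)) = algebraMap K F c * H ^ m * ddf (g * g) f ^ ((q + 1) ^ 2) := by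
  -- `w` commutes with `g * g`
  have hwgg : ∀ x : F, w ((g * g) • x) = (g * g) • w x := by
    intro x
    rw [mul_smul, mul_smul, hwg, hwg]
  -- compatibility of `g * g` with `α`, `β`
  have hcα2 : ∀ x : F', α ((g' * g') • x) = (g * g) • α x := by
    intro x
    rw [mul_smul, mul_smul, hcα, hcα]
  have hcβ2 : ∀ x : F', β ((g' * g') • x) = (g * g) • β x := by
    intro x
    rw [mul_smul, mul_smul, hcβ, hcβ]
  -- the norms of `f₂` and of `w f₂`
  have hf₂0 : ddf (g * g) f ≠ 0 := ddf_ne_zero (g * g) hf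
  have hwf₂0 : w (ddf (g * g) f) ≠ 0 := (map_ne_zero w).mpr hf₂0
  have hnA : EsOrd.normAlong α (ddf (g * g) f) =
      ddf (g' * g') (algebraMap K F' cα) * ddf (g' * g') hA ^ m := by
    rw [normAlong_ddf α (g' * g') (g * g) hcα2 hf, hNα, ddf_mul, ddf_pow]
  have hnB : EsOrd.normAlong β (ddf (g * g) f) =
      ddf (g' * g') (algebraMap K F' cβ) * ddf (g' * g') hB ^ m := by
    rw [normAlong_ddf β (g' * g') (g * g) hcβ2 hf, hNβ, ddf_mul, ddf_pow]
  have hnA2 : EsOrd.normAlong α (w (ddf (g * g) f)) =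
      ddf (g' * g') (algebraMap K F' cβ) * ddf (g' * g') hB ^ m := by
    rw [← normAlong_algEquiv β α w hwβ (ddf (g * g) f), hnB]
  have hnB2 : EsOrd.normAlong β (w (ddf (g * g) f)) =
      ddf (g' * g') (algebraMap K F' cα) * ddf (g' * g') hA ^ m := by
    rw [← normAlong_algEquiv α β w hwα (ddf (g * g) f), hnA]
  have hwdd : ddf (g * g) (w f) = w (ddf (g * g) f) :=
    (map_ddf (g * g) (w : F →+* F) hwgg f).symm
  rw [hwdd] at hH₂
  -- constants
  obtain ⟨a₁, ha₁⟩ := ddf_algebraMap (g' * g') cα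
  obtain ⟨b₁, hb₁⟩ := ddf_algebraMap (g' * g') cβ
  have hcαF : algebraMap K F' cα ≠ 0 := by
    rw [Ne, map_eq_zero_iff _ (algebraMap K F').injective]
    exact hcα0
  have hcβF : algebraMap K F' cβ ≠ 0 := by
    rw [Ne, map_eq_zero_iff _ (algebraMap K F').injective]
    exact hcβ0
  have hc₁F : algebraMap K F c₁ ≠ 0 := by
    rw [Ne, map_eq_zero_iff _ (algebraMap K F).injective]
    exact hc₁
  have hc₂F : algebraMap K F c₂ ≠ 0 := by
    rw [Ne, map_eq_zero_iff _ (algebraMap K F).injective]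
    exact hc₂
  have hn₁ : (α : F' →+* F) (EsOrd.normAlong β (ddf (g * g) f)) *
      (β : F' →+* F) (EsOrd.normAlong α (ddf (g * g) f)) ≠ 0 :=
    mul_ne_zero ((map_ne_zero α).mpr (EsOrd.normAlong_ne_zero β hf₂0))
      ((map_ne_zero β).mpr (EsOrd.normAlong_ne_zero α hf₂0))
  have hn₂ : (α : F' →+* F) (EsOrd.normAlong β (w (ddf (g * g) f))) *
      (β : F' →+* F) (EsOrd.normAlong α (w (ddf (g * g) f))) ≠ 0 :=
    mul_ne_zero ((map_ne_zero α).mpr (EsOrd.normAlong_ne_zero β hwf₂0))
      ((map_ne_zero β).mpr (EsOrd.normAlong_ne_zero α hwf₂0))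
  have hes₁ : EsElim.eHat (SemilinearAut.toRingAut g : F →+* F)
      (SemilinearAut.toRingAut g⁻¹ : F →+* F) q (ddf (g * g) f) *
        w (ddf (g * g) f) ^ (q + 1) /
      ((α : F' →+* F) (EsOrd.normAlong β (ddf (g * g) f)) *
        (β : F' →+* F) (EsOrd.normAlong α (ddf (g * g) f))) =
      algebraMap K F c₁ * H₁ ^ m := hH₁
  have hes₂ : EsElim.eHat (SemilinearAut.toRingAut g : F →+* F)
      (SemilinearAut.toRingAut g⁻¹ : F →+* F) q (w (ddf (g * g) f)) *
        ddf (g * g) f ^ (q + 1) /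
      ((α : F' →+* F) (EsOrd.normAlong β (w (ddf (g * g) f))) *
        (β : F' →+* F) (EsOrd.normAlong α (w (ddf (g * g) f)))) =
      algebraMap K F c₂ * H₂ ^ m := by
    rw [← hH₂]
    unfold EsOrd.esBar
    rw [hww (ddf (g * g) f)]
    rfl
  obtain ⟨c, P, ⟨a, rfl⟩, hc0, hcP⟩ := EsElim.eHat_eHat_of_es
    (SemilinearAut.toRingAut g : F →+* F) (SemilinearAut.toRingAut g⁻¹ : F →+* F)
    (fun x => w x) (α : F' →+* F) (β : F' →+* F) q m
    (fun c => ∃ a : K, c = algebraMap K F a) (fun c => ∃ a : K, c = algebraMap K F' a)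
    (EsElim.isC_range_one _) (EsElim.isC_range_mul _) (EsElim.isC_range_inv _)
    (by
      rintro _ ⟨a, rfl⟩
      exact ⟨SemilinearAut.baseAut g a, SemilinearAut.commutes g a⟩)
    (by
      rintro _ ⟨a, rfl⟩
      exact ⟨SemilinearAut.baseAut g⁻¹ a, SemilinearAut.commutes g⁻¹ a⟩)
    (by
      rintro _ ⟨a, rfl⟩
      exact ⟨a, α.commutes a⟩)
    (by
      rintro _ ⟨a, rfl⟩
      exact ⟨a, β.commutes a⟩)
    hf₂0 hwf₂0
    (c₁ := algebraMap K F c₁) (H₁ := H₁) (c₂ := algebraMap K F c₂) (H₂ := H₂)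
    (nB₁ := EsOrd.normAlong β (ddf (g * g) f)) (nA₁ := EsOrd.normAlong α (ddf (g * g) f))
    (nB₂ := EsOrd.normAlong β (w (ddf (g * g) f)))
    (nA₂ := EsOrd.normAlong α (w (ddf (g * g) f)))
    ⟨c₁, rfl⟩ hc₁F ⟨c₂, rfl⟩ hc₂F
    ⟨b₁, hb₁⟩ (ddf_ne_zero (g' * g') hcβF) ⟨a₁, ha₁⟩ (ddf_ne_zero (g' * g') hcαF)
    ⟨a₁, ha₁⟩ (ddf_ne_zero (g' * g') hcαF) ⟨b₁, hb₁⟩ (ddf_ne_zero (g' * g') hcβF)
    hnB hnA hnB2 hnA2 hn₁ hn₂ hes₁ hes₂
  refine ⟨a, P, ?_, hcP⟩
  rintro rfl
  exact hc0 (map_zero _)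

end General

/-! ### the contract (ES-q) over `ℚ̄` -/

/-- **The Eichler–Shimura identity (ES-q) over `ℚ̄`** (Route C, the output of the Kummer descent):
for a Frobenius lift `σ` at `q` with `g := arithmeticGalois σ` on the function field of
`X₀(N q)` over `ℚ̄`, every Atkin–Lehner automorphism `w`, and every `f ≠ 0` with
`div f = p ^ n • D`, `deg D = 0`: `esBar (ddf (g * g) f) = c * H ^ (p ^ n)`. -/
def EsQ (N q p : ℕ) [NeZero N] [NeZero q] : Prop :=
  ∀ A : ValuationSubring Qb, A.LiesOverPrime q → ∀ σ : GQ, A.IsFrobeniusAt σ q →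
    ∀ w : modularFunctionFieldBar (N * q) ≃ₐ[Qb] modularFunctionFieldBar (N * q),
      (w : modularFunctionFieldBar (N * q) →ₐ[Qb] modularFunctionFieldBar (N * q)).comp
        (heckeAlphaBar Qb N q) = heckeBetaBar Qb N q →
      (w : modularFunctionFieldBar (N * q) →ₐ[Qb] modularFunctionFieldBar (N * q)).comp
        (heckeBetaBar Qb N q) = heckeAlphaBar Qb N q →
    ∀ (n : ℕ) (D : Divisor Qb (modularFunctionFieldBar (N * q)))
      (f : modularFunctionFieldBar (N * q)), f ≠ 0 →
      (∀ P : Place Qb (modularFunctionFieldBar (N * q)), P.ord f = (p : ℤ) ^ n * D P) →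
      Divisor.degree D = 0 →
      ∃ (c : Qb) (H : modularFunctionFieldBar (N * q)), c ≠ 0 ∧
        EsOrd.esBar (arithmeticGalois (modularFunctionFieldFull (N * q)) σ) w
            (heckeAlphaBar Qb N q) (heckeBetaBar Qb N q) q
            (ddf (arithmeticGalois (modularFunctionFieldFull (N * q)) σ *
              arithmeticGalois (modularFunctionFieldFull (N * q)) σ) f) =
          algebraMap Qb (modularFunctionFieldBar (N * q)) c * H ^ (p ^ n)

section Level

variable (N q : ℕ) [NeZero N] [NeZero q]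

/-- the coefficient action of `σ` is the action of `arithmeticGalois σ` -/
theorem act_eq_smul (M : ℕ) (σ : GQ) (x : modularFunctionFieldBar M) :
    Fermat.Agent.S34.CoeffAut.act M (σ : Qb ≃+* Qb) x =
      arithmeticGalois (modularFunctionFieldFull M) σ • x := by
  apply Subtype.ext
  rw [Fermat.Agent.S34.CoeffAut.coe_act, coe_arithmeticGalois_smul]
  exact coeffMap_congr (RingHom.ext fun _ => rfl) _

/-- **Atkin–Lehner commutes with the Galois action over `ℚ̄`.** -/
theorem atkinLehner_smul (hq : q.Prime)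
    (w : modularFunctionFieldBar (N * q) ≃ₐ[Qb] modularFunctionFieldBar (N * q))
    (hwα : (w : modularFunctionFieldBar (N * q) →ₐ[Qb] modularFunctionFieldBar (N * q)).comp
      (heckeAlphaBar Qb N q) = heckeBetaBar Qb N q)
    (hwβ : (w : modularFunctionFieldBar (N * q) →ₐ[Qb] modularFunctionFieldBar (N * q)).comp
      (heckeBetaBar Qb N q) = heckeAlphaBar Qb N q)
    (σ : GQ) (x : modularFunctionFieldBar (N * q)) :
    w (arithmeticGalois (modularFunctionFieldFull (N * q)) σ • x) =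
      arithmeticGalois (modularFunctionFieldFull (N * q)) σ • w x := by
  have h := Fermat.Agent.S34.CoeffAut.act_atkinLehner N q hq (σ : Qb ≃+* Qb) w hwα hwβ x
  rw [act_eq_smul, act_eq_smul] at h
  exact h.symm

end Level

set_option maxHeartbeats 1000000 in
/-- **(C6b), middle: (ES-q) gives the `w`-free function identity on the `q`-new part.** -/
theorem funEE_of_esQ {N q p : ℕ} [NeZero N] [NeZero q] (hq : q.Prime) (hqN : ¬ q ∣ N)
    (h : EsQ N q p) : FunEE N q p := by
  intro A hA σ hσ n D f hf hfD hdeg hαD hβD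
  obtain ⟨w, hwα, hwβ⟩ := Fermat.Agent.S37.AtkinLehner.exists_atkinLehner_of_emb
    (Fermat.Agent.S34.DegreeL.toComplex Qb (RingHom.id Qb)) N q hq hqN
  -- the norm data of `f`
  have hfD' : ∀ P : Place Qb (modularFunctionFieldBar (N * q)),
      P.ord f = ((p ^ n : ℕ) : ℤ) * D P := by
    intro P
    rw [hfD P]
    push_cast
    rfl
  obtain ⟨hA', hA0, hAord⟩ := hαD
  obtain ⟨hB', hB0, hBord⟩ := hβD
  obtain ⟨cα, hcα0, hNα⟩ := NormData.exists_norm_eq_const_mul_pow (heckeAlphaBar Qb N q)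
    (HeckeInputs.alphaIntegral N q) (HeckeInputs.alphaFinite N q)
    (HeckeInputs.alphaNormFormula N q) (Fermat.Agent.S29.ConstOfOrd.bar_const_of_ord_eq_zero N)
    (p ^ n) D f hf hfD' hA' hA0 (fun v => (hAord v).symm)
  obtain ⟨cβ, hcβ0, hNβ⟩ := NormData.exists_norm_eq_const_mul_pow (heckeBetaBar Qb N q)
    (HeckeInputs.betaIntegral N q) (HeckeInputs.betaFinite N q)
    (HeckeInputs.betaNormFormula N q) (Fermat.Agent.S29.ConstOfOrd.bar_const_of_ord_eq_zero N)
    (p ^ n) D f hf hfD' hB' hB0 (fun v => (hBord v).symm)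
  -- (ES-q) for `f` and for `w f`
  obtain ⟨c₁, H₁, hc₁, hH₁⟩ := h A hA σ hσ w hwα hwβ n D f hf hfD hdeg
  have hwf : w f ≠ 0 := (map_ne_zero w).mpr hf
  have hwfD : ∀ P : Place Qb (modularFunctionFieldBar (N * q)),
      P.ord (w f) = (p : ℤ) ^ n * (SemilinearAut.ofAlgAut w • D) P := by
    intro P
    rw [SemilinearAut.divisor_smul_apply, ← hfD, ← SemilinearAut.ofAlgAut_smul w f,
      Fermat.Agent.S34.GPush.ord_smul_eq_inv]
  have hdeg' : Divisor.degree (SemilinearAut.ofAlgAut w • D) = 0 := by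
    rw [SemilinearAut.degree_smul]
    exact hdeg
  obtain ⟨c₂, H₂, hc₂, hH₂⟩ := h A hA σ hσ w hwα hwβ n (SemilinearAut.ofAlgAut w • D) (w f) hwf
    hwfD hdeg'
  -- the formal properties of `w`, `α`, `β`, `g`
  have e1 : ∀ x : modularFunctionFieldBar N,
      w (heckeAlphaBar Qb N q x) = heckeBetaBar Qb N q x :=
    fun x => AlgHom.congr_fun hwα x
  have e2 : ∀ x : modularFunctionFieldBar N,
      w (heckeBetaBar Qb N q x) = heckeAlphaBar Qb N q x :=
    fun x => AlgHom.congr_fun hwβ x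
  have e3 : ∀ x : modularFunctionFieldBar (N * q), w (w x) = x :=
    fun x => NormLevel.w_w N q hq w hwα hwβ x
  have e4 : ∀ x : modularFunctionFieldBar (N * q),
      w (arithmeticGalois (modularFunctionFieldFull (N * q)) σ • x) =
        arithmeticGalois (modularFunctionFieldFull (N * q)) σ • w x :=
    fun x => atkinLehner_smul N q hq w hwα hwβ σ x
  have e5 : ∀ x : modularFunctionFieldBar N,
      heckeAlphaBar Qb N q (arithmeticGalois (modularFunctionFieldFull N) σ • x) =
        arithmeticGalois (modularFunctionFieldFull (N * q)) σ • heckeAlphaBar Qb N q x :=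
    Fermat.Agent.S29.GalHeckeComm.compatAlong_alpha N q σ
  have e6 : ∀ x : modularFunctionFieldBar N,
      heckeBetaBar Qb N q (arithmeticGalois (modularFunctionFieldFull N) σ • x) =
        arithmeticGalois (modularFunctionFieldFull (N * q)) σ • heckeBetaBar Qb N q x :=
    Fermat.Agent.S29.GalHeckeComm.compatAlong_beta N q σ
  exact elim_general (arithmeticGalois (modularFunctionFieldFull (N * q)) σ)
    (arithmeticGalois (modularFunctionFieldFull N) σ) w (heckeAlphaBar Qb N q)
    (heckeBetaBar Qb N q) q (p ^ n) e1 e2 e3 e4 e5 e6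
    hf hcα0 hcβ0 hNα hNβ hc₁ hc₂ hH₁ hH₂

/-- **(C6b): (ES-q) over `ℚ̄` gives the bad-prime Eichler–Shimura relation
`(σ² - 1)³ (σ² - q²) = 0` on the `p`-power torsion of the `q`-new part.** -/
theorem frobRel_of_esQ {N q p : ℕ} [NeZero N] [NeZero q] (hp : p ≠ 0) (hq : q.Prime)
    (hqN : ¬ q ∣ N) (h : EsQ N q p) :
    Push.FrobRel N q p
      ((Polynomial.X ^ 2 - 1) ^ 3 * (Polynomial.X ^ 2 - C ((q : ℤ) ^ 2))) :=
  frobRel_of_funEE hp (funEE_of_esQ hq hqN h)

end Fermat.Agent.S35.EsFinal
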