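/-
S35 (route C, findings 222), package (C1), series part: **Claim R**.

`W ⊆ L` a discrete valuation ring with uniformiser `ϖ` and residue characteristic `q`,
`s : L ≃+* L` an automorphism preserving `W` and inducing `y ↦ y ^ q` on the residue field
(the restriction of a Frobenius lift), `ζ` a `q`-th root of unity of `L`.  Write `S`, `S'` for
the coefficientwise actions of `s`, `s⁻¹` on `L((q))`, `V = qExpand q` and
`P z = ∏_{b < q} z(ζ^b q)`.  If `x, y, gβ, gα` are quotients of `W`-integral series with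

  `V gβ = V y * P x`   and   `V gα = V x * P y`

(the `q`-expansion form of `S37.Conjugates.norm_beta` for `gβ = N_β f`, `gα = N_α f`, `x = f`,
`y = w f`), then

  `S x * (S' x) ^ q * y ^ (q + 1) = (1 + C ϖ * m) * (gβ * V gα)`   with `m ∈ contentRing W`:

the Eichler–Shimura quotient `ES(f) = σf · (σ⁻¹f)^q · (w f)^(q+1) / (α(N_β f) · β(N_α f))` is
`≡ 1` at the `q`-expansion Gauss valuation, for EVERY nonzero `f`.
-/
import Mathlib
import Fermat.Agent.S18.GaussContent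
import Fermat.Agent.S28.SeriesBasic
import Fermat.Agent.S37.Kronecker
import Fermat.Agent.S37.LevelChange

set_option autoImplicit false
set_option linter.unusedSectionVars false

noncomputable section

namespace Fermat.Agent.S35.EsSeries

open ModularCurve Fermat.Agent.S18.Gauss Fermat.Agent.S28 Fermat.Agent.S37.LevelChange

variable {L : Type*} [Field L] (W : ValuationSubring L)

/-- `u` is a unit of the content ring with reduction `r ≠ 0` -/
def IsU (u : LaurentSeries L) (r : LaurentSeries (IsLocalRing.ResidueField W)) : Prop :=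
  ∃ hu : u ∈ contentRing W, red W ⟨u, hu⟩ = r ∧ r ≠ 0

variable {W}

theorem IsU.mem {u : LaurentSeries L} {r : LaurentSeries (IsLocalRing.ResidueField W)}
    (h : IsU W u r) : u ∈ contentRing W := h.1

theorem IsU.ne_zero {u : LaurentSeries L} {r : LaurentSeries (IsLocalRing.ResidueField W)}
    (h : IsU W u r) : u ≠ 0 := by
  obtain ⟨hu, h1, h2⟩ := h
  rintro rfl
  apply h2
  rw [← h1]
  exact map_zero (red W)

theorem IsU.unique {u : LaurentSeries L} {r r' : LaurentSeries (IsLocalRing.ResidueField W)}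
    (h : IsU W u r) (h' : IsU W u r') : r = r' := by
  obtain ⟨hu, h1, -⟩ := h
  obtain ⟨hu', h1', -⟩ := h'
  rw [← h1, ← h1']

theorem isU_one : IsU W (1 : LaurentSeries L) 1 :=
  ⟨one_mem _, map_one (red W), one_ne_zero⟩

theorem IsU.mul {u v : LaurentSeries L} {r t : LaurentSeries (IsLocalRing.ResidueField W)}
    (h : IsU W u r) (h' : IsU W v t) : IsU W (u * v) (r * t) := by
  obtain ⟨hu, h1, h2⟩ := h
  obtain ⟨hv, h1', h2'⟩ := h'
  refine ⟨mul_mem hu hv, ?_, mul_ne_zero h2 h2'⟩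
  have : (⟨u * v, mul_mem hu hv⟩ : contentRing W) = ⟨u, hu⟩ * ⟨v, hv⟩ := rfl
  rw [this, map_mul, h1, h1']

theorem IsU.inv {u : LaurentSeries L} {r : LaurentSeries (IsLocalRing.ResidueField W)}
    (h : IsU W u r) : IsU W u⁻¹ r⁻¹ := by
  obtain ⟨hu, h1, h2⟩ := h
  have hinv : u⁻¹ ∈ contentRing W := inv_mem_contentRing W hu (by rw [h1]; exact h2)
  exact ⟨hinv, by rw [red_inv W hu hinv, h1], inv_ne_zero h2⟩

theorem IsU.pow {u : LaurentSeries L} {r : LaurentSeries (IsLocalRing.ResidueField W)}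
    (h : IsU W u r) (n : ℕ) : IsU W (u ^ n) (r ^ n) := by
  induction n with
  | zero => simpa using isU_one (W := W)
  | succ n ih => rw [pow_succ, pow_succ]; exact ih.mul h

theorem IsU.zpow_one {u : LaurentSeries L} (h : IsU W u 1) (n : ℤ) : IsU W (u ^ n) 1 := by
  rcases Int.eq_nat_or_neg n with ⟨m, rfl | rfl⟩
  · rw [zpow_natCast]
    simpa using h.pow m
  · rw [zpow_neg, zpow_natCast]
    simpa using (h.pow m).inv

theorem IsU.prod_range {f : ℕ → LaurentSeries L}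
    {r : LaurentSeries (IsLocalRing.ResidueField W)} (n : ℕ)
    (h : ∀ b < n, IsU W (f b) r) : IsU W (∏ b ∈ Finset.range n, f b) (r ^ n) := by
  induction n with
  | zero => simpa using isU_one (W := W)
  | succ n ih =>
    rw [Finset.prod_range_succ, pow_succ]
    exact (ih fun b hb => h b (Nat.lt_succ_of_lt hb)).mul (h n (Nat.lt_succ_self n))

/-- `q ↦ q^d` -/
theorem IsU.qExp {u : LaurentSeries L} {r : LaurentSeries (IsLocalRing.ResidueField W)}
    (h : IsU W u r) (d : ℕ) [NeZero d] :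
    IsU W (qExpand L d u) (qExpand (IsLocalRing.ResidueField W) d r) := by
  obtain ⟨hu, h1, h2⟩ := h
  refine ⟨qExpand_mem_contentRing W d hu, ?_, ?_⟩
  · rw [red_qExpand W d hu, h1]
  · intro h0
    exact h2 (qExpand_injective d (by rw [h0, map_zero]))

/-- coefficientwise action of a ring homomorphism preserving `W` -/
theorem IsU.cmap {u : LaurentSeries L} {r : LaurentSeries (IsLocalRing.ResidueField W)}
    (h : IsU W u r) (τ : L →+* L) (hW : ∀ c : L, c ∈ W ↔ τ c ∈ W) :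
    IsU W (coeffMap τ u) (coeffMap (resMap τ W W hW) r) := by
  obtain ⟨hu, h1, h2⟩ := h
  refine ⟨coeffMap_mem_contentRing τ W W hW hu, ?_, ?_⟩
  · rw [red_coeffMap τ W W hW hu, h1]
  · intro h0
    apply h2
    apply Fermat.Agent.S28.Tower.coeffMap_injective (resMap τ W W hW)
    rw [map_zero]
    exact h0

/-- constants: units of `W` -/
theorem isU_C (c : W) (hc : IsLocalRing.residue W c ≠ 0) :
    IsU W (HahnSeries.C (c : L)) (HahnSeries.C (IsLocalRing.residue W c)) := by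
  refine ⟨C_mem_contentRing W c, red_C W c, ?_⟩
  intro h0
  apply hc
  have := congrArg (fun z : LaurentSeries (IsLocalRing.ResidueField W) => z.coeff 0) h0
  simpa using this


/-! ### Roots of unity of order the residue characteristic -/

theorem root_mem (ζ : Lˣ) {q : ℕ} (hq : 0 < q) (hζ : ζ ^ q = 1) : (ζ : L) ∈ W := by
  rcases W.mem_or_inv_mem (ζ : L) with h | h
  · exact h
  · have h1 : (ζ : L) = ((ζ : L)⁻¹) ^ (q - 1) := by
      have h2 : (ζ : L) ^ q = 1 := by rw [← Units.val_pow_eq_pow_val, hζ, Units.val_one]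
      have h3 : (ζ : L) * (ζ : L) ^ (q - 1) = 1 := by
        rw [← pow_succ', Nat.sub_add_cancel hq, h2]
      rw [inv_pow]
      exact eq_inv_of_mul_eq_one_left h3
    rw [h1]
    exact pow_mem h _

/-- the root of unity as a unit of `W` -/
def rootUnit (ζ : Lˣ) {q : ℕ} (hq : 0 < q) (hζ : ζ ^ q = 1) : (↥W)ˣ where
  val := ⟨(ζ : L), root_mem ζ hq hζ⟩
  inv := ⟨((ζ⁻¹ : Lˣ) : L), root_mem ζ⁻¹ hq (by rw [inv_pow, hζ, inv_one])⟩
  val_inv := Subtype.ext (by simp)
  inv_val := Subtype.ext (by simp)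

theorem map_subtype_rootUnit (ζ : Lˣ) {q : ℕ} (hq : 0 < q) (hζ : ζ ^ q = 1) :
    Units.map (W.subtype : ↥W →* L) (rootUnit (W := W) ζ hq hζ) = ζ :=
  Units.ext rfl

theorem map_residue_rootUnit (ζ : Lˣ) {q : ℕ} [hq : Fact q.Prime]
    [CharP (IsLocalRing.ResidueField W) q] (hζ : ζ ^ q = 1) :
    Units.map (IsLocalRing.residue W : ↥W →* IsLocalRing.ResidueField W)
      (rootUnit (W := W) ζ hq.out.pos hζ) = 1 := by
  apply Units.ext
  show IsLocalRing.residue W (rootUnit (W := W) ζ hq.out.pos hζ : ↥W) = 1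
  set r := IsLocalRing.residue W (rootUnit (W := W) ζ hq.out.pos hζ : ↥W) with hr
  have h1 : r ^ q = 1 := by
    rw [hr, ← map_pow]
    have h2 : ((rootUnit (W := W) ζ hq.out.pos hζ : ↥W)) ^ q = 1 := by
      apply Subtype.ext
      show (ζ : L) ^ q = 1
      rw [← Units.val_pow_eq_pow_val, hζ, Units.val_one]
    rw [h2, map_one]
  have h3 : (r - 1) ^ q = 0 := by
    rw [sub_pow_char, h1, one_pow, sub_self]
  have h4 := pow_eq_zero_iff (hq.out.ne_zero) |>.mp h3
  exact sub_eq_zero.mp h4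

/-- the twist by a `q`-th root of unity does not change reductions -/
theorem IsU.twist {u : LaurentSeries L} {r : LaurentSeries (IsLocalRing.ResidueField W)}
    (h : IsU W u r) (ζ : Lˣ) {q : ℕ} [hq : Fact q.Prime]
    [CharP (IsLocalRing.ResidueField W) q] (hζ : ζ ^ q = 1) :
    IsU W (tw ζ u) r := by
  obtain ⟨hu, h1, h2⟩ := h
  obtain ⟨x, y, hy, hxy⟩ := id hu
  have hL : ∀ z : LaurentSeries W,
      toL W (tw (rootUnit (W := W) ζ hq.out.pos hζ) z) = tw ζ (toL W z) := by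
    intro z
    show coeffMap W.subtype (tw (rootUnit (W := W) ζ hq.out.pos hζ) z) = tw ζ (toL W z)
    rw [coeffMap_tw]
    rfl
  have hK : ∀ z : LaurentSeries W,
      toK W (tw (rootUnit (W := W) ζ hq.out.pos hζ) z) = toK W z := by
    intro z
    show coeffMap (IsLocalRing.residue W) (tw (rootUnit (W := W) ζ hq.out.pos hζ) z) = toK W z
    rw [coeffMap_tw]
    have e : Units.map ((IsLocalRing.residue W : ↥W →+* IsLocalRing.ResidueField W) :
        ↥W →* IsLocalRing.ResidueField W) (rootUnit (W := W) ζ hq.out.pos hζ) = 1 :=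
      map_residue_rootUnit ζ hζ
    rw [e, tw_one]
    rfl
  have hy' : toK W (tw (rootUnit (W := W) ζ hq.out.pos hζ) y) ≠ 0 := by rw [hK]; exact hy
  have hxy' : tw ζ u * toL W (tw (rootUnit (W := W) ζ hq.out.pos hζ) y) =
      toL W (tw (rootUnit (W := W) ζ hq.out.pos hζ) x) := by
    rw [hL, hL, ← map_mul, hxy]
  have hmem : tw ζ u ∈ contentRing W := ⟨_, _, hy', hxy'⟩
  refine ⟨hmem, ?_, h2⟩
  rw [red_mk_eq W hmem hy' hxy', hK, hK, ← red_mk_eq W hu hy hxy, h1]

theorem tw_C' {R : Type*} [CommRing R] (c : Rˣ) (a : R) :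
    tw c (HahnSeries.C a) = HahnSeries.C a := by
  ext k
  rw [tw_coeff]
  by_cases hk : k = 0
  · subst hk
    simp
  · rw [HahnSeries.C_apply, HahnSeries.coeff_single_of_ne hk, mul_zero]

theorem zpow_pow_swap {F : Type*} [Field F] (a : F) (n : ℤ) (q : ℕ) :
    (a ^ n) ^ q = (a ^ q) ^ n := by
  rw [← zpow_natCast, ← zpow_mul, ← zpow_natCast a q, ← zpow_mul, mul_comm]


theorem final_alg {F : Type*} [Field F]
    (Sa S'a a₁ a₂ e Su v u₂ vβ Eu Pu gβ Egα T : F) (q : ℕ)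
    (hc : Sa * S'a ^ q = a₁ ^ (q + 1) * e) (hgβ : gβ = a₂ * a₁ ^ q * vβ)
    (hgα : Egα = a₁ * Eu * (a₂ ^ q * Pu))
    (hT : T * (vβ * (Eu * Pu)) = e * (Su * v ^ q * u₂ ^ (q + 1))) :
    (Sa * Su) * (S'a * v) ^ q * (a₂ * u₂) ^ (q + 1) = T * (gβ * Egα) := by
  rw [hgβ, hgα]
  linear_combination (Su * v ^ q * u₂ ^ (q + 1) * a₂ ^ (q + 1)) * hc -
    (a₁ ^ (q + 1) * a₂ ^ (q + 1)) * hT

theorem coeffMap_C' {R S : Type*} [CommRing R] [CommRing S] (f : R →+* S) (c : R) :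
    coeffMap f (HahnSeries.C c) = HahnSeries.C (f c) := by
  rw [HahnSeries.C_apply, coeffMap_single, HahnSeries.C_apply]

section Main

variable (W) [IsDiscreteValuationRing W] (q : ℕ) [hq : Fact q.Prime] [NeZero q]
  [CharP (IsLocalRing.ResidueField W) q]

/-- the constant factor `s(c) · s⁻¹(c)^q / c^(q+1)` is a unit `≡ 1` -/
theorem const_factor (ϖ : W) (hϖ : Irreducible ϖ) (s : L ≃+* L)
    (hsW : ∀ c : L, c ∈ W ↔ (s : L →+* L) c ∈ W)
    (hφ : ∀ y, resMap (s : L →+* L) W W hsW y = y ^ q) (n : ℤ) :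
    ∃ e : LaurentSeries L, IsU W e 1 ∧
      coeffMap (s : L →+* L) (HahnSeries.C ((ϖ : W) : L) ^ n) *
        (coeffMap (s.symm : L →+* L) (HahnSeries.C ((ϖ : W) : L) ^ n)) ^ q =
      (HahnSeries.C ((ϖ : W) : L) ^ n) ^ (q + 1) * e := by
  have hϖ0 : ((ϖ : W) : L) ≠ 0 := fun h0 => hϖ.ne_zero (Subtype.ext h0)
  have hnu : ∀ a : W, ¬ IsUnit a → ∃ b : W, a = ϖ * b := by
    intro a ha
    have h1 : a ∈ IsLocalRing.maximalIdeal W := (IsLocalRing.mem_maximalIdeal a).mpr ha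
    rw [hϖ.maximalIdeal_eq, Ideal.mem_span_singleton] at h1
    exact h1
  have hϖinv : ((ϖ : W) : L)⁻¹ ∉ W := by
    intro h
    apply hϖ.not_isUnit
    exact IsUnit.of_mul_eq_one (⟨_, h⟩ : W) (Subtype.ext (mul_inv_cancel₀ hϖ0))
  -- `s ϖ` and `s⁻¹ ϖ` are in `W` and are not units
  have hsϖ : s (ϖ : L) ∈ W := (hsW _).mp ϖ.2
  have hs'ϖ : s.symm (ϖ : L) ∈ W := by
    have h := hsW (s.symm (ϖ : L))
    have e : (s : L →+* L) (s.symm (ϖ : L)) = (ϖ : L) := s.apply_symm_apply _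
    rw [e] at h
    exact h.mpr ϖ.2
  have hn1 : ¬ IsUnit (⟨s (ϖ : L), hsϖ⟩ : W) := by
    intro hu
    obtain ⟨b, hb⟩ := hu.exists_right_inv
    have hb' : s (ϖ : L) * (b : L) = 1 := congrArg Subtype.val hb
    apply hϖinv
    have h := hsW ((ϖ : L)⁻¹)
    have e : (s : L →+* L) ((ϖ : L)⁻¹) = (b : L) := by
      show s ((ϖ : L)⁻¹) = (b : L)
      rw [map_inv₀]
      exact inv_eq_of_mul_eq_one_right hb'
    rw [e] at h
    exact h.mpr b.2
  have hn2 : ¬ IsUnit (⟨s.symm (ϖ : L), hs'ϖ⟩ : W) := by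
    intro hu
    obtain ⟨b, hb⟩ := hu.exists_right_inv
    have hb' : s.symm (ϖ : L) * (b : L) = 1 := congrArg Subtype.val hb
    apply hϖinv
    have h := hsW (s.symm (ϖ : L))⁻¹
    have e : (s : L →+* L) ((s.symm (ϖ : L))⁻¹) = (ϖ : L)⁻¹ := by
      show s ((s.symm (ϖ : L))⁻¹) = (ϖ : L)⁻¹
      rw [map_inv₀, s.apply_symm_apply]
    rw [e] at h
    have hbW : (s.symm (ϖ : L))⁻¹ ∈ W := by
      rw [inv_eq_of_mul_eq_one_right hb']
      exact b.2
    exact h.mp hbW
  obtain ⟨υ, hυ⟩ := hnu _ hn1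
  obtain ⟨υ', hυ'⟩ := hnu _ hn2
  have e1 : s (ϖ : L) = (ϖ : L) * (υ : L) := congrArg Subtype.val hυ
  have e2 : s.symm (ϖ : L) = (ϖ : L) * (υ' : L) := congrArg Subtype.val hυ'
  have hsυ' : s (υ' : L) ∈ W := (hsW _).mp υ'.2
  -- `υ * s υ' = 1`
  have e3 : (υ : L) * s (υ' : L) = 1 := by
    have h := congrArg s e2
    rw [s.apply_symm_apply, map_mul, e1] at h
    have h' : (ϖ : L) * ((υ : L) * s (υ' : L)) = (ϖ : L) * 1 := by rw [mul_one]; linear_combination -h
    exact mul_left_cancel₀ hϖ0 h'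
  have e3W : υ * (⟨s (υ' : L), hsυ'⟩ : W) = 1 := Subtype.ext e3
  -- residues
  have hres : IsLocalRing.residue W υ * (IsLocalRing.residue W υ') ^ q = 1 := by
    have h := congrArg (IsLocalRing.residue W) e3W
    rw [map_mul, map_one] at h
    have h2 : IsLocalRing.residue W (⟨s (υ' : L), hsυ'⟩ : W) = (IsLocalRing.residue W υ') ^ q := by
      rw [← hφ, resMap_residue]
      rfl
    rw [h2] at h
    exact h
  have hr1 : IsLocalRing.residue W υ ≠ 0 := left_ne_zero_of_mul_eq_one hres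
  have hr2 : IsLocalRing.residue W υ' ≠ 0 := by
    intro h0
    rw [h0, zero_pow hq.out.ne_zero, mul_zero] at hres
    exact zero_ne_one hres
  have U0 : IsU W (HahnSeries.C (υ : L) * HahnSeries.C (υ' : L) ^ q) 1 := by
    have h := (isU_C υ hr1).mul ((isU_C υ' hr2).pow q)
    have hC : (HahnSeries.C (IsLocalRing.residue W υ) *
        HahnSeries.C (IsLocalRing.residue W υ') ^ q :
          LaurentSeries (IsLocalRing.ResidueField W)) = 1 := by
      rw [← map_pow, ← map_mul, hres, map_one]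
    rw [hC] at h
    exact h
  refine ⟨(HahnSeries.C (υ : L) * HahnSeries.C (υ' : L) ^ q) ^ n, U0.zpow_one n, ?_⟩
  rw [map_zpow₀, map_zpow₀, coeffMap_C', coeffMap_C']
  have e1' : (s : L →+* L) (ϖ : L) = (ϖ : L) * (υ : L) := e1
  have e2' : (s.symm : L →+* L) (ϖ : L) = (ϖ : L) * (υ' : L) := e2
  rw [e1', e2', zpow_pow_swap, zpow_pow_swap, ← mul_zpow, ← mul_zpow, map_mul, map_mul]
  congr 1
  ring

/-- **Claim R, series form.** -/
theorem es_series (ϖ : W) (hϖ : Irreducible ϖ) (s : L ≃+* L)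
    (hsW : ∀ c : L, c ∈ W ↔ (s : L →+* L) c ∈ W)
    (hφ : ∀ y, resMap (s : L →+* L) W W hsW y = y ^ q)
    (ζ : Lˣ) (hζ : ζ ^ q = 1)
    {x y gβ gα : LaurentSeries L} (hx : x ∈ fracInt W) (hx0 : x ≠ 0)
    (hy : y ∈ fracInt W) (hy0 : y ≠ 0) (hgβ : gβ ∈ fracInt W)
    (h1 : qExpand L q gβ = qExpand L q y * ∏ b ∈ Finset.range q, tw (ζ ^ b) x)
    (h2 : qExpand L q gα = qExpand L q x * ∏ b ∈ Finset.range q, tw (ζ ^ b) y) :
    ∃ m : LaurentSeries L, m ∈ contentRing W ∧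
      coeffMap (s : L →+* L) x * (coeffMap (s.symm : L →+* L) x) ^ q * y ^ (q + 1) =
        (1 + HahnSeries.C ((ϖ : W) : L) * m) * (gβ * qExpand L q gα) := by
  obtain ⟨n₁, u₁, hu₁, hr₁, rfl⟩ := fracInt_exists_zpow_mul_unit W hϖ hx hx0
  obtain ⟨n₂, u₂, hu₂, hr₂, rfl⟩ := fracInt_exists_zpow_mul_unit W hϖ hy hy0
  have hC0 : (HahnSeries.C ((ϖ : W) : L) : LaurentSeries L) ≠ 0 := C_unif_ne_zero W hϖ
  set a₁ : LaurentSeries L := HahnSeries.C ((ϖ : W) : L) ^ n₁ with ha₁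
  set a₂ : LaurentSeries L := HahnSeries.C ((ϖ : W) : L) ^ n₂ with ha₂
  have ha₁0 : a₁ ≠ 0 := zpow_ne_zero _ hC0
  have ha₂0 : a₂ ≠ 0 := zpow_ne_zero _ hC0
  set r₁ := red W ⟨u₁, hu₁⟩ with hr₁def
  set r₂ := red W ⟨u₂, hu₂⟩ with hr₂def
  have U₁ : IsU W u₁ r₁ := ⟨hu₁, rfl, hr₁⟩
  have U₂ : IsU W u₂ r₂ := ⟨hu₂, rfl, hr₂⟩
  -- the coefficientwise Frobenius of the residue field
  have hres : resMap (s : L →+* L) W W hsW = frobenius (IsLocalRing.ResidueField W) q :=
    RingHom.ext fun y => by rw [hφ y]; rfl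
  have hS : ∀ {u : LaurentSeries L} {r : LaurentSeries (IsLocalRing.ResidueField W)},
      IsU W u r → IsU W (coeffMap (s : L →+* L) u)
        (coeffMap (frobenius (IsLocalRing.ResidueField W) q) r) := by
    intro u r h
    have h' := h.cmap (s : L →+* L) hsW
    rw [coeffMap_congr hres] at h'
    exact h'
  have hsW' : ∀ c : L, c ∈ W ↔ (s.symm : L →+* L) c ∈ W := by
    intro c
    have h := hsW (s.symm c)
    have e : (s : L →+* L) (s.symm c) = c := s.apply_symm_apply c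
    rw [e] at h
    exact h.symm
  -- `v₁ = S' u₁`
  set v₁ : LaurentSeries L := coeffMap (s.symm : L →+* L) u₁ with hv₁
  have V₁ := U₁.cmap (s.symm : L →+* L) hsW'
  rw [← hv₁] at V₁
  have hSv : coeffMap (s : L →+* L) v₁ = u₁ := by
    rw [hv₁, coeffMap_coeffMap]
    have e : (s : L →+* L).comp (s.symm : L →+* L) = RingHom.id L :=
      RingHom.ext fun c => s.apply_symm_apply c
    rw [coeffMap_congr e, coeffMap_id]
  have hF : coeffMap (frobenius (IsLocalRing.ResidueField W) q)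
      (coeffMap (resMap (s.symm : L →+* L) W W hsW') r₁) = r₁ := by
    have h := hS V₁
    rw [hSv] at h
    exact h.unique U₁
  have V₁q : IsU W (v₁ ^ q) (qExpand (IsLocalRing.ResidueField W) q r₁) := by
    have hpow : (coeffMap (resMap (s.symm : L →+* L) W W hsW') r₁) ^ q =
        qExpand (IsLocalRing.ResidueField W) q r₁ := by
      rw [Fermat.Agent.S37.Kronecker.pow_char_eq q, hF]
    have h := V₁.pow q
    rw [hpow] at h
    exact h
  -- the product of the twists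
  have hζb : ∀ b : ℕ, (ζ ^ b) ^ q = 1 := fun b => by
    rw [← pow_mul, mul_comm, pow_mul, hζ, one_pow]
  have hP : ∀ {u : LaurentSeries L} {r : LaurentSeries (IsLocalRing.ResidueField W)},
      IsU W u r → IsU W (∏ b ∈ Finset.range q, tw (ζ ^ b) u) (r ^ q) := fun h =>
    IsU.prod_range q fun b _ => h.twist (ζ ^ b) (hζb b)
  have htwa : ∀ (b : ℕ) (n : ℤ), tw (ζ ^ b) (HahnSeries.C ((ϖ : W) : L) ^ n) =
      HahnSeries.C ((ϖ : W) : L) ^ n := fun b n => by rw [map_zpow₀, tw_C']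
  have hPa : ∀ (n : ℤ) (u : LaurentSeries L),
      ∏ b ∈ Finset.range q, tw (ζ ^ b) (HahnSeries.C ((ϖ : W) : L) ^ n * u) =
        (HahnSeries.C ((ϖ : W) : L) ^ n) ^ q * ∏ b ∈ Finset.range q, tw (ζ ^ b) u := by
    intro n u
    have h : ∀ b ∈ Finset.range q, tw (ζ ^ b) (HahnSeries.C ((ϖ : W) : L) ^ n * u) =
        HahnSeries.C ((ϖ : W) : L) ^ n * tw (ζ ^ b) u := fun b _ => by rw [map_mul, htwa]
    rw [Finset.prod_congr rfl h, Finset.prod_mul_distrib, Finset.prod_const, Finset.card_range]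
  have hEa : ∀ n : ℤ, qExpand L q (HahnSeries.C ((ϖ : W) : L) ^ n) =
      HahnSeries.C ((ϖ : W) : L) ^ n := fun n => by rw [map_zpow₀, qExpand_C]
  -- the two norm identities
  have h1' : qExpand L q gβ = a₂ * a₁ ^ q *
      (qExpand L q u₂ * ∏ b ∈ Finset.range q, tw (ζ ^ b) u₁) := by
    rw [h1, map_mul, hEa, hPa]
    ring
  have h2' : qExpand L q gα = a₁ * qExpand L q u₁ *
      (a₂ ^ q * ∏ b ∈ Finset.range q, tw (ζ ^ b) u₂) := by
    rw [h2, map_mul, hEa, hPa]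
  -- `vβ`
  set vβ : LaurentSeries L := gβ / (a₂ * a₁ ^ q) with hvβ
  have hden : a₂ * a₁ ^ q ≠ 0 := mul_ne_zero ha₂0 (pow_ne_zero _ ha₁0)
  have hgβeq : gβ = a₂ * a₁ ^ q * vβ := by rw [hvβ, mul_div_cancel₀ _ hden]
  have hEden : qExpand L q (a₂ * a₁ ^ q) = a₂ * a₁ ^ q := by
    rw [map_mul, map_pow, hEa, hEa]
  have hEvβ : qExpand L q vβ = qExpand L q u₂ * ∏ b ∈ Finset.range q, tw (ζ ^ b) u₁ := by
    rw [hvβ, map_div₀, hEden, h1', mul_div_cancel_left₀ _ hden]
  have Uβ' : IsU W (qExpand L q vβ)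
      (qExpand (IsLocalRing.ResidueField W) q r₂ * r₁ ^ q) := by
    rw [hEvβ]
    exact (U₂.qExp q).mul (hP U₁)
  have hvβfrac : vβ ∈ fracInt W := by
    have hCf : (HahnSeries.C ((ϖ : W) : L) : LaurentSeries L) ∈ fracInt W := C_mem_fracInt W _
    exact div_mem hgβ (mul_mem (zpow_mem hCf _) (pow_mem (zpow_mem hCf _) _))
  have hr₁q : r₁ ^ q = qExpand (IsLocalRing.ResidueField W) q
      (coeffMap (frobenius (IsLocalRing.ResidueField W) q) r₁) :=
    Fermat.Agent.S37.Kronecker.pow_char_eq q r₁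
  have hFr₁ : coeffMap (frobenius (IsLocalRing.ResidueField W) q) r₁ ≠ 0 := (hS U₁).2.2
  have Uβ : IsU W vβ (r₂ * coeffMap (frobenius (IsLocalRing.ResidueField W) q) r₁) := by
    by_cases hmem : vβ ∈ contentRing W
    · refine ⟨hmem, ?_, mul_ne_zero hr₂ hFr₁⟩
      apply qExpand_injective (R := IsLocalRing.ResidueField W) q
      rw [← red_qExpand W q hmem, map_mul, ← hr₁q]
      obtain ⟨hm', e1, -⟩ := Uβ'
      exact e1
    · exfalso
      obtain ⟨hinv, hred⟩ := inv_mem_contentRing_of_not_mem W hvβfrac hmem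
      have h3 := Uβ'.inv
      rw [← map_inv₀] at h3
      obtain ⟨hm', e1, e2⟩ := h3
      have h4 := red_qExpand W q hinv
      rw [hred, map_zero] at h4
      exact e2 (e1.symm.trans h4)
  -- the constant factor
  obtain ⟨e, He, hce⟩ := const_factor W q ϖ hϖ s hsW hφ n₁
  rw [← ha₁] at hce
  -- the quotient
  have Uden : IsU W (vβ * (qExpand L q u₁ * ∏ b ∈ Finset.range q, tw (ζ ^ b) u₂))
      (r₂ * coeffMap (frobenius (IsLocalRing.ResidueField W) q) r₁ *
        (qExpand (IsLocalRing.ResidueField W) q r₁ * r₂ ^ q)) :=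
    Uβ.mul ((U₁.qExp q).mul (hP U₂))
  have Unum : IsU W (e * (coeffMap (s : L →+* L) u₁ * v₁ ^ q * u₂ ^ (q + 1)))
      (1 * (coeffMap (frobenius (IsLocalRing.ResidueField W) q) r₁ *
        qExpand (IsLocalRing.ResidueField W) q r₁ * r₂ ^ (q + 1))) :=
    He.mul (((hS U₁).mul V₁q).mul (U₂.pow (q + 1)))
  have UT := Unum.mul Uden.inv
  have hEr₁ : qExpand (IsLocalRing.ResidueField W) q r₁ ≠ 0 := (U₁.qExp q).2.2
  have hone : 1 * (coeffMap (frobenius (IsLocalRing.ResidueField W) q) r₁ *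
        qExpand (IsLocalRing.ResidueField W) q r₁ * r₂ ^ (q + 1)) *
      (r₂ * coeffMap (frobenius (IsLocalRing.ResidueField W) q) r₁ *
        (qExpand (IsLocalRing.ResidueField W) q r₁ * r₂ ^ q))⁻¹ = 1 := by
    field_simp
    ring
  rw [hone] at UT
  set T : LaurentSeries L := e * (coeffMap (s : L →+* L) u₁ * v₁ ^ q * u₂ ^ (q + 1)) *
    (vβ * (qExpand L q u₁ * ∏ b ∈ Finset.range q, tw (ζ ^ b) u₂))⁻¹ with hT
  -- `T - 1` is divisible by `ϖ`
  obtain ⟨hTmem, hTred, -⟩ := UT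
  have hker : red W (⟨T, hTmem⟩ - 1) = 0 := by rw [map_sub, hTred, map_one, sub_self]
  obtain ⟨g, hg⟩ := (red_eq_zero_iff W hϖ _).mp hker
  refine ⟨(g : LaurentSeries L), g.2, ?_⟩
  have hT1 : T = 1 + HahnSeries.C ((ϖ : W) : L) * (g : LaurentSeries L) := by
    have : T - 1 = HahnSeries.C ((ϖ : W) : L) * (g : LaurentSeries L) := hg
    linear_combination this
  rw [← hT1]
  have hden2 : vβ * (qExpand L q u₁ * ∏ b ∈ Finset.range q, tw (ζ ^ b) u₂) ≠ 0 := Uden.ne_zero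
  have hTmul : T * (vβ * (qExpand L q u₁ * ∏ b ∈ Finset.range q, tw (ζ ^ b) u₂)) =
      e * (coeffMap (s : L →+* L) u₁ * v₁ ^ q * u₂ ^ (q + 1)) := by
    rw [hT, inv_mul_cancel_right₀ hden2]
  rw [map_mul, map_mul]
  exact final_alg _ _ a₁ a₂ e _ v₁ u₂ vβ _ _ gβ _ T q hce hgβeq h2' hTmul

end Main

end Fermat.Agent.S35.EsSeries
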