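/-
S35 (route C, findings 222 / 230), package (C1), function-field part: **Claim R** for the
Eichler–Shimura quotient at a level.

Level currency: `L` a field with `[Algebra ℚ L]`, `W : ValuationSubring L` a discrete valuation
ring with uniformiser `ϖ` and residue characteristic `q`, `s : L ≃+* L` an automorphism
preserving `W` and inducing `y ↦ y ^ q` on the residue field (the restriction of a Frobenius
lift), `ζ : Lˣ` a `q`-th root of unity, `w` an Atkin–Lehner automorphism of `FF L (M * q)`.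

The two norms `N_β f, N_α f ∈ FF L M` enter as DATA `nB nA` with their `q`-expansion formulas

  `V nB = V (w f) * P f`   and   `V nA = V f * P (w f)`      (`IsNormPair`)

(`V = qExpand q`, `P z = ∏_{b < q} z(ζ^b q)`; for `nB = Algebra.norm` along `β` etc. these are
the level forms of `S37.Conjugates.norm_beta`), so that this file is independent of the
definition of the level norms.

* `esQ M q s w nB nA f = act s f * (act s⁻¹ f)^q * (w f)^(q+1) / (α nB * β nA)`;
* `esQ_raw` : `esQ = 1 + ϖ * m` with the `q`-expansion of `m` in `contentRing W`;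
* `esQ_w` : `w (esQ … nB nA f) = esQ … nA nB (w f)`;
* `esQ_both` : moreover the `q`-expansion of `w m` is in `contentRing W`;
* `gaussOne_esQ` : hence `GaussOne ϖ j (esQ …)` for EVERY `f ≠ 0`, given `(V3a)`;
* `atkinLehner_invol` : `w (w x) = x` for every Atkin–Lehner automorphism;
* `esQ_both_level`, `gaussOne_esQ_level` : the same at a level `(L, ι)` of `ℚ̄` for the
  restriction `s` of a Frobenius lift at `q`.
-/
import Mathlib
import Fermat.Agent.S35.EsSeries
import Fermat.Agent.S34.DDGauss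

set_option autoImplicit false

noncomputable section

namespace Fermat.Agent.S35.EsGauss

open ModularCurve Fermat.Agent.S18 Fermat.Agent.S18.Gauss Fermat.Agent.S24
  Fermat.Agent.S28 Fermat.Agent.S34.CoeffAut Fermat.Agent.S34.KummerStep
  Fermat.Agent.S37.LevelChange

variable {L : Type*} [Field L] [Algebra ℚ L]

/-! ### The quotient -/

/-- The Eichler–Shimura quotient `σf · (σ⁻¹f)^q · (wf)^(q+1) / (α(nB) · β(nA))`, with the two
norms `nB = N_β f`, `nA = N_α f` given as data. -/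
def esQ (M q : ℕ) [NeZero M] [NeZero q] (s : L ≃+* L) (w : FF L (M * q) ≃ₐ[L] FF L (M * q))
    (nB nA : FF L M) (f : FF L (M * q)) : FF L (M * q) :=
  act (M * q) s f * (act (M * q) s.symm f) ^ q * (w f) ^ (q + 1) /
    (heckeAlphaBar L M q nB * heckeBetaBar L M q nA)

theorem esQ_def (M q : ℕ) [NeZero M] [NeZero q] (s : L ≃+* L)
    (w : FF L (M * q) ≃ₐ[L] FF L (M * q)) (nB nA : FF L M) (f : FF L (M * q)) :
    esQ M q s w nB nA f = act (M * q) s f * (act (M * q) s.symm f) ^ q * (w f) ^ (q + 1) /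
      (heckeAlphaBar L M q nB * heckeBetaBar L M q nA) := rfl

theorem coe_esQ (M q : ℕ) [NeZero M] [NeZero q] (s : L ≃+* L)
    (w : FF L (M * q) ≃ₐ[L] FF L (M * q)) (nB nA : FF L M) (f : FF L (M * q)) :
    ((esQ M q s w nB nA f : FF L (M * q)) : LaurentSeries L) =
      coeffMap (s : L →+* L) (f : LaurentSeries L) *
          (coeffMap (s.symm : L →+* L) (f : LaurentSeries L)) ^ q *
          ((w f : FF L (M * q)) : LaurentSeries L) ^ (q + 1) /
        ((nB : LaurentSeries L) * qExpand L q (nA : LaurentSeries L)) := rfl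

theorem esQ_one (M q : ℕ) [NeZero M] [NeZero q] (s : L ≃+* L)
    (w : FF L (M * q) ≃ₐ[L] FF L (M * q)) : esQ M q s w 1 1 1 = 1 := by
  rw [esQ_def]
  simp

theorem esQ_mul (M q : ℕ) [NeZero M] [NeZero q] (s : L ≃+* L)
    (w : FF L (M * q) ≃ₐ[L] FF L (M * q)) (nB nA nB' nA' : FF L M) (f f' : FF L (M * q)) :
    esQ M q s w (nB * nB') (nA * nA') (f * f') = esQ M q s w nB nA f * esQ M q s w nB' nA' f' := by
  simp only [esQ_def, map_mul, mul_pow]
  rw [div_mul_div_comm]
  congr 1 <;> ring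

theorem esQ_inv (M q : ℕ) [NeZero M] [NeZero q] (s : L ≃+* L)
    (w : FF L (M * q) ≃ₐ[L] FF L (M * q)) (nB nA : FF L M) (f : FF L (M * q)) :
    esQ M q s w nB⁻¹ nA⁻¹ f⁻¹ = (esQ M q s w nB nA f)⁻¹ := by
  simp only [esQ_def, map_inv₀, inv_pow]
  rw [inv_div, ← mul_inv, ← mul_inv, ← mul_inv, inv_div_inv]

theorem esQ_div (M q : ℕ) [NeZero M] [NeZero q] (s : L ≃+* L)
    (w : FF L (M * q) ≃ₐ[L] FF L (M * q)) (nB nA nB' nA' : FF L M) (f f' : FF L (M * q)) :
    esQ M q s w (nB / nB') (nA / nA') (f / f') = esQ M q s w nB nA f / esQ M q s w nB' nA' f' := by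
  rw [div_eq_mul_inv, div_eq_mul_inv, div_eq_mul_inv, esQ_mul, esQ_inv, div_eq_mul_inv]

theorem esQ_pow (M q : ℕ) [NeZero M] [NeZero q] (s : L ≃+* L)
    (w : FF L (M * q) ≃ₐ[L] FF L (M * q)) (nB nA : FF L M) (f : FF L (M * q)) (n : ℕ) :
    esQ M q s w (nB ^ n) (nA ^ n) (f ^ n) = esQ M q s w nB nA f ^ n := by
  induction n with
  | zero => rw [pow_zero, pow_zero, pow_zero, pow_zero, esQ_one]
  | succ n ih => rw [pow_succ, pow_succ, pow_succ, pow_succ, esQ_mul, ih]

theorem esQ_ne_zero (M q : ℕ) [NeZero M] [NeZero q] (s : L ≃+* L)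
    (w : FF L (M * q) ≃ₐ[L] FF L (M * q)) {nB nA : FF L M} {f : FF L (M * q)}
    (hB : nB ≠ 0) (hA : nA ≠ 0) (hf : f ≠ 0) : esQ M q s w nB nA f ≠ 0 := by
  have h1 : act (M * q) s f ≠ 0 := (map_ne_zero_iff _ (act (M * q) s).injective).mpr hf
  have h2 : act (M * q) s.symm f ≠ 0 :=
    (map_ne_zero_iff _ (act (M * q) s.symm).injective).mpr hf
  have h3 : w f ≠ 0 := (map_ne_zero_iff _ w.injective).mpr hf
  have h4 : heckeAlphaBar L M q nB ≠ 0 :=
    (map_ne_zero_iff _ (heckeAlphaBar L M q).injective).mpr hB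
  have h5 : heckeBetaBar L M q nA ≠ 0 :=
    (map_ne_zero_iff _ (heckeBetaBar L M q).injective).mpr hA
  rw [esQ_def]
  exact div_ne_zero (mul_ne_zero (mul_ne_zero h1 (pow_ne_zero _ h2)) (pow_ne_zero _ h3))
    (mul_ne_zero h4 h5)

/-- the `q`-expansion formulas of the two norms of `f` (data form) -/
def IsNormPair (M q : ℕ) [NeZero M] [NeZero q] (ζ : Lˣ) (w : FF L (M * q) ≃ₐ[L] FF L (M * q))
    (f : FF L (M * q)) (nB nA : FF L M) : Prop :=
  qExpand L q (nB : LaurentSeries L) =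
      qExpand L q ((w f : FF L (M * q)) : LaurentSeries L) *
        ∏ b ∈ Finset.range q, tw (ζ ^ b) (f : LaurentSeries L) ∧
    qExpand L q (nA : LaurentSeries L) =
      qExpand L q (f : LaurentSeries L) *
        ∏ b ∈ Finset.range q, tw (ζ ^ b) ((w f : FF L (M * q)) : LaurentSeries L)

theorem IsNormPair.swap {M q : ℕ} [NeZero M] [NeZero q] {ζ : Lˣ}
    {w : FF L (M * q) ≃ₐ[L] FF L (M * q)} {f : FF L (M * q)} {nB nA : FF L M}
    (h : IsNormPair M q ζ w f nB nA) (hww : w (w f) = f) : IsNormPair M q ζ w (w f) nA nB := by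
  refine ⟨?_, ?_⟩
  · rw [hww]; exact h.2
  · rw [hww]; exact h.1

/-- `w ∘ ES = ES ∘ w` (the two norms are exchanged) -/
theorem esQ_w (M q : ℕ) [NeZero M] [NeZero q] (s : L ≃+* L)
    (w : FF L (M * q) ≃ₐ[L] FF L (M * q))
    (hw : ∀ x : FF L (M * q), act (M * q) s (w x) = w (act (M * q) s x))
    (hw' : ∀ x : FF L (M * q), act (M * q) s.symm (w x) = w (act (M * q) s.symm x))
    (hα : (w : FF L (M * q) →ₐ[L] FF L (M * q)).comp (heckeAlphaBar L M q) = heckeBetaBar L M q)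
    (hβ : (w : FF L (M * q) →ₐ[L] FF L (M * q)).comp (heckeBetaBar L M q) = heckeAlphaBar L M q)
    (nB nA : FF L M) (f : FF L (M * q)) :
    w (esQ M q s w nB nA f) = esQ M q s w nA nB (w f) := by
  have h1 : ∀ x : FF L M, w (heckeAlphaBar L M q x) = heckeBetaBar L M q x :=
    fun x => AlgHom.congr_fun hα x
  have h2 : ∀ x : FF L M, w (heckeBetaBar L M q x) = heckeAlphaBar L M q x :=
    fun x => AlgHom.congr_fun hβ x
  rw [esQ_def, esQ_def, map_div₀, map_mul, map_mul, map_mul, map_pow, map_pow, h1, h2, hw, hw',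
    mul_comm (heckeBetaBar L M q nB)]

/-! ### `ES ≡ 1` modulo `ϖ` at the `q`-expansion Gauss valuation -/

/-- if `w e₁ = e₂`, `e₁ = 1 + c m`, `e₂ = 1 + c m'` with `c ≠ 0` a constant, then `w m = m'` -/
theorem map_eq_of_one_add {N : ℕ} (w : FF L N ≃ₐ[L] FF L N) {c : L}
    (hc : algebraMap L (FF L N) c ≠ 0) {e₁ e₂ m m' : FF L N} (h1 : w e₁ = e₂)
    (e : e₁ = 1 + algebraMap L (FF L N) c * m) (e' : e₂ = 1 + algebraMap L (FF L N) c * m') :
    w m = m' := by
  have h2 : w e₁ = 1 + algebraMap L (FF L N) c * w m := by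
    rw [e]
    exact ((w : FF L N ≃+* FF L N).map_add _ _).trans
      (congrArg₂ (· + ·) (w : FF L N ≃+* FF L N).map_one
        (((w : FF L N ≃+* FF L N).map_mul _ _).trans (congrArg (· * w m) (w.commutes c))))
  have h4 : algebraMap L (FF L N) c * w m = algebraMap L (FF L N) c * m' := by
    have := h2.symm.trans (h1.trans e')
    exact add_left_cancel this
  exact mul_left_cancel₀ hc h4

section Raw

variable (W : ValuationSubring L) [IsDiscreteValuationRing W] (M q : ℕ) [NeZero M] [NeZero q]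
  [hq : Fact q.Prime] [CharP (IsLocalRing.ResidueField W) q]

/-- **Claim R, raw form at the `q`-expansion valuation**: `ES(f) = 1 + ϖ m` with `m` of
`W`-integral `q`-expansion, for every `f ≠ 0`. -/
theorem esQ_raw (ϖ : W) (hϖ : Irreducible ϖ) (s : L ≃+* L)
    (hsW : ∀ c : L, c ∈ W ↔ (s : L →+* L) c ∈ W)
    (hφ : ∀ y, resMap (s : L →+* L) W W hsW y = y ^ q)
    (ζ : Lˣ) (hζ : ζ ^ q = 1) (w : FF L (M * q) ≃ₐ[L] FF L (M * q))
    {f : FF L (M * q)} (hf : f ≠ 0) {nB nA : FF L M} (hN : IsNormPair M q ζ w f nB nA) :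
    ∃ m : FF L (M * q), (m : LaurentSeries L) ∈ contentRing W ∧
      esQ M q s w nB nA f = 1 + algebraMap L (FF L (M * q)) (ϖ : L) * m := by
  have hf0 : (f : LaurentSeries L) ≠ 0 := fun h => hf (Subtype.ext h)
  have hwf : w f ≠ 0 := (map_ne_zero_iff _ w.injective).mpr hf
  have hwf0 : ((w f : FF L (M * q)) : LaurentSeries L) ≠ 0 := fun h => hwf (Subtype.ext h)
  obtain ⟨m₁, hm₁, e₁⟩ := Fermat.Agent.S35.EsSeries.es_series W q ϖ hϖ s hsW hφ ζ hζ
    (Fermat.Agent.S34.DDGauss.coe_mem_fracInt W (M * q) f) hf0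
    (Fermat.Agent.S34.DDGauss.coe_mem_fracInt W (M * q) (w f)) hwf0
    (Fermat.Agent.S34.DDGauss.coe_mem_fracInt W M nB) hN.1 hN.2
  have hϖ0 : (ϖ : L) ≠ 0 := fun h => hϖ.ne_zero (Subtype.ext h)
  have hϖF : algebraMap L (FF L (M * q)) (ϖ : L) ≠ 0 := (map_ne_zero _).mpr hϖ0
  have hcoe : ((algebraMap L (FF L (M * q)) (ϖ : L) : FF L (M * q)) : LaurentSeries L) =
      HahnSeries.C (ϖ : L) := by
    show algebraMap L (LaurentSeries L) (ϖ : L) = HahnSeries.C (ϖ : L)
    rw [algebraMap_laurentSeries_eq_single]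
    rfl
  have hC0 : HahnSeries.C (ϖ : L) ≠ (0 : LaurentSeries L) := by
    rw [← hcoe]
    exact fun h => hϖF (Subtype.ext h)
  -- the denominator does not vanish
  have hs1 : act (M * q) s f ≠ 0 := (map_ne_zero_iff _ (act (M * q) s).injective).mpr hf
  have hs2 : act (M * q) s.symm f ≠ 0 :=
    (map_ne_zero_iff _ (act (M * q) s.symm).injective).mpr hf
  have hnum : coeffMap (s : L →+* L) (f : LaurentSeries L) *
      (coeffMap (s.symm : L →+* L) (f : LaurentSeries L)) ^ q *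
      ((w f : FF L (M * q)) : LaurentSeries L) ^ (q + 1) ≠ 0 := by
    have h1 : coeffMap (s : L →+* L) (f : LaurentSeries L) ≠ 0 := by
      rw [← coe_act]
      exact fun h => hs1 (Subtype.ext h)
    have h2 : coeffMap (s.symm : L →+* L) (f : LaurentSeries L) ≠ 0 := by
      rw [← coe_act]
      exact fun h => hs2 (Subtype.ext h)
    exact mul_ne_zero (mul_ne_zero h1 (pow_ne_zero _ h2)) (pow_ne_zero _ hwf0)
  have hden : (nB : LaurentSeries L) * qExpand L q (nA : LaurentSeries L) ≠ 0 := by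
    intro h
    rw [h, mul_zero] at e₁
    exact hnum e₁
  refine ⟨(esQ M q s w nB nA f - 1) / algebraMap L (FF L (M * q)) (ϖ : L), ?_, ?_⟩
  · have h2 : (((esQ M q s w nB nA f - 1) / algebraMap L (FF L (M * q)) (ϖ : L) :
        FF L (M * q)) : LaurentSeries L) =
        (((esQ M q s w nB nA f : FF L (M * q)) : LaurentSeries L) - 1) /
          HahnSeries.C (ϖ : L) := by
      rw [← hcoe]
      rfl
    rw [h2, coe_esQ, e₁, mul_div_cancel_right₀ _ hden, add_sub_cancel_left,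
      mul_div_cancel_left₀ _ hC0]
    exact hm₁
  · rw [mul_div_cancel₀ _ hϖF]
    ring

/-- **Claim R, raw form at both Gauss valuations**: `ES(f) = 1 + ϖ m` with `m` and `w m` of
`W`-integral `q`-expansion. -/
theorem esQ_both (ϖ : W) (hϖ : Irreducible ϖ) (s : L ≃+* L)
    (hsW : ∀ c : L, c ∈ W ↔ (s : L →+* L) c ∈ W)
    (hφ : ∀ y, resMap (s : L →+* L) W W hsW y = y ^ q)
    (ζ : Lˣ) (hζ : ζ ^ q = 1) (w : FF L (M * q) ≃ₐ[L] FF L (M * q))
    (hw : ∀ x : FF L (M * q), act (M * q) s (w x) = w (act (M * q) s x))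
    (hw' : ∀ x : FF L (M * q), act (M * q) s.symm (w x) = w (act (M * q) s.symm x))
    (hα : (w : FF L (M * q) →ₐ[L] FF L (M * q)).comp (heckeAlphaBar L M q) = heckeBetaBar L M q)
    (hβ : (w : FF L (M * q) →ₐ[L] FF L (M * q)).comp (heckeBetaBar L M q) = heckeAlphaBar L M q)
    {f : FF L (M * q)} (hf : f ≠ 0) (hww : w (w f) = f) {nB nA : FF L M}
    (hN : IsNormPair M q ζ w f nB nA) :
    ∃ m : FF L (M * q), (m : LaurentSeries L) ∈ contentRing W ∧
      ((w m : FF L (M * q)) : LaurentSeries L) ∈ contentRing W ∧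
      esQ M q s w nB nA f = 1 + algebraMap L (FF L (M * q)) (ϖ : L) * m := by
  obtain ⟨m, hm, e⟩ := esQ_raw W M q ϖ hϖ s hsW hφ ζ hζ w hf hN
  have hwf : w f ≠ 0 := (map_ne_zero_iff _ w.injective).mpr hf
  obtain ⟨m', hm', e'⟩ := esQ_raw W M q ϖ hϖ s hsW hφ ζ hζ w hwf (hN.swap hww)
  have hϖ0 : (ϖ : L) ≠ 0 := fun h => hϖ.ne_zero (Subtype.ext h)
  have hϖF : algebraMap L (FF L (M * q)) (ϖ : L) ≠ 0 := (map_ne_zero _).mpr hϖ0
  refine ⟨m, hm, ?_, e⟩
  have h1 : w (esQ M q s w nB nA f) = esQ M q s w nA nB (w f) :=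
    esQ_w M q s w hw hw' hα hβ nB nA f
  have h3 : w m = m' := map_eq_of_one_add w hϖF h1 e e'
  rw [h3]
  exact hm'

/-- **Claim R**: the Eichler–Shimura quotient of EVERY nonzero function is `≡ 1` modulo `π` in
the Gauss ring, provided the elements integral at both Gauss valuations are Gauss-integral
(`hV`; the `(V3a)` direction of the two-valuation theorem). -/
theorem gaussOne_esQ (ϖ : W) (hϖ : Irreducible ϖ) (s : L ≃+* L)
    (hsW : ∀ c : L, c ∈ W ↔ (s : L →+* L) c ∈ W)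
    (hφ : ∀ y, resMap (s : L →+* L) W W hsW y = y ^ q)
    (ζ : Lˣ) (hζ : ζ ^ q = 1) (w : FF L (M * q) ≃ₐ[L] FF L (M * q))
    (hw : ∀ x : FF L (M * q), act (M * q) s (w x) = w (act (M * q) s x))
    (hw' : ∀ x : FF L (M * q), act (M * q) s.symm (w x) = w (act (M * q) s.symm x))
    (hα : (w : FF L (M * q) →ₐ[L] FF L (M * q)).comp (heckeAlphaBar L M q) = heckeBetaBar L M q)
    (hβ : (w : FF L (M * q) →ₐ[L] FF L (M * q)).comp (heckeBetaBar L M q) = heckeAlphaBar L M q)
    (j : FF L (M * q))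
    (hV : ∀ x : FF L (M * q), (x : LaurentSeries L) ∈ contentRing W →
      ((w x : FF L (M * q)) : LaurentSeries L) ∈ contentRing W → Endgame.InC ϖ j x)
    {f : FF L (M * q)} (hf : f ≠ 0) (hww : w (w f) = f) {nB nA : FF L M}
    (hN : IsNormPair M q ζ w f nB nA) : GaussOne ϖ j (esQ M q s w nB nA f) := by
  obtain ⟨m, hm, hwm, e⟩ := esQ_both W M q ϖ hϖ s hsW hφ ζ hζ w hw hw' hα hβ hf hww hN
  refine gaussOne_of_inC ⟨m, hV m hm hwm, ?_⟩
  rw [e, add_sub_cancel_left]
  rfl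

end Raw

/-! ### Every Atkin–Lehner automorphism is an involution -/

/-- an `L`-algebra automorphism of `FF L (M * q)` exchanging `α` and `β` is an involution -/
theorem atkinLehner_invol (M q : ℕ) [NeZero M] [NeZero q] (hq : q.Prime)
    (w : FF L (M * q) ≃ₐ[L] FF L (M * q))
    (hα : (w : FF L (M * q) →ₐ[L] FF L (M * q)).comp (heckeAlphaBar L M q) = heckeBetaBar L M q)
    (hβ : (w : FF L (M * q) →ₐ[L] FF L (M * q)).comp (heckeBetaBar L M q) = heckeAlphaBar L M q)
    (x : FF L (M * q)) : w (w x) = x := by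
  have hM : M ≠ 0 := NeZero.ne M
  have h1 : ∀ y : FF L M, w (heckeAlphaBar L M q y) = heckeBetaBar L M q y :=
    fun y => AlgHom.congr_fun hα y
  have h2 : ∀ y : FF L M, w (heckeBetaBar L M q y) = heckeAlphaBar L M q y :=
    fun y => AlgHom.congr_fun hβ y
  have key : ((w : FF L (M * q) →ₐ[L] FF L (M * q)).comp
      (w : FF L (M * q) →ₐ[L] FF L (M * q))) = AlgHom.id L (FF L (M * q)) := by
    apply Fermat.Agent.S37.AtkinLehner.algHom_ext_FF
    intro d hd y hy
    show w (w y) = y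
    by_cases hdM : d ∣ M
    · obtain ⟨y', hy'⟩ : ∃ y' : FF L M, (y' : LaurentSeries L) =
          Fermat.Agent.S37.AtkinLehner.jser L d :=
        ⟨⟨_, Fermat.Agent.S37.AtkinLehner.jser_mem L M d hM hdM⟩, rfl⟩
      have hy2 : y = heckeAlphaBar L M q y' := by
        apply Subtype.ext
        rw [coe_heckeAlphaBar, hy, hy']
      rw [hy2, h1, h2]
    · -- `d = d' * q` with `d' ∣ M`
      have hqd : q ∣ d := by
        by_contra hqd
        have hcop : Nat.Coprime d q := (Nat.Coprime.symm ((Nat.Prime.coprime_iff_not_dvd hq).mpr hqd))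
        exact hdM (hcop.dvd_of_dvd_mul_right hd)
      obtain ⟨d', rfl⟩ := hqd
      have hd' : d' ∣ M := by
        have h3 : q * d' ∣ q * M := by rw [mul_comm q M]; exact hd
        exact (Nat.mul_dvd_mul_iff_left hq.pos).mp h3
      have hd0 : d' ≠ 0 := fun h => hM (by rw [h] at hd'; exact Nat.eq_zero_of_zero_dvd hd')
      have : NeZero d' := ⟨hd0⟩
      obtain ⟨y', hy'⟩ : ∃ y' : FF L M, (y' : LaurentSeries L) =
          Fermat.Agent.S37.AtkinLehner.jser L d' :=
        ⟨⟨_, Fermat.Agent.S37.AtkinLehner.jser_mem L M d' hM hd'⟩, rfl⟩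
      have hy2 : y = heckeBetaBar L M q y' := by
        apply Subtype.ext
        rw [coe_heckeBetaBar, hy, hy']
        have : NeZero (q * d') := ⟨mul_ne_zero hq.ne_zero hd0⟩
        rw [Fermat.Agent.S37.AtkinLehner.jser_eq, Fermat.Agent.S37.AtkinLehner.jser_eq, coeffEmb,
          ← ModularCurve.coeffMap_qExpand, qExpand_qExpand]
      rw [hy2, h2, h1]
  exact AlgHom.congr_fun key x

/-! ### At a level of `ℚ̄`, for the restriction of a Frobenius lift -/

section Level

local notation "Qb" => AlgebraicClosure ℚ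

variable (A : ValuationSubring Qb) (ι : L →+* Qb) {σ : Qb ≃ₐ[ℚ] Qb} (s : L ≃+* L)
  (hs : ∀ c : L, ι (s c) = σ (ι c))

include hs

/-- `esQ_raw` for the restriction `s` of a Frobenius lift `σ` of `A` at `q`. -/
theorem esQ_raw_level [IsDiscreteValuationRing ↥(A.comap ι)] (M q : ℕ) [NeZero M] [NeZero q]
    [Fact q.Prime] [CharP (IsLocalRing.ResidueField ↥(A.comap ι)) q]
    (hσ : A.IsFrobeniusAt σ q) {ϖ : ↥(A.comap ι)} (hϖ : Irreducible ϖ)
    (ζ : Lˣ) (hζ : ζ ^ q = 1) (w : FF L (M * q) ≃ₐ[L] FF L (M * q))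
    {f : FF L (M * q)} (hf : f ≠ 0) {nB nA : FF L M} (hN : IsNormPair M q ζ w f nB nA) :
    ∃ m : FF L (M * q), (m : LaurentSeries L) ∈ contentRing (A.comap ι) ∧
      esQ M q s w nB nA f = 1 + algebraMap L (FF L (M * q)) (ϖ : L) * m :=
  esQ_raw (A.comap ι) M q ϖ hϖ s
    (Fermat.Agent.S34.GalLevel.mem_comap_iff_of_mem_decomposition A ι s hs
      hσ.mem_decompositionSubgroup)
    (Fermat.Agent.S34.GalLevel.resMap_of_isFrobeniusAt A ι s hs hσ) ζ hζ w hf hN

/-- `esQ_both` for the restriction `s` of a Frobenius lift `σ` of `A` at `q` and an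
Atkin–Lehner automorphism `w` of `FF L (M * q)`. -/
theorem esQ_both_level [IsDiscreteValuationRing ↥(A.comap ι)] (M q : ℕ) [NeZero M] [NeZero q]
    [hq : Fact q.Prime] [CharP (IsLocalRing.ResidueField ↥(A.comap ι)) q]
    (hσ : A.IsFrobeniusAt σ q) {ϖ : ↥(A.comap ι)} (hϖ : Irreducible ϖ)
    (ζ : Lˣ) (hζ : ζ ^ q = 1) (w : FF L (M * q) ≃ₐ[L] FF L (M * q))
    (hα : (w : FF L (M * q) →ₐ[L] FF L (M * q)).comp (heckeAlphaBar L M q) = heckeBetaBar L M q)
    (hβ : (w : FF L (M * q) →ₐ[L] FF L (M * q)).comp (heckeBetaBar L M q) = heckeAlphaBar L M q)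
    {f : FF L (M * q)} (hf : f ≠ 0) {nB nA : FF L M} (hN : IsNormPair M q ζ w f nB nA) :
    ∃ m : FF L (M * q), (m : LaurentSeries L) ∈ contentRing (A.comap ι) ∧
      ((w m : FF L (M * q)) : LaurentSeries L) ∈ contentRing (A.comap ι) ∧
      esQ M q s w nB nA f = 1 + algebraMap L (FF L (M * q)) (ϖ : L) * m :=
  esQ_both (A.comap ι) M q ϖ hϖ s
    (Fermat.Agent.S34.GalLevel.mem_comap_iff_of_mem_decomposition A ι s hs
      hσ.mem_decompositionSubgroup)
    (Fermat.Agent.S34.GalLevel.resMap_of_isFrobeniusAt A ι s hs hσ) ζ hζ w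
    (fun x => act_atkinLehner M q hq.out s w hα hβ x)
    (fun x => act_atkinLehner M q hq.out s.symm w hα hβ x) hα hβ hf
    (atkinLehner_invol M q hq.out w hα hβ f) hN

/-- **Claim R at a level**: `GaussOne ϖ j (ES f)` for every `f ≠ 0` of `FF L (M * q)`, `s` the
restriction of a Frobenius lift at `q`, given the `(V3a)` direction `hV` of the two-valuation
theorem for the Atkin–Lehner automorphism `w`. -/
theorem gaussOne_esQ_level [IsDiscreteValuationRing ↥(A.comap ι)] (M q : ℕ) [NeZero M]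
    [NeZero q] [hq : Fact q.Prime] [CharP (IsLocalRing.ResidueField ↥(A.comap ι)) q]
    (hσ : A.IsFrobeniusAt σ q) {ϖ : ↥(A.comap ι)} (hϖ : Irreducible ϖ)
    (ζ : Lˣ) (hζ : ζ ^ q = 1) (w : FF L (M * q) ≃ₐ[L] FF L (M * q))
    (hα : (w : FF L (M * q) →ₐ[L] FF L (M * q)).comp (heckeAlphaBar L M q) = heckeBetaBar L M q)
    (hβ : (w : FF L (M * q) →ₐ[L] FF L (M * q)).comp (heckeBetaBar L M q) = heckeAlphaBar L M q)
    (j : FF L (M * q))
    (hV : ∀ x : FF L (M * q), (x : LaurentSeries L) ∈ contentRing (A.comap ι) →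
      ((w x : FF L (M * q)) : LaurentSeries L) ∈ contentRing (A.comap ι) → Endgame.InC ϖ j x)
    {f : FF L (M * q)} (hf : f ≠ 0) {nB nA : FF L M} (hN : IsNormPair M q ζ w f nB nA) :
    GaussOne ϖ j (esQ M q s w nB nA f) :=
  gaussOne_esQ (A.comap ι) M q ϖ hϖ s
    (Fermat.Agent.S34.GalLevel.mem_comap_iff_of_mem_decomposition A ι s hs
      hσ.mem_decompositionSubgroup)
    (Fermat.Agent.S34.GalLevel.resMap_of_isFrobeniusAt A ι s hs hσ) ζ hζ w
    (fun x => act_atkinLehner M q hq.out s w hα hβ x)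
    (fun x => act_atkinLehner M q hq.out s.symm w hα hβ x) hα hβ j hV hf
    (atkinLehner_invol M q hq.out w hα hβ f) hN

end Level

end Fermat.Agent.S35.EsGauss
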