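/-
S35 (route C), norm package at an ARBITRARY level `L`.

`S37.Conjugates.norm_beta` computes the `q`-expansion of the norm `N_β : F_{N l} → F_N` over
`ℚ̄`.  Route C needs the Eichler–Shimura quotient `ES(g)` for functions `g` that are built AFTER
the level `L` has been fixed (the local generators `γ₀`), hence the norms along `α` and `β` of
level-`L` functions, with their `q`-expansion formulas, at the level `L` itself.

For a field `L ⊆ ℚ̄` containing a primitive `l`-th root of unity `ζ`, an Atkin–Lehner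
automorphism `w` of `FF L (N * l)` (`w ∘ α = β`, `w ∘ β = α`) and `x : FF L (N * l)`:

* `w_w`              : `w (w x) = x`;
* `norm_beta_level`  : `(N_β x)(q^l) = (w x)(q^l) * ∏_{b < l} x(ζ^b q)`;
* `norm_alpha_level` : `(N_α x)(q^l) = x(q^l) * ∏_{b < l} (w x)(ζ^b q)`;
* `norm_alpha_eq_norm_beta` : `N_α x = N_β (w x)`;
* `bc_atkinLehner`, `bc_norm_beta`, `bc_norm_alpha` : the Atkin–Lehner automorphisms and the two
  norms commute with the change of level `bc ι : FF L M → FF K M`.

The two series identities are exactly the hypotheses `h1`, `h2` of `S35.EsSeries.es_series`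
(with `gβ = N_β x`, `gα = N_α x`, `y = w x`).
-/
import Mathlib
import Fermat.Agent.S34.DegreeL

set_option autoImplicit false
set_option linter.style.haveILetI false
set_option linter.unusedSectionVars false

namespace Fermat.Agent.S35.NormLevel

open ModularCurve AlgebraicCurve IntermediateField Polynomial Fermat.Agent.S24
open Fermat.Agent.S37.AtkinLehner

variable {L : Type*} [Field L] [Algebra ℚ L]

/-! ### The Atkin–Lehner automorphism is an involution -/

/-- the value of an Atkin–Lehner automorphism on a generator `j(q^d)` -/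
theorem w_jser (N l : ℕ) [NeZero N] [NeZero l] (hl : l.Prime)
    (w : FF L (N * l) ≃ₐ[L] FF L (N * l))
    (hwα : (w : FF L (N * l) →ₐ[L] FF L (N * l)).comp (heckeAlphaBar L N l) = heckeBetaBar L N l)
    (hwβ : (w : FF L (N * l) →ₐ[L] FF L (N * l)).comp (heckeBetaBar L N l) = heckeAlphaBar L N l)
    (d : ℕ) (hd : d ∣ N * l) (y : FF L (N * l)) (hy : (y : LaurentSeries L) = jser L d) :
    (∃ y' : FF L N, y = heckeBetaBar L N l y' ∧ w y = heckeAlphaBar L N l y') ∨
      (∃ y' : FF L N, y = heckeAlphaBar L N l y' ∧ w y = heckeBetaBar L N l y') := by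
  have hN : N ≠ 0 := NeZero.ne N
  by_cases hld : l ∣ d
  · left
    obtain ⟨c, rfl⟩ := hld
    have hc : c ∣ N := by
      rw [mul_comm N l] at hd
      exact Nat.dvd_of_mul_dvd_mul_left hl.pos hd
    have hc0 : c ≠ 0 := fun h => hN (by rw [h] at hc; exact Nat.eq_zero_of_zero_dvd hc)
    have : NeZero c := ⟨hc0⟩
    let y' : FF L N := ⟨jser L c, jser_mem L N c hN hc⟩
    have hy' : y = heckeBetaBar L N l y' := by
      apply Subtype.ext
      rw [hy, coe_heckeBetaBar]
      show jser L (l * c) = qExpand L l (jser L c)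
      rw [jser_eq, jser_eq, coeffEmb, ← Fermat.Agent.S28.coeffMap_qExpand, qExpand_qExpand]
    refine ⟨y', hy', ?_⟩
    rw [hy']
    exact AlgHom.congr_fun hwβ y'
  · right
    have hc : d ∣ N := (Nat.Coprime.dvd_of_dvd_mul_right
      ((Nat.Prime.coprime_iff_not_dvd hl).mpr hld).symm hd)
    let y' : FF L N := ⟨jser L d, jser_mem L N d hN hc⟩
    have hy' : y = heckeAlphaBar L N l y' := by
      apply Subtype.ext
      rw [hy, coe_heckeAlphaBar]
    refine ⟨y', hy', ?_⟩
    rw [hy']
    exact AlgHom.congr_fun hwα y'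

/-- **An Atkin–Lehner automorphism is an involution.** -/
theorem w_w (N l : ℕ) [NeZero N] [NeZero l] (hl : l.Prime)
    (w : FF L (N * l) ≃ₐ[L] FF L (N * l))
    (hwα : (w : FF L (N * l) →ₐ[L] FF L (N * l)).comp (heckeAlphaBar L N l) = heckeBetaBar L N l)
    (hwβ : (w : FF L (N * l) →ₐ[L] FF L (N * l)).comp (heckeBetaBar L N l) = heckeAlphaBar L N l)
    (x : FF L (N * l)) : w (w x) = x := by
  have key : ((w : FF L (N * l) →ₐ[L] FF L (N * l)).comp
      (w : FF L (N * l) →ₐ[L] FF L (N * l))) = AlgHom.id L (FF L (N * l)) := by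
    apply algHom_ext_FF
    intro d hd y hy
    rw [AlgHom.comp_apply, AlgHom.id_apply]
    rcases w_jser N l hl w hwα hwβ d hd y hy with ⟨y', h1, h2⟩ | ⟨y', h1, h2⟩
    · show w (w y) = y
      rw [h2, h1]
      exact AlgHom.congr_fun hwα y'
    · show w (w y) = y
      rw [h2, h1]
      exact AlgHom.congr_fun hwβ y'
  exact AlgHom.congr_fun key x

/-! ### The conjugate embeddings at the level `L` -/

/-- the inclusion of the function field into the field of Laurent series -/
noncomputable def coeHom (M : ℕ) : FF L M →+* LaurentSeries L :=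
  algebraMap (FF L M) (LaurentSeries L)

theorem coeHom_apply (M : ℕ) (x : FF L M) : coeHom M x = (x : LaurentSeries L) := rfl

/-- the base embedding `F_N → L((q))`, `g ↦ g(q^ℓ)` (the inclusion of `β(F_N)`) -/
noncomputable def baseHom (N l : ℕ) [NeZero N] [NeZero l] : FF L N →+* LaurentSeries L :=
  (coeHom (N * l)).comp (heckeBetaBar L N l).toRingHom

theorem baseHom_apply (N l : ℕ) [NeZero N] [NeZero l] (g : FF L N) :
    baseHom N l g = qExpand L l (g : LaurentSeries L) :=
  rfl

/-- the twisted embeddings `x(q) ↦ x(ζ^b q)` -/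
noncomputable def rot (N l : ℕ) (ζ : Lˣ) (b : ℕ) : FF L (N * l) →+* LaurentSeries L :=
  (Fermat.Agent.S28.tw (ζ ^ b)).comp (coeHom (N * l))

theorem rot_apply (N l : ℕ) (ζ : Lˣ) (b : ℕ) (x : FF L (N * l)) :
    rot N l ζ b x = Fermat.Agent.S28.tw (ζ ^ b) (x : LaurentSeries L) := rfl

theorem rot_beta (N l : ℕ) [NeZero N] [NeZero l] (ζ : Lˣ) (hζ : ζ ^ l = 1)
    (b : ℕ) (g : FF L N) :
    rot N l ζ b (heckeBetaBar L N l g) = baseHom N l g := by
  rw [rot_apply, coe_heckeBetaBar, baseHom_apply]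
  exact Fermat.Agent.S28.tw_qExpand_of_pow_eq_one (ζ ^ b) l
    (by rw [← pow_mul, mul_comm, pow_mul, hζ, one_pow]) _

/-- the extra embedding `σ_∞ = (q ↦ q^ℓ) ∘ w` -/
noncomputable def sigmaInf (N l : ℕ) [NeZero l] (w : FF L (N * l) ≃ₐ[L] FF L (N * l)) :
    FF L (N * l) →+* LaurentSeries L :=
  (qExpand L l).comp ((coeHom (N * l)).comp (w : FF L (N * l) →+* FF L (N * l)))

theorem sigmaInf_apply (N l : ℕ) [NeZero l] (w : FF L (N * l) ≃ₐ[L] FF L (N * l))
    (x : FF L (N * l)) :
    sigmaInf N l w x = qExpand L l ((w x : FF L (N * l)) : LaurentSeries L) := rfl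

theorem sigmaInf_beta (N l : ℕ) [NeZero N] [NeZero l] (w : FF L (N * l) ≃ₐ[L] FF L (N * l))
    (hwβ : (w : FF L (N * l) →ₐ[L] FF L (N * l)).comp (heckeBetaBar L N l) = heckeAlphaBar L N l)
    (g : FF L N) :
    sigmaInf N l w (heckeBetaBar L N l g) = baseHom N l g := by
  have h : w (heckeBetaBar L N l g) = heckeAlphaBar L N l g := AlgHom.congr_fun hwβ g
  rw [sigmaInf_apply, h, coe_heckeAlphaBar, baseHom_apply]

theorem sigmaInf_alpha (N l : ℕ) [NeZero N] [NeZero l] (w : FF L (N * l) ≃ₐ[L] FF L (N * l))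
    (hwα : (w : FF L (N * l) →ₐ[L] FF L (N * l)).comp (heckeAlphaBar L N l) = heckeBetaBar L N l)
    (f : FF L N) :
    sigmaInf N l w (heckeAlphaBar L N l f) =
      qExpand L l (qExpand L l (f : LaurentSeries L)) := by
  have h : w (heckeAlphaBar L N l f) = heckeBetaBar L N l f := AlgHom.congr_fun hwα f
  rw [sigmaInf_apply, h, coe_heckeBetaBar]

/-- the family of the `ℓ + 1` conjugate embeddings -/
noncomputable def conjEmb (N l : ℕ) [NeZero l] (w : FF L (N * l) ≃ₐ[L] FF L (N * l)) (ζ : Lˣ) :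
    Option (Fin l) → (FF L (N * l) →+* LaurentSeries L)
  | none => sigmaInf N l w
  | some b => rot N l ζ b

/-- the coefficient of `q⁻¹` of a twisted conjugate of `j` -/
theorem rot_jBC_coeff (N l : ℕ) [NeZero N] [NeZero l] (ζ : Lˣ) (b : ℕ) :
    (rot N l ζ b (jBC L (N * l))).coeff (-1) = (((ζ ^ b)⁻¹ : Lˣ) : L) := by
  rw [rot_apply, coe_jBC, Fermat.Agent.S28.tw_coeff, coeffEmb, coeffMap_coeff, coeff_jq_neg_one,
    map_one, mul_one, zpow_neg_one]

theorem sigmaInf_jBC_coeff (N l : ℕ) [NeZero N] [NeZero l] (hl : l.Prime)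
    (w : FF L (N * l) ≃ₐ[L] FF L (N * l))
    (hwα : (w : FF L (N * l) →ₐ[L] FF L (N * l)).comp (heckeAlphaBar L N l) =
      heckeBetaBar L N l) :
    (sigmaInf N l w (jBC L (N * l))).coeff (-1) = 0 := by
  rw [← Fermat.Agent.S34.DegreeL.heckeAlphaBar_jBC_level L N l, sigmaInf_alpha N l w hwα]
  apply qExpand_coeff_of_not_dvd
  intro h
  have h1 : ((l : ℤ)) ∣ 1 := (dvd_neg.mp h)
  have h2 : (l : ℤ) = 1 := Int.eq_one_of_dvd_one (by positivity) h1
  have h3 : l = 1 := by exact_mod_cast h2
  exact hl.one_lt.ne' h3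

theorem conjEmb_injective (N l : ℕ) [NeZero N] [NeZero l] (hl : l.Prime)
    (w : FF L (N * l) ≃ₐ[L] FF L (N * l))
    (hwα : (w : FF L (N * l) →ₐ[L] FF L (N * l)).comp (heckeAlphaBar L N l) = heckeBetaBar L N l)
    (ζ : Lˣ) (hζ : IsPrimitiveRoot ζ l) :
    Function.Injective (conjEmb N l w ζ) := by
  have key : ∀ (b : Fin l), conjEmb N l w ζ none ≠ conjEmb N l w ζ (some b) := by
    intro b h
    have h1 := congrArg (fun χ : FF L (N * l) →+* LaurentSeries L =>
      (χ (jBC L (N * l))).coeff (-1)) h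
    simp only [conjEmb] at h1
    rw [sigmaInf_jBC_coeff N l hl w hwα, rot_jBC_coeff] at h1
    exact Units.ne_zero _ h1.symm
  intro i j hij
  rcases i with _ | b <;> rcases j with _ | b'
  · rfl
  · exact absurd hij (key b')
  · exact absurd hij.symm (key b)
  · have h1 := congrArg (fun χ : FF L (N * l) →+* LaurentSeries L =>
      (χ (jBC L (N * l))).coeff (-1)) hij
    simp only [conjEmb] at h1
    rw [rot_jBC_coeff, rot_jBC_coeff] at h1
    have h2 : ζ ^ (b : ℕ) = ζ ^ (b' : ℕ) := by
      have := Units.ext h1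
      exact inv_injective this
    have h3 := hζ.pow_inj b.2 b'.2 h2
    exact congrArg some (Fin.ext h3)

theorem conjEmb_beta (N l : ℕ) [NeZero N] [NeZero l] (w : FF L (N * l) ≃ₐ[L] FF L (N * l))
    (hwβ : (w : FF L (N * l) →ₐ[L] FF L (N * l)).comp (heckeBetaBar L N l) = heckeAlphaBar L N l)
    (ζ : Lˣ) (hζ : ζ ^ l = 1) (i : Option (Fin l)) (g : FF L N) :
    conjEmb N l w ζ i (heckeBetaBar L N l g) = baseHom N l g := by
  rcases i with _ | b
  · exact sigmaInf_beta N l w hwβ g
  · exact rot_beta N l ζ hζ b g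

-- Over the concrete function fields the default instance search for `Module.Free` explores
-- expensive branches once a `Module.Finite` instance is in scope; this makes it immediate.
attribute [local instance 10000] Module.Free.of_divisionRing

/-! ### The norm along `β` -/

/-- **The norm along `β` at the level `L`**, `q`-expansion form:
`(N_β x)(q^l) = (w x)(q^l) * ∏_{b < l} x(ζ^b q)`. -/
theorem norm_beta_level (ι : L →+* AlgebraicClosure ℚ) (N l : ℕ) [NeZero N] [NeZero l]
    (hl : l.Prime) (hNl : ¬ l ∣ N) (w : FF L (N * l) ≃ₐ[L] FF L (N * l))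
    (hwα : (w : FF L (N * l) →ₐ[L] FF L (N * l)).comp (heckeAlphaBar L N l) = heckeBetaBar L N l)
    (hwβ : (w : FF L (N * l) →ₐ[L] FF L (N * l)).comp (heckeBetaBar L N l) = heckeAlphaBar L N l)
    (ζ : Lˣ) (hζ : IsPrimitiveRoot ζ l) (x : FF L (N * l)) :
    letI := algebraAlong (heckeBetaBar L N l)
    qExpand L l ((Algebra.norm (FF L N) x : FF L N) : LaurentSeries L) =
      qExpand L l ((w x : FF L (N * l)) : LaurentSeries L) *
        ∏ b ∈ Finset.range l, Fermat.Agent.S28.tw (ζ ^ b) (x : LaurentSeries L) := by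
  letI := algebraAlong (heckeBetaBar L N l)
  haveI : FiniteDimensional (FF L N) (FF L (N * l)) :=
    (Fermat.Agent.S34.DegreeL.finrank_beta_of_bar L ι N l hl hNl).1
  haveI : CharZero L := algebraRat.charZero L
  haveI : CharZero (FF L N) := charZero_of_injective_algebraMap (algebraMap L (FF L N)).injective
  have hcard : Fintype.card (Option (Fin l)) = Module.finrank (FF L N) (FF L (N * l)) := by
    rw [Fintype.card_option, Fintype.card_fin]
    exact (Fermat.Agent.S34.DegreeL.finrank_beta_of_bar L ι N l hl hNl).2.symm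
  have hσ : ∀ (i : Option (Fin l)) (g : FF L N),
      conjEmb N l w ζ i (algebraMap (FF L N) (FF L (N * l)) g) = baseHom N l g :=
    fun i g => conjEmb_beta N l w hwβ ζ hζ.pow_eq_one i g
  have key := Fermat.Agent.S37.Conjugates.norm_map_eq_prod (baseHom N l) (conjEmb N l w ζ) hσ
    (conjEmb_injective N l hl w hwα ζ hζ) hcard x
  rw [Fintype.prod_option] at key
  rw [← Fin.prod_univ_eq_prod_range (fun b => Fermat.Agent.S28.tw (ζ ^ b) (x : LaurentSeries L)) l]
  exact key

/-! ### The norm along `α` -/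

/-- **The norm along `α` at the level `L`**, `q`-expansion form:
`(N_α x)(q^l) = x(q^l) * ∏_{b < l} (w x)(ζ^b q)`. -/
theorem norm_alpha_level (ι : L →+* AlgebraicClosure ℚ) (N l : ℕ) [NeZero N] [NeZero l]
    (hl : l.Prime) (hNl : ¬ l ∣ N) (w : FF L (N * l) ≃ₐ[L] FF L (N * l))
    (hwα : (w : FF L (N * l) →ₐ[L] FF L (N * l)).comp (heckeAlphaBar L N l) = heckeBetaBar L N l)
    (hwβ : (w : FF L (N * l) →ₐ[L] FF L (N * l)).comp (heckeBetaBar L N l) = heckeAlphaBar L N l)
    (ζ : Lˣ) (hζ : IsPrimitiveRoot ζ l) (x : FF L (N * l)) :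
    letI := algebraAlong (heckeAlphaBar L N l)
    qExpand L l ((Algebra.norm (FF L N) x : FF L N) : LaurentSeries L) =
      qExpand L l (x : LaurentSeries L) *
        ∏ b ∈ Finset.range l, Fermat.Agent.S28.tw (ζ ^ b) ((w x : FF L (N * l)) : LaurentSeries L) := by
  letI := algebraAlong (heckeAlphaBar L N l)
  haveI : FiniteDimensional (FF L N) (FF L (N * l)) :=
    (Fermat.Agent.S34.DegreeL.finrank_alpha_of_bar L ι N l hl hNl).1
  haveI : CharZero L := algebraRat.charZero L
  haveI : CharZero (FF L N) := charZero_of_injective_algebraMap (algebraMap L (FF L N)).injective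
  have hcard : Fintype.card (Option (Fin l)) = Module.finrank (FF L N) (FF L (N * l)) := by
    rw [Fintype.card_option, Fintype.card_fin]
    exact (Fermat.Agent.S34.DegreeL.finrank_alpha_of_bar L ι N l hl hNl).2.symm
  let τ : Option (Fin l) → (FF L (N * l) →+* LaurentSeries L) := fun i =>
    (conjEmb N l w ζ i).comp (w : FF L (N * l) →+* FF L (N * l))
  have hτ : ∀ i y, τ i y = conjEmb N l w ζ i (w y) := fun i y => rfl
  have hσ : ∀ (i : Option (Fin l)) (g : FF L N),
      τ i (algebraMap (FF L N) (FF L (N * l)) g) = baseHom N l g := by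
    intro i g
    have h : w (heckeAlphaBar L N l g) = heckeBetaBar L N l g := AlgHom.congr_fun hwα g
    have h0 : algebraMap (FF L N) (FF L (N * l)) g = heckeAlphaBar L N l g := rfl
    rw [hτ, h0, h]
    exact conjEmb_beta N l w hwβ ζ hζ.pow_eq_one i g
  have hinj : Function.Injective τ := by
    intro i j hij
    apply conjEmb_injective N l hl w hwα ζ hζ
    refine RingHom.ext fun y => ?_
    have h := congrArg (fun χ : FF L (N * l) →+* LaurentSeries L => χ (w.symm y)) hij
    simp only [hτ] at h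
    rw [AlgEquiv.apply_symm_apply] at h
    exact h
  have key := Fermat.Agent.S37.Conjugates.norm_map_eq_prod (baseHom N l) τ hσ hinj hcard x
  rw [Fintype.prod_option] at key
  rw [← Fin.prod_univ_eq_prod_range
    (fun b => Fermat.Agent.S28.tw (ζ ^ b) ((w x : FF L (N * l)) : LaurentSeries L)) l]
  have e1 : τ none x = qExpand L l (x : LaurentSeries L) := by
    rw [hτ]
    show sigmaInf N l w (w x) = _
    rw [sigmaInf_apply, w_w N l hl w hwα hwβ x]
  rw [e1] at key
  exact key

/-- `N_α x = N_β (w x)`. -/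
theorem norm_alpha_eq_norm_beta (ι : L →+* AlgebraicClosure ℚ) (N l : ℕ) [NeZero N] [NeZero l]
    (hl : l.Prime) (hNl : ¬ l ∣ N) (w : FF L (N * l) ≃ₐ[L] FF L (N * l))
    (hwα : (w : FF L (N * l) →ₐ[L] FF L (N * l)).comp (heckeAlphaBar L N l) = heckeBetaBar L N l)
    (hwβ : (w : FF L (N * l) →ₐ[L] FF L (N * l)).comp (heckeBetaBar L N l) = heckeAlphaBar L N l)
    (ζ : Lˣ) (hζ : IsPrimitiveRoot ζ l) (x : FF L (N * l)) :
    (letI := algebraAlong (heckeAlphaBar L N l); (Algebra.norm (FF L N) x : FF L N)) =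
      (letI := algebraAlong (heckeBetaBar L N l); (Algebra.norm (FF L N) (w x) : FF L N)) := by
  have h1 := norm_alpha_level ι N l hl hNl w hwα hwβ ζ hζ x
  have h2 := norm_beta_level ι N l hl hNl w hwα hwβ ζ hζ (w x)
  rw [w_w N l hl w hwα hwβ x] at h2
  have h3 := h1.trans h2.symm
  exact (baseHom N l).injective h3

/-! ### Change of level -/

section BaseChange

variable {K : Type*} [Field K] [Algebra ℚ K] (τ : L →+* K)

/-- the change of level commutes with `α` -/
theorem bc_alpha (N l : ℕ) [NeZero N] [NeZero l] (x : FF L N) :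
    CoeffBC.bc τ (modularFunctionFieldFull (N * l)) (heckeAlphaBar L N l x) =
      heckeAlphaBar K N l (CoeffBC.bc τ (modularFunctionFieldFull N) x) := by
  apply Subtype.ext
  rw [CoeffBC.coe_bc, coe_heckeAlphaBar, coe_heckeAlphaBar, CoeffBC.coe_bc]

/-- the change of level commutes with `β` -/
theorem bc_beta (N l : ℕ) [NeZero N] [NeZero l] (x : FF L N) :
    CoeffBC.bc τ (modularFunctionFieldFull (N * l)) (heckeBetaBar L N l x) =
      heckeBetaBar K N l (CoeffBC.bc τ (modularFunctionFieldFull N) x) := by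
  apply Subtype.ext
  rw [CoeffBC.coe_bc, coe_heckeBetaBar, coe_heckeBetaBar, CoeffBC.coe_bc]
  exact Fermat.Agent.S28.coeffMap_qExpand τ l _

/-- the change of level of a generator `j(q^d)` -/
theorem coe_bc_jser (M : ℕ) (d : ℕ) (y : FF L M) (hy : (y : LaurentSeries L) = jser L d) :
    ((CoeffBC.bc τ (modularFunctionFieldFull M) y : FF K M) : LaurentSeries K) = jser K d := by
  rw [CoeffBC.coe_bc, hy]
  by_cases hd : d = 0
  · rw [jser, jser, dif_pos hd, dif_pos hd, map_zero]
  · have : NeZero d := ⟨hd⟩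
    rw [jser_eq, jser_eq]
    exact CoeffBC.coeffMap_coeffEmb' τ _

/-- **The change of level commutes with the Atkin–Lehner automorphisms.** -/
theorem bc_atkinLehner (N l : ℕ) [NeZero N] [NeZero l] (hl : l.Prime)
    (w : FF L (N * l) ≃ₐ[L] FF L (N * l))
    (hwα : (w : FF L (N * l) →ₐ[L] FF L (N * l)).comp (heckeAlphaBar L N l) = heckeBetaBar L N l)
    (hwβ : (w : FF L (N * l) →ₐ[L] FF L (N * l)).comp (heckeBetaBar L N l) = heckeAlphaBar L N l)
    (w' : FF K (N * l) ≃ₐ[K] FF K (N * l))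
    (hwα' : (w' : FF K (N * l) →ₐ[K] FF K (N * l)).comp (heckeAlphaBar K N l) =
      heckeBetaBar K N l)
    (hwβ' : (w' : FF K (N * l) →ₐ[K] FF K (N * l)).comp (heckeBetaBar K N l) =
      heckeAlphaBar K N l)
    (x : FF L (N * l)) :
    CoeffBC.bc τ (modularFunctionFieldFull (N * l)) (w x) =
      w' (CoeffBC.bc τ (modularFunctionFieldFull (N * l)) x) := by
  let ψ₁ : FF L (N * l) →+* FF K (N * l) :=
    (CoeffBC.bc τ (modularFunctionFieldFull (N * l))).comp
      ((w : FF L (N * l) →ₐ[L] FF L (N * l)) : FF L (N * l) →+* FF L (N * l))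
  let ψ₂ : FF L (N * l) →+* FF K (N * l) :=
    ((w' : FF K (N * l) →ₐ[K] FF K (N * l)) : FF K (N * l) →+* FF K (N * l)).comp
      (CoeffBC.bc τ (modularFunctionFieldFull (N * l)))
  have h₁ : ∀ y, ψ₁ y = CoeffBC.bc τ (modularFunctionFieldFull (N * l)) (w y) := fun y => rfl
  have h₂ : ∀ y, ψ₂ y = w' (CoeffBC.bc τ (modularFunctionFieldFull (N * l)) y) := fun y => rfl
  let E : IntermediateField L (FF L (N * l)) :=
    (RingHom.eqLocusField ψ₁ ψ₂).toIntermediateField (fun a => by
      show ψ₁ (algebraMap L _ a) = ψ₂ (algebraMap L _ a)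
      rw [h₁, h₂, AlgEquiv.commutes, CoeffBC.bc_algebraMap, AlgEquiv.commutes])
  have hE : E = ⊤ := by
    apply eq_top_of_jser_mem
    intro d hd y hy
    show ψ₁ y = ψ₂ y
    rw [h₁, h₂]
    rcases w_jser N l hl w hwα hwβ d hd y hy with ⟨y', e1, e2⟩ | ⟨y', e1, e2⟩
    · rw [e2, e1, bc_alpha, bc_beta]
      exact (AlgHom.congr_fun hwβ' _).symm
    · rw [e2, e1, bc_alpha, bc_beta]
      exact (AlgHom.congr_fun hwα' _).symm
  have hx : x ∈ E := by rw [hE]; exact IntermediateField.mem_top
  exact hx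

/-- **The norm along `β` commutes with the change of level.** -/
theorem bc_norm_beta (ι : K →+* AlgebraicClosure ℚ) (N l : ℕ) [NeZero N] [NeZero l]
    (hl : l.Prime) (hNl : ¬ l ∣ N) (ζ : Lˣ) (hζ : IsPrimitiveRoot ζ l) (x : FF L (N * l)) :
    CoeffBC.bc τ (modularFunctionFieldFull N)
        (letI := algebraAlong (heckeBetaBar L N l); (Algebra.norm (FF L N) x : FF L N)) =
      (letI := algebraAlong (heckeBetaBar K N l);
        (Algebra.norm (FF K N) (CoeffBC.bc τ (modularFunctionFieldFull (N * l)) x) : FF K N)) := by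
  obtain ⟨w, hwα, hwβ⟩ := exists_atkinLehner_of_emb
    (Fermat.Agent.S34.DegreeL.toComplex L (ι.comp τ)) N l hl hNl
  obtain ⟨w', hwα', hwβ'⟩ := exists_atkinLehner_of_emb
    (Fermat.Agent.S34.DegreeL.toComplex K ι) N l hl hNl
  have hζ' : IsPrimitiveRoot (Units.map (τ : L →* K) ζ) l :=
    hζ.map_of_injective (Units.map_injective τ.injective)
  have h1 := norm_beta_level (ι.comp τ) N l hl hNl w hwα hwβ ζ hζ x
  have h2 := norm_beta_level ι N l hl hNl w' hwα' hwβ' (Units.map (τ : L →* K) ζ) hζ'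
    (CoeffBC.bc τ (modularFunctionFieldFull (N * l)) x)
  apply (baseHom N l).injective
  rw [baseHom_apply, baseHom_apply, CoeffBC.coe_bc, ← Fermat.Agent.S28.coeffMap_qExpand]
  refine Eq.trans ?_ h2.symm
  rw [← bc_atkinLehner τ N l hl w hwα hwβ w' hwα' hwβ' x, CoeffBC.coe_bc, CoeffBC.coe_bc,
    ← Fermat.Agent.S28.coeffMap_qExpand]
  refine (congrArg (coeffMap τ) h1).trans ?_
  rw [map_mul, map_prod]
  congr 1
  refine Finset.prod_congr rfl fun b _ => ?_
  rw [Fermat.Agent.S28.coeffMap_tw, map_pow]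

/-- **The norm along `α` commutes with the change of level.** -/
theorem bc_norm_alpha (ι : K →+* AlgebraicClosure ℚ) (N l : ℕ) [NeZero N] [NeZero l]
    (hl : l.Prime) (hNl : ¬ l ∣ N) (ζ : Lˣ) (hζ : IsPrimitiveRoot ζ l) (x : FF L (N * l)) :
    CoeffBC.bc τ (modularFunctionFieldFull N)
        (letI := algebraAlong (heckeAlphaBar L N l); (Algebra.norm (FF L N) x : FF L N)) =
      (letI := algebraAlong (heckeAlphaBar K N l);
        (Algebra.norm (FF K N) (CoeffBC.bc τ (modularFunctionFieldFull (N * l)) x) : FF K N)) := by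
  obtain ⟨w, hwα, hwβ⟩ := exists_atkinLehner_of_emb
    (Fermat.Agent.S34.DegreeL.toComplex L (ι.comp τ)) N l hl hNl
  obtain ⟨w', hwα', hwβ'⟩ := exists_atkinLehner_of_emb
    (Fermat.Agent.S34.DegreeL.toComplex K ι) N l hl hNl
  have hζ' : IsPrimitiveRoot (Units.map (τ : L →* K) ζ) l :=
    hζ.map_of_injective (Units.map_injective τ.injective)
  rw [norm_alpha_eq_norm_beta (ι.comp τ) N l hl hNl w hwα hwβ ζ hζ x,
    norm_alpha_eq_norm_beta ι N l hl hNl w' hwα' hwβ' _ hζ'
      (CoeffBC.bc τ (modularFunctionFieldFull (N * l)) x),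
    ← bc_atkinLehner τ N l hl w hwα hwβ w' hwα' hwβ' x]
  exact bc_norm_beta τ ι N l hl hNl ζ hζ (w x)

end BaseChange

end Fermat.Agent.S35.NormLevel
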