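/-
S35 (route C): the SHARED DEFINITIONS of the two norms at a level, with their calculus.

`normA M q`, `normB M q : FF L (M * q) →* FF L M` are the norms along the two degeneracy maps
`heckeAlphaBar L M q` (inclusion) and `heckeBetaBar L M q` (`q ↦ q^q`); they are
`EsOrd.normAlong` of these maps (by `rfl`), so no `letI` leaks to consumers.

* `normB_spec`, `normA_spec` : the `q`-expansion formulas (= `h1`, `h2` of `EsSeries.es_series`);
* `normA_eq_normB_w`, `normA_w`, `normB_w` : `N_α x = N_β (w x)`, `N_α (w x) = N_β x`,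
  `N_β (w x) = N_α x` (pure algebra, no root of unity);
* `bc_normA`, `bc_normB` : compatibility with the change of level;
* `act_normA`, `act_normB` : compatibility with the coefficientwise action of `s : L ≃+* L`.
-/
import Mathlib
import Fermat.Agent.S35.NormLevel
import Fermat.Agent.S35.EsOrd
import Fermat.Agent.S34.CoeffAut

set_option autoImplicit false
set_option linter.style.haveILetI false
set_option linter.unusedSectionVars false

namespace Fermat.Agent.S35.NormDef

open ModularCurve AlgebraicCurve Fermat.Agent.S24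
open Fermat.Agent.S37.AtkinLehner Fermat.Agent.S35.NormLevel

variable {L : Type*} [Field L] [Algebra ℚ L]

/-- the norm along `α` (the inclusion `FF L M → FF L (M * q)`) -/
noncomputable def normA (M q : ℕ) [NeZero M] [NeZero q] : FF L (M * q) →* FF L M :=
  EsOrd.normAlong (heckeAlphaBar L M q)

/-- the norm along `β` (`q ↦ q^q`) -/
noncomputable def normB (M q : ℕ) [NeZero M] [NeZero q] : FF L (M * q) →* FF L M :=
  EsOrd.normAlong (heckeBetaBar L M q)

theorem normA_apply (M q : ℕ) [NeZero M] [NeZero q] (x : FF L (M * q)) :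
    normA M q x = (letI := algebraAlong (heckeAlphaBar L M q); Algebra.norm (FF L M) x) := rfl

theorem normB_apply (M q : ℕ) [NeZero M] [NeZero q] (x : FF L (M * q)) :
    normB M q x = (letI := algebraAlong (heckeBetaBar L M q); Algebra.norm (FF L M) x) := rfl

theorem normA_eq_normAlong (M q : ℕ) [NeZero M] [NeZero q] :
    (normA M q : FF L (M * q) →* FF L M) = EsOrd.normAlong (heckeAlphaBar L M q) := rfl

theorem normB_eq_normAlong (M q : ℕ) [NeZero M] [NeZero q] :
    (normB M q : FF L (M * q) →* FF L M) = EsOrd.normAlong (heckeBetaBar L M q) := rfl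

theorem normA_ne_zero (M q : ℕ) [NeZero M] [NeZero q] {x : FF L (M * q)} (hx : x ≠ 0) :
    normA M q x ≠ 0 := EsOrd.normAlong_ne_zero _ hx

theorem normB_ne_zero (M q : ℕ) [NeZero M] [NeZero q] {x : FF L (M * q)} (hx : x ≠ 0) :
    normB M q x ≠ 0 := EsOrd.normAlong_ne_zero _ hx

/-! ### The `q`-expansion formulas -/

/-- `(N_β x)(q^q) = (w x)(q^q) * ∏_{b < q} x(ζ^b q)`. -/
theorem normB_spec (ι : L →+* AlgebraicClosure ℚ) (M q : ℕ) [NeZero M] [NeZero q]
    (hq : q.Prime) (hMq : ¬ q ∣ M) (w : FF L (M * q) ≃ₐ[L] FF L (M * q))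
    (hwα : (w : FF L (M * q) →ₐ[L] FF L (M * q)).comp (heckeAlphaBar L M q) = heckeBetaBar L M q)
    (hwβ : (w : FF L (M * q) →ₐ[L] FF L (M * q)).comp (heckeBetaBar L M q) = heckeAlphaBar L M q)
    (ζ : Lˣ) (hζ : IsPrimitiveRoot ζ q) (x : FF L (M * q)) :
    qExpand L q ((normB M q x : FF L M) : LaurentSeries L) =
      qExpand L q ((w x : FF L (M * q)) : LaurentSeries L) *
        ∏ b ∈ Finset.range q, Fermat.Agent.S28.tw (ζ ^ b) (x : LaurentSeries L) :=
  norm_beta_level ι M q hq hMq w hwα hwβ ζ hζ x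

/-- `(N_α x)(q^q) = x(q^q) * ∏_{b < q} (w x)(ζ^b q)`. -/
theorem normA_spec (ι : L →+* AlgebraicClosure ℚ) (M q : ℕ) [NeZero M] [NeZero q]
    (hq : q.Prime) (hMq : ¬ q ∣ M) (w : FF L (M * q) ≃ₐ[L] FF L (M * q))
    (hwα : (w : FF L (M * q) →ₐ[L] FF L (M * q)).comp (heckeAlphaBar L M q) = heckeBetaBar L M q)
    (hwβ : (w : FF L (M * q) →ₐ[L] FF L (M * q)).comp (heckeBetaBar L M q) = heckeAlphaBar L M q)
    (ζ : Lˣ) (hζ : IsPrimitiveRoot ζ q) (x : FF L (M * q)) :
    qExpand L q ((normA M q x : FF L M) : LaurentSeries L) =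
      qExpand L q (x : LaurentSeries L) *
        ∏ b ∈ Finset.range q,
          Fermat.Agent.S28.tw (ζ ^ b) ((w x : FF L (M * q)) : LaurentSeries L) :=
  norm_alpha_level ι M q hq hMq w hwα hwβ ζ hζ x

/-! ### The Atkin–Lehner automorphism exchanges the two norms -/

/-- `N_α x = N_β (w x)` (pure algebra: `w` is an isomorphism of `FF L M`-algebras from the
`α`-structure to the `β`-structure). -/
theorem normA_eq_normB_w (M q : ℕ) [NeZero M] [NeZero q] (w : FF L (M * q) ≃ₐ[L] FF L (M * q))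
    (hwα : (w : FF L (M * q) →ₐ[L] FF L (M * q)).comp (heckeAlphaBar L M q) = heckeBetaBar L M q)
    (x : FF L (M * q)) : normA M q x = normB M q (w x) := by
  have he : RingHom.comp
      (@algebraMap (FF L M) (FF L (M * q)) _ _ (algebraAlong (heckeBetaBar L M q)))
        ((RingEquiv.refl (FF L M) : FF L M ≃+* FF L M) : FF L M →+* FF L M) =
      RingHom.comp ((w.toRingEquiv : FF L (M * q) ≃+* FF L (M * q)) :
          FF L (M * q) →+* FF L (M * q))
        (@algebraMap (FF L M) (FF L (M * q)) _ _ (algebraAlong (heckeAlphaBar L M q))) := by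
    refine RingHom.ext fun g => ?_
    show heckeBetaBar L M q g = w (heckeAlphaBar L M q g)
    exact (AlgHom.congr_fun hwα g).symm
  have key := @Algebra.norm_eq_of_equiv_equiv (FF L M) (FF L (M * q)) (FF L M) (FF L (M * q))
    _ _ _ _ (algebraAlong (heckeAlphaBar L M q)) (algebraAlong (heckeBetaBar L M q))
    (RingEquiv.refl (FF L M)) w.toRingEquiv he x
  exact key

/-- `N_α (w x) = N_β x`. -/
theorem normA_w (M q : ℕ) [NeZero M] [NeZero q] (hq : q.Prime)
    (w : FF L (M * q) ≃ₐ[L] FF L (M * q))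
    (hwα : (w : FF L (M * q) →ₐ[L] FF L (M * q)).comp (heckeAlphaBar L M q) = heckeBetaBar L M q)
    (hwβ : (w : FF L (M * q) →ₐ[L] FF L (M * q)).comp (heckeBetaBar L M q) = heckeAlphaBar L M q)
    (x : FF L (M * q)) : normA M q (w x) = normB M q x := by
  rw [normA_eq_normB_w M q w hwα (w x), w_w M q hq w hwα hwβ x]

/-- `N_β (w x) = N_α x`. -/
theorem normB_w (M q : ℕ) [NeZero M] [NeZero q] (w : FF L (M * q) ≃ₐ[L] FF L (M * q))
    (hwα : (w : FF L (M * q) →ₐ[L] FF L (M * q)).comp (heckeAlphaBar L M q) = heckeBetaBar L M q)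
    (x : FF L (M * q)) : normB M q (w x) = normA M q x :=
  (normA_eq_normB_w M q w hwα x).symm

/-! ### Change of level and the coefficientwise action -/

section BaseChange

variable {K : Type*} [Field K] [Algebra ℚ K] (τ : L →+* K)

/-- the norm along `β` commutes with the change of level -/
theorem bc_normB (ι : K →+* AlgebraicClosure ℚ) (M q : ℕ) [NeZero M] [NeZero q]
    (hq : q.Prime) (hMq : ¬ q ∣ M) (ζ : Lˣ) (hζ : IsPrimitiveRoot ζ q) (x : FF L (M * q)) :
    CoeffBC.bc τ (modularFunctionFieldFull M) (normB M q x) =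
      normB M q (CoeffBC.bc τ (modularFunctionFieldFull (M * q)) x) :=
  bc_norm_beta τ ι M q hq hMq ζ hζ x

/-- the norm along `α` commutes with the change of level -/
theorem bc_normA (ι : K →+* AlgebraicClosure ℚ) (M q : ℕ) [NeZero M] [NeZero q]
    (hq : q.Prime) (hMq : ¬ q ∣ M) (ζ : Lˣ) (hζ : IsPrimitiveRoot ζ q) (x : FF L (M * q)) :
    CoeffBC.bc τ (modularFunctionFieldFull M) (normA M q x) =
      normA M q (CoeffBC.bc τ (modularFunctionFieldFull (M * q)) x) :=
  bc_norm_alpha τ ι M q hq hMq ζ hζ x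

end BaseChange

/-- the norm along `β` commutes with the coefficientwise action -/
theorem act_normB (ι : L →+* AlgebraicClosure ℚ) (M q : ℕ) [NeZero M] [NeZero q]
    (hq : q.Prime) (hMq : ¬ q ∣ M) (ζ : Lˣ) (hζ : IsPrimitiveRoot ζ q) (s : L ≃+* L)
    (x : FF L (M * q)) :
    Fermat.Agent.S34.CoeffAut.act M s (normB M q x) =
      normB M q (Fermat.Agent.S34.CoeffAut.act (M * q) s x) :=
  bc_norm_beta (s : L →+* L) ι M q hq hMq ζ hζ x

/-- the norm along `α` commutes with the coefficientwise action -/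
theorem act_normA (ι : L →+* AlgebraicClosure ℚ) (M q : ℕ) [NeZero M] [NeZero q]
    (hq : q.Prime) (hMq : ¬ q ∣ M) (ζ : Lˣ) (hζ : IsPrimitiveRoot ζ q) (s : L ≃+* L)
    (x : FF L (M * q)) :
    Fermat.Agent.S34.CoeffAut.act M s (normA M q x) =
      normA M q (Fermat.Agent.S34.CoeffAut.act (M * q) s x) :=
  bc_norm_alpha (s : L →+* L) ι M q hq hMq ζ hζ x

end Fermat.Agent.S35.NormDef
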