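/-
S35 (route C): the Eichler–Shimura operator `esL` AT A LEVEL, as a genuine operator on
`FF L (M * q)` — the join of `S35.EsGauss` (the quotient `esQ` with the two norms as data and
Claim R) with `S35.NormDef` (the level norms `normA`, `normB` and their `q`-expansions).

  `esL M q s w y = act s y * (act s⁻¹ y)^q * (w y)^(q+1) / (α (normB y) * β (normA y))`

* `esL_one`, `esL_zero`, `esL_mul`, `esL_inv`, `esL_div`, `esL_pow`, `esL_div_pow`, `esL_ne_zero`:
  `esL` is multiplicative (unconditionally);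
* `esL_w` : `w (esL y) = esL (w y)`;
* `isNormPair_norm` : the level norms satisfy `EsGauss.IsNormPair`;
* `esL_raw_level`, `esL_both_level`, `gaussOne_esL_level` : Claim R for `esL`, for EVERY `f ≠ 0`;
* `bc_esL` : after the change of level to `ℚ̄`, `esL` is `EsOrd.esBar` (place currency).
-/
import Mathlib
import Fermat.Agent.S35.NormDef
import Fermat.Agent.S35.EsGauss
import Fermat.Agent.S34.GRat

set_option autoImplicit false
set_option linter.style.haveILetI false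
set_option linter.unusedSectionVars false

noncomputable section

namespace Fermat.Agent.S35.EsNorm

open ModularCurve AlgebraicCurve Fermat.Agent.S18 Fermat.Agent.S18.Gauss Fermat.Agent.S24
  Fermat.Agent.S34.CoeffAut Fermat.Agent.S34.KummerStep
  Fermat.Agent.S35.NormDef Fermat.Agent.S35.EsGauss

/-! ### The norm along a map and inverses -/

section Abstract

variable {K F F' : Type*} [Field K] [Field F] [Field F'] [Algebra K F] [Algebra K F']

/-- `normAlong` commutes with inverses (also at `0`, in every case). -/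
theorem normAlong_inv (φ : F' →ₐ[K] F) (y : F) :
    EsOrd.normAlong φ y⁻¹ = (EsOrd.normAlong φ y)⁻¹ := by
  by_cases hy : y = 0
  · subst hy
    rw [inv_zero]
    letI := algebraAlong φ
    show Algebra.norm F' (0 : F) = (Algebra.norm F' (0 : F))⁻¹
    by_cases hfin : Module.Finite F' F
    · rw [Algebra.norm_zero, inv_zero]
    · rw [Algebra.norm_eq_one_of_not_module_finite hfin, inv_one]
  · apply eq_inv_of_mul_eq_one_left
    rw [← map_mul, inv_mul_cancel₀ hy, map_one]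

end Abstract

variable {L : Type*} [Field L] [Algebra ℚ L]

/-! ### The operator -/

/-- **The Eichler–Shimura operator at the level `L`.** -/
def esL (M q : ℕ) [NeZero M] [NeZero q] (s : L ≃+* L) (w : FF L (M * q) ≃ₐ[L] FF L (M * q))
    (y : FF L (M * q)) : FF L (M * q) :=
  esQ M q s w (normB M q y) (normA M q y) y

theorem esL_eq_esQ (M q : ℕ) [NeZero M] [NeZero q] (s : L ≃+* L)
    (w : FF L (M * q) ≃ₐ[L] FF L (M * q)) (y : FF L (M * q)) :
    esL M q s w y = esQ M q s w (normB M q y) (normA M q y) y := rfl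

theorem esL_def (M q : ℕ) [NeZero M] [NeZero q] (s : L ≃+* L)
    (w : FF L (M * q) ≃ₐ[L] FF L (M * q)) (y : FF L (M * q)) :
    esL M q s w y = act (M * q) s y * (act (M * q) s.symm y) ^ q * (w y) ^ (q + 1) /
      (heckeAlphaBar L M q (normB M q y) * heckeBetaBar L M q (normA M q y)) := rfl

theorem esL_one (M q : ℕ) [NeZero M] [NeZero q] (s : L ≃+* L)
    (w : FF L (M * q) ≃ₐ[L] FF L (M * q)) : esL M q s w 1 = 1 := by
  rw [esL_eq_esQ, map_one, map_one]
  exact esQ_one M q s w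

theorem esL_zero (M q : ℕ) [NeZero M] [NeZero q] (s : L ≃+* L)
    (w : FF L (M * q) ≃ₐ[L] FF L (M * q)) : esL M q s w 0 = 0 := by
  rw [esL_def, map_zero, zero_mul, zero_mul, zero_div]

theorem esL_mul (M q : ℕ) [NeZero M] [NeZero q] (s : L ≃+* L)
    (w : FF L (M * q) ≃ₐ[L] FF L (M * q)) (x y : FF L (M * q)) :
    esL M q s w (x * y) = esL M q s w x * esL M q s w y := by
  rw [esL_eq_esQ, map_mul, map_mul]
  exact esQ_mul M q s w _ _ _ _ x y

theorem esL_inv (M q : ℕ) [NeZero M] [NeZero q] (s : L ≃+* L)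
    (w : FF L (M * q) ≃ₐ[L] FF L (M * q)) (y : FF L (M * q)) :
    esL M q s w y⁻¹ = (esL M q s w y)⁻¹ := by
  have hB : normB M q y⁻¹ = (normB M q y)⁻¹ := normAlong_inv _ y
  have hA : normA M q y⁻¹ = (normA M q y)⁻¹ := normAlong_inv _ y
  rw [esL_eq_esQ, hB, hA]
  exact esQ_inv M q s w _ _ y

theorem esL_div (M q : ℕ) [NeZero M] [NeZero q] (s : L ≃+* L)
    (w : FF L (M * q) ≃ₐ[L] FF L (M * q)) (x y : FF L (M * q)) :
    esL M q s w (x / y) = esL M q s w x / esL M q s w y := by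
  rw [div_eq_mul_inv, esL_mul, esL_inv, div_eq_mul_inv]

theorem esL_pow (M q : ℕ) [NeZero M] [NeZero q] (s : L ≃+* L)
    (w : FF L (M * q) ≃ₐ[L] FF L (M * q)) (y : FF L (M * q)) (n : ℕ) :
    esL M q s w (y ^ n) = esL M q s w y ^ n := by
  induction n with
  | zero => rw [pow_zero, pow_zero, esL_one]
  | succ n ih => rw [pow_succ, pow_succ, esL_mul, ih]

/-- the shape consumed by the local-datum lemmas: `ES (x / γ^m) = ES x * (ES γ)⁻¹ ^ m` -/
theorem esL_div_pow (M q : ℕ) [NeZero M] [NeZero q] (s : L ≃+* L)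
    (w : FF L (M * q) ≃ₐ[L] FF L (M * q)) (x γ : FF L (M * q)) (m : ℕ) :
    esL M q s w (x / γ ^ m) = esL M q s w x * (esL M q s w γ)⁻¹ ^ m := by
  rw [esL_div, esL_pow, div_eq_mul_inv, inv_pow]

theorem esL_ne_zero (M q : ℕ) [NeZero M] [NeZero q] (s : L ≃+* L)
    (w : FF L (M * q) ≃ₐ[L] FF L (M * q)) {y : FF L (M * q)} (hy : y ≠ 0) :
    esL M q s w y ≠ 0 :=
  esQ_ne_zero M q s w (normB_ne_zero M q hy) (normA_ne_zero M q hy) hy

/-- `w ∘ ES = ES ∘ w`. -/
theorem esL_w (M q : ℕ) [NeZero M] [NeZero q] (hq : q.Prime) (s : L ≃+* L)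
    (w : FF L (M * q) ≃ₐ[L] FF L (M * q))
    (hwα : (w : FF L (M * q) →ₐ[L] FF L (M * q)).comp (heckeAlphaBar L M q) = heckeBetaBar L M q)
    (hwβ : (w : FF L (M * q) →ₐ[L] FF L (M * q)).comp (heckeBetaBar L M q) = heckeAlphaBar L M q)
    (y : FF L (M * q)) : w (esL M q s w y) = esL M q s w (w y) := by
  rw [esL_eq_esQ, esQ_w M q s w (fun x => act_atkinLehner M q hq s w hwα hwβ x)
    (fun x => act_atkinLehner M q hq s.symm w hwα hwβ x) hwα hwβ, esL_eq_esQ,
    normB_w M q w hwα, normA_w M q hq w hwα hwβ]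

/-- the level norms satisfy the `q`-expansion formulas of `EsGauss.IsNormPair` -/
theorem isNormPair_norm (ι : L →+* AlgebraicClosure ℚ) (M q : ℕ) [NeZero M] [NeZero q]
    (hq : q.Prime) (hMq : ¬ q ∣ M) (w : FF L (M * q) ≃ₐ[L] FF L (M * q))
    (hwα : (w : FF L (M * q) →ₐ[L] FF L (M * q)).comp (heckeAlphaBar L M q) = heckeBetaBar L M q)
    (hwβ : (w : FF L (M * q) →ₐ[L] FF L (M * q)).comp (heckeBetaBar L M q) = heckeAlphaBar L M q)
    (ζ : Lˣ) (hζ : IsPrimitiveRoot ζ q) (f : FF L (M * q)) :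
    IsNormPair M q ζ w f (normB M q f) (normA M q f) :=
  ⟨normB_spec ι M q hq hMq w hwα hwβ ζ hζ f, normA_spec ι M q hq hMq w hwα hwβ ζ hζ f⟩

/-! ### Claim R for `esL` -/

section Level

local notation "Qb" => AlgebraicClosure ℚ

variable (A : ValuationSubring Qb) (ι : L →+* Qb) {σ : Qb ≃ₐ[ℚ] Qb} (s : L ≃+* L)
  (hs : ∀ c : L, ι (s c) = σ (ι c))

include hs

/-- `esL f = 1 + ϖ * m` with `m` of `W`-integral `q`-expansion, for every `f ≠ 0`. -/
theorem esL_raw_level [IsDiscreteValuationRing ↥(A.comap ι)] (M q : ℕ) [NeZero M] [NeZero q]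
    [hq : Fact q.Prime] [CharP (IsLocalRing.ResidueField ↥(A.comap ι)) q] (hMq : ¬ q ∣ M)
    (hσ : A.IsFrobeniusAt σ q) {ϖ : ↥(A.comap ι)} (hϖ : Irreducible ϖ)
    (ζ : Lˣ) (hζ : IsPrimitiveRoot ζ q) (w : FF L (M * q) ≃ₐ[L] FF L (M * q))
    (hα : (w : FF L (M * q) →ₐ[L] FF L (M * q)).comp (heckeAlphaBar L M q) = heckeBetaBar L M q)
    (hβ : (w : FF L (M * q) →ₐ[L] FF L (M * q)).comp (heckeBetaBar L M q) = heckeAlphaBar L M q)
    {f : FF L (M * q)} (hf : f ≠ 0) :
    ∃ m : FF L (M * q), (m : LaurentSeries L) ∈ contentRing (A.comap ι) ∧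
      esL M q s w f = 1 + algebraMap L (FF L (M * q)) (ϖ : L) * m :=
  esQ_raw_level A ι s hs M q hσ hϖ ζ hζ.pow_eq_one w hf
    (isNormPair_norm ι M q hq.out hMq w hα hβ ζ hζ f)

/-- `esL f = 1 + ϖ * m` with `m` and `w m` of `W`-integral `q`-expansion, for every `f ≠ 0`. -/
theorem esL_both_level [IsDiscreteValuationRing ↥(A.comap ι)] (M q : ℕ) [NeZero M] [NeZero q]
    [hq : Fact q.Prime] [CharP (IsLocalRing.ResidueField ↥(A.comap ι)) q] (hMq : ¬ q ∣ M)
    (hσ : A.IsFrobeniusAt σ q) {ϖ : ↥(A.comap ι)} (hϖ : Irreducible ϖ)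
    (ζ : Lˣ) (hζ : IsPrimitiveRoot ζ q) (w : FF L (M * q) ≃ₐ[L] FF L (M * q))
    (hα : (w : FF L (M * q) →ₐ[L] FF L (M * q)).comp (heckeAlphaBar L M q) = heckeBetaBar L M q)
    (hβ : (w : FF L (M * q) →ₐ[L] FF L (M * q)).comp (heckeBetaBar L M q) = heckeAlphaBar L M q)
    {f : FF L (M * q)} (hf : f ≠ 0) :
    ∃ m : FF L (M * q), (m : LaurentSeries L) ∈ contentRing (A.comap ι) ∧
      ((w m : FF L (M * q)) : LaurentSeries L) ∈ contentRing (A.comap ι) ∧
      esL M q s w f = 1 + algebraMap L (FF L (M * q)) (ϖ : L) * m :=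
  esQ_both_level A ι s hs M q hσ hϖ ζ hζ.pow_eq_one w hα hβ hf
    (isNormPair_norm ι M q hq.out hMq w hα hβ ζ hζ f)

/-- **Claim R at a level**: `GaussOne ϖ j (esL f)` for EVERY `f ≠ 0` of `FF L (M * q)`. -/
theorem gaussOne_esL_level [IsDiscreteValuationRing ↥(A.comap ι)] (M q : ℕ) [NeZero M]
    [NeZero q] [hq : Fact q.Prime] [CharP (IsLocalRing.ResidueField ↥(A.comap ι)) q]
    (hMq : ¬ q ∣ M) (hσ : A.IsFrobeniusAt σ q) {ϖ : ↥(A.comap ι)} (hϖ : Irreducible ϖ)
    (ζ : Lˣ) (hζ : IsPrimitiveRoot ζ q) (w : FF L (M * q) ≃ₐ[L] FF L (M * q))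
    (hα : (w : FF L (M * q) →ₐ[L] FF L (M * q)).comp (heckeAlphaBar L M q) = heckeBetaBar L M q)
    (hβ : (w : FF L (M * q) →ₐ[L] FF L (M * q)).comp (heckeBetaBar L M q) = heckeAlphaBar L M q)
    (j : FF L (M * q))
    (hV : ∀ x : FF L (M * q), (x : LaurentSeries L) ∈ contentRing (A.comap ι) →
      ((w x : FF L (M * q)) : LaurentSeries L) ∈ contentRing (A.comap ι) → Endgame.InC ϖ j x)
    {f : FF L (M * q)} (hf : f ≠ 0) :
    GaussOne ϖ j (esL M q s w f) :=
  gaussOne_esQ_level A ι s hs M q hσ hϖ ζ hζ.pow_eq_one w hα hβ j hV hf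
    (isNormPair_norm ι M q hq.out hMq w hα hβ ζ hζ f)

end Level

/-! ### The bridge to the place currency over `ℚ̄` -/

section Bridge

local notation "Qb" => AlgebraicClosure ℚ

variable {L : Type} [Field L] [Algebra ℚ L] (ι : L →+* Qb)

/-- **After the change of level to `ℚ̄`, `esL` is `EsOrd.esBar`** for the arithmetic Galois
action of a `σ` lifting `s` and ANY Atkin–Lehner automorphism `w'` over `ℚ̄`. -/
theorem bc_esL (M q : ℕ) [NeZero M] [NeZero q] (hq : q.Prime) (hMq : ¬ q ∣ M)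
    (ζ : Lˣ) (hζ : IsPrimitiveRoot ζ q) (σ : Qb ≃ₐ[ℚ] Qb) (s : L ≃+* L)
    (hs : ∀ c : L, ι (s c) = σ (ι c)) (w : FF L (M * q) ≃ₐ[L] FF L (M * q))
    (hwα : (w : FF L (M * q) →ₐ[L] FF L (M * q)).comp (heckeAlphaBar L M q) = heckeBetaBar L M q)
    (hwβ : (w : FF L (M * q) →ₐ[L] FF L (M * q)).comp (heckeBetaBar L M q) = heckeAlphaBar L M q)
    (w' : FF Qb (M * q) ≃ₐ[Qb] FF Qb (M * q))
    (hwα' : (w' : FF Qb (M * q) →ₐ[Qb] FF Qb (M * q)).comp (heckeAlphaBar Qb M q) =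
      heckeBetaBar Qb M q)
    (hwβ' : (w' : FF Qb (M * q) →ₐ[Qb] FF Qb (M * q)).comp (heckeBetaBar Qb M q) =
      heckeAlphaBar Qb M q)
    (y : FF L (M * q)) :
    CoeffBC.bc ι (modularFunctionFieldFull (M * q)) (esL M q s w y) =
      EsOrd.esBar (arithmeticGalois (modularFunctionFieldFull (M * q)) σ) w'
        (heckeAlphaBar Qb M q) (heckeBetaBar Qb M q) q
        (CoeffBC.bc ι (modularFunctionFieldFull (M * q)) y) := by
  have h1 : CoeffBC.bc ι (modularFunctionFieldFull (M * q)) (act (M * q) s y) =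
      arithmeticGalois (modularFunctionFieldFull (M * q)) σ •
        CoeffBC.bc ι (modularFunctionFieldFull (M * q)) y :=
    Fermat.Agent.S34.GRat.bc_bc_eq_smul (M * q) ι σ (s : L →+* L) hs y
  have h2 : CoeffBC.bc ι (modularFunctionFieldFull (M * q)) (act (M * q) s.symm y) =
      (arithmeticGalois (modularFunctionFieldFull (M * q)) σ)⁻¹ •
        CoeffBC.bc ι (modularFunctionFieldFull (M * q)) y :=
    (Fermat.Agent.S34.GRat.inv_smul_bc (M * q) ι σ s hs y).symm
  have h3 : CoeffBC.bc ι (modularFunctionFieldFull (M * q)) (w y) =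
      w' (CoeffBC.bc ι (modularFunctionFieldFull (M * q)) y) :=
    Fermat.Agent.S35.NormLevel.bc_atkinLehner ι M q hq w hwα hwβ w' hwα' hwβ' y
  have h4 : CoeffBC.bc ι (modularFunctionFieldFull (M * q))
      (heckeAlphaBar L M q (normB M q y)) =
        heckeAlphaBar Qb M q (EsOrd.normAlong (heckeBetaBar Qb M q)
          (CoeffBC.bc ι (modularFunctionFieldFull (M * q)) y)) := by
    rw [Fermat.Agent.S35.NormLevel.bc_alpha, bc_normB ι (RingHom.id Qb) M q hq hMq ζ hζ y]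
    rfl
  have h5 : CoeffBC.bc ι (modularFunctionFieldFull (M * q))
      (heckeBetaBar L M q (normA M q y)) =
        heckeBetaBar Qb M q (EsOrd.normAlong (heckeAlphaBar Qb M q)
          (CoeffBC.bc ι (modularFunctionFieldFull (M * q)) y)) := by
    rw [Fermat.Agent.S35.NormLevel.bc_beta, bc_normA ι (RingHom.id Qb) M q hq hMq ζ hζ y]
    rfl
  rw [EsOrd.esBar, ← h1, ← h2, ← h3, ← h4, ← h5, esL_def, map_div₀, map_mul, map_mul, map_mul,
    map_pow, map_pow]

end Bridge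

end Fermat.Agent.S35.EsNorm
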