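/-
S35 (route C, findings 222 / 230), package (C1): **the Eichler–Shimura operator at a level**.

`esL M q s w y = act s y * (act s⁻¹ y)^q * (w y)^(q+1) / (α (N_β y) * β (N_α y))` is
`EsOrd.esBar` at the level (`K := L`, `F := FF L (M * q)`, `F' := FF L M`,
`g := CoeffAut.semi (M * q) s`), so that `EsOrd.esBar_mul / _inv / _div / _pow / _div_pow /
_ne_zero` are its calculus and `NormDef.normA`, `NormDef.normB` its norms.

* `esL_eq_esQ` : `esL M q s w y = EsGauss.esQ M q s w (normB M q y) (normA M q y) y`;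
* `esL_w` : `w (esL y) = esL (w y)` for every Atkin–Lehner automorphism `w`;
* `esL_both_level`, `esL_mem_level`, **`gaussOne_esL_level`** : Claim R at a level `(L, ι)` of
  `ℚ̄` containing a primitive `q`-th root of unity, for the restriction `s` of a Frobenius lift at
  `q`: `esL y ≡ 1` at both Gauss valuations, for EVERY `y ≠ 0`.
-/
import Mathlib
import Fermat.Agent.S35.EsGauss
import Fermat.Agent.S35.NormDef

set_option autoImplicit false

noncomputable section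

namespace Fermat.Agent.S35.EsOp

open ModularCurve Fermat.Agent.S18 Fermat.Agent.S18.Gauss Fermat.Agent.S24
  Fermat.Agent.S34.CoeffAut Fermat.Agent.S34.KummerStep Fermat.Agent.S35.NormDef

variable {L : Type*} [Field L] [Algebra ℚ L]

/-- **The Eichler–Shimura operator at the level `L`**:
`esL y = σy · (σ⁻¹y)^q · (w y)^(q+1) / (α(N_β y) · β(N_α y))`. -/
def esL (M q : ℕ) [NeZero M] [NeZero q] (s : L ≃+* L) (w : FF L (M * q) ≃ₐ[L] FF L (M * q))
    (y : FF L (M * q)) : FF L (M * q) :=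
  EsOrd.esBar (semi (M * q) s) w (heckeAlphaBar L M q) (heckeBetaBar L M q) q y

theorem esL_def (M q : ℕ) [NeZero M] [NeZero q] (s : L ≃+* L)
    (w : FF L (M * q) ≃ₐ[L] FF L (M * q)) (y : FF L (M * q)) :
    esL M q s w y =
      EsOrd.esBar (semi (M * q) s) w (heckeAlphaBar L M q) (heckeBetaBar L M q) q y := rfl

/-- the inverse of the semilinear automorphism of `s` acts by `s⁻¹` -/
theorem semi_inv_smul (N : ℕ) (s : L ≃+* L) (x : FF L N) :
    (semi N s)⁻¹ • x = act N s.symm x := by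
  have h1 : semi N s • ((semi N s)⁻¹ • x) = x := smul_inv_smul _ _
  have h2 : semi N s • (act N s.symm x) = x := by
    rw [semi_smul, ← act_symm_apply, RingEquiv.apply_symm_apply]
  have h3 : semi N s • ((semi N s)⁻¹ • x) = semi N s • (act N s.symm x) := h1.trans h2.symm
  rw [semi_smul, semi_smul] at h3
  exact (act N s).injective h3

/-- the operator in the data currency of `EsGauss` -/
theorem esL_eq_esQ (M q : ℕ) [NeZero M] [NeZero q] (s : L ≃+* L)
    (w : FF L (M * q) ≃ₐ[L] FF L (M * q)) (y : FF L (M * q)) :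
    esL M q s w y = EsGauss.esQ M q s w (normB M q y) (normA M q y) y := by
  rw [esL_def, EsGauss.esQ_def]
  unfold EsOrd.esBar
  rw [semi_smul, semi_inv_smul]
  rfl

theorem esL_one (M q : ℕ) [NeZero M] [NeZero q] (s : L ≃+* L)
    (w : FF L (M * q) ≃ₐ[L] FF L (M * q)) : esL M q s w 1 = 1 :=
  EsOrd.esBar_one _ _ _ _ _

theorem esL_mul (M q : ℕ) [NeZero M] [NeZero q] (s : L ≃+* L)
    (w : FF L (M * q) ≃ₐ[L] FF L (M * q)) (y₁ y₂ : FF L (M * q)) :
    esL M q s w (y₁ * y₂) = esL M q s w y₁ * esL M q s w y₂ :=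
  EsOrd.esBar_mul _ _ _ _ _ _ _

theorem esL_ne_zero (M q : ℕ) [NeZero M] [NeZero q] (s : L ≃+* L)
    (w : FF L (M * q) ≃ₐ[L] FF L (M * q)) {y : FF L (M * q)} (hy : y ≠ 0) :
    esL M q s w y ≠ 0 :=
  EsOrd.esBar_ne_zero _ _ _ _ _ hy

theorem esL_inv (M q : ℕ) [NeZero M] [NeZero q] (s : L ≃+* L)
    (w : FF L (M * q) ≃ₐ[L] FF L (M * q)) {y : FF L (M * q)} (hy : y ≠ 0) :
    esL M q s w y⁻¹ = (esL M q s w y)⁻¹ :=
  EsOrd.esBar_inv _ _ _ _ _ hy

theorem esL_div (M q : ℕ) [NeZero M] [NeZero q] (s : L ≃+* L)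
    (w : FF L (M * q) ≃ₐ[L] FF L (M * q)) (y₁ : FF L (M * q)) {y₂ : FF L (M * q)}
    (hy₂ : y₂ ≠ 0) : esL M q s w (y₁ / y₂) = esL M q s w y₁ / esL M q s w y₂ :=
  EsOrd.esBar_div _ _ _ _ _ _ hy₂

theorem esL_pow (M q : ℕ) [NeZero M] [NeZero q] (s : L ≃+* L)
    (w : FF L (M * q) ≃ₐ[L] FF L (M * q)) (y : FF L (M * q)) (m : ℕ) :
    esL M q s w (y ^ m) = esL M q s w y ^ m :=
  EsOrd.esBar_pow _ _ _ _ _ _ _

/-- `esL (f / γ ^ m) = esL f * (esL γ)⁻¹ ^ m`: the shape of the local datum of the Kummer step -/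
theorem esL_div_pow (M q : ℕ) [NeZero M] [NeZero q] (s : L ≃+* L)
    (w : FF L (M * q) ≃ₐ[L] FF L (M * q)) (f : FF L (M * q)) {γ : FF L (M * q)} (hγ : γ ≠ 0)
    (m : ℕ) : esL M q s w (f / γ ^ m) = esL M q s w f * (esL M q s w γ)⁻¹ ^ m :=
  EsOrd.esBar_div_pow _ _ _ _ _ _ hγ _

/-- **`w ∘ ES = ES ∘ w`** for every Atkin–Lehner automorphism `w`. -/
theorem esL_w (M q : ℕ) [NeZero M] [NeZero q] (hq : q.Prime) (s : L ≃+* L)
    (w : FF L (M * q) ≃ₐ[L] FF L (M * q))
    (hα : (w : FF L (M * q) →ₐ[L] FF L (M * q)).comp (heckeAlphaBar L M q) = heckeBetaBar L M q)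
    (hβ : (w : FF L (M * q) →ₐ[L] FF L (M * q)).comp (heckeBetaBar L M q) = heckeAlphaBar L M q)
    (y : FF L (M * q)) : w (esL M q s w y) = esL M q s w (w y) := by
  rw [esL_eq_esQ, esL_eq_esQ,
    EsGauss.esQ_w M q s w (fun x => act_atkinLehner M q hq s w hα hβ x)
      (fun x => act_atkinLehner M q hq s.symm w hα hβ x) hα hβ,
    normB_w M q w hα y, normA_w M q hq w hα hβ y]

/-! ### Claim R at a level of `ℚ̄` -/

section Level

local notation "Qb" => AlgebraicClosure ℚ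

variable (A : ValuationSubring Qb) (ι : L →+* Qb) {σ : Qb ≃ₐ[ℚ] Qb} (s : L ≃+* L)
  (hs : ∀ c : L, ι (s c) = σ (ι c))

omit s hs in
/-- the `q`-expansion norm formulas for the level norms -/
theorem isNormPair (ι : L →+* Qb) (M q : ℕ) [NeZero M] [NeZero q] (hq : q.Prime)
    (hqM : ¬ q ∣ M)
    (ζ : Lˣ) (hζ : IsPrimitiveRoot ζ q) (w : FF L (M * q) ≃ₐ[L] FF L (M * q))
    (hα : (w : FF L (M * q) →ₐ[L] FF L (M * q)).comp (heckeAlphaBar L M q) = heckeBetaBar L M q)
    (hβ : (w : FF L (M * q) →ₐ[L] FF L (M * q)).comp (heckeBetaBar L M q) = heckeAlphaBar L M q)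
    (f : FF L (M * q)) :
    EsGauss.IsNormPair M q ζ w f (normB M q f) (normA M q f) :=
  ⟨normB_spec ι M q hq hqM w hα hβ ζ hζ f, normA_spec ι M q hq hqM w hα hβ ζ hζ f⟩

include hs

/-- **Claim R, raw form at both Gauss valuations**: `esL f = 1 + ϖ m` with `m` and `w m` of
`W`-integral `q`-expansion, for every `f ≠ 0`. -/
theorem esL_both_level [IsDiscreteValuationRing ↥(A.comap ι)] (M q : ℕ) [NeZero M] [NeZero q]
    [hq : Fact q.Prime] [CharP (IsLocalRing.ResidueField ↥(A.comap ι)) q] (hqM : ¬ q ∣ M)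
    (hσ : A.IsFrobeniusAt σ q) {ϖ : ↥(A.comap ι)} (hϖ : Irreducible ϖ)
    (ζ : Lˣ) (hζ : IsPrimitiveRoot ζ q) (w : FF L (M * q) ≃ₐ[L] FF L (M * q))
    (hα : (w : FF L (M * q) →ₐ[L] FF L (M * q)).comp (heckeAlphaBar L M q) = heckeBetaBar L M q)
    (hβ : (w : FF L (M * q) →ₐ[L] FF L (M * q)).comp (heckeBetaBar L M q) = heckeAlphaBar L M q)
    {f : FF L (M * q)} (hf : f ≠ 0) :
    ∃ m : FF L (M * q), (m : LaurentSeries L) ∈ contentRing (A.comap ι) ∧
      ((w m : FF L (M * q)) : LaurentSeries L) ∈ contentRing (A.comap ι) ∧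
      esL M q s w f = 1 + algebraMap L (FF L (M * q)) (ϖ : L) * m := by
  rw [esL_eq_esQ]
  exact EsGauss.esQ_both_level A ι s hs M q hσ hϖ ζ hζ.pow_eq_one w hα hβ hf
    (isNormPair ι M q hq.out hqM ζ hζ w hα hβ f)

/-- `esL f` and `w (esL f)` have `W`-integral `q`-expansions (vertical regularity), for every
`f ≠ 0`. -/
theorem esL_mem_level [IsDiscreteValuationRing ↥(A.comap ι)] (M q : ℕ) [NeZero M] [NeZero q]
    [hq : Fact q.Prime] [CharP (IsLocalRing.ResidueField ↥(A.comap ι)) q] (hqM : ¬ q ∣ M)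
    (hσ : A.IsFrobeniusAt σ q) {ϖ : ↥(A.comap ι)} (hϖ : Irreducible ϖ)
    (ζ : Lˣ) (hζ : IsPrimitiveRoot ζ q) (w : FF L (M * q) ≃ₐ[L] FF L (M * q))
    (hα : (w : FF L (M * q) →ₐ[L] FF L (M * q)).comp (heckeAlphaBar L M q) = heckeBetaBar L M q)
    (hβ : (w : FF L (M * q) →ₐ[L] FF L (M * q)).comp (heckeBetaBar L M q) = heckeAlphaBar L M q)
    {f : FF L (M * q)} (hf : f ≠ 0) :
    ((esL M q s w f : FF L (M * q)) : LaurentSeries L) ∈ contentRing (A.comap ι) ∧
      ((w (esL M q s w f) : FF L (M * q)) : LaurentSeries L) ∈ contentRing (A.comap ι) := by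
  obtain ⟨m, hm, hwm, e⟩ := esL_both_level A ι s hs M q hqM hσ hϖ ζ hζ w hα hβ hf
  have hcoe : ((algebraMap L (FF L (M * q)) (ϖ : L) : FF L (M * q)) : LaurentSeries L) =
      HahnSeries.C (ϖ : L) := by
    show algebraMap L (LaurentSeries L) (ϖ : L) = HahnSeries.C (ϖ : L)
    rw [algebraMap_laurentSeries_eq_single]
    rfl
  have hC : HahnSeries.C ((ϖ : ↥(A.comap ι)) : L) ∈ contentRing (A.comap ι) :=
    C_mem_contentRing (A.comap ι) ϖ
  have key : ∀ m' : FF L (M * q), (m' : LaurentSeries L) ∈ contentRing (A.comap ι) →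
      ((1 + algebraMap L (FF L (M * q)) (ϖ : L) * m' : FF L (M * q)) : LaurentSeries L) ∈
        contentRing (A.comap ι) := by
    intro m' hm'
    have h1 : ((1 + algebraMap L (FF L (M * q)) (ϖ : L) * m' : FF L (M * q)) :
        LaurentSeries L) = 1 + HahnSeries.C (ϖ : L) * (m' : LaurentSeries L) := by
      rw [← hcoe]
      rfl
    rw [h1]
    exact add_mem (one_mem _) (mul_mem hC hm')
  refine ⟨?_, ?_⟩
  · rw [e]
    exact key m hm
  · have h2 : w (esL M q s w f) = 1 + algebraMap L (FF L (M * q)) (ϖ : L) * w m := by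
      rw [e]
      exact ((w : FF L (M * q) ≃+* FF L (M * q)).map_add _ _).trans
        (congrArg₂ (· + ·) (w : FF L (M * q) ≃+* FF L (M * q)).map_one
          (((w : FF L (M * q) ≃+* FF L (M * q)).map_mul _ _).trans
            (congrArg (· * w m) (w.commutes (ϖ : L)))))
    rw [h2]
    exact key (w m) hwm

/-- **Claim R at a level**: `GaussOne ϖ j (esL f)` for EVERY `f ≠ 0` of `FF L (M * q)`, `s` the
restriction of a Frobenius lift at `q`, `ζ` a primitive `q`-th root of unity of `L`, given the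
`(V3a)` direction `hV` of the two-valuation theorem for the Atkin–Lehner automorphism `w`. -/
theorem gaussOne_esL_level [IsDiscreteValuationRing ↥(A.comap ι)] (M q : ℕ) [NeZero M]
    [NeZero q] [hq : Fact q.Prime] [CharP (IsLocalRing.ResidueField ↥(A.comap ι)) q]
    (hqM : ¬ q ∣ M) (hσ : A.IsFrobeniusAt σ q) {ϖ : ↥(A.comap ι)} (hϖ : Irreducible ϖ)
    (ζ : Lˣ) (hζ : IsPrimitiveRoot ζ q) (w : FF L (M * q) ≃ₐ[L] FF L (M * q))
    (hα : (w : FF L (M * q) →ₐ[L] FF L (M * q)).comp (heckeAlphaBar L M q) = heckeBetaBar L M q)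
    (hβ : (w : FF L (M * q) →ₐ[L] FF L (M * q)).comp (heckeBetaBar L M q) = heckeAlphaBar L M q)
    (j : FF L (M * q))
    (hV : ∀ x : FF L (M * q), (x : LaurentSeries L) ∈ contentRing (A.comap ι) →
      ((w x : FF L (M * q)) : LaurentSeries L) ∈ contentRing (A.comap ι) → Endgame.InC ϖ j x)
    {f : FF L (M * q)} (hf : f ≠ 0) : GaussOne ϖ j (esL M q s w f) := by
  rw [esL_eq_esQ]
  exact EsGauss.gaussOne_esQ_level A ι s hs M q hσ hϖ ζ hζ.pow_eq_one w hα hβ j hV hf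
    (isNormPair ι M q hq.out hqM ζ hζ w hα hβ f)

end Level

end Fermat.Agent.S35.EsOp
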