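/-
S35 (route C), instance of the contract `EsCore.GaussContract` (Claim R) for the
Eichler–Shimura operator at a level.

* `esOp M q : EsCore.LevelOp (M * q)` : the level operator `fun L _ _ s w => EsOp.esL M q s w`;
* `gaussContract` : `EsCore.GaussContract M q (esOp M q) A σ` for `q` prime, `q ∤ M`, `σ` a
  Frobenius element at `q` for `A` — from `EsOp.gaussOne_esL_level` (Claim R at a level
  containing a primitive `q`-th root of unity, which is put into `S₀`) and the direction (V3a)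
  of the two-valuation theorem (`TwoGauss.inC_of_mem_both`);
* `gaussContract_esNorm` : the same contract for the operator written with `EsNorm.esL`.
-/
import Mathlib
import Fermat.Agent.S35.EsCore
import Fermat.Agent.S35.EsOp
import Fermat.Agent.S35.EsNorm
import Fermat.Agent.S34.GAsmTop

set_option autoImplicit false
set_option linter.style.haveILetI false

noncomputable section

namespace Fermat.Agent.S35.EsGaussInst

open ModularCurve AlgebraicCurve Fermat.Agent.S18 Fermat.Agent.S37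
open Fermat.Agent.S34 Fermat.Agent.S34.KummerStep

local notation "Qb" => AlgebraicClosure ℚ

/-- **The Eichler–Shimura level operator** as an `EsCore.LevelOp`. -/
def esOp (M q : ℕ) [NeZero M] [NeZero q] : EsCore.LevelOp (M * q) :=
  fun L _ _ s w => EsOp.esL M q s w

theorem esOp_apply (M q : ℕ) [NeZero M] [NeZero q] {L : Type} [Field L] [Algebra ℚ L]
    (s : L ≃+* L) (w : S24.FF L (M * q) ≃ₐ[L] S24.FF L (M * q)) (y : S24.FF L (M * q)) :
    esOp M q L s w y = EsOp.esL M q s w y := rfl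

/-- A level containing a primitive `q`-th root of unity of `ℚ̄` contains one as a unit. -/
theorem exists_primitiveRoot_of_mem {L : Type} [Field L] (ι : L →+* Qb) (q : ℕ) [NeZero q]
    {ζ₀ : Qb} (hζ₀ : IsPrimitiveRoot ζ₀ q) (h : ∃ b : L, ι b = ζ₀) :
    ∃ ζ : Lˣ, IsPrimitiveRoot ζ q := by
  obtain ⟨b, hb⟩ := h
  have hbp : IsPrimitiveRoot b q := by
    rw [← hb] at hζ₀
    exact IsPrimitiveRoot.of_map_of_injective (f := ι) hζ₀ ι.injective
  have hb0 : b ≠ 0 := hbp.ne_zero (NeZero.ne q)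
  refine ⟨Units.mk0 b hb0, ?_⟩
  have : IsPrimitiveRoot ((Units.mk0 b hb0 : Lˣ) : L) q := by
    rw [Units.val_mk0]
    exact hbp
  exact IsPrimitiveRoot.coe_units_iff.mp this

/-- **Claim R as a contract** for the Eichler–Shimura level operator: `S₀` contains a primitive
`q`-th root of unity. -/
theorem gaussContract (M q : ℕ) [NeZero M] [NeZero q] (hq : q.Prime) (hqM : ¬ q ∣ M)
    (A : ValuationSubring Qb) (σ : Qb ≃ₐ[ℚ] Qb) (hσ : A.IsFrobeniusAt σ q) :
    EsCore.GaussContract M q (esOp M q) A σ := by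
  classical
  obtain ⟨ζ₀, hζ₀⟩ := HasEnoughRootsOfUnity.exists_primitiveRoot Qb q
  refine ⟨{ζ₀}, ?_⟩
  intro L _ _ ι hlev _ ϖ hϖ s hs w hα hβ y hy
  obtain ⟨hS, -, hdvr, -, -, hchar, -, -⟩ := hlev
  haveI := hdvr
  haveI := hchar
  haveI : Fact q.Prime := ⟨hq⟩
  haveI := GAsm.isScalarTower_W (A.comap ι) (M * q)
  obtain ⟨ζ, hζ⟩ := exists_primitiveRoot_of_mem ι q hζ₀ (hS ζ₀ (Finset.mem_singleton_self ζ₀))
  have hV : ∀ x : S24.FF L (M * q), (x : LaurentSeries L) ∈ Gauss.contentRing (A.comap ι) →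
      ((w x : S24.FF L (M * q)) : LaurentSeries L) ∈ Gauss.contentRing (A.comap ι) →
      Endgame.InC ϖ (S24.jBC L (M * q)) x := fun x hx₁ hx₂ =>
    TwoGauss.inC_of_mem_both (A.comap ι) M q
      (w : S24.FF L (M * q) →ₐ[L] S24.FF L (M * q)) hqM hα hβ hϖ.not_isUnit x hx₁ hx₂
  rw [esOp_apply]
  exact EsOp.gaussOne_esL_level A ι s hs M q hqM hσ hϖ ζ hζ w hα hβ (S24.jBC L (M * q)) hV hy

/-- The two definitions of the level operator agree. -/
theorem esL_eq_esNorm (M q : ℕ) [NeZero M] [NeZero q] {L : Type} [Field L] [Algebra ℚ L]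
    (s : L ≃+* L) (w : S24.FF L (M * q) ≃ₐ[L] S24.FF L (M * q)) (y : S24.FF L (M * q)) :
    EsOp.esL M q s w y = EsNorm.esL M q s w y :=
  (EsOp.esL_eq_esQ M q s w y).trans (EsNorm.esL_eq_esQ M q s w y).symm

/-- The level operator written with `EsNorm.esL`. -/
def esOpNorm (M q : ℕ) [NeZero M] [NeZero q] : EsCore.LevelOp (M * q) :=
  fun L _ _ s w => EsNorm.esL M q s w

theorem esOp_eq_esOpNorm (M q : ℕ) [NeZero M] [NeZero q] : esOp M q = esOpNorm M q := by
  funext L _ _ s w y
  exact esL_eq_esNorm M q s w y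

/-- **Claim R as a contract** for the operator written with `EsNorm.esL`. -/
theorem gaussContract_esNorm (M q : ℕ) [NeZero M] [NeZero q] (hq : q.Prime) (hqM : ¬ q ∣ M)
    (A : ValuationSubring Qb) (σ : Qb ≃ₐ[ℚ] Qb) (hσ : A.IsFrobeniusAt σ q) :
    EsCore.GaussContract M q (esOpNorm M q) A σ := by
  rw [← esOp_eq_esOpNorm]
  exact gaussContract M q hq hqM A σ hσ

end Fermat.Agent.S35.EsGaussInst
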