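/-
S35 (wave 7, Route C, package (C6) "EsPush"): from the level CORE of the Eichler–Shimura descent
to the identity (ES-q) over `ℚ̄`.

* `bc_dd`       : the change of level to `ℚ̄` turns the level double difference
                  `DDGauss.dd N (s.trans s)` (for `σ²`) into `EsTop.ddf (g * g)`,
                  `g = arithmeticGalois σ`;
* `esQ_of_core` : `(∀ A ∣ q, ∀ σ Frobenius at A, EsCoreT.EsCorePropT N q p (esOp N q) A σ)
                  → EsFinal.EsQ N q p`.

Proof of `esQ_of_core`: given `f` with `div f = p ^ n • D` and an Atkin–Lehner automorphism `w'`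
over `ℚ̄`, choose a Galois-stable level `(L, ι)` containing the finite set `S₀` of the core, a
field of definition of `f`, a field of rationality of the places of `T`, and a primitive `q`-th
root of unity (`GalLevel.exists_stable_level`, `LevelDesc.eventually_exists_bc`,
`RatPlace.exists_rational_level_finset`); take the restriction `s` of `σ` and a level
Atkin–Lehner automorphism `w` (`FrobPartner.exists_atkinLehner_level`); the core gives
`esL s w (dd (s.trans s) fL) = a * H ^ (p ^ n)`, and the change of level `bc ι` turns the left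
side into `esBar g w' α β q (ddf (g * g) f)` (`EsNorm.bc_esL`, `bc_dd`).
-/
import Mathlib
import Fermat.Agent.S35.EsCoreT
import Fermat.Agent.S35.EsGaussInst
import Fermat.Agent.S35.EsFinal
import Fermat.Agent.S35.EsNorm
import Fermat.Agent.S34.GalLevel
import Fermat.Agent.S34.FrobPartner
import Fermat.Agent.S34.GRat
import Fermat.Agent.S34.GDescent
import Fermat.Agent.S37.LevelDesc
import Fermat.Agent.S37.RatPlace

set_option autoImplicit false
set_option linter.style.haveILetI false

noncomputable section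

namespace Fermat.Agent.S35.EsPush

open ModularCurve AlgebraicCurve Fermat.Agent.S37
open Fermat.Agent.S34 Fermat.Agent.S34.GDescent

local notation "Qb" => AlgebraicClosure ℚ

/-- **The double difference commutes with the change of level.**  For the restriction `s` of
`σ`, the level double difference for `s² = s.trans s` becomes, over `ℚ̄`, the double difference
`EsTop.ddf` for `g * g`, `g = arithmeticGalois σ`. -/
theorem bc_dd (N : ℕ) [NeZero N] {L : Type} [Field L] [Algebra ℚ L] (ι : L →+* Qb)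
    (σ : Qb ≃ₐ[ℚ] Qb) (s : L ≃+* L) (hs : ∀ c : L, ι (s c) = σ (ι c)) (y : S24.FF L N) :
    S24.CoeffBC.bc ι (modularFunctionFieldFull N) (DDGauss.dd N (s.trans s) y) =
      EsTop.ddf (arithmeticGalois (modularFunctionFieldFull N) σ *
          arithmeticGalois (modularFunctionFieldFull N) σ)
        (S24.CoeffBC.bc ι (modularFunctionFieldFull N) y) := by
  have hs2 : ∀ c : L, ι (((s.trans s : L ≃+* L) : L →+* L) c) = (σ * σ) (ι c) := by
    intro c
    show ι (s (s c)) = σ (σ (ι c))
    rw [hs, hs]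
  have h : ∀ x : S24.FF L N,
      S24.CoeffBC.bc ι (modularFunctionFieldFull N) (CoeffAut.act N (s.trans s) x) =
        (arithmeticGalois (modularFunctionFieldFull N) σ *
          arithmeticGalois (modularFunctionFieldFull N) σ) •
          S24.CoeffBC.bc ι (modularFunctionFieldFull N) x := by
    intro x
    have h1 := GRat.bc_bc_eq_smul N ι (σ * σ) ((s.trans s : L ≃+* L) : L →+* L) hs2 x
    rw [map_mul] at h1
    exact h1
  rw [DDGauss.dd_def, EsTop.ddf, map_div₀, map_mul, map_pow, h, h]

/-- **(C6), the push to `ℚ̄`: the level core gives the Eichler–Shimura identity (ES-q).** -/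
theorem esQ_of_core (N q p : ℕ) [NeZero N] [NeZero q] (hq : q.Prime) (hqN : ¬ q ∣ N)
    (h : ∀ A : ValuationSubring Qb, A.LiesOverPrime q → ∀ σ : Qb ≃ₐ[ℚ] Qb,
      A.IsFrobeniusAt σ q → EsCoreT.EsCorePropT N q p (EsGaussInst.esOp N q) A σ) :
    EsFinal.EsQ N q p := by
  classical
  intro A hA σ hσ w' hwα' hwβ' n D f hf hfD _
  obtain ⟨S₀, T, hS₀⟩ := h A hA σ hσ n D f hf hfD
  obtain ⟨z, hz⟩ := HasEnoughRootsOfUnity.exists_primitiveRoot Qb q
  obtain ⟨S₁, hS₁⟩ := LevelDesc.eventually_exists_bc (N * q) f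
  obtain ⟨S₂, hS₂⟩ := RatPlace.exists_rational_level_finset (N * q) T
  obtain ⟨L, _, _, ι, hL, hst⟩ := GalLevel.exists_stable_level A hq hA (S₀ ∪ S₁ ∪ S₂ ∪ {z})
  have h0 : S₀ ⊆ S₀ ∪ S₁ ∪ S₂ ∪ {z} := fun a ha =>
    Finset.mem_union_left _ (Finset.mem_union_left _ (Finset.mem_union_left _ ha))
  have h1 : ∀ a ∈ S₁, ∃ b : L, ι b = a := fun a ha =>
    hL.1 a (Finset.mem_union_left _ (Finset.mem_union_left _ (Finset.mem_union_right _ ha)))
  have h2 : ∀ a ∈ S₂, ∃ b : L, ι b = a := fun a ha =>
    hL.1 a (Finset.mem_union_left _ (Finset.mem_union_right _ ha))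
  have h3 : ∃ b : L, ι b = z :=
    hL.1 z (Finset.mem_union_right _ (Finset.mem_singleton_self z))
  obtain ⟨fL, hfL⟩ := hS₁ L ι h1
  obtain ⟨s, hs⟩ := hst σ
  obtain ⟨w, hwα, hwβ⟩ := FrobPartner.exists_atkinLehner_level ι N q hq hqN
  obtain ⟨ζ, hζ⟩ := EsGaussInst.exists_primitiveRoot_of_mem ι q hz h3
  obtain ⟨a, H, ha, hH⟩ := hS₀ L ι (GDescent.isLevel_mono h0 hL) hst fL hfL
    (fun P hP => hS₂ L ι h2 P hP) s hs w hwα hwβ
  refine ⟨ι a, S24.CoeffBC.bc ι (modularFunctionFieldFull (N * q)) H,
    (map_ne_zero ι).mpr ha, ?_⟩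
  have key := congrArg (S24.CoeffBC.bc ι (modularFunctionFieldFull (N * q))) hH
  rw [EsGaussInst.esOp_apply, EsGaussInst.esL_eq_esNorm,
    EsNorm.bc_esL ι N q hq hqN ζ hζ σ s hs w hwα hwβ w' hwα' hwβ', bc_dd (N * q) ι σ s hs, hfL,
    map_mul, map_pow, S24.CoeffBC.bc_algebraMap] at key
  exact key

end Fermat.Agent.S35.EsPush
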