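/-
S35 (wave 7), package (FULL), analytic half: **every real parabolic homomorphism of `Γ₀(N)` is
the real part of the period homomorphism of a weight two cusp form.**

* `eq_zero_of_re_periodMap` : a cusp form all of whose periods are purely imaginary is zero
  (maximum principle `S21.const_of_re_invariant` applied to the equivariant primitive);
* `finrank_real_parabolicHoms_le` : `dim_ℝ Hom_par(Γ₀(N), ℝ) ≤ dim_ℂ Hom_par(Γ₀(N), ℂ)`;
* `exists_re_periodMap` : for every parabolic `ψ : Γ₀(N) → ℝ` there is `f ∈ S₂(Γ₀(N))` with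
  `ψ γ = Re (periodMap N f γ)` for all `γ` (dimension count with Eichler–Shimura `S21.result`).
-/
import Mathlib
import Fermat.Agent.S21
import Fermat.Agent.S21.Inj
import Fermat.Agent.S21.UpperBound

set_option autoImplicit false
set_option linter.unusedSectionVars false

open UpperHalfPlane hiding I
open Complex CongruenceSubgroup ModularCurve ModularCurve.Period
open scoped MatrixGroups

namespace Fermat.Agent.S35.RealPeriods

open Fermat.Agent.S21

variable {N : ℕ} [NeZero N]

/-- A cusp form all of whose periods are purely imaginary is zero. -/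
theorem eq_zero_of_re_periodMap (f : CuspForm (Gamma0 N) 2)
    (h : ∀ γ : Gamma0 N, (periodMap N f (Additive.ofMul γ)).re = 0) : f = 0 := by
  obtain ⟨A, hA⟩ := exists_hasEquivariantPrimitive f
  obtain ⟨c, hc⟩ := const_of_re_invariant (N := N) A (mdiff_of_hasEquivariantPrimitive hA)
    (fun γ hγ z => by
      have h1 := periodMap_apply hA ⟨γ, hγ⟩ z
      have h2 := h ⟨γ, hγ⟩
      rw [h1, Complex.sub_re] at h2
      exact sub_eq_zero.mp h2)
    (fun δ => hA.2.2.2 δ)
    (fun δ w => Inj.prim_periodic hA δ w)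
  exact Inj.eq_zero_of_const hA hc

/-- the real part of a complex-valued homomorphism -/
noncomputable def reHom (φ : Additive (Gamma0 N) →+ ℂ) : Additive (Gamma0 N) →+ ℝ :=
  Complex.reAddGroupHom.comp φ

theorem reHom_apply (φ : Additive (Gamma0 N) →+ ℂ) (a : Additive (Gamma0 N)) :
    reHom φ a = (φ a).re := rfl

/-- the complexification `a + i b` of a pair of real homomorphisms -/
noncomputable def cplxHom (a b : Additive (Gamma0 N) →+ ℝ) : Additive (Gamma0 N) →+ ℂ :=
  Complex.ofRealHom.toAddMonoidHom.comp a + (AddMonoidHom.mulLeft Complex.I).comp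
    (Complex.ofRealHom.toAddMonoidHom.comp b)

theorem cplxHom_apply (a b : Additive (Gamma0 N) →+ ℝ) (x : Additive (Gamma0 N)) :
    cplxHom a b x = (a x : ℂ) + Complex.I * (b x : ℂ) := rfl

/-- The real part of a period homomorphism, as an `ℝ`-linear map to the real parabolic
homomorphisms. -/
noncomputable def rePeriod (N : ℕ) [NeZero N] :
    CuspForm (Gamma0 N) 2 →ₗ[ℝ] parabolicHoms ℝ (Gamma0 N) ℝ where
  toFun f := ⟨reHom (periodMap N f), by
    intro γ hγ
    have h := (mem_parabolicHoms_iff.mp (periodMap_mem_parabolicHoms (N := N) f)) γ hγ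
    rw [reHom_apply, h, Complex.zero_re]⟩
  map_add' f g := by
    obtain ⟨pml, hpml⟩ := existsPeriodMapLinear (N := N)
    apply Subtype.ext
    apply AddMonoidHom.ext
    intro a
    show (periodMap N (f + g) a).re = (periodMap N f a).re + (periodMap N g a).re
    rw [← hpml, ← hpml, ← hpml, map_add, AddMonoidHom.add_apply, Complex.add_re]
  map_smul' r f := by
    obtain ⟨pml, hpml⟩ := existsPeriodMapLinear (N := N)
    apply Subtype.ext
    apply AddMonoidHom.ext
    intro a
    show (periodMap N (r • f) a).re = r • (periodMap N f a).re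
    have e : r • f = (r : ℂ) • f := (Complex.coe_smul r f).symm
    rw [e, ← hpml, ← hpml, map_smul, AddMonoidHom.smul_apply, smul_eq_mul, smul_eq_mul,
      Complex.re_ofReal_mul]

theorem rePeriod_apply (f : CuspForm (Gamma0 N) 2) (a : Additive (Gamma0 N)) :
    ((rePeriod N f : parabolicHoms ℝ (Gamma0 N) ℝ) : Additive (Gamma0 N) →+ ℝ) a =
      (periodMap N f a).re := rfl

theorem rePeriod_injective : Function.Injective (rePeriod N) := by
  rw [injective_iff_map_eq_zero]
  intro f hf
  apply eq_zero_of_re_periodMap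
  intro γ
  have h := congrArg
    (fun ψ : parabolicHoms ℝ (Gamma0 N) ℝ => (ψ : Additive (Gamma0 N) →+ ℝ) (Additive.ofMul γ)) hf
  exact h

/-- the complexification of a pair of real parabolic homomorphisms, as an `ℝ`-linear map -/
noncomputable def cplxPar (N : ℕ) [NeZero N] :
    (parabolicHoms ℝ (Gamma0 N) ℝ × parabolicHoms ℝ (Gamma0 N) ℝ) →ₗ[ℝ]
      parabolicHoms ℂ (Gamma0 N) ℂ where
  toFun x := ⟨cplxHom (x.1 : Additive (Gamma0 N) →+ ℝ) (x.2 : Additive (Gamma0 N) →+ ℝ), by
    intro γ hγ
    have h1 := (mem_parabolicHoms_iff.mp x.1.2) γ hγ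
    have h2 := (mem_parabolicHoms_iff.mp x.2.2) γ hγ
    rw [cplxHom_apply, h1, h2]
    simp⟩
  map_add' x y := by
    apply Subtype.ext
    apply AddMonoidHom.ext
    intro a
    show cplxHom _ _ a = cplxHom _ _ a + cplxHom _ _ a
    simp only [cplxHom_apply, Prod.fst_add, Prod.snd_add, Submodule.coe_add,
      AddMonoidHom.add_apply, Complex.ofReal_add]
    ring
  map_smul' r x := by
    apply Subtype.ext
    apply AddMonoidHom.ext
    intro a
    show cplxHom _ _ a = r • cplxHom _ _ a
    simp only [cplxHom_apply, Prod.smul_fst, Prod.smul_snd, Submodule.coe_smul,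
      AddMonoidHom.smul_apply, smul_eq_mul, Complex.ofReal_mul, Complex.real_smul]
    ring

theorem cplxPar_injective : Function.Injective (cplxPar N) := by
  rw [injective_iff_map_eq_zero]
  rintro ⟨a, b⟩ h
  have key : ∀ x : Additive (Gamma0 N),
      ((a : Additive (Gamma0 N) →+ ℝ) x : ℂ) + Complex.I * ((b : Additive (Gamma0 N) →+ ℝ) x : ℂ)
        = 0 := by
    intro x
    have h1 := congrArg
      (fun ψ : parabolicHoms ℂ (Gamma0 N) ℂ => (ψ : Additive (Gamma0 N) →+ ℂ) x) h
    exact h1
  have ha : a = 0 := by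
    apply Subtype.ext
    apply AddMonoidHom.ext
    intro x
    have h1 := congrArg Complex.re (key x)
    simpa using h1
  have hb : b = 0 := by
    apply Subtype.ext
    apply AddMonoidHom.ext
    intro x
    have h1 := congrArg Complex.im (key x)
    simpa using h1
  rw [ha, hb]
  rfl

/-- `dim_ℝ Hom_par(Γ₀(N), ℝ) ≤ dim_ℂ Hom_par(Γ₀(N), ℂ)`, together with finiteness. -/
theorem finrank_real_parabolicHoms_le :
    Module.Finite ℝ (parabolicHoms ℝ (Gamma0 N) ℝ) ∧
      Module.finrank ℝ (parabolicHoms ℝ (Gamma0 N) ℝ) ≤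
        Module.finrank ℂ (parabolicHoms ℂ (Gamma0 N) ℂ) := by
  have hfinP : Module.Finite ℂ (parabolicHoms ℂ (Gamma0 N) ℂ) := finite_parabolicHoms
  have hfinPR : Module.Finite ℝ (parabolicHoms ℂ (Gamma0 N) ℂ) := FiniteDimensional.complexToReal _
  have hfin2 : Module.Finite ℝ
      (parabolicHoms ℝ (Gamma0 N) ℝ × parabolicHoms ℝ (Gamma0 N) ℝ) :=
    Module.Finite.of_injective (cplxPar N) cplxPar_injective
  have hfin1 : Module.Finite ℝ (parabolicHoms ℝ (Gamma0 N) ℝ) :=
    Module.Finite.of_injective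
      (LinearMap.inl ℝ (parabolicHoms ℝ (Gamma0 N) ℝ) (parabolicHoms ℝ (Gamma0 N) ℝ))
      LinearMap.inl_injective
  refine ⟨hfin1, ?_⟩
  have hprod : Module.finrank ℝ
      (parabolicHoms ℝ (Gamma0 N) ℝ × parabolicHoms ℝ (Gamma0 N) ℝ) =
      Module.finrank ℝ (parabolicHoms ℝ (Gamma0 N) ℝ) +
        Module.finrank ℝ (parabolicHoms ℝ (Gamma0 N) ℝ) := Module.finrank_prod
  have hle := LinearMap.finrank_le_finrank_of_injective (cplxPar_injective (N := N))
  have hRC : Module.finrank ℝ (parabolicHoms ℂ (Gamma0 N) ℂ) =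
      2 * Module.finrank ℂ (parabolicHoms ℂ (Gamma0 N) ℂ) := finrank_real_of_complex _
  omega

/-- Eichler–Shimura: `dim_ℂ Hom_par(Γ₀(N), ℂ) = 2 dim S₂(Γ₀(N))`. -/
theorem finrank_parabolicHoms_eq :
    Module.finrank ℂ (parabolicHoms ℂ (Gamma0 N) ℂ) =
      2 * Module.finrank ℂ (CuspForm (Gamma0 N) 2) := by
  have hfin1 := finite_cuspForm_two N
  have hsurj : Function.Surjective (periodHomPairPar N) := by
    rintro ⟨ψ, hψ⟩
    have hr : ψ ∈ LinearMap.range (periodHomPair N) := by
      rw [(Fermat.Agent.S21.result N).2]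
      exact hψ
    obtain ⟨x, hx⟩ := hr
    exact ⟨x, Subtype.ext hx⟩
  have e := LinearEquiv.ofBijective (periodHomPairPar N) ⟨periodHomPairPar_injective N, hsurj⟩
  rw [← e.finrank_eq, Module.finrank_prod]
  ring

/-- **Every real parabolic homomorphism of `Γ₀(N)` is the real part of a period
homomorphism.** -/
theorem exists_re_periodMap (ψ : Additive (Gamma0 N) →+ ℝ)
    (hψ : IsParabolicHom (Gamma0 N) ψ) :
    ∃ f : CuspForm (Gamma0 N) 2, ∀ a : Additive (Gamma0 N), ψ a = (periodMap N f a).re := by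
  have hfin1 := finite_cuspForm_two N
  have hfinR : Module.Finite ℝ (CuspForm (Gamma0 N) 2) := FiniteDimensional.complexToReal _
  obtain ⟨hfinP, hle⟩ := finrank_real_parabolicHoms_le (N := N)
  have hRC : Module.finrank ℝ (CuspForm (Gamma0 N) 2) =
      2 * Module.finrank ℂ (CuspForm (Gamma0 N) 2) := finrank_real_of_complex _
  have hle2 := LinearMap.finrank_le_finrank_of_injective (rePeriod_injective (N := N))
  have heq : Module.finrank ℝ (CuspForm (Gamma0 N) 2) =
      Module.finrank ℝ (parabolicHoms ℝ (Gamma0 N) ℝ) := by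
    have h3 := finrank_parabolicHoms_eq (N := N)
    omega
  have hsurj : Function.Surjective (rePeriod N) :=
    (LinearMap.injective_iff_surjective_of_finrank_eq_finrank heq).mp rePeriod_injective
  obtain ⟨f, hf⟩ := hsurj ⟨ψ, hψ⟩
  refine ⟨f, fun a => ?_⟩
  have h := congrArg
    (fun χ : parabolicHoms ℝ (Gamma0 N) ℝ => (χ : Additive (Gamma0 N) →+ ℝ) a) hf
  exact h.symm

end Fermat.Agent.S35.RealPeriods
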