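/-
S35 (wave 7), package (FULL): **the dual period lattice `Λ` of `Γ₀(N)` contains EVERY integral
homomorphism `Γ₀(N) → ℤ` killing parabolic and finite-order elements.**

`exists_lattice_full` is `S30.PerLatJ.exists_lattice` verbatim with one more conclusion

    `∀ ψ : Additive (S22.Gam N) →+ ℤ, S29.IsPE ψ → ∃ v : Λ, incl v = ψ`,

so it can replace `PerLatJ.exists_lattice` as the `hΛ` of `S30.GeomJac.exists_geomInput_of` /
`S34.GeomJacU.exists_geomInput_equiv`.

The existing chain `S30.PerLat.exists_lattice_aux` → `exists_period_lattice` →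
`S30.PerLatHecke.exists_hecke_lattice` → `S30.PerLatJ.exists_lattice` produces the lattice as an
opaque existential and does not export that `ev γ = 0` forces all periods of `γ` to vanish; the
four theorems are therefore repeated here (same proofs, imported files untouched) with that
additional conclusion.  Fullness then follows from `RealPeriods.exists_re_periodMap` (every real
parabolic homomorphism is the real part of a period homomorphism; Eichler–Shimura `S21.result`
and the maximum principle).
-/
import Mathlib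
import Fermat.Agent.S30.PerLatJ
import Fermat.Agent.S35.RealPeriods

set_option autoImplicit false
set_option linter.unusedSectionVars false

open scoped MatrixGroups
open CongruenceSubgroup ModularCurve

namespace Fermat.Agent.S35.PerLatFull

open Fermat.Agent Fermat.Agent.S22 Fermat.Agent.S29 Fermat.Agent.S29.Betti Fermat.Agent.S30
  Fermat.Agent.S30.PerLatHecke

section Lattice

universe u v w

variable {X : Type*} {V : Type u} {A : Type v} {𝕋 : Type w} [AddCommGroup V] [AddCommGroup A]
  [CommRing 𝕋]

/-- `S30.PerLat.exists_lattice_aux` with the additional conclusion that `ev x = 0` forces all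
periods at `x` to vanish. -/
theorem exists_lattice_aux_full
    (act : 𝕋 → V → V)
    (act_one : ∀ v, act 1 v = v)
    (act_mul : ∀ s t v, act (s * t) v = act s (act t v))
    (act_add : ∀ s t v, act (s + t) v = act s v + act t v)
    (act_add_right : ∀ t v w, act t (v + w) = act t v + act t w)
    (act_faithful : ∀ t, (∀ v, act t v = 0) → t = 0)
    (per : V → X → A)
    (per_add : ∀ v w x, per (v + w) x = per v x + per w x)
    (per_inj : ∀ v, (∀ x, per v x = 0) → v = 0) :
    ∃ (L : Type (max u v)) (_ : AddCommGroup L) (_ : Module 𝕋 L) (ev : X → L),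
      Submodule.span 𝕋 (Set.range ev) = ⊤ ∧
      (∀ t : 𝕋, (∀ x : L, t • x = 0) → t = 0) ∧
      (∀ (t : 𝕋) (c d : X →₀ ℤ),
        (∀ v, Finsupp.linearCombination ℤ (per (act t v)) c =
          Finsupp.linearCombination ℤ (per v) d) →
        t • Finsupp.linearCombination ℤ ev c = Finsupp.linearCombination ℤ ev d) ∧
      (∀ n : ℕ, n ≠ 0 → (∀ a : A, n • a = 0 → a = 0) → ∀ x : L, n • x = 0 → x = 0) ∧
      (∀ x : X, ev x = 0 → ∀ v : V, per v x = 0) := by
  classical
  let actHom : 𝕋 → (V →+ V) := fun t => AddMonoidHom.mk' (act t) (act_add_right t)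
  have act_zero : ∀ v, act 0 v = 0 := by
    intro v
    have h := act_add 0 0 v
    rw [add_zero] at h
    exact left_eq_add.mp h
  let instSMul : SMul 𝕋 (V →+ A) := ⟨fun t l => l.comp (actHom t)⟩
  have smul_apply : ∀ (t : 𝕋) (l : V →+ A) (v : V), (t • l) v = l (act t v) := fun _ _ _ => rfl
  let instMod : Module 𝕋 (V →+ A) :=
    { one_smul := fun l => by
        ext v; rw [smul_apply, act_one]
      mul_smul := fun s t l => by
        ext v; rw [smul_apply, smul_apply, smul_apply, mul_comm, act_mul]
      smul_zero := fun t => by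
        ext v; rw [smul_apply]; rfl
      smul_add := fun t l l' => by
        ext v; rw [smul_apply, AddMonoidHom.add_apply, AddMonoidHom.add_apply, smul_apply,
          smul_apply]
      add_smul := fun s t l => by
        ext v; rw [smul_apply, AddMonoidHom.add_apply, smul_apply, smul_apply, act_add, map_add]
      zero_smul := fun l => by
        ext v; rw [smul_apply, act_zero, map_zero]; rfl }
  let ev : X → (V →+ A) := fun x => AddMonoidHom.mk' (fun v => per v x) (fun v w => per_add v w x)
  have ev_apply : ∀ x v, ev x v = per v x := fun _ _ => rfl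
  let L : Submodule 𝕋 (V →+ A) := Submodule.span 𝕋 (Set.range ev)
  have hev : ∀ x, ev x ∈ L := fun x => Submodule.subset_span ⟨x, rfl⟩
  let evL : X → L := fun x => ⟨ev x, hev x⟩
  refine ⟨L, inferInstance, inferInstance, evL, ?_, ?_, ?_, ?_, ?_⟩
  · rw [eq_top_iff]
    rintro ⟨l, hl⟩ -
    induction hl using Submodule.span_induction with
    | mem l hl =>
      obtain ⟨x, rfl⟩ := hl
      exact Submodule.subset_span ⟨x, rfl⟩
    | zero => exact Submodule.zero_mem _
    | add l l' hl hl' ih ih' =>
      have : (⟨l + l', Submodule.add_mem _ hl hl'⟩ : L) = ⟨l, hl⟩ + ⟨l', hl'⟩ := rfl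
      rw [this]
      exact Submodule.add_mem _ ih ih'
    | smul t l hl ih =>
      have : (⟨t • l, Submodule.smul_mem _ t hl⟩ : L) = t • ⟨l, hl⟩ := rfl
      rw [this]
      exact Submodule.smul_mem _ t ih
  · intro t ht
    apply act_faithful
    intro v
    apply per_inj
    intro x
    have h := congrArg Subtype.val (ht ⟨ev x, hev x⟩)
    have h2 : (t • ev x) v = 0 := by
      have h3 : t • ev x = 0 := h
      rw [h3]; rfl
    rw [smul_apply, ev_apply] at h2
    exact h2
  · intro t c d h
    simp only [Finsupp.linearCombination_apply] at h ⊢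
    apply Subtype.ext
    ext v
    have e1 : ((t • c.sum (fun y n => n • evL y) : L) : V →+ A) v =
        c.sum (fun y n => n • per (act t v) y) := by
      rw [Submodule.coe_smul, smul_apply, Finsupp.sum, Finsupp.sum,
        AddSubmonoidClass.coe_finsetSum, AddMonoidHom.finsetSum_apply]
      rfl
    have e2 : ((d.sum (fun y n => n • evL y) : L) : V →+ A) v =
        d.sum (fun y n => n • per v y) := by
      rw [Finsupp.sum, Finsupp.sum,
        AddSubmonoidClass.coe_finsetSum, AddMonoidHom.finsetSum_apply]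
      rfl
    rw [e1, e2, h v]
  · intro n hn hA x hx
    apply Subtype.ext
    ext v
    have h := congrArg Subtype.val hx
    have h2 : (n • (x : V →+ A)) v = 0 := by
      have h3 : n • (x : V →+ A) = 0 := h
      rw [h3]; rfl
    exact hA _ h2
  · intro x hx v
    have h := congrArg Subtype.val hx
    have h2 : (ev x) v = 0 := by
      have h3 : ev x = 0 := h
      rw [h3]; rfl
    rw [ev_apply] at h2
    exact h2

end Lattice

section Group

universe u v w

/-- `S30.PerLat.exists_period_lattice` with the additional conclusion that `ev γ = 0` forces all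
periods of `γ` to vanish. -/
theorem exists_period_lattice_full {Γ : Type*} [Group Γ] {V : Type u} {A : Type v} {𝕋 : Type w}
    [AddCommGroup V] [AddCommGroup A] [CommRing 𝕋]
    (S : Finset Γ) (hS : Subgroup.closure (S : Set Γ) = ⊤)
    (hA : ∀ n : ℕ, n ≠ 0 → ∀ a : A, n • a = 0 → a = 0)
    (act : 𝕋 → V → V)
    (act_one : ∀ v, act 1 v = v)
    (act_mul : ∀ s t v, act (s * t) v = act s (act t v))
    (act_add : ∀ s t v, act (s + t) v = act s v + act t v)
    (act_add_right : ∀ t v w, act t (v + w) = act t v + act t w)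
    (act_faithful : ∀ t, (∀ v, act t v = 0) → t = 0)
    (per : V → Γ → A)
    (per_add : ∀ v w γ, per (v + w) γ = per v γ + per w γ)
    (per_mul : ∀ v γ γ', per v (γ * γ') = per v γ + per v γ')
    (per_inj : ∀ v, (∀ γ, per v γ = 0) → v = 0)
    {I : Type*} {J : I → Type*} [∀ i, Fintype (J i)] (g : ∀ i, Γ → J i → Γ)
    (T : I → 𝕋) (hT : ∀ i v γ, per (act (T i) v) γ = ∑ x, per v (g i γ x))
    (hgen : Subring.closure (Set.range T) = ⊤) :
    ∃ (L : Type (max u v)) (_ : AddCommGroup L) (_ : Module 𝕋 L) (ev : Γ → L),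
      Module.Finite ℤ L ∧ Module.Free ℤ L ∧
      (∀ γ γ', ev (γ * γ') = ev γ + ev γ') ∧
      (∀ i γ, T i • ev γ = ∑ x, ev (g i γ x)) ∧
      (∀ γ, (∀ v, per v γ = 0) → ev γ = 0) ∧
      AddSubgroup.closure (Set.range ev) = ⊤ ∧
      (∀ t : 𝕋, (∀ x : L, t • x = 0) → t = 0) ∧
      (∀ γ, ev γ = 0 → ∀ v, per v γ = 0) := by
  classical
  obtain ⟨L, instG, instM, ev, hspan, hfaith, hrel, htf, hper0⟩ :=
    exists_lattice_aux_full act act_one act_mul act_add act_add_right act_faithful per per_add
      per_inj
  have hrel1 : ∀ c d : Γ →₀ ℤ,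
      (∀ v, Finsupp.linearCombination ℤ (per v) c = Finsupp.linearCombination ℤ (per v) d) →
      Finsupp.linearCombination ℤ ev c = Finsupp.linearCombination ℤ ev d := by
    intro c d h
    have h1 := hrel 1 c d (fun v => by rw [act_one]; exact h v)
    rwa [one_smul] at h1
  have ev_mul : ∀ γ γ', ev (γ * γ') = ev γ + ev γ' := by
    intro γ γ'
    have h := hrel1 (Finsupp.single (γ * γ') 1) (Finsupp.single γ 1 + Finsupp.single γ' 1)
      (fun v => by
        simp only [map_add, Finsupp.linearCombination_single, one_smul]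
        exact per_mul v γ γ')
    simpa only [map_add, Finsupp.linearCombination_single, one_smul] using h
  have ev_T : ∀ i γ, T i • ev γ = ∑ x, ev (g i γ x) := by
    intro i γ
    have h := hrel (T i) (Finsupp.single γ 1) (∑ x, Finsupp.single (g i γ x) 1)
      (fun v => by
        simp only [map_sum, Finsupp.linearCombination_single, one_smul]
        exact hT i v γ)
    simpa only [map_sum, Finsupp.linearCombination_single, one_smul] using h
  have ev_zero : ∀ γ, (∀ v, per v γ = 0) → ev γ = 0 := by
    intro γ hγ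
    have h := hrel1 (Finsupp.single γ 1) 0 (fun v => by
      simp only [map_zero, Finsupp.linearCombination_single, one_smul]
      exact hγ v)
    simpa only [map_zero, Finsupp.linearCombination_single, one_smul] using h
  have ev_one : ev 1 = 0 := by
    have h := ev_mul 1 1
    rw [mul_one] at h
    exact left_eq_add.mp h
  have ev_inv : ∀ γ, ev γ⁻¹ = - ev γ := by
    intro γ
    have h := ev_mul γ γ⁻¹
    rw [mul_inv_cancel, ev_one] at h
    exact eq_neg_of_add_eq_zero_right h.symm
  -- the additive closure of the evaluations is stable under `𝕋`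
  let Lz : AddSubgroup L := AddSubgroup.closure (Set.range ev)
  let R₀ : Subring 𝕋 :=
    { carrier := {t | ∀ l ∈ Lz, t • l ∈ Lz}
      one_mem' := fun l hl => by rw [one_smul]; exact hl
      mul_mem' := fun {s t} hs ht l hl => by rw [mul_smul]; exact hs _ (ht _ hl)
      zero_mem' := fun l _ => by rw [zero_smul]; exact Lz.zero_mem
      add_mem' := fun {s t} hs ht l hl => by rw [add_smul]; exact Lz.add_mem (hs _ hl) (ht _ hl)
      neg_mem' := fun {s} hs l hl => by rw [neg_smul]; exact Lz.neg_mem (hs _ hl) }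
  have hR₀ : ∀ t : 𝕋, ∀ l ∈ Lz, t • l ∈ Lz := by
    have hle : Subring.closure (Set.range T) ≤ R₀ := by
      rw [Subring.closure_le]
      rintro _ ⟨i, rfl⟩ l hl
      induction hl using AddSubgroup.closure_induction with
      | mem l hl =>
        obtain ⟨γ, rfl⟩ := hl
        rw [ev_T]
        exact Lz.sum_mem fun x _ => AddSubgroup.subset_closure ⟨_, rfl⟩
      | zero => rw [smul_zero]; exact Lz.zero_mem
      | add l l' _ _ ih ih' => rw [smul_add]; exact Lz.add_mem ih ih'
      | neg l _ ih => rw [smul_neg]; exact Lz.neg_mem ih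
    intro t
    have : t ∈ R₀ := hle (by rw [hgen]; trivial)
    exact this
  have hLz : Lz = ⊤ := by
    rw [eq_top_iff]
    rintro x -
    have hx : x ∈ Submodule.span 𝕋 (Set.range ev) := by rw [hspan]; trivial
    induction hx using Submodule.span_induction with
    | mem l hl => exact AddSubgroup.subset_closure hl
    | zero => exact Lz.zero_mem
    | add l l' _ _ ih ih' => exact Lz.add_mem ih ih'
    | smul t l _ ih => exact hR₀ t l ih
  -- finite generation over `ℤ`
  have hS' : ∀ γ : Γ, ev γ ∈ Submodule.span ℤ (ev '' (S : Set Γ)) := by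
    intro γ
    have hγ : γ ∈ Subgroup.closure (S : Set Γ) := by rw [hS]; trivial
    induction hγ using Subgroup.closure_induction with
    | mem x hx => exact Submodule.subset_span ⟨x, hx, rfl⟩
    | one => rw [ev_one]; exact Submodule.zero_mem _
    | mul x y _ _ ihx ihy => rw [ev_mul]; exact Submodule.add_mem _ ihx ihy
    | inv x _ ih => rw [ev_inv]; exact Submodule.neg_mem _ ih
  have hfin : Module.Finite ℤ L := by
    rw [Module.finite_def]
    have htop : (⊤ : Submodule ℤ L) = Submodule.span ℤ (ev '' (S : Set Γ)) := by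
      symm
      rw [eq_top_iff]
      rintro x -
      have hx : x ∈ Lz := by rw [hLz]; trivial
      induction hx using AddSubgroup.closure_induction with
      | mem l hl =>
        obtain ⟨γ, rfl⟩ := hl
        exact hS' γ
      | zero => exact Submodule.zero_mem _
      | add l l' _ _ ih ih' => exact Submodule.add_mem _ ih ih'
      | neg l _ ih => exact Submodule.neg_mem _ ih
    rw [htop]
    exact Submodule.fg_span (S.finite_toSet.image ev)
  have htfree : IsAddTorsionFree L :=
    ⟨fun n hn x y hxy => by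
      have h : n • (x - y) = 0 := by
        rw [smul_sub]
        exact sub_eq_zero.mpr hxy
      exact sub_eq_zero.mp (htf n hn (hA n hn) _ h)⟩
  have hfree : Module.Free ℤ L := Module.free_of_finite_type_torsion_free'
  exact ⟨L, instG, instM, ev, hfin, hfree, ev_mul, ev_T, ev_zero, hLz, hfaith, hper0⟩

end Group

section Hecke

variable (N : ℕ) [NeZero N] (S : Set ℕ)

/-- `S30.PerLatHecke.exists_hecke_lattice` with the additional conclusion that `ev a = 0` forces
all periods of `a` to vanish. -/
theorem exists_hecke_lattice_full (hNS : ∀ q : ℕ, q.Prime → q ∣ N → q ∈ S) :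
    ∃ (L : Type) (_ : AddCommGroup L) (_ : Module (CuspForm.heckeAlgebra N 2 S) L)
      (ev : Additive (Gam N) →+ L),
      Module.Finite ℤ L ∧ Module.Free ℤ L ∧ Function.Surjective ev ∧ IsPE ev ∧
      (∀ (ℓ : ℕ) [Fact ℓ.Prime] (hℓN : ¬ ℓ ∣ N) (hℓS : ℓ ∉ S) (γ : Gam N),
        (CuspForm.heckeAlgebra.T Fact.out hℓN hℓS : CuspForm.heckeAlgebra N 2 S) •
            ev (Additive.ofMul γ) =
          ∑ x : OnePoint (ZMod ℓ), ev (Additive.ofMul (gamT hℓN γ x))) ∧
      (∀ t : CuspForm.heckeAlgebra N 2 S, (∀ x : L, t • x = 0) → t = 0) ∧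
      (∀ a : Additive (Gam N), ev a = 0 → ∀ f : CuspForm (Gamma0 N) 2, periodMap N f a = 0) ∧
      ∃ m : ℕ, m ≠ 0 ∧ ∀ (d : ℕ) (h : CuspForm.heckeAlgebra N 2 S),
        (∀ (ψ : L →+ ZMod d) (x : L), ψ (h • x) = 0) →
          ∃ h' : CuspForm.heckeAlgebra N 2 S, m • h = d • h' := by
  classical
  obtain ⟨S₀, hS₀⟩ := exists_finset_closure N
  obtain ⟨L, instG, instM, ev, hfin, hfree, ev_mul, ev_T, ev_zero, hcl, hfaith, hper0⟩ :=
    exists_period_lattice_full (Γ := Gam N) (A := ℂ) S₀ hS₀
      (fun n hn a ha => (smul_eq_zero.mp ha).resolve_left (Nat.cast_ne_zero.mpr hn))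
      (hact N S) (hact_one N S)
      (hact_mul N S) (hact_add N S) (hact_add_right N S) (hact_faithful N S) (hper N)
      (hper_add N) (hper_mul N) (hper_inj N)
      (J := fun i : GoodPrime N S => OnePoint (ZMod (i : ℕ)))
      (fun i γ x => gamT i.2.2.1 γ x)
      (fun i => CuspForm.heckeAlgebra.T i.2.1 i.2.2.1 i.2.2.2) (hper_hecke N S)
      (closure_range_T_eq_top N S hNS)
  obtain ⟨m, hm, hsat⟩ := PerLat.exists_saturation_bound_hom (𝕋 := CuspForm.heckeAlgebra N 2 S)
    (L := L) hfaith
  let evHom : Additive (Gam N) →+ L :=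
    AddMonoidHom.mk' (fun a => ev (Additive.toMul a)) (fun a b => ev_mul _ _)
  refine ⟨L, instG, instM, evHom, hfin, hfree, ?_, ?_, ?_, hfaith,
    fun a ha f => hper0 (Additive.toMul a) ha f, m, hm, hsat⟩
  · intro x
    have hx : x ∈ AddSubgroup.closure (Set.range ev) := by rw [hcl]; trivial
    have hrange : Set.range ev = (evHom.range : Set L) := by
      ext y
      constructor
      · rintro ⟨γ, rfl⟩
        exact ⟨Additive.ofMul γ, rfl⟩
      · rintro ⟨a, rfl⟩
        exact ⟨Additive.toMul a, rfl⟩
    rw [hrange, AddSubgroup.closure_eq] at hx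
    exact hx
  · intro γ hγ
    exact ev_zero γ fun f => isPE_periodMap f γ hγ
  · intro ℓ _ hℓN hℓS γ
    exact ev_T ⟨ℓ, Fact.out, hℓN, hℓS⟩ γ

end Hecke

/-- An integral homomorphism killing parabolic and finite-order elements vanishes on every
element all of whose periods vanish. -/
theorem eq_zero_of_isPE_of_periods {N : ℕ} [NeZero N] (ψ : Additive (S22.Gam N) →+ ℤ)
    (hψ : S29.IsPE ψ) (a : Additive (S22.Gam N))
    (ha : ∀ f : CuspForm (Gamma0 N) 2, periodMap N f a = 0) : ψ a = 0 := by
  have hpar : ModularCurve.Period.IsParabolicHom (Gamma0 N) ((Int.castAddHom ℝ).comp ψ) := by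
    intro γ hγ
    show ((ψ (Additive.ofMul γ) : ℤ) : ℝ) = 0
    rw [hψ γ (Or.inl hγ), Int.cast_zero]
  obtain ⟨f, hf⟩ := RealPeriods.exists_re_periodMap ((Int.castAddHom ℝ).comp ψ) hpar
  have h1 := hf a
  rw [ha f, Complex.zero_re] at h1
  have h2 : ((ψ a : ℤ) : ℝ) = 0 := h1
  exact_mod_cast h2

/-- **The dual period lattice with fullness**: `S30.PerLatJ.exists_lattice` together with the
statement that every integral `PE` homomorphism lies in the image of `incl`. -/
theorem exists_lattice_full (N : ℕ) [NeZero N] (S : Finset ℕ)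
    (hNS : ∀ q : ℕ, q.Prime → q ∣ N → q ∈ S) :
    ∃ (Λ : Type) (_ : AddCommGroup Λ) (_ : Module.Free ℤ Λ) (_ : Module.Finite ℤ Λ)
      (hecke : CuspForm.heckeAlgebra N 2 (↑S : Set ℕ) →+* Module.End ℤ Λ)
      (incl : Λ →+ (Additive (S22.Gam N) →+ ℤ)),
      Function.Injective hecke ∧ Function.Injective incl ∧ (∀ v : Λ, S29.IsPE (incl v)) ∧
      (∀ (ψ : Additive (S22.Gam N) →+ ℤ) (k : ℕ), k ≠ 0 → (∃ v : Λ, incl v = k • ψ) →
        ∃ v : Λ, incl v = ψ) ∧
      (∀ (ℓ : ℕ) [Fact ℓ.Prime] (hℓN : ¬ ℓ ∣ N) (hℓS : ℓ ∉ (↑S : Set ℕ)) (v : Λ)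
        (γ : S22.Gam N),
        incl (hecke (CuspForm.heckeAlgebra.T Fact.out hℓN hℓS) v) (Additive.ofMul γ) =
          ∑ x : OnePoint (ZMod ℓ), incl v (Additive.ofMul (S22.gamT hℓN γ x))) ∧
      ∀ ψ : Additive (S22.Gam N) →+ ℤ, S29.IsPE ψ → ∃ v : Λ, incl v = ψ := by
  classical
  obtain ⟨L, instG, instM, ev, hfin, hfree, hsurj, hPE, hT, hfaith, hper0, -⟩ :=
    exists_hecke_lattice_full N (↑S : Set ℕ)
      (fun q hq hqN => Finset.mem_coe.mpr (hNS q hq hqN))
  -- multiplication by `t` as a `ℤ`-linear endomorphism of `L`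
  let mulL : CuspForm.heckeAlgebra N 2 (↑S : Set ℕ) → (L →ₗ[ℤ] L) := fun t =>
    (DistribSMul.toAddMonoidHom L t).toIntLinearMap
  have mulL_apply : ∀ t x, mulL t x = t • x := fun _ _ => rfl
  let hecke : CuspForm.heckeAlgebra N 2 (↑S : Set ℕ) →+* Module.End ℤ (L →ₗ[ℤ] ℤ) :=
    { toFun := fun t => LinearMap.lcomp ℤ ℤ (mulL t)
      map_one' := by
        ext v x
        simp [mulL_apply]
      map_mul' := fun s t => by
        ext v x
        simp [mulL_apply, mul_smul, smul_comm s t x]
      map_zero' := by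
        ext v x
        simp [mulL_apply]
      map_add' := fun s t => by
        ext v x
        simp [mulL_apply, add_smul] }
  have hecke_apply : ∀ t (v : L →ₗ[ℤ] ℤ) x, hecke t v x = v (t • x) := fun _ _ _ => rfl
  let incl : (L →ₗ[ℤ] ℤ) →+ (Additive (S22.Gam N) →+ ℤ) :=
    { toFun := fun v => v.toAddMonoidHom.comp ev
      map_zero' := by ext a; simp
      map_add' := fun v w => by ext a; simp }
  have incl_apply : ∀ (v : L →ₗ[ℤ] ℤ) a, incl v a = v (ev a) := fun _ _ => rfl
  refine ⟨L →ₗ[ℤ] ℤ, inferInstance, inferInstance, inferInstance, hecke, incl, ?_, ?_, ?_, ?_, ?_,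
    ?_⟩
  · -- faithfulness
    rw [injective_iff_map_eq_zero]
    intro t ht
    apply hfaith
    intro x
    rw [← Module.forall_dual_apply_eq_zero_iff ℤ]
    intro v
    have h1 := hecke_apply t v x
    rw [ht] at h1
    exact h1.symm
  · -- injectivity of `incl`
    intro v w hvw
    ext x
    obtain ⟨a, rfl⟩ := hsurj x
    have := DFunLike.congr_fun hvw a
    rwa [incl_apply, incl_apply] at this
  · -- `PE`
    intro v γ hγ
    rw [incl_apply, hPE γ hγ, map_zero]
  · -- saturation
    rintro ψ k hk ⟨v, hv⟩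
    have hdvd : ∀ x : L, (k : ℤ) ∣ v x := by
      intro x
      obtain ⟨a, rfl⟩ := hsurj x
      refine ⟨ψ a, ?_⟩
      have := DFunLike.congr_fun hv a
      rw [incl_apply] at this
      rw [this]
      simp
    let w : L →+ ℤ :=
      { toFun := fun x => v x / (k : ℤ)
        map_zero' := by simp
        map_add' := fun x y => by
          rw [map_add]
          exact Int.add_ediv_of_dvd_left (hdvd x) }
    refine ⟨w.toIntLinearMap, ?_⟩
    refine DFunLike.ext _ _ fun a => ?_
    have h1 := DFunLike.congr_fun hv a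
    rw [incl_apply] at h1
    rw [incl_apply]
    show v (ev a) / (k : ℤ) = ψ a
    rw [h1]
    simp only [AddMonoidHom.coe_smul, Pi.smul_apply, nsmul_eq_mul]
    exact Int.mul_ediv_cancel_left _ (Nat.cast_ne_zero.mpr hk)
  · -- the transfer formula
    intro ℓ _ hℓN hℓS v γ
    rw [incl_apply, hecke_apply, hT ℓ hℓN hℓS γ, map_sum]
    rfl
  · -- fullness: every integral PE homomorphism factors through the period lattice
    intro ψ hψ
    have hker : ev.ker ≤ ψ.ker := by
      intro a ha
      rw [AddMonoidHom.mem_ker] at ha ⊢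
      exact eq_zero_of_isPE_of_periods ψ hψ a (hper0 a ha)
    let w : L →+ ℤ := ev.liftOfRightInverse (Function.surjInv hsurj)
      (Function.rightInverse_surjInv hsurj) ⟨ψ, hker⟩
    have hw : ∀ a, w (ev a) = ψ a := fun a =>
      ev.liftOfRightInverse_comp_apply (Function.surjInv hsurj)
        (Function.rightInverse_surjInv hsurj) ⟨ψ, hker⟩ a
    refine ⟨w.toIntLinearMap, ?_⟩
    refine DFunLike.ext _ _ fun a => ?_
    rw [incl_apply]
    exact hw a

end Fermat.Agent.S35.PerLatFull
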