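/-
S35 (wave 7): the geometric input of S30 / S31 for `J₀(N)(ℚ̄)` with EVERYTHING exposed.

`S30.GeomJac.exists_geomInput_of` returns an opaque `∃ I : GeomInput p N S`;
`S34.GeomJacU.exists_geomInput_equiv` exposes the Galois module.  For S35 (old/new separation)
one also needs the Hecke operators, the Kummer maps and the FULL lattice:

* `exists_geomInput_full` : for a Kummer family `Θ` (the three clauses of
  `S30.ThetaFam.exists_family`, as hypotheses) there is a `GeomInput p N S` with a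
  Galois- and Hecke-equivariant identification `e : I.X ≃+ JZero N`, a BIJECTION
  `incl : I.Λ →+ S29.peHoms N ℤ` (fullness: `PerLatFull.exists_lattice_full`) and
  `e (I.θ n v) = Θ (p ^ n) (modPE N (p ^ n) (incl v))`;
* `exists_geomInput_ks_of` : if moreover `c • x` lies in `Θ m (modPE N m (peHoms N ℤ))` for every
  `m`-torsion `x` (Kummer surjectivity up to a constant), then `c • x ∈ I.θ n (I.Λ)` for every
  `p ^ n`-torsion `x` of `I.X`.

The construction is that of `S30.GeomJac.exists_geomInput_of` (imported read-only).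
-/
import Mathlib
import Fermat.Agent.S30.GeomJac
import Fermat.Agent.S35.PerLatFull

set_option autoImplicit false

namespace Fermat.Agent.S35.GeomJacE

open ModularCurve AlgebraicCurve Fermat.Agent Fermat.Agent.S30 Fermat.Agent.S30.GeomJac

noncomputable section

/-- **The concrete geometric input for `J₀(N)(ℚ̄)` with Galois module, Hecke operators, Kummer
maps and the full lattice exposed.** -/
theorem exists_geomInput_full (p : ℕ) [Fact p.Prime] (N : ℕ) [NeZero N] (S : Finset ℕ)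
    (hNS : ∀ q : ℕ, q.Prime → q ∣ N → q ∈ S)
    (Θ : ∀ m : ℕ, S29.peHoms N (ZMod m) →+ ModularCurve.JZero N)
    (hΘinj : ∀ m : ℕ, 0 < m → Function.Injective (Θ m))
    (hΘhecke : ∀ (m : ℕ), 0 < m → ∀ (ℓ : ℕ) [Fact ℓ.Prime] (hℓN : ¬ ℓ ∣ N)
        (χ χ' : S29.peHoms N (ZMod m)),
        (∀ γ : S22.Gam N, (χ' : Additive (S22.Gam N) →+ ZMod m) (Additive.ofMul γ) =
          ∑ x : OnePoint (ZMod ℓ),
            (χ : Additive (S22.Gam N) →+ ZMod m) (Additive.ofMul (S22.gamT hℓN γ x))) →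
        Θ m χ' = ModularCurve.heckeOperatorBar N ⟨ℓ, Fact.out⟩ (Θ m χ))
    (hΘfam : ∀ (m d : ℕ), 0 < m → 0 < d → ∀ ψ : S29.peHoms N (ZMod (m * d)),
        Θ m (redPE N (Dvd.intro d rfl) ψ) = d • Θ (m * d) ψ) :
    ∃ (I : GeomInput p N S) (e : I.X ≃+ ModularCurve.JZero N) (incl : I.Λ →+ S29.peHoms N ℤ),
      I.Compat ∧ I.FiniteTors ∧
      (∀ (σ : GQ) (x : I.X), e (σ • x) = σ • e x) ∧
      (∀ (ℓ : Nat.Primes) (x : I.X), e (I.T ℓ x) = ModularCurve.heckeOperatorBar N ℓ (e x)) ∧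
      Function.Bijective incl ∧
      ∀ (n : ℕ) (v : I.Λ), e (I.θ n v) = Θ (p ^ n) (modPE N (p ^ n) (incl v)) := by
  classical
  have hp : p.Prime := Fact.out
  obtain ⟨Λ, iΛ1, iΛ2, iΛ3, hecke, incl, hhecke_inj, hincl_inj, hPE, hsat, hincl_hecke, hfull⟩ :=
    PerLatFull.exists_lattice_full N S hNS
  -- the inclusion into integral PE characters
  let inclPE : Λ →+ S29.peHoms N ℤ := incl.codRestrict (S29.peHoms N ℤ) hPE
  have hinclPE : ∀ v : Λ, ((inclPE v : S29.peHoms N ℤ) : Additive (S22.Gam N) →+ ℤ) = incl v :=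
    fun v => rfl
  let θ : ℕ → Λ →+ JZero N := fun n => (Θ (p ^ n)).comp ((modPE N (p ^ n)).comp inclPE)
  have hθ : ∀ n v, θ n v = Θ (p ^ n) (modPE N (p ^ n) (inclPE v)) := fun n v => rfl
  have hpn : ∀ n : ℕ, 0 < p ^ n := fun n => pow_pos hp.pos n
  have hnd : ∀ {q : ℕ}, q.Prime → q ≠ p → ∀ n : ℕ, ¬ q ∣ p ^ n := by
    intro q hq hqp n hdvd
    exact hqp ((Nat.prime_dvd_prime_iff_eq hq hp).mp (hq.dvd_of_dvd_pow hdvd))
  let I : GeomInput p N S :=
    { X := JZero N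
      T := fun ℓ => (heckeOperatorBar N ℓ).toAddMonoidHom
      comm := fun ℓ σ x =>
        Fermat.Agent.S29.GalHeckeComm.galois_smul_heckeOperatorBar N ℓ σ x
      stab := fun x => Fermat.Agent.S29.OpenStab.exists_finiteDimensional_fixing N x
      inertia := fun q hq hqN hqp A hA σ hσ n x hx =>
        Fermat.Agent.S29.GalES.inertia_smul_eq N hq hqN A hA hσ (hnd hq hqp n) hx
      frob := fun ℓ hℓ hℓN hℓp A hA s hs n x hx =>
        Fermat.Agent.S29.GalES.frobenius_quadratic N hℓ hℓN A hA hs (hnd hℓ hℓp n) hx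
      Λ := Λ
      hecke := hecke
      hecke_injective := hhecke_inj
      θ := θ
      θ_tors := fun n v => by
        rw [hθ, ← map_nsmul, nsmul_peHoms_eq_zero, map_zero]
      θ_ker := fun n v hv => by
        rw [hθ] at hv
        have h0 : modPE N (p ^ n) (inclPE v) = 0 :=
          hΘinj (p ^ n) (hpn n) (hv.trans (map_zero _).symm)
        obtain ⟨φ, hφ⟩ := exists_eq_nsmul_of_dvd N (p ^ n) (hpn n).ne' (incl v)
          (fun γ => dvd_of_modPE_eq_zero N (p ^ n) (inclPE v) h0 γ)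
        obtain ⟨w, hw⟩ := hsat φ (p ^ n) (hpn n).ne' ⟨v, hφ⟩
        refine ⟨w, hincl_inj ?_⟩
        rw [map_nsmul, hw, hφ]
      θ_hecke := fun n ℓ hℓ hℓN hℓS v => by
        have : Fact ℓ.Prime := ⟨hℓ⟩
        rw [hθ, hθ]
        refine hΘhecke (p ^ n) (hpn n) ℓ hℓN _ _ (fun γ => ?_)
        rw [modPE_apply, hinclPE]
        have h1 := hincl_hecke ℓ hℓN hℓS v γ
        rw [h1, Int.cast_sum]
        rfl }
  refine ⟨I, AddEquiv.refl (JZero N), inclPE, ?_, ?_, fun σ x => rfl, fun ℓ x => rfl, ⟨?_, ?_⟩,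
    fun n v => rfl⟩
  · intro n v
    show p • θ (n + 1) v = θ n v
    rw [hθ, hθ, theta_congr N Θ (pow_succ p n) (inclPE v),
      ← hΘfam (p ^ n) p (hpn n) hp.pos, redPE_modPE]
  · show Finite {x : JZero N // p • x = 0}
    have : NeZero p := ⟨hp.ne_zero⟩
    have : Finite (S29.Jtors N p) := Fermat.Agent.S29.KFin.finite_Jtors N p
    refine Finite.of_injective
      (fun x : {x : JZero N // p • x = 0} =>
        (⟨x.1, Pic0.mem_torsion.mpr (by rw [natCast_zsmul]; exact x.2)⟩ : S29.Jtors N p)) ?_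
    intro x y hxy
    exact Subtype.ext (congrArg (fun z : S29.Jtors N p => (z : JZero N)) hxy)
  · intro v w hvw
    apply hincl_inj
    have h := congrArg (fun z : S29.peHoms N ℤ => (z : Additive (S22.Gam N) →+ ℤ)) hvw
    exact h
  · intro ψ
    obtain ⟨v, hv⟩ := hfull (ψ : Additive (S22.Gam N) →+ ℤ) ψ.2
    exact ⟨v, Subtype.ext hv⟩

/-- **Kummer surjectivity in `GeomInput` form**: if `c • x` is in the image of the integral `PE`
characters under the Kummer family for every `m`-torsion `x`, the geometric input can be chosen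
with `c • x ∈ I.θ n (I.Λ)` for every `p ^ n`-torsion `x`. -/
theorem exists_geomInput_ks_of (p : ℕ) [Fact p.Prime] (N : ℕ) [NeZero N] (S : Finset ℕ)
    (hNS : ∀ q : ℕ, q.Prime → q ∣ N → q ∈ S)
    (hΘ : ∃ Θ : ∀ m : ℕ, S29.peHoms N (ZMod m) →+ ModularCurve.JZero N,
      (∀ m : ℕ, 0 < m → Function.Injective (Θ m)) ∧
      (∀ (m : ℕ), 0 < m → ∀ (ℓ : ℕ) [Fact ℓ.Prime] (hℓN : ¬ ℓ ∣ N)
        (χ χ' : S29.peHoms N (ZMod m)),
        (∀ γ : S22.Gam N, (χ' : Additive (S22.Gam N) →+ ZMod m) (Additive.ofMul γ) =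
          ∑ x : OnePoint (ZMod ℓ),
            (χ : Additive (S22.Gam N) →+ ZMod m) (Additive.ofMul (S22.gamT hℓN γ x))) →
        Θ m χ' = ModularCurve.heckeOperatorBar N ⟨ℓ, Fact.out⟩ (Θ m χ)) ∧
      (∀ (m d : ℕ), 0 < m → 0 < d → ∀ ψ : S29.peHoms N (ZMod (m * d)),
        Θ m (redPE N (Dvd.intro d rfl) ψ) = d • Θ (m * d) ψ) ∧
      ∃ c : ℕ, c ≠ 0 ∧ ∀ (m : ℕ), 0 < m → ∀ x : ModularCurve.JZero N, m • x = 0 →
        ∃ ψ : S29.peHoms N ℤ, Θ m (modPE N m ψ) = c • x) :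
    ∃ I : GeomInput p N S, I.Compat ∧ I.FiniteTors ∧
      ∃ e : I.X ≃+ ModularCurve.JZero N,
        (∀ (σ : GQ) (x : I.X), e (σ • x) = σ • e x) ∧
        (∀ (ℓ : Nat.Primes) (x : I.X), e (I.T ℓ x) = ModularCurve.heckeOperatorBar N ℓ (e x)) ∧
        ∃ c : ℕ, c ≠ 0 ∧ ∀ (n : ℕ) (x : I.X), p ^ n • x = 0 → ∃ v : I.Λ, c • x = I.θ n v := by
  have hp : p.Prime := Fact.out
  obtain ⟨Θ, hΘinj, hΘhecke, hΘfam, c, hc, hsurj⟩ := hΘ
  obtain ⟨I, e, incl, hcompat, hfin, heσ, heT, hbij, hθ⟩ :=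
    exists_geomInput_full p N S hNS Θ hΘinj hΘhecke hΘfam
  refine ⟨I, hcompat, hfin, e, heσ, heT, c, hc, fun n x hx => ?_⟩
  have hx' : p ^ n • e x = 0 := by rw [← map_nsmul, hx, map_zero]
  obtain ⟨ψ, hψ⟩ := hsurj (p ^ n) (pow_pos hp.pos n) (e x) hx'
  obtain ⟨v, hv⟩ := hbij.2 ψ
  refine ⟨v, e.injective ?_⟩
  rw [map_nsmul, hθ, hv, hψ]

end

end Fermat.Agent.S35.GeomJacE
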