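import Mathlib
import Fermat.Agent.S29.KFinTop
import Fermat.Agent.S29.DictWH
import Fermat.Agent.S29.KummerDiv
import Fermat.Agent.S29.KummerTop
import Fermat.Agent.S29.KummerPieces
import Fermat.Agent.S21.Prim

/-!
# S35 (forms side): the character of a Kummer datum of a torsion class is PE

For `x ∈ J₀(N)(ℚ̄)[m]` the file `S29.KFinTop` produces a Kummer datum `(χ, u, f₀)`: a holomorphic
`u` on the upper half plane with `u ∘ γ = χ(γ) u`, `u ^ m` weakly holomorphic of level `Γ₀(N)`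
with the `q`-expansion of `f₀`, and `x` the class of `(1/m) div f₀`.  A priori `χ` is only a
character with values in the `m`-th roots of unity.  Here we prove

* `KummerSurj.char_eq_one_of_trace` (PAR): `χ γ = 1` for every `γ` of trace `±2`;
* `KummerSurj.char_pow_twelve_of_finOrder` (ELL): `χ γ ^ 12 = 1` for `γ` of finite order;
* `KummerSurj.exists_isClass_of_torsion` : for every `x` with `m • x = 0` there is a
  `ψ : S29.peHoms N (ZMod m)` with `S29.Kummer.IsClass N m ι ψ (12 • x)`.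
-/

set_option autoImplicit false

open UpperHalfPlane hiding I
open Complex ModularForm CongruenceSubgroup AlgebraicCurve ModularCurve Filter
open scoped MatrixGroups Manifold Topology

namespace Fermat.Agent.S35.KummerSurj

open Fermat.Agent.S20

local notation "Qb" => AlgebraicClosure ℚ

/-! ### The analytic core: a multiplier at a cusp -/

theorem mdiff_exp_mul (c : ℂ) : MDiff (fun z : ℍ => Complex.exp (c * (z : ℂ))) := by
  rw [UpperHalfPlane.mdifferentiable_iff]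
  have h1 : DifferentiableOn ℂ (fun w : ℂ => Complex.exp (c * w)) {z | 0 < z.im} :=
    (Complex.differentiable_exp.comp
      ((differentiable_const c).mul differentiable_id)).differentiableOn
  refine h1.congr fun w hw => ?_
  simp only [Function.comp_apply]
  rw [UpperHalfPlane.ofComplex_apply_of_im_pos hw]

/-- the local parameter `q_h = exp (2πiz/h)` on the upper half plane -/
noncomputable def qh (h : ℕ) (z : ℍ) : ℂ := Function.Periodic.qParam (h : ℝ) (z : ℂ)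

theorem qh_eq (h : ℕ) (z : ℍ) :
    qh h z = Complex.exp ((2 * (Real.pi : ℂ) * Complex.I / ((h : ℝ) : ℂ)) * (z : ℂ)) := by
  unfold qh Function.Periodic.qParam
  congr 1
  ring

theorem mdiff_qh (h : ℕ) : MDiff (qh h) := by
  have e : qh h = fun z : ℍ =>
      Complex.exp ((2 * (Real.pi : ℂ) * Complex.I / ((h : ℝ) : ℂ)) * (z : ℂ)) :=
    funext (qh_eq h)
  rw [e]
  exact mdiff_exp_mul _

theorem norm_qh_le_one {h : ℕ} (z : ℍ) : ‖qh h z‖ ≤ 1 := by
  unfold qh
  rw [Function.Periodic.norm_qParam, Real.exp_le_one_iff]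
  have h1 : 0 ≤ 2 * Real.pi * (z : ℂ).im / (h : ℝ) :=
    div_nonneg (mul_nonneg (by positivity) z.im_pos.le) (Nat.cast_nonneg h)
  have e : -2 * Real.pi * (z : ℂ).im / (h : ℝ) = -(2 * Real.pi * (z : ℂ).im / (h : ℝ)) := by ring
  rw [e]
  linarith

theorem qh_per {h : ℕ} (hh : 0 < h) (z : ℍ) : qh h ((h : ℝ) +ᵥ z) = qh h z := by
  unfold qh
  rw [UpperHalfPlane.coe_vadd, OrdCusp.qParam_add]
  have h1 : Function.Periodic.qParam (h : ℝ) (((h : ℝ) : ℂ)) = 1 := by
    unfold Function.Periodic.qParam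
    have hh' : ((h : ℝ) : ℂ) ≠ 0 := by exact_mod_cast hh.ne'
    rw [mul_div_assoc, div_self hh', mul_one]
    exact Complex.exp_two_pi_mul_I
  rw [h1, one_mul]

theorem isBdd_qh_pow (h s : ℕ) : IsBoundedAtImInfty (fun z : ℍ => qh h z ^ s) := by
  rw [UpperHalfPlane.isBoundedAtImInfty_iff]
  refine ⟨1, 0, fun z _ => ?_⟩
  rw [norm_pow]
  exact pow_le_one₀ (norm_nonneg _) (norm_qh_le_one z)

theorem isMeroInf_qh {h : ℕ} (hh : 0 < h) : IsMeroInf h (qh h) :=
  IsMeroInf.of_bdd (mdiff_qh h) (qh_per hh) (by simpa using isBdd_qh_pow h 1)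

theorem ordInf_qh {h : ℕ} (hh : 0 < h) : ordInf h (qh h) = 1 := by
  have h1' : (0 : ℝ) < (h : ℝ) := by exact_mod_cast hh
  have e : (fun q : ℂ => qh h (ofComplex (Function.Periodic.invQParam (h : ℝ) q)))
      =ᶠ[𝓝[≠] 0] id := by
    filter_upwards [self_mem_nhdsWithin, OrdCusp.eventually_norm_lt_one] with q hq hq1
    have him := Function.Periodic.im_invQParam_pos_of_norm_lt_one h1' hq1 hq
    unfold qh
    rw [ofComplex_apply_of_im_pos him]
    exact Function.Periodic.qParam_right_inv h1'.ne' hq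
  rw [ordInf, meromorphicOrderAt_congr e, meromorphicOrderAt_id]

/-- **The analytic core.**  If `V` is holomorphic on the upper half plane with
`V (z + h) = ζ V z`, `ζ ^ m = 1`, and `V ^ m` is meromorphic at `i∞` of order (in `q_h`)
divisible by `m`, then `ζ = 1`. -/
theorem eq_one_of_dvd_ordInf {h m : ℕ} (hh : 0 < h) (hm : 0 < m) {V : ℍ → ℂ} (hV : MDiff V)
    {ζ : ℂ} (hζ : ζ ^ m = 1) (hper : ∀ z : ℍ, V ((h : ℝ) +ᵥ z) = ζ * V z)
    (hB : IsMeroInf h (fun z => V z ^ m)) (hB0 : (fun z => V z ^ m) ≠ 0)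
    (hdvd : (m : ℤ) ∣ (ordInf h (fun z => V z ^ m)).untop₀) : ζ = 1 := by
  have : NeZero m := ⟨hm.ne'⟩
  have hζ0 : ζ ≠ 0 := by
    rintro rfl
    rw [zero_pow hm.ne'] at hζ
    exact zero_ne_one hζ
  -- `ζ⁻¹ = exp (2πi s / m)` with `s < m`
  have hmem : (Units.mk0 ζ hζ0)⁻¹ ∈ rootsOfUnity m ℂ := by
    rw [_root_.mem_rootsOfUnity, inv_pow, inv_eq_one]
    apply Units.ext
    rw [Units.val_pow_eq_pow_val, Units.val_mk0, hζ, Units.val_one]
  obtain ⟨s, hs, hsζ⟩ := (Complex.mem_rootsOfUnity m _).mp hmem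
  have hsζ' : Complex.exp (2 * (Real.pi : ℂ) * Complex.I * ((s : ℂ) / (m : ℂ))) = ζ⁻¹ := by
    rw [hsζ, Units.val_inv_eq_inv_val, Units.val_mk0]
  have hhC : ((h : ℝ) : ℂ) ≠ 0 := by exact_mod_cast hh.ne'
  have hmC : (m : ℂ) ≠ 0 := by exact_mod_cast hm.ne'
  set c : ℂ := 2 * (Real.pi : ℂ) * Complex.I * (s : ℂ) / ((m : ℂ) * ((h : ℝ) : ℂ)) with hc
  set E : ℍ → ℂ := fun z => Complex.exp (c * (z : ℂ)) with hE
  have hEmd : MDiff E := mdiff_exp_mul c
  have hEper : ∀ z : ℍ, E ((h : ℝ) +ᵥ z) = ζ⁻¹ * E z := by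
    intro z
    simp only [hE]
    rw [UpperHalfPlane.coe_vadd, mul_add, Complex.exp_add, ← hsζ']
    congr 2
    rw [hc]
    field_simp
  have hEpow : ∀ z : ℍ, E z ^ m = qh h z ^ s := by
    intro z
    simp only [hE]
    rw [qh_eq, ← Complex.exp_nat_mul, ← Complex.exp_nat_mul]
    congr 1
    rw [hc]
    field_simp
  set U : ℍ → ℂ := fun z => V z * E z with hU
  have hUpow : (fun z => U z ^ m) = (fun z => V z ^ m) * (qh h) ^ s := by
    funext z
    simp only [hU, Pi.mul_apply, Pi.pow_apply]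
    rw [mul_pow, hEpow]
  have hUm : IsMeroInf h U := by
    refine ⟨hV.mul hEmd, fun z => ?_, ?_⟩
    · simp only [hU]
      rw [hper, hEper]
      field_simp
    · obtain ⟨n, hn⟩ := hB.bdd
      refine ⟨n, Fermat.Agent.S29.KummerDiv.isBoundedAtImInfty_of_pow hm ?_⟩
      have h1 := (hn.mul (isBdd_qh_pow h s)).mul (isBoundedAtImInfty_disc_pow (n * (m - 1)))
      have e : (fun z : ℍ => (U z * ModularForm.discriminant z ^ n) ^ m) =
          ((fun z : ℍ => V z ^ m * ModularForm.discriminant z ^ n) *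
            (fun z : ℍ => qh h z ^ s)) *
            (fun z : ℍ => ModularForm.discriminant z ^ (n * (m - 1))) := by
        funext z
        simp only [hU, Pi.mul_apply]
        rw [mul_pow, mul_pow, hEpow]
        obtain ⟨m', rfl⟩ : ∃ m', m = m' + 1 := ⟨m - 1, by omega⟩
        rw [Nat.add_sub_cancel]
        ring
      rw [e]
      exact h1
  have hQ : IsMeroInf h ((qh h) ^ s) := (isMeroInf_qh hh).pow s
  have hne : ordInf h (fun z => V z ^ m) ≠ ⊤ := by
    rw [Ne, ordInf_eq_top_iff hh hB]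
    exact hB0
  obtain ⟨a, ha⟩ : ∃ a : ℤ, ordInf h (fun z => V z ^ m) = (a : WithTop ℤ) :=
    ⟨_, (WithTop.coe_untop₀_of_ne_top hne).symm⟩
  have ha' : (ordInf h (fun z => V z ^ m)).untop₀ = a := by rw [ha]; rfl
  rw [ha'] at hdvd
  have h1 : ordInf h (fun z => U z ^ m) = ((a + s : ℤ) : WithTop ℤ) := by
    rw [hUpow, ordInf_mul hh hB hQ, ordInf_pow hh (isMeroInf_qh hh), ordInf_qh hh, ha]
    rw [WithTop.coe_add]
    congr 1
    simp
  have hUne : ordInf h U ≠ ⊤ := by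
    rw [Ne, ordInf_eq_top_iff hh hUm]
    intro hU0
    have e0 : (fun z => U z ^ m) = 0 := by
      funext z
      rw [hU0]
      simp [hm.ne']
    rw [e0, ordInf_zero hh] at h1
    exact WithTop.top_ne_coe h1
  obtain ⟨b, hb⟩ : ∃ b : ℤ, ordInf h U = (b : WithTop ℤ) :=
    ⟨_, (WithTop.coe_untop₀_of_ne_top hUne).symm⟩
  have h2 : ordInf h (fun z => U z ^ m) = (((m : ℤ) * b : ℤ) : WithTop ℤ) := by
    have := ordInf_pow hh hUm m
    rw [hb, ← WithTop.coe_nsmul, nsmul_eq_mul] at this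
    exact this
  have h3 : (m : ℤ) * b = a + s := by
    rw [h1] at h2
    exact (WithTop.coe_injective h2).symm
  have h4 : (m : ℤ) ∣ (s : ℤ) := by
    have : (s : ℤ) = (m : ℤ) * b - a := by linarith
    rw [this]
    exact dvd_sub (dvd_mul_right _ _) hdvd
  have hs0 : s = 0 := Nat.eq_zero_of_dvd_of_lt (Int.natCast_dvd_natCast.mp h4) hs
  rw [hs0] at hsζ'
  simp only [Nat.cast_zero, zero_div, mul_zero, Complex.exp_zero] at hsζ'
  exact (inv_eq_one.mp hsζ'.symm)

/-! ### Group theory: elements of trace `±2` and elements of finite order -/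

theorem exists_T_zpow_of_c_eq_zero (A : SL(2, ℤ)) (hc : A 1 0 = 0) :
    ∃ k : ℤ, A = ModularGroup.T ^ k ∨ A = -ModularGroup.T ^ k := by
  have hdet : A 0 0 * A 1 1 - A 0 1 * A 1 0 = 1 := by
    have := A.det_coe
    rw [Matrix.det_fin_two] at this
    exact this
  rw [hc, mul_zero, sub_zero] at hdet
  rcases Int.eq_one_or_neg_one_of_mul_eq_one' hdet with ⟨h0, h1⟩ | ⟨h0, h1⟩
  · refine ⟨A 0 1, Or.inl ?_⟩
    apply Subtype.ext
    rw [ModularGroup.coe_T_zpow]
    ext i j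
    fin_cases i <;> fin_cases j <;> simp [h0, h1, hc]
  · refine ⟨-A 0 1, Or.inr ?_⟩
    apply Subtype.ext
    rw [Matrix.SpecialLinearGroup.coe_neg, ModularGroup.coe_T_zpow]
    ext i j
    fin_cases i <;> fin_cases j <;> simp [h0, h1, hc]

/-- an element of trace `±2` is `± δ T^k δ⁻¹` -/
theorem exists_conj_T_zpow (γ : SL(2, ℤ))
    (h : (γ : Matrix (Fin 2) (Fin 2) ℤ).trace ^ 2 = 4) :
    ∃ (δ : SL(2, ℤ)) (k : ℤ), γ = δ * ModularGroup.T ^ k * δ⁻¹ ∨
      γ = -(δ * ModularGroup.T ^ k * δ⁻¹) := by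
  obtain ⟨δ, hδ⟩ := Fermat.Agent.S21.Prim.exists_conj_fix_infty γ h
  obtain ⟨k, hk | hk⟩ := exists_T_zpow_of_c_eq_zero _ hδ
  · refine ⟨δ, k, Or.inl ?_⟩
    rw [← hk]
    group
  · refine ⟨δ, k, Or.inr ?_⟩
    have hk' : ModularGroup.T ^ k = -(δ⁻¹ * γ * δ) := by rw [hk, neg_neg]
    rw [hk', mul_neg, neg_mul, neg_neg]
    group

theorem matrix_sq_eq (A : Matrix (Fin 2) (Fin 2) ℤ) (hdet : A.det = 1) :
    A * A = A.trace • A - 1 := by
  rw [Matrix.det_fin_two] at hdet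
  ext i j
  fin_cases i <;> fin_cases j <;>
    simp [Matrix.mul_apply, Fin.sum_univ_two, Matrix.trace_fin_two, Matrix.smul_apply,
      -zsmul_eq_mul] <;>
    first | linear_combination (0 : ℤ) * hdet | linear_combination (-1 : ℤ) * hdet

theorem pow_twelve_eq_one (g : SL(2, ℤ))
    (h : ((g : SL(2, ℤ)) : Matrix (Fin 2) (Fin 2) ℤ).trace ^ 2 < 4) : g ^ 12 = 1 := by
  apply Subtype.ext
  rw [Matrix.SpecialLinearGroup.coe_pow, Matrix.SpecialLinearGroup.coe_one]
  set A : Matrix (Fin 2) (Fin 2) ℤ := (g : Matrix (Fin 2) (Fin 2) ℤ) with hA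
  have hCH := matrix_sq_eq A (Matrix.SpecialLinearGroup.det_coe g)
  have ht : A.trace = 0 ∨ A.trace = 1 ∨ A.trace = -1 := by
    have h1 : -2 < A.trace := by nlinarith
    have h2 : A.trace < 2 := by nlinarith
    omega
  rcases ht with ht | ht | ht
  · rw [ht, zero_smul, zero_sub] at hCH
    have : A ^ 12 = (A * A) ^ 6 := by rw [← pow_two, ← pow_mul]
    rw [this, hCH]
    exact Even.neg_one_pow (by decide)
  · rw [ht, one_smul] at hCH
    have h3 : A ^ 3 = -1 := by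
      rw [pow_succ, pow_two, hCH, sub_mul, one_mul, hCH]
      abel
    have : A ^ 12 = (A ^ 3) ^ 4 := by rw [← pow_mul]
    rw [this, h3]
    exact Even.neg_one_pow (by decide)
  · rw [ht, neg_one_smul] at hCH
    have h3 : A ^ 3 = 1 := by
      rw [pow_succ, pow_two, hCH, sub_mul, neg_mul, one_mul, hCH]
      abel
    have : A ^ 12 = (A ^ 3) ^ 4 := by rw [← pow_mul]
    rw [this, h3, one_pow]

/-- an element of finite order of `SL(2, ℤ)` has `|trace| ≤ 2` -/
theorem trace_sq_le_of_isOfFinOrder (g : SL(2, ℤ)) (hg : IsOfFinOrder g) :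
    (g : Matrix (Fin 2) (Fin 2) ℤ).trace ^ 2 ≤ 4 := by
  by_contra hcon
  rw [not_le] at hcon
  set t := (g : Matrix (Fin 2) (Fin 2) ℤ).trace with ht
  have ht3 : 3 ≤ |t| := by
    by_contra h3
    rw [not_le] at h3
    have h2 : |t| ≤ 2 := by omega
    have h4 := abs_le.mp h2
    nlinarith
  have hdet : g 0 0 * g 1 1 - g 0 1 * g 1 0 = 1 := by
    have := g.det_coe
    rw [Matrix.det_fin_two] at this
    exact this
  have ht' : t = g 0 0 + g 1 1 := Matrix.trace_fin_two _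
  set τ : ℕ → ℤ := fun n => ((g ^ n : SL(2, ℤ)) : Matrix (Fin 2) (Fin 2) ℤ).trace with hτ
  have hrec : ∀ n : ℕ, τ (n + 2) = t * τ (n + 1) - τ n := by
    intro n
    have e1 : g ^ (n + 2) = g ^ n * (g * g) := by rw [pow_add, pow_two]
    have e2 : g ^ (n + 1) = g ^ n * g := pow_succ g n
    simp only [hτ]
    rw [e1, e2]
    simp only [Matrix.SpecialLinearGroup.coe_mul, Matrix.trace_fin_two, Matrix.mul_apply,
      Fin.sum_univ_two, ht']
    linear_combination (-((g ^ n) 0 0 + (g ^ n) 1 1)) * hdet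
  have h0 : τ 0 = 2 := by simp [hτ, Matrix.trace_fin_two]
  have h1 : τ 1 = t := by simp [hτ, ht]
  have key : ∀ n : ℕ, 2 ≤ |τ n| ∧ |τ n| < |τ (n + 1)| := by
    intro n
    induction n with
    | zero =>
      rw [h0, zero_add, h1]
      constructor
      · norm_num
      · have : |(2 : ℤ)| = 2 := by norm_num
        omega
    | succ n ih =>
      refine ⟨by omega, ?_⟩
      rw [hrec n]
      have hA := abs_sub_abs_le_abs_sub (t * τ (n + 1)) (τ n)
      rw [abs_mul] at hA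
      have hB : 3 * |τ (n + 1)| ≤ |t| * |τ (n + 1)| :=
        mul_le_mul_of_nonneg_right ht3 (abs_nonneg _)
      have hC := abs_nonneg (τ (n + 1))
      omega
  obtain ⟨n, hn, hpow⟩ := isOfFinOrder_iff_pow_eq_one.mp hg
  obtain ⟨k, rfl⟩ : ∃ k, n = k + 1 := ⟨n - 1, by omega⟩
  have h2 : τ (k + 1) = 2 := by
    simp only [hτ]
    rw [hpow]
    simp
  have h3 := key k
  rw [h2] at h3
  have : |(2 : ℤ)| = 2 := by norm_num
  omega

/-! ### The character of a Kummer datum of a root class -/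

open Fermat.Agent.S29

section datum

variable {N : ℕ} [NeZero N] {m : ℕ} [NeZero m] {ι : Qb →+* ℂ} {χ : S22.Gam N →* ℂˣ}
  {u : ℍ → ℂ} {f₀ : modularFunctionFieldBar N}

omit [NeZero m] in
/-- the complex avatar of the function of a root class has all its orders divisible by `m` -/
theorem dvd_ord_bc_of_isRootClass (ι : Qb →+* ℂ) {x : JZero N} (hroot : IsRootClass m f₀ x)
    (w : Place ℂ (S24.FF ℂ N)) :
    (m : ℤ) ∣ w.ord (S24.CoeffBC.bc ι (modularFunctionFieldFull N) f₀) := by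
  obtain ⟨D, -, hD⟩ := hroot
  exact BCUnram.dvd_ord_bc N ι (m : ℤ) f₀ (fun v => ⟨_, (hD v).symm⟩) w

/-- the order of `u ^ m` at every cusp, in the local parameter `q_h` (`h` the width), is
divisible by `m` -/
theorem dvd_ordInf_cusp (h : IsKummerDatum N m ι χ u f₀)
    (hdvd : ∀ w : Place ℂ (S24.FF ℂ N),
      (m : ℤ) ∣ w.ord (S24.CoeffBC.bc ι (modularFunctionFieldFull N) f₀))
    (g : SL(2, ℤ)) :
    (m : ℤ) ∣ (ordInf (DictWH.cuspWidth N g) (fun z => u (g • z) ^ m)).untop₀ := by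
  have hm : 0 < m := NeZero.pos m
  obtain ⟨e, hq, -⟩ := S24.exists_qIso N (S20.FF N)
  set b : WH (Gamma0 N) := ⟨fun z => u z ^ m, h.isWH⟩ with hbdef
  have hb : (b : ℍ → ℂ) = fun z => u z ^ m := rfl
  have hb0 : b ≠ 0 := KummerDiv.pow_ne_zero_fun h.ne_zero hm b hb
  have hFe : S24.CoeffBC.bc ι (modularFunctionFieldFull N) f₀ =
      e (algebraMap (WH (Gamma0 N)) (S20.FF N) b) := by
    apply Subtype.ext
    rw [h.qexp, hq b]
  obtain ⟨v, -, hv⟩ := DictWH.exists_place_of_cusp N g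
  have h1 := hdvd (S24.Transport.mapPlace e v)
  rw [hFe, S24.Transport.mapPlace_ord] at h1
  have h2 := hv b hb0
  have h3 := DictWH.ordCuspZ_eq_width N g b hb0
  have hpos : ((N / DictWH.cuspWidth N g : ℕ) : ℤ) ≠ 0 := by
    exact_mod_cast (DictWH.level_div_width_pos N g).ne'
  have h4 : (ordInf (DictWH.cuspWidth N g) (fun z => (b : ℍ → ℂ) (g • z))).untop₀ =
      v.ord (algebraMap (WH (Gamma0 N)) (S20.FF N) b) :=
    mul_left_cancel₀ hpos (h3.symm.trans h2)
  have h5 : (fun z => (b : ℍ → ℂ) (g • z)) = fun z => u (g • z) ^ m := rfl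
  rw [← h5, h4]
  exact h1

/-- **(PAR), generator form**: the character of a Kummer datum of a root class is trivial on
the generator `g T^h g⁻¹` of the stabiliser of the cusp `g • ∞`. -/
theorem char_conj_T_width (h : IsKummerDatum N m ι χ u f₀) (hχ : ∀ γ, χ γ ^ m = 1)
    (hdvd : ∀ w : Place ℂ (S24.FF ℂ N),
      (m : ℤ) ∣ w.ord (S24.CoeffBC.bc ι (modularFunctionFieldFull N) f₀))
    (g : SL(2, ℤ)) :
    χ ⟨g * ModularGroup.T ^ DictWH.cuspWidth N g * g⁻¹, DictWH.cuspWidth_mem N g⟩ = 1 := by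
  have hm : 0 < m := NeZero.pos m
  set γ₀ : S22.Gam N :=
    ⟨g * ModularGroup.T ^ DictWH.cuspWidth N g * g⁻¹, DictWH.cuspWidth_mem N g⟩ with hγ₀
  have hB : IsMeroInf (DictWH.cuspWidth N g) (fun z => u (g • z) ^ m) :=
    IsWH.isMeroInf_of_conj_mem h.isWH g (DictWH.cuspWidth_mem N g)
  have hB0 : (fun z => u (g • z) ^ m) ≠ 0 := by
    intro h0
    apply h.ne_zero
    funext z
    have := congrFun h0 (g⁻¹ • z)
    simp only [smul_inv_smul, Pi.zero_apply] at this
    exact (pow_eq_zero_iff hm.ne').mp this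
  have key := eq_one_of_dvd_ordInf (h := DictWH.cuspWidth N g) (m := m)
    (DictWH.cuspWidth_pos N g) hm (V := fun z => u (g • z))
    (OrdCusp.mdiff_comp_smul h.mdiff g) (ζ := (χ γ₀ : ℂ))
    (by rw [← Units.val_pow_eq_pow_val, hχ, Units.val_one])
    (fun z => by
      have h1 := h.mult γ₀ (g • z)
      rw [← h1, OrdCusp.smul_vadd_nat, hγ₀]
      congr 1
      show (g * ModularGroup.T ^ DictWH.cuspWidth N g) • z =
        (g * ModularGroup.T ^ DictWH.cuspWidth N g * g⁻¹) • g • z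
      rw [← mul_smul, inv_mul_cancel_right])
    hB hB0 (dvd_ordInf_cusp h hdvd g)
  exact Units.ext key

omit [NeZero N] [NeZero m] in
/-- the character of a Kummer datum is trivial on `-1` -/
theorem char_neg_one (h : IsKummerDatum N m ι χ u f₀) :
    χ ⟨-1, FinitePlaces.neg_one_mem_Gamma0 N⟩ = 1 := by
  obtain ⟨z, hz⟩ : ∃ z, u z ≠ 0 := by
    by_contra hcon
    rw [not_exists] at hcon
    exact h.ne_zero (funext fun z => not_not.mp (hcon z))
  have h1 := h.mult ⟨-1, FinitePlaces.neg_one_mem_Gamma0 N⟩ z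
  have h2 : ((-1 : SL(2, ℤ))) • z = z := by
    rw [ModularGroup.SL_neg_smul, one_smul]
  rw [h2] at h1
  have h3 : ((χ ⟨-1, FinitePlaces.neg_one_mem_Gamma0 N⟩ : ℂˣ) : ℂ) = 1 := by
    have h4 : ((χ ⟨-1, FinitePlaces.neg_one_mem_Gamma0 N⟩ : ℂˣ) : ℂ) * u z = 1 * u z := by
      rw [one_mul]
      exact h1.symm
    exact mul_right_cancel₀ hz h4
  exact Units.ext h3

/-- **(PAR)**: the character of a Kummer datum of a root class kills the elements of trace
`±2`. -/
theorem char_eq_one_of_trace (h : IsKummerDatum N m ι χ u f₀) (hχ : ∀ γ, χ γ ^ m = 1)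
    (hdvd : ∀ w : Place ℂ (S24.FF ℂ N),
      (m : ℤ) ∣ w.ord (S24.CoeffBC.bc ι (modularFunctionFieldFull N) f₀))
    (γ : S22.Gam N)
    (hγ : ((γ : SL(2, ℤ)) : Matrix (Fin 2) (Fin 2) ℤ).trace ^ 2 = 4) : χ γ = 1 := by
  obtain ⟨δ, k, hk⟩ := exists_conj_T_zpow (γ : SL(2, ℤ)) hγ
  have hneg : (-1 : SL(2, ℤ)) ∈ Gamma0 N := FinitePlaces.neg_one_mem_Gamma0 N
  have hP : δ * ModularGroup.T ^ k * δ⁻¹ ∈ Gamma0 N := by
    rcases hk with hk | hk
    · rw [← hk]
      exact γ.2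
    · have e : δ * ModularGroup.T ^ k * δ⁻¹ = (-1 : SL(2, ℤ)) * (γ : SL(2, ℤ)) := by
        rw [hk, neg_mul, one_mul, neg_neg]
      rw [e]
      exact (Gamma0 N).mul_mem hneg γ.2
  obtain ⟨t, ht⟩ := (DictWH.conj_T_zpow_mem_iff N δ k).mp hP
  set γ₀ : S22.Gam N :=
    ⟨δ * ModularGroup.T ^ DictWH.cuspWidth N δ * δ⁻¹, DictWH.cuspWidth_mem N δ⟩ with hγ₀
  have h0 : χ γ₀ = 1 := char_conj_T_width h hχ hdvd δ
  have hPeq : (⟨δ * ModularGroup.T ^ k * δ⁻¹, hP⟩ : S22.Gam N) = γ₀ ^ t := by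
    apply Subtype.ext
    rw [Subgroup.coe_zpow, hγ₀]
    show δ * ModularGroup.T ^ k * δ⁻¹ = (δ * ModularGroup.T ^ DictWH.cuspWidth N δ * δ⁻¹) ^ t
    rw [conj_zpow, ht, zpow_mul, zpow_natCast]
  have hPχ : χ ⟨δ * ModularGroup.T ^ k * δ⁻¹, hP⟩ = 1 := by
    rw [hPeq, map_zpow, h0, one_zpow]
  rcases hk with hk | hk
  · have e : γ = ⟨δ * ModularGroup.T ^ k * δ⁻¹, hP⟩ := Subtype.ext hk
    rw [e, hPχ]
  · have e : γ = (⟨-1, hneg⟩ : S22.Gam N) * ⟨δ * ModularGroup.T ^ k * δ⁻¹, hP⟩ := by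
      apply Subtype.ext
      show (γ : SL(2, ℤ)) = (-1 : SL(2, ℤ)) * (δ * ModularGroup.T ^ k * δ⁻¹)
      rw [hk, neg_mul, one_mul]
    rw [e, map_mul, hPχ, char_neg_one h, one_mul]

/-- **(ELL)**: the twelfth power of the character of a Kummer datum of a root class kills the
elements of finite order. -/
theorem char_pow_twelve_of_finOrder (h : IsKummerDatum N m ι χ u f₀) (hχ : ∀ γ, χ γ ^ m = 1)
    (hdvd : ∀ w : Place ℂ (S24.FF ℂ N),
      (m : ℤ) ∣ w.ord (S24.CoeffBC.bc ι (modularFunctionFieldFull N) f₀))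
    (γ : S22.Gam N) (hγ : IsOfFinOrder γ) : χ γ ^ 12 = 1 := by
  have hγ' : IsOfFinOrder (γ : SL(2, ℤ)) := by
    obtain ⟨n, hn, hpow⟩ := isOfFinOrder_iff_pow_eq_one.mp hγ
    refine isOfFinOrder_iff_pow_eq_one.mpr ⟨n, hn, ?_⟩
    rw [← Subgroup.coe_pow, hpow, Subgroup.coe_one]
  rcases (trace_sq_le_of_isOfFinOrder _ hγ').lt_or_eq with hlt | heq
  · have h12 : γ ^ 12 = 1 := by
      apply Subtype.ext
      rw [Subgroup.coe_pow, Subgroup.coe_one]
      exact pow_twelve_eq_one _ hlt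
    rw [← map_pow, h12, map_one]
  · rw [char_eq_one_of_trace h hχ hdvd γ heq, one_pow]

/-- powers of a Kummer datum of a root class -/
theorem datum_pow (h : IsKummerDatum N m ι χ u f₀) (hf : f₀ ≠ 0) {x : JZero N}
    (hroot : IsRootClass m f₀ x) (n : ℕ) :
    IsKummerDatum N m ι (χ ^ (n + 1)) (fun z => u z ^ (n + 1)) (f₀ ^ (n + 1)) ∧
      IsRootClass m (f₀ ^ (n + 1)) ((n + 1) • x) := by
  induction n with
  | zero =>
    have e1 : χ ^ (0 + 1) = χ := pow_one χ
    have e2 : (fun z => u z ^ (0 + 1)) = u := by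
      funext z
      rw [zero_add, pow_one]
    have e3 : f₀ ^ (0 + 1) = f₀ := pow_one f₀
    rw [e1, e2, e3, zero_add, one_smul]
    exact ⟨h, hroot⟩
  | succ n ih =>
    obtain ⟨ih1, ih2⟩ := ih
    constructor
    · have h1 := KummerPieces.isKummerDatum_mul N m ι ih1 h
      have e : (fun z => u z ^ (n + 1 + 1)) = fun z => u z ^ (n + 1) * u z := by
        funext z
        rw [pow_succ]
      rw [pow_succ χ, pow_succ f₀, e]
      exact h1
    · have h2 := KummerPieces.isRootClass_mul N m (pow_ne_zero (n + 1) hf) hf ih2 hroot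
      rw [pow_succ f₀, succ_nsmul]
      exact h2

end datum

/-! ### Characters with values in the `m`-th roots of unity -/

theorem exists_toCircle_eq {m : ℕ} [NeZero m] (ζ : ℂˣ) (hζ : ζ ^ m = 1) :
    ∃ a : ZMod m, Circle.toUnits (ZMod.toCircle a) = ζ := by
  obtain ⟨i, -, hi⟩ := (Complex.mem_rootsOfUnity m ζ).mp ((_root_.mem_rootsOfUnity m ζ).mpr hζ)
  refine ⟨(i : ZMod m), Units.ext ?_⟩
  rw [Circle.toUnits_apply, Units.val_mk0, ZMod.toCircle_natCast, ← hi]
  congr 1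
  ring

theorem toUnits_toCircle_injective {m : ℕ} [NeZero m] :
    Function.Injective (fun a : ZMod m => Circle.toUnits (ZMod.toCircle a)) := by
  intro a b hab
  have h4 := congrArg (fun x : ℂˣ => (x : ℂ)) hab
  simp only [Circle.toUnits_apply, Units.val_mk0] at h4
  exact ZMod.injective_toCircle (Circle.ext h4)

/-- **(μ)**: a character of `Γ₀(N)` with values in the `m`-th roots of unity is the character
`expChar N m ψ` of an additive character `ψ` with values in `ℤ/m`. -/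
theorem exists_expChar_eq (N m : ℕ) [NeZero m] (χ : S22.Gam N →* ℂˣ)
    (hχ : ∀ γ, χ γ ^ m = 1) :
    ∃ ψ : Additive (S22.Gam N) →+ ZMod m, expChar N m ψ = χ := by
  choose a ha using fun γ => exists_toCircle_eq (χ γ) (hχ γ)
  have hinj := toUnits_toCircle_injective (m := m)
  refine ⟨AddMonoidHom.mk' (fun γ => a (Additive.toMul γ)) ?_, ?_⟩
  · intro γ γ'
    apply hinj
    show Circle.toUnits (ZMod.toCircle (a (Additive.toMul (γ + γ')))) =
      Circle.toUnits (ZMod.toCircle (a (Additive.toMul γ) + a (Additive.toMul γ')))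
    rw [AddChar.map_add_eq_mul, map_mul, ha, ha, ha, toMul_add, map_mul]
  · apply MonoidHom.ext
    intro γ
    rw [expChar_apply]
    exact ha γ

/-- the PE version of `exists_expChar_eq` -/
theorem exists_pe_expChar_eq (N m : ℕ) [NeZero m] (χ : S22.Gam N →* ℂˣ)
    (hχ : ∀ γ, χ γ ^ m = 1)
    (hPE : ∀ γ : S22.Gam N,
      ((((γ : SL(2, ℤ)) : Matrix (Fin 2) (Fin 2) ℤ).trace ^ 2 = 4) ∨ IsOfFinOrder γ) →
        χ γ = 1) :
    ∃ ψ : peHoms N (ZMod m), expChar N m (ψ : Additive (S22.Gam N) →+ ZMod m) = χ := by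
  obtain ⟨ψ, hψ⟩ := exists_expChar_eq N m χ hχ
  refine ⟨⟨ψ, fun γ hγ => ?_⟩, hψ⟩
  rw [← expChar_eq_one_iff, hψ]
  exact hPE γ hγ

/-! ### The main statements -/

/-- **Every torsion class has a PE Kummer datum, up to the factor `12`.** -/
theorem exists_pe_datum (N : ℕ) [NeZero N] (m : ℕ) [NeZero m] (ι : Qb →+* ℂ) (x : JZero N)
    (hx : (m : ℤ) • x = 0) :
    ∃ (χ : S22.Gam N →* ℂˣ) (u : ℍ → ℂ) (f₀ : modularFunctionFieldBar N),
      f₀ ≠ 0 ∧ (∀ γ, χ γ ^ m = 1) ∧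
      (∀ γ : S22.Gam N,
        ((((γ : SL(2, ℤ)) : Matrix (Fin 2) (Fin 2) ℤ).trace ^ 2 = 4) ∨ IsOfFinOrder γ) →
          χ γ = 1) ∧
      IsKummerDatum N m ι χ u f₀ ∧ IsRootClass m f₀ (12 • x) := by
  obtain ⟨χ, u, f₀, hf₀, hχ, hdat, hroot⟩ := KFin.exists_datum N m ι x hx
  have hdvd := dvd_ord_bc_of_isRootClass ι hroot
  obtain ⟨hdat12, hroot12⟩ := datum_pow hdat hf₀ hroot 11
  refine ⟨χ ^ 12, fun z => u z ^ 12, f₀ ^ 12, pow_ne_zero 12 hf₀, fun γ => ?_, fun γ hγ => ?_,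
    hdat12, hroot12⟩
  · rw [MonoidHom.pow_apply, ← pow_mul, mul_comm, pow_mul, hχ, one_pow]
  · rw [MonoidHom.pow_apply]
    rcases hγ with hγ | hγ
    · rw [char_eq_one_of_trace hdat hχ hdvd γ hγ, one_pow]
    · exact char_pow_twelve_of_finOrder hdat hχ hdvd γ hγ

/-- **(SURJ), one level `m`**: for every `x ∈ J₀(N)(ℚ̄)[m]` the class `12 • x` is a Kummer class
of a PE character `ψ : Γ₀(N) → ℤ/m`. -/
theorem exists_isClass_of_torsion (N : ℕ) [NeZero N] (m : ℕ) [NeZero m] (ι : Qb →+* ℂ)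
    (x : JZero N) (hx : (m : ℤ) • x = 0) :
    ∃ ψ : peHoms N (ZMod m),
      Kummer.IsClass N m ι (ψ : Additive (S22.Gam N) →+ ZMod m) (12 • x) := by
  obtain ⟨χ, u, f₀, -, hχ, hPE, hdat, hroot⟩ := exists_pe_datum N m ι x hx
  obtain ⟨ψ, hψ⟩ := exists_pe_expChar_eq N m χ hχ hPE
  refine ⟨ψ, u, f₀, ?_, hroot⟩
  rw [hψ]
  exact hdat

end Fermat.Agent.S35.KummerSurj
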