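import Mathlib
import Fermat.Agent.S29.KummerDatum
import Fermat.Agent.S22.Cocycle

/-!
# S35 (wave 7), forms side: lifting PE characters, and characters with values in roots of unity

* `exists_lift` (CLEM): there is a constant `c ≠ 0` such that for every `d` and every
  PE character `ψ : Γ₀(N) → ℤ/d` the multiple `c • ψ` is the reduction mod `d` of an integral
  PE character.  (The abelianization of `Γ₀(N)` modulo the PE elements is a finitely generated
  abelian group; `c` is the exponent of its torsion subgroup.)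
* `exists_expChar_eq` (μ): a character `χ : Γ₀(N) → ℂˣ` with `χ ^ m = 1` which is trivial on
  the PE elements is `expChar N m ψ` for a PE character `ψ : Γ₀(N) → ℤ/m`.
-/

set_option autoImplicit false

open scoped MatrixGroups

namespace Fermat.Agent.S35.LiftPE

open Fermat.Agent

/-- the elements of trace `±2` and the elements of finite order -/
def peSet (N : ℕ) : Set (S22.Gam N) :=
  {γ | (((γ : SL(2, ℤ)) : Matrix (Fin 2) (Fin 2) ℤ).trace ^ 2 = 4) ∨ IsOfFinOrder γ}

/-- the abelianization of `Γ₀(N)`, written additively -/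
abbrev Ab (N : ℕ) : Type := Additive (Abelianization (S22.Gam N))

/-- the canonical map `Γ₀(N) → Γ₀(N)^ab` -/
def toAb (N : ℕ) : Additive (S22.Gam N) →+ Ab N := MonoidHom.toAdditive Abelianization.of

theorem toAb_surjective (N : ℕ) : Function.Surjective (toAb N) := by
  intro x
  obtain ⟨γ, hγ⟩ := QuotientGroup.mk_surjective (s := commutator (S22.Gam N)) x.toMul
  exact ⟨Additive.ofMul γ, congrArg Additive.ofMul hγ⟩

/-- the extension of an additive character to the abelianization -/
def abLift (N : ℕ) {B : Type*} [AddCommGroup B] (ψ : Additive (S22.Gam N) →+ B) :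
    Ab N →ₗ[ℤ] B :=
  (AddMonoidHom.toMultiplicativeRight.symm
    (Abelianization.lift (AddMonoidHom.toMultiplicativeRight ψ))).toIntLinearMap

theorem abLift_toAb (N : ℕ) {B : Type*} [AddCommGroup B] (ψ : Additive (S22.Gam N) →+ B)
    (γ : Additive (S22.Gam N)) : abLift N ψ (toAb N γ) = ψ γ := by
  show (Abelianization.lift (AddMonoidHom.toMultiplicativeRight ψ)
    (Abelianization.of γ.toMul)).toAdd = ψ γ
  rw [Abelianization.lift_apply_of]
  rfl

instance finite_ab (N : ℕ) [NeZero N] : Module.Finite ℤ (Ab N) := by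
  obtain ⟨S, hS⟩ := S22.exists_finset_closure N
  refine Module.finite_def.mpr (Submodule.fg_def.mpr
    ⟨(fun γ : S22.Gam N => toAb N (Additive.ofMul γ)) '' (S : Set (S22.Gam N)),
      (Finset.finite_toSet S).image _, ?_⟩)
  rw [eq_top_iff]
  intro x _
  obtain ⟨γ, rfl⟩ := toAb_surjective N x
  have hγ : γ.toMul ∈ Subgroup.closure (S : Set (S22.Gam N)) := by rw [hS]; trivial
  have key : ∀ g : S22.Gam N, g ∈ Subgroup.closure (S : Set (S22.Gam N)) →
      toAb N (Additive.ofMul g) ∈ Submodule.span ℤ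
        ((fun γ : S22.Gam N => toAb N (Additive.ofMul γ)) '' (S : Set (S22.Gam N))) := by
    intro g hg
    induction hg using Subgroup.closure_induction with
    | mem x hx => exact Submodule.subset_span ⟨x, hx, rfl⟩
    | one => rw [ofMul_one, map_zero]; exact Submodule.zero_mem _
    | mul x y _ _ hx hy => rw [ofMul_mul, map_add]; exact Submodule.add_mem _ hx hy
    | inv x _ hx => rw [ofMul_inv, map_neg]; exact Submodule.neg_mem _ hx
  exact key γ.toMul hγ

/-- the span of the PE elements in the abelianization -/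
def peSub (N : ℕ) : Submodule ℤ (Ab N) :=
  Submodule.span ℤ ((fun γ : S22.Gam N => toAb N (Additive.ofMul γ)) '' peSet N)

/-- the exponent of the torsion of a finitely generated abelian group -/
theorem exists_exponent (M : Type*) [AddCommGroup M] [Module.Finite ℤ M] :
    ∃ c : ℕ, c ≠ 0 ∧ ∀ t ∈ Submodule.torsion ℤ M, c • t = 0 := by
  classical
  obtain ⟨s, hs, hspan⟩ := Submodule.fg_def.mp
    (IsNoetherian.noetherian (Submodule.torsion ℤ M))
  have h1 : ∀ x : M, ∃ a : ℤ, x ∈ s → a ≠ 0 ∧ a • x = 0 := by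
    intro x
    by_cases hx : x ∈ s
    · have hx' : x ∈ Submodule.torsion ℤ M := by rw [← hspan]; exact Submodule.subset_span hx
      obtain ⟨a, ha⟩ := (Submodule.mem_torsion_iff x).mp hx'
      exact ⟨(a : ℤ), fun _ => ⟨nonZeroDivisors.coe_ne_zero a, ha⟩⟩
    · exact ⟨0, fun h => absurd h hx⟩
  choose a ha using h1
  refine ⟨∏ x ∈ hs.toFinset, (a x).natAbs, ?_, ?_⟩
  · rw [Finset.prod_ne_zero_iff]
    intro x hx
    exact Int.natAbs_ne_zero.mpr (ha x (hs.mem_toFinset.mp hx)).1
  · intro t ht
    rw [← hspan] at ht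
    induction ht using Submodule.span_induction with
    | mem x hx =>
      have hdvd : (a x).natAbs ∣ ∏ y ∈ hs.toFinset, (a y).natAbs :=
        Finset.dvd_prod_of_mem _ (hs.mem_toFinset.mpr hx)
      obtain ⟨e, he⟩ := hdvd
      have h2 : (a x).natAbs • x = 0 := by
        have h3 := (ha x hx).2
        have h4 : ((a x).natAbs : ℤ) • x = 0 := by
          rcases Int.natAbs_eq (a x) with h | h
          · rw [← h]; exact h3
          · have h' : ((a x).natAbs : ℤ) = -a x := by linarith
            rw [h', neg_smul, h3, neg_zero]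
        rwa [natCast_zsmul] at h4
      rw [he, mul_comm, mul_smul, h2, smul_zero]
    | zero => exact smul_zero _
    | add x y _ _ hx hy => rw [smul_add, hx, hy, add_zero]
    | smul b x _ hx => rw [smul_comm, hx, smul_zero]

/-- **(CLEM)** Up to a constant, every PE character mod `d` lifts to an integral PE
character. -/
theorem exists_lift (N : ℕ) [NeZero N] :
    ∃ c : ℕ, c ≠ 0 ∧ ∀ (d : ℕ) (ψ : S29.peHoms N (ZMod d)),
      ∃ Ψ : S29.peHoms N ℤ, ∀ γ : S22.Gam N,
        (((Ψ : Additive (S22.Gam N) →+ ℤ) (Additive.ofMul γ) : ℤ) : ZMod d) =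
          c • (ψ : Additive (S22.Gam N) →+ ZMod d) (Additive.ofMul γ) := by
  classical
  obtain ⟨c, hc0, hc⟩ := exists_exponent (Ab N ⧸ peSub N)
  refine ⟨c, hc0, fun d ψ => ?_⟩
  -- the free quotient
  set Q := Ab N ⧸ peSub N with hQ
  set T : Submodule ℤ Q := Submodule.torsion ℤ Q with hT
  let proj : Ab N →ₗ[ℤ] (Q ⧸ T) := (Submodule.mkQ T).comp (Submodule.mkQ (peSub N))
  have hproj : Function.Surjective proj :=
    (Submodule.mkQ_surjective T).comp (Submodule.mkQ_surjective (peSub N))
  let b := Module.Free.chooseBasis ℤ (Q ⧸ T)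
  choose a ha using fun i => hproj (b i)
  let f : Ab N →ₗ[ℤ] ZMod d := abLift N (ψ : Additive (S22.Gam N) →+ ZMod d)
  have hfpe : ∀ x ∈ peSub N, f x = 0 := by
    intro x hx
    have : peSub N ≤ LinearMap.ker f := by
      refine Submodule.span_le.mpr ?_
      rintro _ ⟨γ, hγ, rfl⟩
      rw [SetLike.mem_coe, LinearMap.mem_ker]
      show abLift N _ (toAb N (Additive.ofMul γ)) = 0
      rw [abLift_toAb]
      exact ψ.2 γ hγ
    exact LinearMap.mem_ker.mp (this hx)
  have hker : ∀ x : Ab N, proj x = 0 → c • f x = 0 := by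
    intro x hx
    have h1 : Submodule.mkQ (peSub N) x ∈ T := (Submodule.Quotient.mk_eq_zero T).mp hx
    have h2 : c • Submodule.mkQ (peSub N) x = 0 := hc _ h1
    rw [← map_nsmul] at h2
    have h3 : c • x ∈ peSub N := (Submodule.Quotient.mk_eq_zero (peSub N)).mp h2
    rw [← map_nsmul]
    exact hfpe _ h3
  choose k hk using fun i => ZMod.intCast_surjective (c • f (a i))
  let ΨF : (Q ⧸ T) →ₗ[ℤ] ℤ := b.constr ℤ k
  let s : (Q ⧸ T) →ₗ[ℤ] Ab N := b.constr ℤ a
  have hs : ∀ y, proj (s y) = y := by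
    have : proj.comp s = LinearMap.id := by
      apply b.ext
      intro i
      show proj (b.constr ℤ a (b i)) = b i
      rw [Module.Basis.constr_basis, ha]
    intro y
    exact LinearMap.congr_fun this y
  have hΨs : ∀ y, ((ΨF y : ℤ) : ZMod d) = c • f (s y) := by
    have : (Int.castAddHom (ZMod d)).toIntLinearMap.comp ΨF = c • f.comp s := by
      apply b.ext
      intro i
      show ((b.constr ℤ k (b i) : ℤ) : ZMod d) = c • f (b.constr ℤ a (b i))
      rw [Module.Basis.constr_basis, Module.Basis.constr_basis, hk]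
    intro y
    exact LinearMap.congr_fun this y
  have hΨ : ∀ x : Ab N, ((ΨF (proj x) : ℤ) : ZMod d) = c • f x := by
    intro x
    rw [hΨs]
    have h1 : proj (x - s (proj x)) = 0 := by rw [map_sub, hs, sub_self]
    have h2 := hker _ h1
    rw [map_sub, smul_sub, sub_eq_zero] at h2
    exact h2.symm
  let Ψ : Additive (S22.Gam N) →+ ℤ := (ΨF.comp proj).toAddMonoidHom.comp (toAb N)
  have hΨpe : S29.IsPE Ψ := by
    intro γ hγ
    show ΨF (proj (toAb N (Additive.ofMul γ))) = 0
    have h1 : toAb N (Additive.ofMul γ) ∈ peSub N := Submodule.subset_span ⟨γ, hγ, rfl⟩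
    have h2 : proj (toAb N (Additive.ofMul γ)) = 0 := by
      show Submodule.mkQ T (Submodule.mkQ (peSub N) (toAb N (Additive.ofMul γ))) = 0
      have h0 : Submodule.mkQ (peSub N) (toAb N (Additive.ofMul γ)) = 0 :=
        (Submodule.Quotient.mk_eq_zero (peSub N)).mpr h1
      rw [h0, map_zero]
    rw [h2, map_zero]
  refine ⟨⟨Ψ, hΨpe⟩, fun γ => ?_⟩
  show ((ΨF (proj (toAb N (Additive.ofMul γ))) : ℤ) : ZMod d) = _
  rw [hΨ]
  show c • abLift N _ (toAb N (Additive.ofMul γ)) = _
  rw [abLift_toAb]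

/-- the map `j ↦ exp (2πi j / m)` from `ℤ/m` to `ℂˣ` is injective -/
theorem toUnits_toCircle_injective (m : ℕ) [NeZero m] :
    Function.Injective (fun j : ZMod m => Circle.toUnits (ZMod.toCircle j)) := by
  intro a b h
  have h4 := congrArg (fun x : ℂˣ => (x : ℂ)) h
  simp only [Circle.toUnits_apply, Units.val_mk0] at h4
  exact ZMod.injective_toCircle (Circle.ext h4)

/-- every `m`-th root of unity in `ℂˣ` is `exp (2πi j / m)` for some `j : ℤ/m` -/
theorem exists_toCircle_eq (m : ℕ) [NeZero m] (w : ℂˣ) (hw : w ^ m = 1) :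
    ∃ j : ZMod m, Circle.toUnits (ZMod.toCircle j) = w := by
  have hw' : w ∈ rootsOfUnity m ℂ := (mem_rootsOfUnity m w).mpr hw
  obtain ⟨i, -, hi⟩ := (Complex.mem_rootsOfUnity m w).mp hw'
  refine ⟨(i : ZMod m), ?_⟩
  apply Units.ext
  rw [Circle.toUnits_apply, Units.val_mk0, ZMod.toCircle_natCast, ← hi]
  congr 1
  ring

/-- **(μ)** A character of `Γ₀(N)` with values in the `m`-th roots of unity which is trivial
on the PE elements is the character attached to a PE character with values in `ℤ/m`. -/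
theorem exists_expChar_eq (N m : ℕ) [NeZero m] (χ : S22.Gam N →* ℂˣ)
    (hm : ∀ γ : S22.Gam N, χ γ ^ m = 1)
    (hpe : ∀ γ : S22.Gam N,
      ((((γ : SL(2, ℤ)) : Matrix (Fin 2) (Fin 2) ℤ).trace ^ 2 = 4) ∨ IsOfFinOrder γ) → χ γ = 1) :
    ∃ ψ : S29.peHoms N (ZMod m), S29.expChar N m ψ = χ := by
  choose j hj using fun γ : S22.Gam N => exists_toCircle_eq m (χ γ) (hm γ)
  have hinj := toUnits_toCircle_injective m
  have h0 : j 1 = 0 := by
    apply hinj
    show Circle.toUnits (ZMod.toCircle (j 1)) = Circle.toUnits (ZMod.toCircle 0)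
    rw [hj, map_one, AddChar.map_zero_eq_one, map_one]
  have hadd : ∀ γ γ' : S22.Gam N, j (γ * γ') = j γ + j γ' := by
    intro γ γ'
    apply hinj
    show Circle.toUnits (ZMod.toCircle (j (γ * γ'))) =
      Circle.toUnits (ZMod.toCircle (j γ + j γ'))
    rw [hj, map_mul, AddChar.map_add_eq_mul, map_mul, hj, hj]
  let ψ : Additive (S22.Gam N) →+ ZMod m :=
    { toFun := fun γ => j γ.toMul
      map_zero' := h0
      map_add' := fun γ γ' => hadd γ.toMul γ'.toMul }
  have hψ : S29.IsPE ψ := by
    intro γ hγ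
    show j γ = 0
    apply hinj
    show Circle.toUnits (ZMod.toCircle (j γ)) = Circle.toUnits (ZMod.toCircle 0)
    rw [hj, hpe γ hγ, AddChar.map_zero_eq_one, map_one]
  refine ⟨⟨ψ, hψ⟩, ?_⟩
  apply MonoidHom.ext
  intro γ
  rw [S29.expChar_apply]
  exact hj γ

end Fermat.Agent.S35.LiftPE
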