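import Mathlib
import Fermat.Agent.S30.ThetaFam
import Fermat.Agent.S35.LiftPE
import Fermat.Agent.S35.KummerSurj
import Fermat.Agent.S35.GeomJacE

/-!
# S35 (wave 7), forms side: Kummer surjectivity (KS)

* `exists_family_surj` : the Kummer family `Θ m : peHoms N (ℤ/m) →+ J₀(N)(ℚ̄)` of
  `S30.ThetaFam.exists_family` can be chosen such that, for a constant `c ≠ 0` independent of
  `m`, every `m`-torsion class `x` satisfies `c • x = Θ m (ψ mod m)` for an INTEGRAL PE character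
  `ψ`.  (`KummerSurj.exists_isClass_of_torsion`: `12 • x` is the Kummer class of a PE character
  mod `m`; `LiftPE.exists_lift`: a PE character mod `m` lifts to `ℤ` up to a constant.)
* `exists_geomInput_ks` : the geometric input of S30 for `J₀(N)(ℚ̄)` with Galois module and Hecke
  operators exposed and with `c • x ∈ I.θ n (I.Λ)` for every `p ^ n`-torsion `x`.
-/

set_option autoImplicit false

open scoped MatrixGroups

namespace Fermat.Agent.S35.KS

open ModularCurve AlgebraicCurve Fermat.Agent Fermat.Agent.S30 Fermat.Agent.S30.GeomJac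

local notation "Qb" => AlgebraicClosure ℚ

/-- **(SURJ), family form.** The Kummer family with Kummer surjectivity up to a constant. -/
theorem exists_family_surj (N : ℕ) [NeZero N] :
    ∃ Θ : ∀ m : ℕ, S29.peHoms N (ZMod m) →+ ModularCurve.JZero N,
      (∀ m : ℕ, 0 < m → Function.Injective (Θ m)) ∧
      (∀ (m : ℕ), 0 < m → ∀ (ℓ : ℕ) [Fact ℓ.Prime] (hℓN : ¬ ℓ ∣ N)
        (χ χ' : S29.peHoms N (ZMod m)),
        (∀ γ : S22.Gam N, (χ' : Additive (S22.Gam N) →+ ZMod m) (Additive.ofMul γ) =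
          ∑ x : OnePoint (ZMod ℓ),
            (χ : Additive (S22.Gam N) →+ ZMod m) (Additive.ofMul (S22.gamT hℓN γ x))) →
        Θ m χ' = ModularCurve.heckeOperatorBar N ⟨ℓ, Fact.out⟩ (Θ m χ)) ∧
      (∀ (m d : ℕ), 0 < m → 0 < d → ∀ ψ : S29.peHoms N (ZMod (m * d)),
        Θ m (redPE N (Dvd.intro d rfl) ψ) = d • Θ (m * d) ψ) ∧
      ∃ c : ℕ, c ≠ 0 ∧ ∀ (m : ℕ), 0 < m → ∀ x : ModularCurve.JZero N, m • x = 0 →
        ∃ ψ : S29.peHoms N ℤ, Θ m (modPE N m ψ) = c • x := by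
  obtain ⟨ι⟩ := ThetaFam.nonempty_ringHom
  choose Θ hΘ using ThetaFam.exists_theta_spec N ι
  obtain ⟨c₁, hc₁, hlift⟩ := LiftPE.exists_lift N
  refine ⟨Θ, fun m hm => (hΘ m hm).1, ?_, ?_, c₁ * 12, Nat.mul_ne_zero hc₁ (by norm_num), ?_⟩
  · intro m hm ℓ _ hℓN χ χ' hχ
    exact (hΘ m hm).2.1 ℓ hℓN χ χ' hχ
  · intro m d hm hd ψ
    have hmd : 0 < m * d := Nat.mul_pos hm hd
    haveI : NeZero m := ⟨hm.ne'⟩
    haveI : NeZero (m * d) := ⟨hmd.ne'⟩
    have h1 := KummerTower.theta_redPE (Dvd.intro d rfl : m ∣ m * d)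
      (KummerTower.kPieces N m ι) (Θ m) (Θ (m * d)) (hΘ m hm).2.2 (hΘ (m * d) hmd).2.2 ψ
    rw [Nat.mul_div_cancel_left d hm] at h1
    exact h1
  · intro m hm x hx
    haveI : NeZero m := ⟨hm.ne'⟩
    have hx' : (m : ℤ) • x = 0 := by rw [natCast_zsmul]; exact hx
    obtain ⟨ψ, hψ⟩ := KummerSurj.exists_isClass_of_torsion N m ι x hx'
    have h1 : Θ m ψ = 12 • x :=
      KummerTower.KPieces.isClass_unique (KummerTower.kPieces N m ι) ψ ((hΘ m hm).2.2 ψ) hψ
    obtain ⟨Ψ, hΨ⟩ := hlift m ψ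
    have h2 : modPE N m Ψ = c₁ • ψ := by
      apply Subtype.ext
      apply AddMonoidHom.ext
      intro γ
      exact hΨ γ.toMul
    refine ⟨Ψ, ?_⟩
    rw [h2, map_nsmul, h1, mul_smul]

/-- **(KS)** The geometric input of S30 / S31 for `J₀(N)(ℚ̄)`, with Galois module and Hecke
operators exposed, and Kummer surjectivity up to a constant: `c • x ∈ I.θ n (I.Λ)` for every
`p ^ n`-torsion `x`. -/
theorem exists_geomInput_ks (p : ℕ) [Fact p.Prime] (N : ℕ) [NeZero N] (S : Finset ℕ)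
    (hNS : ∀ q : ℕ, q.Prime → q ∣ N → q ∈ S) :
    ∃ I : GeomInput p N S, I.Compat ∧ I.FiniteTors ∧
      ∃ e : I.X ≃+ ModularCurve.JZero N,
        (∀ (σ : GQ) (x : I.X), e (σ • x) = σ • e x) ∧
        (∀ (ℓ : Nat.Primes) (x : I.X), e (I.T ℓ x) = ModularCurve.heckeOperatorBar N ℓ (e x)) ∧
        ∃ c : ℕ, c ≠ 0 ∧ ∀ (n : ℕ) (x : I.X), p ^ n • x = 0 → ∃ v : I.Λ, c • x = I.θ n v :=
  GeomJacE.exists_geomInput_ks_of p N S hNS (exists_family_surj N)

end Fermat.Agent.S35.KS
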