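import Mathlib
import Fermat.Agent.S49.Forms
import Fermat.Agent.S49.Eigen
import Fermat.Agent.S21.UpperBound

/-!
# S35 (F1a): an eigenvector of the good Hecke operators gives a normalised eigenform

If a nonzero weight two cusp form `f` of level `Γ₀(N)` is an eigenvector of the Hecke operators
`T_ℓ` for all primes `ℓ ∤ N` outside a set `S`, with eigenvalues `a ℓ`, then there is a
normalised eigenform `g` of level `N` (in the sense of the prelude: multiplicative `q`-expansion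
with the Hecke recursions at all primes) with `a_ℓ(g) = a ℓ` for all those `ℓ`.

Proof: the joint eigenspace is stable under the commuting family of all `T_ℓ` (`ℓ ∤ N`) and
`U_ℓ` (`ℓ ∣ N`); a common eigenvector of the whole family inside it has nonzero first
coefficient and its normalisation is the required eigenform.
-/

set_option autoImplicit false
set_option linter.unusedVariables false
set_option linter.style.haveILetI false

namespace Fermat.Agent.S35.EigenForm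

open CuspForm CongruenceSubgroup ModularFormClass Fermat.Agent.S49

/-- A nonzero finite-dimensional complex vector space with a commuting family of endomorphisms
contains a common eigenvector. -/
theorem exists_common_eigenvector_of_ne_bot {V : Type} [AddCommGroup V] [Module ℂ V]
    [FiniteDimensional ℂ V] {ι : Type} (T : ι → Module.End ℂ V)
    (hcomm : ∀ i j, Commute (T i) (T j)) (E : Submodule ℂ V) (hE : E ≠ ⊥)
    (hinv : ∀ i, ∀ x ∈ E, T i x ∈ E) :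
    ∃ (χ : ι → ℂ) (v : V), v ∈ E ∧ v ≠ 0 ∧ ∀ i, T i v = χ i • v := by
  classical
  let T' : ι → Module.End ℂ E := fun i => (T i).restrict (hinv i)
  have hT' : ∀ i (x : E), ((T' i x : E) : V) = T i (x : V) := fun i x => rfl
  have hcomm' : ∀ i j, Commute (T' i) (T' j) := by
    intro i j
    apply LinearMap.ext
    intro x
    apply Subtype.ext
    show ((T' i (T' j x) : E) : V) = ((T' j (T' i x) : E) : V)
    rw [hT', hT', hT', hT']
    exact congrArg (fun φ : Module.End ℂ V => φ (x : V)) (hcomm i j).eq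
  have hsup : ⨆ χ : ι → ℂ, ⨅ i, (T' i).maxGenEigenspace (χ i) = ⊤ :=
    Module.End.iSup_iInf_maxGenEigenspace_eq_top_of_iSup_maxGenEigenspace_eq_top_of_commute T'
      (fun i j _ => hcomm' i j) (fun i => Module.End.iSup_maxGenEigenspace_eq_top (T' i))
  have hEnt : Nontrivial E := by
    obtain ⟨x, hx, hx0⟩ := (Submodule.ne_bot_iff E).mp hE
    exact ⟨⟨⟨x, hx⟩, 0, fun h => hx0 (congrArg Subtype.val h)⟩⟩
  obtain ⟨χ, hχ⟩ : ∃ χ : ι → ℂ, ⨅ i, (T' i).maxGenEigenspace (χ i) ≠ ⊥ := by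
    by_contra hcon
    push Not at hcon
    have h1 : (⨆ χ : ι → ℂ, ⨅ i, (T' i).maxGenEigenspace (χ i)) = ⊥ := by
      rw [iSup_eq_bot]
      exact hcon
    rw [hsup] at h1
    exact top_ne_bot h1
  obtain ⟨v, hv0, hv⟩ := exists_common_eigenvector T' hcomm' χ hχ
  refine ⟨χ, (v : V), v.2, fun h => hv0 (Subtype.ext h), fun i => ?_⟩
  have h1 := congrArg (Subtype.val : E → V) (hv i)
  rw [hT'] at h1
  exact h1

/-- **(F1a)** An eigenvector of the good Hecke operators outside `S` gives a normalised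
eigenform with the same eigenvalues. -/
theorem exists_normalizedEigenform {N : ℕ} [NeZero N] (S : Set ℕ) (a : ℕ → ℂ)
    (f : CuspForm (Gamma0 N) 2) (hf : f ≠ 0)
    (heig : ∀ (ℓ : ℕ) (hℓ : ℓ.Prime) (hℓN : ¬ ℓ ∣ N), ℓ ∉ S →
      CuspForm.heckeTLin 2 hℓ hℓN f = a ℓ • f) :
    ∃ g : CuspForm (Gamma0 N) 2, g.IsNormalizedEigenform ∧
      ∀ (ℓ : ℕ), ℓ.Prime → ¬ ℓ ∣ N → ℓ ∉ S → qCoeff g ℓ = a ℓ := by
  classical
  haveI : FiniteDimensional ℂ (CuspForm (Gamma0 N) 2) := Fermat.Agent.S21.finite_cuspForm_two N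
  let T : {p : ℕ // p.Prime} → Module.End ℂ (CuspForm (Gamma0 N) 2) := fun ℓ =>
    if hd : ℓ.1 ∣ N then CuspForm.heckeULin 2 hd else CuspForm.heckeTLin 2 ℓ.2 hd
  have hTgen : ∀ ℓ, T ℓ ∈ CuspForm.heckeGenerators N 2 ∅ := by
    intro ℓ
    by_cases hd : ℓ.1 ∣ N
    · simp only [T, dif_pos hd]
      exact CuspForm.heckeULin_mem_heckeGenerators ℓ.2 hd (Set.notMem_empty _)
    · simp only [T, dif_neg hd]
      exact CuspForm.heckeTLin_mem_heckeGenerators ℓ.2 hd (Set.notMem_empty _)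
  have hcomm : ∀ i j, Commute (T i) (T j) := fun i j =>
    CuspForm.commute_of_mem_heckeGenerators (hTgen i) (hTgen j)
  have hTq : ∀ (ℓ : {p : ℕ // p.Prime}) (g : CuspForm (Gamma0 N) 2) (n : ℕ), qCoeff ⇑(T ℓ g) n =
      qCoeff ⇑g (n * ℓ.1) + if ℓ.1 ∣ N then 0 else
        (if ℓ.1 ∣ n then (ℓ.1 : ℂ) * qCoeff ⇑g (n / ℓ.1) else 0) := by
    intro ℓ g n
    by_cases hd : ℓ.1 ∣ N
    · simp only [T, dif_pos hd, if_pos hd, add_zero]; exact qc_heckeU ℓ.2 hd g n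
    · simp only [T, dif_neg hd, if_neg hd]; rw [qc_heckeT ℓ.2 hd g n]; norm_num
  have hTgood : ∀ (ℓ : ℕ) (hℓ : ℓ.Prime) (hℓN : ¬ ℓ ∣ N), T ⟨ℓ, hℓ⟩ = CuspForm.heckeTLin 2 hℓ hℓN := by
    intro ℓ hℓ hℓN
    simp only [T, dif_neg hℓN]
  -- the joint eigenspace
  let E : Submodule ℂ (CuspForm (Gamma0 N) 2) :=
    ⨅ ℓ : {p : ℕ // p.Prime ∧ ¬ p ∣ N ∧ p ∉ S},
      Module.End.eigenspace (T ⟨ℓ.1, ℓ.2.1⟩) (a ℓ.1)
  have hEmem : ∀ x, x ∈ E ↔ ∀ (ℓ : ℕ) (hℓ : ℓ.Prime), ¬ ℓ ∣ N → ℓ ∉ S →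
      T ⟨ℓ, hℓ⟩ x = a ℓ • x := by
    intro x
    simp only [E, Submodule.mem_iInf, Module.End.mem_eigenspace_iff]
    constructor
    · intro h ℓ hℓ hℓN hℓS
      exact h ⟨ℓ, hℓ, hℓN, hℓS⟩
    · intro h ℓ
      exact h ℓ.1 ℓ.2.1 ℓ.2.2.1 ℓ.2.2.2
  have hfE : f ∈ E := by
    rw [hEmem]
    intro ℓ hℓ hℓN hℓS
    rw [hTgood ℓ hℓ hℓN]
    exact heig ℓ hℓ hℓN hℓS
  have hEne : E ≠ ⊥ := fun h => hf ((Submodule.mem_bot ℂ).mp (h ▸ hfE))
  have hEinv : ∀ i, ∀ x ∈ E, T i x ∈ E := by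
    intro i x hx
    rw [hEmem] at hx ⊢
    intro ℓ hℓ hℓN hℓS
    have h1 : T ⟨ℓ, hℓ⟩ (T i x) = T i (T ⟨ℓ, hℓ⟩ x) :=
      congrArg (fun φ : Module.End ℂ (CuspForm (Gamma0 N) 2) => φ x) (hcomm ⟨ℓ, hℓ⟩ i).eq
    rw [h1, hx ℓ hℓ hℓN hℓS, map_smul]
  obtain ⟨χ, v, hvE, hv0, hv⟩ := exists_common_eigenvector_of_ne_bot T hcomm E hEne hEinv
  have hrelv : ∀ (ℓ : {p : ℕ // p.Prime}) (n : ℕ), qCoeff ⇑v (n * ℓ.1) + (if ℓ.1 ∣ N then 0 else
      (if ℓ.1 ∣ n then (ℓ.1 : ℂ) * qCoeff ⇑v (n / ℓ.1) else 0)) = χ ℓ * qCoeff ⇑v n := by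
    intro ℓ n
    have h1 : qCoeff ⇑(T ℓ v) n = qCoeff ⇑((χ ℓ : ℂ) • v) n := by rw [hv ℓ]
    rw [hTq, qc_smul] at h1
    exact h1
  have hb1 : qCoeff ⇑v 1 ≠ 0 := by
    intro hb1
    apply hv0
    apply qc_ext
    intro n
    rw [qc_zero]
    induction n using Nat.strong_induction_on with
    | _ n ih =>
      rcases Nat.lt_or_ge n 2 with hn | hn
      · interval_cases n
        · exact qc_cusp v
        · exact hb1
      · obtain ⟨p, hp, m, rfl⟩ : ∃ p, p.Prime ∧ ∃ m, n = m * p := by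
          obtain ⟨p, hp, hpn⟩ := Nat.exists_prime_and_dvd (show n ≠ 1 by omega)
          obtain ⟨m, rfl⟩ := hpn
          exact ⟨p, hp, m, mul_comm p m⟩
        have hm0 : m ≠ 0 := by rintro rfl; omega
        have hm : m < m * p := by
          have := hp.two_le
          nlinarith [Nat.pos_of_ne_zero hm0]
        have hmp : m / p < m * p := lt_of_le_of_lt (Nat.div_le_self m p) hm
        have h1 := hrelv ⟨p, hp⟩ m
        rw [ih m hm, ih (m / p) hmp] at h1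
        simpa using h1
  let g : CuspForm (Gamma0 N) 2 := (qCoeff ⇑v 1)⁻¹ • v
  have hgq : ∀ n, qCoeff ⇑g n = (qCoeff ⇑v 1)⁻¹ * qCoeff ⇑v n := fun n => qc_smul _ _ _
  have hg1 : qCoeff ⇑g 1 = 1 := by rw [hgq]; exact inv_mul_cancel₀ hb1
  have hrelg : ∀ (ℓ : {p : ℕ // p.Prime}) (n : ℕ), qCoeff ⇑g (n * ℓ.1) + (if ℓ.1 ∣ N then 0 else
      (if ℓ.1 ∣ n then (ℓ.1 : ℂ) * qCoeff ⇑g (n / ℓ.1) else 0)) = χ ℓ * qCoeff ⇑g n := by
    intro ℓ n
    rw [hgq, hgq, hgq]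
    have h1 := hrelv ℓ n
    split_ifs at h1 ⊢ <;> linear_combination (qCoeff ⇑v 1)⁻¹ * h1
  have hχg : ∀ ℓ : {p : ℕ // p.Prime}, (χ ℓ : ℂ) = qCoeff ⇑g ℓ.1 := by
    intro ℓ
    have h1 := hrelg ℓ 1
    rw [one_mul, hg1, mul_one] at h1
    have hnd : ¬ (ℓ.1 ∣ 1) := by
      rw [Nat.dvd_one]; exact ℓ.2.one_lt.ne'
    rw [if_neg hnd] at h1
    simp only [ite_self, add_zero] at h1
    exact h1.symm
  have hsys : FormalHecke.IsEigensystem (fun ℓ : ℕ => if ℓ ∣ N then (0 : ℂ) else (ℓ : ℂ))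
      (fun n => qCoeff ⇑g n) := by
    refine ⟨hg1, fun ℓ hℓ n => ?_⟩
    have h1 := hrelg ⟨ℓ, hℓ⟩ n
    have h2 := hχg ⟨ℓ, hℓ⟩
    simp only at h1 h2 ⊢
    rw [mul_comm ℓ n, ← h2]
    split_ifs at h1 ⊢ <;> linear_combination h1
  have hnorm : g.IsNormalizedEigenform :=
    { qCoeff_one := hg1
      qCoeff_mul_of_coprime := fun m n hmn => eigensystem_mul_of_coprime _ _ hsys m n hmn
      qCoeff_prime_pow_of_not_dvd := fun p r hp hpN => by
        have h1 := hsys.2 p hp (p ^ (r + 1))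
        simp only [if_neg hpN] at h1
        rw [if_pos (dvd_pow_self p (Nat.succ_ne_zero r))] at h1
        rw [show p * p ^ (r + 1) = p ^ (r + 2) by ring,
          show p ^ (r + 1) / p = p ^ r by rw [pow_succ, Nat.mul_div_cancel _ hp.pos]] at h1
        linear_combination h1
      qCoeff_prime_pow_of_dvd := fun p r hp hpN => by
        have h1 := hsys.2 p hp (p ^ (r + 1))
        simp only [if_pos hpN] at h1
        rw [show p * p ^ (r + 1) = p ^ (r + 2) by ring] at h1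
        linear_combination h1 }
  refine ⟨g, hnorm, fun ℓ hℓ hℓN hℓS => ?_⟩
  rw [← hχg ⟨ℓ, hℓ⟩]
  -- `χ ℓ = a ℓ` since `v ∈ E` is nonzero
  have h1 := (hEmem v).mp hvE ℓ hℓ hℓN hℓS
  rw [hv ⟨ℓ, hℓ⟩] at h1
  have h2 : (χ ⟨ℓ, hℓ⟩ - a ℓ) • v = 0 := by rw [sub_smul, h1, sub_self]
  rcases smul_eq_zero.mp h2 with h3 | h3
  · exact sub_eq_zero.mp h3
  · exact absurd h3 hv0

end Fermat.Agent.S35.EigenForm
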