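import Mathlib
import Fermat.Agent.S29
import Fermat.Agent.S30.PowerSum
import Fermat.Agent.Common.Frobenius
import Fermat.Prelude.Def_FLTPrelim_ModularRep

/-!
# S35 (F1c): strong multiplicity one at the good primes

Two normalised eigenforms `g` (level `M`) and `g'` (level `M'`) whose Hecke eigenvalues agree at
all primes outside a finite set `S` have the same eigenvalue at every prime `ℓ₀ ∤ M M'`.

Proof: for every prime `p ≠ ℓ₀` and every maximal ideal `𝔓 ∋ p` of `ℤ̄`, the mod `𝔓`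
representations attached to `g` and `g'` (S29) have the same characteristic polynomials at the
Frobenius elements outside `S ∪ {p} ∪ primes(M M')`; by weak Chebotarev a Frobenius element at
`ℓ₀` is, on the level of both representations, a power of such a Frobenius element, so the two
traces at `ℓ₀` agree: `a_{ℓ₀}(g) ≡ a_{ℓ₀}(g') mod 𝔓`.  An algebraic integer lying in maximal
ideals above all primes `p ≠ ℓ₀` is zero.
-/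

set_option autoImplicit false
set_option linter.unusedVariables false
set_option linter.style.haveILetI false

namespace Fermat.Agent.S35.StrongMult

open Polynomial CuspForm CongruenceSubgroup ModularFormClass

local notation "GQ" => (AlgebraicClosure ℚ ≃ₐ[ℚ] AlgebraicClosure ℚ)
local notation "Zb" => integralClosure ℤ ℂ

/-- An element of `ℤ̄` lying in every maximal ideal above every prime `p ≠ ℓ₀` is zero. -/
theorem eq_zero_of_forall_mem_maximal (d : Zb) (ℓ₀ : ℕ)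
    (h : ∀ p : ℕ, p.Prime → p ≠ ℓ₀ → ∀ 𝔓 : Ideal Zb, 𝔓.IsMaximal → (p : Zb) ∈ 𝔓 → d ∈ 𝔓) :
    d = 0 := by
  by_contra hd
  have hintC : IsIntegral ℤ (d : ℂ) := d.2
  have hdC : (d : ℂ) ≠ 0 := fun h0 => hd (Subtype.ext h0)
  set P := minpoly ℤ (d : ℂ) with hP
  have hc0 : P.coeff 0 ≠ 0 := by
    intro h0
    have h1 := minpoly.coeff_zero_ne_zero (A := ℚ) hintC.tower_top hdC
    rw [minpoly.isIntegrallyClosed_eq_field_fractions' ℚ hintC, Polynomial.coeff_map, ← hP, h0,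
      map_zero] at h1
    exact h1 rfl
  obtain ⟨p, hpge, hp⟩ := Nat.exists_infinite_primes (max (P.coeff 0).natAbs ℓ₀ + 1)
  have hpℓ : p ≠ ℓ₀ := by
    have := le_max_right (P.coeff 0).natAbs ℓ₀
    omega
  have hpc : (P.coeff 0).natAbs < p := by
    have := le_max_left (P.coeff 0).natAbs ℓ₀
    omega
  obtain ⟨𝔓, h𝔓, hp𝔓⟩ := FLTPrelim.exists_maximalIdeal_natCast_prime_mem hp
  have hd𝔓 : d ∈ 𝔓 := h p hp hpℓ 𝔓 h𝔓 hp𝔓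
  have hc𝔓 : algebraMap ℤ Zb (P.coeff 0) ∈ 𝔓 := by
    have h1 : Polynomial.aeval d P = 0 := by
      apply Subtype.ext
      rw [← Subalgebra.aeval_coe]
      exact minpoly.aeval ℤ (d : ℂ)
    rw [← Polynomial.divX_mul_X_add P, map_add, map_mul, Polynomial.aeval_X,
      Polynomial.aeval_C] at h1
    have h2 : algebraMap ℤ Zb (P.coeff 0) = -(Polynomial.aeval d P.divX * d) := by
      linear_combination h1
    rw [h2]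
    exact 𝔓.neg_mem (𝔓.mul_mem_left _ hd𝔓)
  have hcop : IsCoprime (P.coeff 0) (p : ℤ) := by
    rw [Int.isCoprime_iff_gcd_eq_one, Int.gcd_comm]
    have hcop' : Nat.Coprime p (P.coeff 0).natAbs := by
      rw [Nat.Prime.coprime_iff_not_dvd hp]
      intro hdvd
      have := Nat.le_of_dvd (Int.natAbs_pos.mpr hc0) hdvd
      omega
    rw [Int.gcd_eq_natAbs, Int.natAbs_natCast]
    exact hcop'
  obtain ⟨u, v, huv⟩ := hcop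
  have h1 : (1 : Zb) ∈ 𝔓 := by
    have h3 : (1 : Zb) = algebraMap ℤ Zb u * algebraMap ℤ Zb (P.coeff 0) +
        algebraMap ℤ Zb v * (p : Zb) := by
      have h4 := congrArg (algebraMap ℤ Zb) huv
      rw [map_add, map_mul, map_mul, map_one] at h4
      rw [← h4]
      simp
    rw [h3]
    exact 𝔓.add_mem (𝔓.mul_mem_left _ hc𝔓) (𝔓.mul_mem_left _ hp𝔓)
  exact h𝔓.ne_top ((Ideal.eq_top_iff_one 𝔓).mpr h1)

/-- The product of two representations factoring through finite levels factors through a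
finite level. -/
theorem factors_prod {M₁ M₂ : Type} [Monoid M₁] [Monoid M₂] (ρ₁ : GQ →* M₁) (ρ₂ : GQ →* M₂)
    (h₁ : GaloisFactorsThroughFiniteLevel ρ₁) (h₂ : GaloisFactorsThroughFiniteLevel ρ₂) :
    GaloisFactorsThroughFiniteLevel (ρ₁.prod ρ₂) := by
  obtain ⟨L₁, hL₁, hρ₁⟩ := h₁
  obtain ⟨L₂, hL₂, hρ₂⟩ := h₂
  haveI := hL₁
  haveI := hL₂
  refine ⟨L₁ ⊔ L₂, IntermediateField.finiteDimensional_sup L₁ L₂, fun σ hσ => ?_⟩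
  rw [MonoidHom.prod_apply, hρ₁ σ (fun x hx => hσ x ((le_sup_left : L₁ ≤ L₁ ⊔ L₂) hx)),
    hρ₂ σ (fun x hx => hσ x ((le_sup_right : L₂ ≤ L₁ ⊔ L₂) hx))]
  rfl

/-- The congruence modulo one maximal ideal. -/
theorem sub_mem_of_maximal {M M' : ℕ} {g : CuspForm (Gamma0 M) 2} {g' : CuspForm (Gamma0 M') 2}
    (hg : g.IsNormalizedEigenform) (hg' : g'.IsNormalizedEigenform) (S : Finset ℕ)
    (h : ∀ ℓ : ℕ, ℓ.Prime → ℓ ∉ S → qCoeff g ℓ = qCoeff g' ℓ)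
    (ℓ₀ : ℕ) (hℓ₀ : ℓ₀.Prime) (hM : ¬ ℓ₀ ∣ M) (hM' : ¬ ℓ₀ ∣ M')
    (a a' : Zb) (ha : (a : ℂ) = qCoeff g ℓ₀) (ha' : (a' : ℂ) = qCoeff g' ℓ₀)
    (p : ℕ) (hp : p.Prime) (hpℓ : p ≠ ℓ₀) (𝔓 : Ideal Zb) (h𝔓 : 𝔓.IsMaximal)
    (hp𝔓 : (p : Zb) ∈ 𝔓) : a - a' ∈ 𝔓 := by
  classical
  haveI := h𝔓
  letI : Field (Zb ⧸ 𝔓) := Ideal.Quotient.field 𝔓
  let φ : Zb →+* Zb ⧸ 𝔓 := Ideal.Quotient.mk 𝔓
  have hp0 : ((p : ℕ) : Zb ⧸ 𝔓) = 0 := by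
    have h1 : φ (p : Zb) = 0 := Ideal.Quotient.eq_zero_iff_mem.mpr hp𝔓
    rw [map_natCast] at h1
    exact h1
  haveI : CharP (Zb ⧸ 𝔓) p := by
    obtain ⟨c, hc⟩ := CharP.exists (Zb ⧸ 𝔓)
    have hcp : c ∣ p := (CharP.cast_eq_zero_iff (Zb ⧸ 𝔓) c p).mp hp0
    have hc1 : c ≠ 1 := CharP.char_ne_one (Zb ⧸ 𝔓) c
    have hcp' : c = p := ((Nat.dvd_prime hp).mp hcp).resolve_left hc1
    exact hcp' ▸ hc
  have hcast : ∀ ℓ : ℕ, ℓ.Prime → ℓ ≠ p → ((ℓ : ℕ) : Zb ⧸ 𝔓) ≠ 0 := by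
    intro ℓ hℓ hℓp h0
    have h1 : p ∣ ℓ := (CharP.cast_eq_zero_iff (Zb ⧸ 𝔓) p ℓ).mp h0
    exact hℓp ((Nat.prime_dvd_prime_iff_eq hp hℓ).mp h1).symm
  obtain ⟨ρ, hρ, -⟩ := Fermat.Agent.S29.result hg hp φ
  obtain ⟨ρ', hρ', -⟩ := Fermat.Agent.S29.result hg' hp φ
  obtain ⟨A₀, σ₀, hA₀, hσ₀⟩ := Fermat.Agent.Common.exists_frobenius ℓ₀ hℓ₀
  have hM0 : M ≠ 0 := fun h0 => hM (h0 ▸ dvd_zero _)
  have hM'0 : M' ≠ 0 := fun h0 => hM' (h0 ▸ dvd_zero _)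
  obtain ⟨ℓ, A, F, i, hℓ, hℓS, hA, hF, hPF⟩ :=
    Fermat.Agent.S29.WeakCheb.exists_frobenius_pow_of_factors (ρ.ρ.prod ρ'.ρ)
      (factors_prod _ _ ρ.factorsThroughFiniteLevel ρ'.factorsThroughFiniteLevel)
      (S ∪ {p} ∪ M.primeFactors ∪ M'.primeFactors) σ₀
  simp only [Finset.mem_union, Finset.mem_singleton, not_or] at hℓS
  obtain ⟨⟨⟨hℓS, hℓp⟩, hℓM⟩, hℓM'⟩ := hℓS
  have hℓM : ¬ ℓ ∣ M := fun hd => hℓM (Nat.mem_primeFactors.mpr ⟨hℓ, hd, hM0⟩)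
  have hℓM' : ¬ ℓ ∣ M' := fun hd => hℓM' (Nat.mem_primeFactors.mpr ⟨hℓ, hd, hM'0⟩)
  have h1 : ρ.ρ σ₀ = ρ.ρ F ^ i := congrArg Prod.fst hPF
  have h2 : ρ'.ρ σ₀ = ρ'.ρ F ^ i := congrArg Prod.snd hPF
  obtain ⟨b, hb, hcb⟩ := hρ ℓ hℓ hℓM (hcast ℓ hℓ hℓp) A hA F hF
  obtain ⟨b', hb', hcb'⟩ := hρ' ℓ hℓ hℓM' (hcast ℓ hℓ hℓp) A hA F hF
  have hbb : b = b' := Subtype.ext (by rw [hb, hb', h ℓ hℓ hℓS])
  have ht : LinearMap.trace (Zb ⧸ 𝔓) ρ.V (ρ.ρ σ₀) = LinearMap.trace (Zb ⧸ 𝔓) ρ'.V (ρ'.ρ σ₀) := by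
    rw [h1, h2, Fermat.Agent.S30.PowerSum.trace_pow_eq_psum ρ.finrank_eq _ _ _ hcb i,
      Fermat.Agent.S30.PowerSum.trace_pow_eq_psum ρ'.finrank_eq _ _ _ hcb' i, hbb]
  obtain ⟨c, hc, hcc⟩ := hρ ℓ₀ hℓ₀ hM (hcast ℓ₀ hℓ₀ hpℓ.symm) A₀ hA₀ σ₀ hσ₀
  obtain ⟨c', hc', hcc'⟩ := hρ' ℓ₀ hℓ₀ hM' (hcast ℓ₀ hℓ₀ hpℓ.symm) A₀ hA₀ σ₀ hσ₀
  have hca : c = a := Subtype.ext (by rw [hc, ha])
  have hca' : c' = a' := Subtype.ext (by rw [hc', ha'])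
  rw [Fermat.Agent.S30.PowerSum.trace_eq_of_charpoly ρ.finrank_eq _ _ _ hcc,
    Fermat.Agent.S30.PowerSum.trace_eq_of_charpoly ρ'.finrank_eq _ _ _ hcc', hca, hca'] at ht
  exact Ideal.Quotient.eq.mp ht

/-- **(F1c) Strong multiplicity one at the good primes.** -/
theorem qCoeff_eq_of_forall {M M' : ℕ} {g : CuspForm (Gamma0 M) 2} {g' : CuspForm (Gamma0 M') 2}
    (hg : g.IsNormalizedEigenform) (hg' : g'.IsNormalizedEigenform) (S : Finset ℕ)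
    (h : ∀ ℓ : ℕ, ℓ.Prime → ℓ ∉ S → qCoeff g ℓ = qCoeff g' ℓ)
    (ℓ₀ : ℕ) (hℓ₀ : ℓ₀.Prime) (hM : ¬ ℓ₀ ∣ M) (hM' : ¬ ℓ₀ ∣ M') :
    qCoeff g ℓ₀ = qCoeff g' ℓ₀ := by
  haveI : NeZero M := ⟨fun h0 => hM (h0 ▸ dvd_zero _)⟩
  haveI : NeZero M' := ⟨fun h0 => hM' (h0 ▸ dvd_zero _)⟩
  have hint : IsIntegral ℤ (qCoeff g ℓ₀) := Fermat.Agent.S29.Betti.isIntegral_qCoeff hg hℓ₀ hM
  have hint' : IsIntegral ℤ (qCoeff g' ℓ₀) := Fermat.Agent.S29.Betti.isIntegral_qCoeff hg' hℓ₀ hM'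
  let a : Zb := ⟨qCoeff g ℓ₀, hint⟩
  let a' : Zb := ⟨qCoeff g' ℓ₀, hint'⟩
  have hd : a - a' = 0 :=
    eq_zero_of_forall_mem_maximal (a - a') ℓ₀ fun p hp hpℓ 𝔓 h𝔓 hp𝔓 =>
      sub_mem_of_maximal hg hg' S h ℓ₀ hℓ₀ hM hM' a a' rfl rfl p hp hpℓ 𝔓 h𝔓 hp𝔓
  exact congrArg Subtype.val (sub_eq_zero.mp hd)

end Fermat.Agent.S35.StrongMult
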