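import Mathlib
import Fermat.Agent.S35.EigenForm
import Fermat.Agent.S35.StrongMult
import Fermat.Prelude.Def_CuspForm_Newforms

/-!
# S35 (F1): the good eigensystem of a newform does not occur at a lower level

`eq_zero_of_isNewform`: if `g` is a newform of level `M` (prelude sense), `M' ∣ M`, `M' ≠ M`, and
`f ∈ S₂(Γ₀(M'))` is an eigenvector of the Hecke operators `T_ℓ` for all primes `ℓ ∤ M'` outside a
finite set `S`, with eigenvalues `a_ℓ(g)`, then `f = 0`.

Proof: otherwise `EigenForm.exists_normalizedEigenform` gives a normalised eigenform `g'` of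
level `M'` with `a_ℓ(g') = a_ℓ(g)` for `ℓ ∉ S`, `ℓ ∤ M'`; strong multiplicity one
(`StrongMult.qCoeff_eq_of_forall`) upgrades this to all primes `ℓ ∤ M`, which is
`GoodEigensystemOccursAt g M'`, excluded by newness.
-/

set_option autoImplicit false
set_option linter.unusedVariables false
set_option linter.style.haveILetI false

namespace Fermat.Agent.S35.NewNotOld

open CuspForm CongruenceSubgroup ModularFormClass

/-- The good eigensystem of `g` occurs at level `M'` as soon as some nonzero form of level `M'`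
is an eigenvector of the good Hecke operators outside a finite set with the eigenvalues of
`g`. -/
theorem goodEigensystemOccursAt_of_eigenvector {M : ℕ} {g : CuspForm (Gamma0 M) 2}
    (hg : g.IsNormalizedEigenform) {M' : ℕ} [NeZero M'] (hM' : M' ∣ M) (S : Finset ℕ)
    (f : CuspForm (Gamma0 M') 2) (hf : f ≠ 0)
    (heig : ∀ (ℓ : ℕ) (hℓ : ℓ.Prime) (hℓM' : ¬ ℓ ∣ M'), ℓ ∉ S →
      CuspForm.heckeTLin 2 hℓ hℓM' f = qCoeff g ℓ • f) :
    GoodEigensystemOccursAt g M' := by
  obtain ⟨g', hg', hg'eq⟩ := EigenForm.exists_normalizedEigenform (↑S : Set ℕ)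
    (fun ℓ => qCoeff g ℓ) f hf (fun ℓ hℓ hℓM' hℓS => heig ℓ hℓ hℓM' (fun h => hℓS (Finset.mem_coe.mpr h)))
  refine ⟨g', hg', fun ℓ hℓ hℓM => ?_⟩
  have hℓM' : ¬ ℓ ∣ M' := fun h => hℓM (h.trans hM')
  have hM'0 : M' ≠ 0 := NeZero.ne M'
  refine (StrongMult.qCoeff_eq_of_forall hg hg' (S ∪ M'.primeFactors) ?_ ℓ hℓ hℓM hℓM').symm
  intro ℓ' hℓ' hℓ'S
  rw [Finset.mem_union, not_or] at hℓ'S
  have hℓ'M' : ¬ ℓ' ∣ M' := fun h => hℓ'S.2 (Nat.mem_primeFactors.mpr ⟨hℓ', h, hM'0⟩)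
  exact (hg'eq ℓ' hℓ' hℓ'M' (fun h => hℓ'S.1 (Finset.mem_coe.mp h))).symm

/-- **(F1)** The good eigensystem of a newform does not occur at a proper divisor of the
level, even away from a finite set of primes. -/
theorem eq_zero_of_isNewform {M : ℕ} {g : CuspForm (Gamma0 M) 2} (hg : g.IsNewform)
    {M' : ℕ} [NeZero M'] (hM' : M' ∣ M) (hne : M' ≠ M) (S : Finset ℕ)
    (f : CuspForm (Gamma0 M') 2)
    (heig : ∀ (ℓ : ℕ) (hℓ : ℓ.Prime) (hℓM' : ¬ ℓ ∣ M'), ℓ ∉ S →
      CuspForm.heckeTLin 2 hℓ hℓM' f = qCoeff g ℓ • f) : f = 0 := by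
  by_contra hf
  exact hg.2 M' hM' hne (goodEigensystemOccursAt_of_eigenvector hg.1 hM' S f hf heig)

end Fermat.Agent.S35.NewNotOld
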