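import Mathlib
import Fermat.Agent.S35.NewNotOld
import Fermat.Agent.S30.Eigen
import Fermat.Agent.S23
import Fermat.Prelude.Def_CuspForm_HeckeLocal

/-!
# S35 (F1b): a Hecke polynomial separating a newform from a lower level

Let `g` be a newform of level `M` (prelude sense), `S` a finite set of primes containing the
primes dividing `M`, and `M' ∣ M`, `M' ≠ M`.  Then there is an integer polynomial `s` in the good
Hecke operators `T_ℓ` (`ℓ ∤ M`, `ℓ ∉ S`) which vanishes in the Hecke algebra of level `M'` and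
whose value on the eigensystem of `g` is nonzero (`exists_separator`, `exists_separator_chig`).

Proof.  Otherwise `T'_ℓ ↦ a_ℓ(g)` is a ring homomorphism `ψ` from the (anemic) Hecke algebra of
level `M'` to `ℂ`.  Every such ring homomorphism has a nonzero eigenvector in `S₂(Γ₀(M'))`
(`exists_eigenvector_of_ringHom`): the Hecke algebra acts faithfully on the lattice `Λ` of forms
with integral `q`-expansion (S23), so there is an eigenvector in `ℂ ⊗[ℤ] Λ` (`S30.Eigen`), and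
`ℂ ⊗[ℤ] Λ → S₂(Γ₀(M'))` is injective (`lift_injective`: `ℤ`-independent integral `q`-expansions
are `ℂ`-independent, by flatness and the Sturm bound).  Such an eigenvector contradicts newness
(`NewNotOld.eq_zero_of_isNewform`).
-/

set_option autoImplicit false
set_option linter.unusedVariables false
set_option linter.style.haveILetI false

open scoped TensorProduct

namespace Fermat.Agent.S35.CharOccurs

open CuspForm CongruenceSubgroup ModularFormClass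

section Lattice

variable (N : ℕ)

/-- Lattice forms have integral `q`-coefficients. -/
theorem exists_int_coeff (f : CuspForm (Gamma0 N) 2) (hf : f ∈ intLattice N 2) (n : ℕ) :
    ∃ m : ℤ, Fermat.Agent.S23.Final.coeffLin N 2 n f = (m : ℂ) := by
  unfold CuspForm.intLattice at hf
  induction hf using Submodule.span_induction with
  | mem x hx => exact hx n
  | zero => exact ⟨0, by simp⟩
  | add x y _ _ hx hy =>
    obtain ⟨a, ha⟩ := hx
    obtain ⟨b, hb⟩ := hy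
    exact ⟨a + b, by rw [map_add, ha, hb]; push_cast; ring⟩
  | smul c x _ hx =>
    obtain ⟨a, ha⟩ := hx
    exact ⟨c * a, by rw [map_zsmul, ha]; push_cast; simp⟩

/-- The `n`-th `q`-coefficient of a lattice form, as an integer. -/
noncomputable def cInt (f : ↥(intLattice N 2)) (n : ℕ) : ℤ :=
  (exists_int_coeff N f.1 f.2 n).choose

theorem cInt_spec (f : ↥(intLattice N 2)) (n : ℕ) :
    ((cInt N f n : ℤ) : ℂ) = Fermat.Agent.S23.Final.coeffLin N 2 n f.1 :=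
  (exists_int_coeff N f.1 f.2 n).choose_spec.symm

/-- The first `B + 1` integer coefficients of a lattice form, as a `ℤ`-linear map. -/
noncomputable def cLin (B : ℕ) : ↥(intLattice N 2) →ₗ[ℤ] (Fin (B + 1) → ℤ) where
  toFun f i := cInt N f i
  map_add' f g := by
    funext i
    apply Int.cast_injective (α := ℂ)
    rw [Pi.add_apply, Int.cast_add, cInt_spec, cInt_spec, cInt_spec]
    exact map_add _ _ _
  map_smul' c f := by
    funext i
    apply Int.cast_injective (α := ℂ)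
    rw [Pi.smul_apply, smul_eq_mul, Int.cast_mul, cInt_spec, cInt_spec, RingHom.id_apply]
    have h : ((c • f : ↥(intLattice N 2)) : CuspForm (Gamma0 N) 2) = c • (f : CuspForm (Gamma0 N) 2) :=
      rfl
    rw [h, map_zsmul, zsmul_eq_mul]

theorem cLin_apply (B : ℕ) (f : ↥(intLattice N 2)) (i : Fin (B + 1)) :
    cLin N B f i = cInt N f i := rfl

variable [NeZero N]

/-- The natural map `ℂ ⊗[ℤ] Λ → S₂(Γ₀(N))` (`Λ` the lattice of forms with integral
`q`-expansion) is injective. -/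
theorem lift_injective :
    Function.Injective (LinearMap.liftBaseChange ℂ (intLattice N 2).subtype) := by
  classical
  set B : ℕ := ((2 : ℤ) * (Gamma0 N).index).toNat / 12 with hB
  let T : CuspForm (Gamma0 N) 2 →ₗ[ℂ] (Fin (B + 1) → ℂ) :=
    LinearMap.pi fun i => Fermat.Agent.S23.Final.coeffLin N 2 i
  have hc : Function.Injective (cLin N B) := by
    rw [injective_iff_map_eq_zero]
    intro f hf
    apply Subtype.ext
    apply Fermat.Agent.S23.Final.eq_zero_of_coeffLin N 2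
    intro n hn
    have h1 := congrFun hf ⟨n, Nat.lt_succ_of_le hn⟩
    rw [cLin_apply] at h1
    rw [← cInt_spec, h1]
    simp
  have h1 : Function.Injective ((cLin N B).lTensor ℂ) :=
    Module.Flat.lTensor_preserves_injective_linearMap _ hc
  have hcomp : ∀ v : ℂ ⊗[ℤ] ↥(intLattice N 2),
      TensorProduct.piScalarRight ℤ ℂ ℂ (Fin (B + 1)) ((cLin N B).lTensor ℂ v) =
        T (LinearMap.liftBaseChange ℂ (intLattice N 2).subtype v) := by
    intro v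
    induction v using TensorProduct.induction_on with
    | zero => simp
    | tmul c x =>
      rw [LinearMap.lTensor_tmul, TensorProduct.piScalarRight_apply,
        TensorProduct.piScalarRightHom_tmul, LinearMap.liftBaseChange_tmul, map_smul]
      funext j
      rw [Pi.smul_apply, LinearMap.pi_apply, cLin_apply, Submodule.subtype_apply, ← cInt_spec,
        zsmul_eq_mul, smul_eq_mul, mul_comm]
    | add x y hx hy => rw [map_add, map_add, map_add, map_add, hx, hy]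
  intro v w hvw
  apply h1
  apply (TensorProduct.piScalarRight ℤ ℂ ℂ (Fin (B + 1))).injective
  rw [hcomp, hcomp, hvw]

/-- The natural map `ℂ ⊗[ℤ] Λ → S₂(Γ₀(N))` is Hecke equivariant. -/
theorem lift_baseChange (S : Set ℕ) (t : heckeAlgebra N 2 S) (v : ℂ ⊗[ℤ] ↥(intLattice N 2)) :
    LinearMap.liftBaseChange ℂ (intLattice N 2).subtype
        ((latticeActionHom N S t).baseChange ℂ v) =
      (t : Module.End ℂ (CuspForm (Gamma0 N) 2))
        (LinearMap.liftBaseChange ℂ (intLattice N 2).subtype v) := by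
  induction v using TensorProduct.induction_on with
  | zero => simp
  | tmul c x =>
    rw [LinearMap.baseChange_tmul, LinearMap.liftBaseChange_tmul, LinearMap.liftBaseChange_tmul,
      map_smul]
    rfl
  | add x y hx hy => simp only [map_add, hx, hy]

/-- **Every ring homomorphism from a Hecke algebra of weight two and level `N` to `ℂ` occurs in
`S₂(Γ₀(N))`**: it is the eigencharacter of a nonzero cusp form. -/
theorem exists_eigenvector_of_ringHom (S : Set ℕ) (ψ : heckeAlgebra N 2 S →+* ℂ) :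
    ∃ f : CuspForm (Gamma0 N) 2, f ≠ 0 ∧ ∀ t : heckeAlgebra N 2 S,
      (t : Module.End ℂ (CuspForm (Gamma0 N) 2)) f = ψ t • f := by
  haveI := intLattice.moduleFinite N
  haveI := intLattice.moduleFree N
  obtain ⟨v, hv0, hv⟩ := Fermat.Agent.S30.Eigen.exists_eigenvector (latticeActionHom N S)
    (latticeActionHom_injective N S (Fermat.Agent.S23.result N)) ψ
  refine ⟨LinearMap.liftBaseChange ℂ (intLattice N 2).subtype v,
    fun h => hv0 (lift_injective N (h.trans (map_zero _).symm)), fun t => ?_⟩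
  rw [← lift_baseChange, hv t, map_smul]

end Lattice

section Separator

variable {M : ℕ}

/-- If all primes dividing `M` lie in `S` and `M' ∣ M`, the Hecke algebra of level `M'` away
from `S` is generated by the `T_ℓ`, `ℓ ∤ M`, `ℓ ∉ S`. -/
theorem aeval_surjective (S : Finset ℕ) (hMS : ∀ q : ℕ, q.Prime → q ∣ M → q ∈ S)
    {M' : ℕ} [NeZero M'] (hM' : M' ∣ M) :
    Function.Surjective (MvPolynomial.aeval
      (fun ℓ : {ℓ : Nat.Primes // ¬ (ℓ : ℕ) ∣ M ∧ (ℓ : ℕ) ∉ (↑S : Set ℕ)} =>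
        (heckeAlgebra.T ℓ.1.2 (fun h => ℓ.2.1 (h.trans hM')) ℓ.2.2 :
          heckeAlgebra M' 2 (↑S : Set ℕ))) :
      MvPolynomial {ℓ : Nat.Primes // ¬ (ℓ : ℕ) ∣ M ∧ (ℓ : ℕ) ∉ (↑S : Set ℕ)} ℤ →
        heckeAlgebra M' 2 (↑S : Set ℕ)) := by
  rintro ⟨t, ht⟩
  unfold CuspForm.heckeAlgebra at ht
  induction ht using Algebra.adjoin_induction with
  | mem x hx =>
    rcases hx with ⟨ℓ, hℓ, hℓN, hℓS, rfl⟩ | ⟨q, hqN, hq, hqS, rfl⟩
    · have hℓM : ¬ ℓ ∣ M := fun h => hℓS (Finset.mem_coe.mpr (hMS ℓ hℓ h))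
      refine ⟨MvPolynomial.X ⟨⟨ℓ, hℓ⟩, hℓM, hℓS⟩, ?_⟩
      rw [MvPolynomial.aeval_X]
      rfl
    · exact absurd (Finset.mem_coe.mpr (hMS q hq (hqN.trans hM'))) hqS
  | algebraMap r =>
    refine ⟨MvPolynomial.C r, ?_⟩
    rw [MvPolynomial.aeval_C]
    rfl
  | add x y hx hy ihx ihy =>
    obtain ⟨a, ha⟩ := ihx
    obtain ⟨b, hb⟩ := ihy
    refine ⟨a + b, ?_⟩
    rw [map_add, ha, hb]
    rfl
  | mul x y hx hy ihx ihy =>
    obtain ⟨a, ha⟩ := ihx
    obtain ⟨b, hb⟩ := ihy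
    refine ⟨a * b, ?_⟩
    rw [map_mul, ha, hb]
    rfl

/-- **(F1b), eigenvalue form.**  For a newform `g` of level `M` and a proper divisor `M'` of
`M` there is an integer polynomial `s` in the good Hecke operators away from `S` which vanishes
in the Hecke algebra of level `M'` but not on the eigensystem of `g`. -/
theorem exists_separator {g : CuspForm (Gamma0 M) 2} (hg : g.IsNewform)
    (S : Finset ℕ) (hMS : ∀ q : ℕ, q.Prime → q ∣ M → q ∈ S)
    {M' : ℕ} [NeZero M'] (hM' : M' ∣ M) (hne : M' ≠ M) :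
    ∃ s : MvPolynomial {ℓ : Nat.Primes // ¬ (ℓ : ℕ) ∣ M ∧ (ℓ : ℕ) ∉ (↑S : Set ℕ)} ℤ,
      MvPolynomial.aeval
        (fun ℓ : {ℓ : Nat.Primes // ¬ (ℓ : ℕ) ∣ M ∧ (ℓ : ℕ) ∉ (↑S : Set ℕ)} =>
          (heckeAlgebra.T ℓ.1.2 (fun h => ℓ.2.1 (h.trans hM')) ℓ.2.2 :
            heckeAlgebra M' 2 (↑S : Set ℕ))) s = 0 ∧
      MvPolynomial.aeval
        (fun ℓ : {ℓ : Nat.Primes // ¬ (ℓ : ℕ) ∣ M ∧ (ℓ : ℕ) ∉ (↑S : Set ℕ)} =>
          qCoeff g (ℓ.1 : ℕ)) s ≠ 0 := by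
  classical
  by_contra hcon
  push Not at hcon
  have hsurj := aeval_surjective (M := M) S hMS hM'
  set T' : {ℓ : Nat.Primes // ¬ (ℓ : ℕ) ∣ M ∧ (ℓ : ℕ) ∉ (↑S : Set ℕ)} →
      heckeAlgebra M' 2 (↑S : Set ℕ) :=
    fun ℓ => heckeAlgebra.T ℓ.1.2 (fun h => ℓ.2.1 (h.trans hM')) ℓ.2.2 with hT'
  set a : {ℓ : Nat.Primes // ¬ (ℓ : ℕ) ∣ M ∧ (ℓ : ℕ) ∉ (↑S : Set ℕ)} → ℂ :=
    fun ℓ => qCoeff g (ℓ.1 : ℕ) with ha
  let φ : MvPolynomial {ℓ : Nat.Primes // ¬ (ℓ : ℕ) ∣ M ∧ (ℓ : ℕ) ∉ (↑S : Set ℕ)} ℤ →+*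
      heckeAlgebra M' 2 (↑S : Set ℕ) := (MvPolynomial.aeval T').toRingHom
  let γ : MvPolynomial {ℓ : Nat.Primes // ¬ (ℓ : ℕ) ∣ M ∧ (ℓ : ℕ) ∉ (↑S : Set ℕ)} ℤ →+* ℂ :=
    (MvPolynomial.aeval a).toRingHom
  have hφ : Function.Surjective φ := hsurj
  have hker : RingHom.ker φ ≤ RingHom.ker γ := fun s hs =>
    RingHom.mem_ker.mpr (hcon s (RingHom.mem_ker.mp hs))
  let ψ : heckeAlgebra M' 2 (↑S : Set ℕ) →+* ℂ :=
    φ.liftOfRightInverse (Function.surjInv hφ) (Function.rightInverse_surjInv hφ) ⟨γ, hker⟩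
  have hψ : ∀ s, ψ (φ s) = γ s := fun s =>
    RingHom.liftOfRightInverse_comp_apply φ _ _ ⟨γ, hker⟩ s
  obtain ⟨f, hf0, hf⟩ := exists_eigenvector_of_ringHom M' (↑S : Set ℕ) ψ
  apply hf0
  apply NewNotOld.eq_zero_of_isNewform hg hM' hne S f
  intro ℓ hℓ hℓM' hℓS
  have hℓS' : ℓ ∉ (↑S : Set ℕ) := fun h => hℓS (Finset.mem_coe.mp h)
  have hℓM : ¬ ℓ ∣ M := fun h => hℓS (hMS ℓ hℓ h)
  have h1 := hf (T' ⟨⟨ℓ, hℓ⟩, hℓM, hℓS'⟩)
  have h2 := hψ (MvPolynomial.X ⟨⟨ℓ, hℓ⟩, hℓM, hℓS'⟩)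
  have h3 : φ (MvPolynomial.X ⟨⟨ℓ, hℓ⟩, hℓM, hℓS'⟩) = T' ⟨⟨ℓ, hℓ⟩, hℓM, hℓS'⟩ :=
    MvPolynomial.aeval_X _ _
  have h4 : γ (MvPolynomial.X ⟨⟨ℓ, hℓ⟩, hℓM, hℓS'⟩) = qCoeff g ℓ :=
    MvPolynomial.aeval_X _ _
  rw [h3, h4] at h2
  rw [h2] at h1
  exact h1

/-- **(F1b), character form** (the shape of the S35 ledger): for a newform `g` of level `M`
with eigencharacter `chig` on the Hecke algebra away from `S ⊇ {primes dividing M}`, and a
proper divisor `M'` of `M`, there is an integer polynomial `s` in the `T_ℓ` (`ℓ ∤ M`, `ℓ ∉ S`)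
whose value in the Hecke algebra of level `M'` is zero and whose value at level `M` is not
killed by `chig`. -/
theorem exists_separator_chig [NeZero M] {g : CuspForm (Gamma0 M) 2} (hg : g.IsNewform)
    (S : Finset ℕ) (hMS : ∀ q : ℕ, q.Prime → q ∣ M → q ∈ S)
    (chig : CuspForm.heckeAlgebra M 2 (↑S : Set ℕ) →+* ℂ)
    (hchig : ∀ (ℓ : ℕ) (hℓ : ℓ.Prime) (hℓM : ¬ ℓ ∣ M) (hℓS : ℓ ∉ (↑S : Set ℕ)),
      chig (CuspForm.heckeAlgebra.T hℓ hℓM hℓS) = ModularFormClass.qCoeff g ℓ)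
    {M' : ℕ} [NeZero M'] (hM' : M' ∣ M) (hne : M' ≠ M) :
    ∃ s : MvPolynomial {ℓ : Nat.Primes // ¬ (ℓ : ℕ) ∣ M ∧ (ℓ : ℕ) ∉ (↑S : Set ℕ)} ℤ,
      MvPolynomial.aeval
        (fun ℓ : {ℓ : Nat.Primes // ¬ (ℓ : ℕ) ∣ M ∧ (ℓ : ℕ) ∉ (↑S : Set ℕ)} =>
          (heckeAlgebra.T ℓ.1.2 (fun h => ℓ.2.1 (h.trans hM')) ℓ.2.2 :
            heckeAlgebra M' 2 (↑S : Set ℕ))) s = 0 ∧
      chig (MvPolynomial.aeval
        (fun ℓ : {ℓ : Nat.Primes // ¬ (ℓ : ℕ) ∣ M ∧ (ℓ : ℕ) ∉ (↑S : Set ℕ)} =>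
          (heckeAlgebra.T ℓ.1.2 ℓ.2.1 ℓ.2.2 : heckeAlgebra M 2 (↑S : Set ℕ))) s) ≠ 0 := by
  obtain ⟨s, hs0, hs⟩ := exists_separator hg S hMS hM' hne
  refine ⟨s, hs0, ?_⟩
  have h := DFunLike.congr_fun (MvPolynomial.comp_aeval
    (fun ℓ : {ℓ : Nat.Primes // ¬ (ℓ : ℕ) ∣ M ∧ (ℓ : ℕ) ∉ (↑S : Set ℕ)} =>
      (heckeAlgebra.T ℓ.1.2 ℓ.2.1 ℓ.2.2 : heckeAlgebra M 2 (↑S : Set ℕ))) chig.toIntAlgHom) s
  have h' : chig (MvPolynomial.aeval
      (fun ℓ : {ℓ : Nat.Primes // ¬ (ℓ : ℕ) ∣ M ∧ (ℓ : ℕ) ∉ (↑S : Set ℕ)} =>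
        (heckeAlgebra.T ℓ.1.2 ℓ.2.1 ℓ.2.2 : heckeAlgebra M 2 (↑S : Set ℕ))) s) =
      MvPolynomial.aeval
        (fun ℓ : {ℓ : Nat.Primes // ¬ (ℓ : ℕ) ∣ M ∧ (ℓ : ℕ) ∉ (↑S : Set ℕ)} =>
          qCoeff g (ℓ.1 : ℕ)) s := by
    refine h.trans ?_
    congr 2
    funext ℓ
    exact hchig ℓ.1 ℓ.1.2 ℓ.2.1 ℓ.2.2
  rw [h']
  exact hs

end Separator

end Fermat.Agent.S35.CharOccurs
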