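import Mathlib
import Fermat.Agent.S35.CharOccurs
import Fermat.Agent.S22

/-!
# S35 (F1b): the separator of a newform from a lower level, in the shapes of the ledgers

`CharOccurs.exists_separator_chig` gives, for a newform `g` of level `M` with eigencharacter
`chig` and a proper divisor `M'` of `M`, an integer polynomial in the good Hecke operators
(indexed by `{ℓ : Nat.Primes // ¬ ℓ ∣ M ∧ ℓ ∉ S}`) vanishing at level `M'` and not killed by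
`chig`.  This file restates it

* for an arbitrary index type mapping onto the good primes (`exists_mvPolynomial`,
  `exists_freeAlgebra`), as a commutative and as a noncommutative polynomial;
* in the free-algebra shape over `{l : Nat.Primes // (l : ℕ) ∉ S}` (`exists_separator_free`);
* in the shape `iota (chig.rangeRestrict (aeval T P)) ≠ 0` over `{ℓ : ℕ // ℓ.Prime ∧ ℓ ∉ S}`
  for any ring homomorphism `iota` from the image of `chig` to a domain of characteristic zero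
  (`exists_separator_iota`; `iota` is automatically injective, `injective_iota`).
-/

set_option autoImplicit false
set_option linter.unusedVariables false
set_option linter.style.haveILetI false

namespace Fermat.Agent.S35.Separator

open CuspForm CongruenceSubgroup ModularFormClass

section Generic

/-- Every commutative polynomial is the image of a noncommutative one. -/
theorem exists_free_lift {ι : Type*} (P : MvPolynomial ι ℤ) :
    ∃ s : FreeAlgebra ℤ ι,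
      FreeAlgebra.lift ℤ (fun i : ι => (MvPolynomial.X i : MvPolynomial ι ℤ)) s = P := by
  induction P using MvPolynomial.induction_on with
  | C a => exact ⟨algebraMap ℤ _ a, by rw [AlgHom.commutes]; rfl⟩
  | add p q hp hq =>
    obtain ⟨a, rfl⟩ := hp
    obtain ⟨b, rfl⟩ := hq
    exact ⟨a + b, map_add _ _ _⟩
  | mul_X p i hp =>
    obtain ⟨a, rfl⟩ := hp
    exact ⟨a * FreeAlgebra.ι ℤ i, by rw [map_mul, FreeAlgebra.lift_ι_apply]⟩

/-- Evaluation of a noncommutative polynomial in a commutative ring factors through the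
commutative polynomial ring. -/
theorem lift_eq_aeval {ι : Type*} {A : Type*} [CommRing A] (f : ι → A) (s : FreeAlgebra ℤ ι) :
    FreeAlgebra.lift ℤ f s =
      MvPolynomial.aeval f
        (FreeAlgebra.lift ℤ (fun i : ι => (MvPolynomial.X i : MvPolynomial ι ℤ)) s) := by
  have h : FreeAlgebra.lift ℤ f =
      (MvPolynomial.aeval f).comp
        (FreeAlgebra.lift ℤ (fun i : ι => (MvPolynomial.X i : MvPolynomial ι ℤ))) := by
    apply FreeAlgebra.hom_ext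
    funext i
    simp
  rw [h]
  rfl

/-- A ring homomorphism from the image of a character of a ring that is finite over `ℤ` to a
domain of characteristic zero is injective. -/
theorem injective_iota {R : Type*} [CommRing R] [Module.Finite ℤ R] (chi : R →+* ℂ)
    {O : Type*} [CommRing O] [IsDomain O] [CharZero O] (iota : chi.range →+* O) :
    Function.Injective iota := by
  have hint : Algebra.IsIntegral ℤ chi.range := by
    refine ⟨fun y => ?_⟩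
    obtain ⟨x, hx⟩ := chi.rangeRestrict_surjective y
    have hxi : IsIntegral ℤ x := Algebra.IsIntegral.isIntegral x
    rw [← hx]
    exact hxi.map (chi.rangeRestrict.toIntAlgHom)
  have hker : (RingHom.ker iota).comap (algebraMap ℤ chi.range) = ⊥ := by
    rw [eq_bot_iff]
    intro n hn
    rw [Ideal.mem_comap, RingHom.mem_ker, eq_intCast, map_intCast] at hn
    rw [Ideal.mem_bot]
    exact_mod_cast hn
  have hbot : RingHom.ker iota = ⊥ := Ideal.eq_bot_of_comap_eq_bot hker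
  exact (RingHom.injective_iff_ker_eq_bot iota).mpr hbot

end Generic

section Separator

variable {M : ℕ} [NeZero M]

/-- **(F1b), index-generic, commutative form.** -/
theorem exists_mvPolynomial {g : CuspForm (Gamma0 M) 2} (hg : g.IsNewform)
    (S : Finset ℕ) (hMS : ∀ q : ℕ, q.Prime → q ∣ M → q ∈ S)
    (chig : CuspForm.heckeAlgebra M 2 (↑S : Set ℕ) →+* ℂ)
    (hchig : ∀ (ℓ : ℕ) (hℓ : ℓ.Prime) (hℓM : ¬ ℓ ∣ M) (hℓS : ℓ ∉ (↑S : Set ℕ)),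
      chig (CuspForm.heckeAlgebra.T hℓ hℓM hℓS) = ModularFormClass.qCoeff g ℓ)
    {M' : ℕ} [NeZero M'] (hM' : M' ∣ M) (hne : M' ≠ M) {ι : Type*}
    (e : ι → {ℓ : Nat.Primes // ¬ (ℓ : ℕ) ∣ M ∧ (ℓ : ℕ) ∉ (↑S : Set ℕ)})
    (he : Function.Surjective e) :
    ∃ P : MvPolynomial ι ℤ,
      MvPolynomial.aeval (fun i : ι =>
        (heckeAlgebra.T (e i).1.2 (fun h => (e i).2.1 (h.trans hM')) (e i).2.2 :
          heckeAlgebra M' 2 (↑S : Set ℕ))) P = 0 ∧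
      chig (MvPolynomial.aeval (fun i : ι =>
        (heckeAlgebra.T (e i).1.2 (e i).2.1 (e i).2.2 : heckeAlgebra M 2 (↑S : Set ℕ))) P) ≠ 0 := by
  obtain ⟨s, hs0, hs⟩ := CharOccurs.exists_separator_chig hg S hMS chig hchig hM' hne
  refine ⟨MvPolynomial.rename (Function.surjInv he) s, ?_, ?_⟩
  · rw [MvPolynomial.aeval_rename]
    have hfun : (fun i : ι =>
        (heckeAlgebra.T (e i).1.2 (fun h => (e i).2.1 (h.trans hM')) (e i).2.2 :
          heckeAlgebra M' 2 (↑S : Set ℕ))) ∘ Function.surjInv he =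
        fun ℓ : {ℓ : Nat.Primes // ¬ (ℓ : ℕ) ∣ M ∧ (ℓ : ℕ) ∉ (↑S : Set ℕ)} =>
          (heckeAlgebra.T ℓ.1.2 (fun h => ℓ.2.1 (h.trans hM')) ℓ.2.2 :
            heckeAlgebra M' 2 (↑S : Set ℕ)) := by
      funext ℓ
      exact congrArg (fun ℓ : {ℓ : Nat.Primes // ¬ (ℓ : ℕ) ∣ M ∧ (ℓ : ℕ) ∉ (↑S : Set ℕ)} =>
        (heckeAlgebra.T ℓ.1.2 (fun h => ℓ.2.1 (h.trans hM')) ℓ.2.2 :
          heckeAlgebra M' 2 (↑S : Set ℕ))) (Function.surjInv_eq he ℓ)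
    rw [hfun]
    exact hs0
  · rw [MvPolynomial.aeval_rename]
    have hfun : (fun i : ι =>
        (heckeAlgebra.T (e i).1.2 (e i).2.1 (e i).2.2 : heckeAlgebra M 2 (↑S : Set ℕ))) ∘
          Function.surjInv he =
        fun ℓ : {ℓ : Nat.Primes // ¬ (ℓ : ℕ) ∣ M ∧ (ℓ : ℕ) ∉ (↑S : Set ℕ)} =>
          (heckeAlgebra.T ℓ.1.2 ℓ.2.1 ℓ.2.2 : heckeAlgebra M 2 (↑S : Set ℕ)) := by
      funext ℓ
      exact congrArg (fun ℓ : {ℓ : Nat.Primes // ¬ (ℓ : ℕ) ∣ M ∧ (ℓ : ℕ) ∉ (↑S : Set ℕ)} =>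
        (heckeAlgebra.T ℓ.1.2 ℓ.2.1 ℓ.2.2 : heckeAlgebra M 2 (↑S : Set ℕ)))
        (Function.surjInv_eq he ℓ)
    rw [hfun]
    exact hs

/-- **(F1b), index-generic, free-algebra form.** -/
theorem exists_freeAlgebra {g : CuspForm (Gamma0 M) 2} (hg : g.IsNewform)
    (S : Finset ℕ) (hMS : ∀ q : ℕ, q.Prime → q ∣ M → q ∈ S)
    (chig : CuspForm.heckeAlgebra M 2 (↑S : Set ℕ) →+* ℂ)
    (hchig : ∀ (ℓ : ℕ) (hℓ : ℓ.Prime) (hℓM : ¬ ℓ ∣ M) (hℓS : ℓ ∉ (↑S : Set ℕ)),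
      chig (CuspForm.heckeAlgebra.T hℓ hℓM hℓS) = ModularFormClass.qCoeff g ℓ)
    {M' : ℕ} [NeZero M'] (hM' : M' ∣ M) (hne : M' ≠ M) {ι : Type*}
    (e : ι → {ℓ : Nat.Primes // ¬ (ℓ : ℕ) ∣ M ∧ (ℓ : ℕ) ∉ (↑S : Set ℕ)})
    (he : Function.Surjective e) :
    ∃ s : FreeAlgebra ℤ ι,
      FreeAlgebra.lift ℤ (fun i : ι =>
        (heckeAlgebra.T (e i).1.2 (fun h => (e i).2.1 (h.trans hM')) (e i).2.2 :
          heckeAlgebra M' 2 (↑S : Set ℕ))) s = 0 ∧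
      chig (FreeAlgebra.lift ℤ (fun i : ι =>
        (heckeAlgebra.T (e i).1.2 (e i).2.1 (e i).2.2 : heckeAlgebra M 2 (↑S : Set ℕ))) s) ≠ 0 := by
  obtain ⟨P, hP0, hP⟩ := exists_mvPolynomial hg S hMS chig hchig hM' hne e he
  obtain ⟨s, rfl⟩ := exists_free_lift P
  refine ⟨s, ?_, ?_⟩
  · rw [lift_eq_aeval]
    exact hP0
  · rw [lift_eq_aeval]
    exact hP

/-- **(F1b), free-algebra shape of the S35 ledger v2**: noncommutative polynomials in the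
`T_l`, `l ∉ S`. -/
theorem exists_separator_free {g : CuspForm (Gamma0 M) 2} (hg : g.IsNewform)
    (S : Finset ℕ) (hMS : ∀ q : ℕ, q.Prime → q ∣ M → q ∈ S)
    (chig : CuspForm.heckeAlgebra M 2 (↑S : Set ℕ) →+* ℂ)
    (hchig : ∀ (ℓ : ℕ) (hℓ : ℓ.Prime) (hℓM : ¬ ℓ ∣ M) (hℓS : ℓ ∉ (↑S : Set ℕ)),
      chig (CuspForm.heckeAlgebra.T hℓ hℓM hℓS) = ModularFormClass.qCoeff g ℓ)
    {M' : ℕ} [NeZero M'] (hM' : M' ∣ M) (hne : M' ≠ M) :
    ∃ s : FreeAlgebra ℤ {l : Nat.Primes // (l : ℕ) ∉ S},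
      FreeAlgebra.lift ℤ (fun l : {l : Nat.Primes // (l : ℕ) ∉ S} =>
        (heckeAlgebra.T l.1.2 (fun h => l.2 (hMS l.1 l.1.2 (h.trans hM')))
          (fun h => l.2 (Finset.mem_coe.mp h)) : heckeAlgebra M' 2 (↑S : Set ℕ))) s = 0 ∧
      chig (FreeAlgebra.lift ℤ (fun l : {l : Nat.Primes // (l : ℕ) ∉ S} =>
        (heckeAlgebra.T l.1.2 (fun h => l.2 (hMS l.1 l.1.2 h))
          (fun h => l.2 (Finset.mem_coe.mp h)) : heckeAlgebra M 2 (↑S : Set ℕ))) s) ≠ 0 := by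
  have he : Function.Surjective (fun l : {l : Nat.Primes // (l : ℕ) ∉ S} =>
      (⟨l.1, fun h => l.2 (hMS l.1 l.1.2 h), fun h => l.2 (Finset.mem_coe.mp h)⟩ :
        {ℓ : Nat.Primes // ¬ (ℓ : ℕ) ∣ M ∧ (ℓ : ℕ) ∉ (↑S : Set ℕ)})) := by
    rintro ⟨ℓ, hℓM, hℓS⟩
    exact ⟨⟨ℓ, fun h => hℓS (Finset.mem_coe.mpr h)⟩, rfl⟩
  obtain ⟨s, hs0, hs⟩ := exists_freeAlgebra hg S hMS chig hchig hM' hne _ he
  exact ⟨s, hs0, hs⟩

/-- **(F1b), commutative shape over `{l : Nat.Primes // (l : ℕ) ∉ S}`.** -/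
theorem exists_separator_primes {g : CuspForm (Gamma0 M) 2} (hg : g.IsNewform)
    (S : Finset ℕ) (hMS : ∀ q : ℕ, q.Prime → q ∣ M → q ∈ S)
    (chig : CuspForm.heckeAlgebra M 2 (↑S : Set ℕ) →+* ℂ)
    (hchig : ∀ (ℓ : ℕ) (hℓ : ℓ.Prime) (hℓM : ¬ ℓ ∣ M) (hℓS : ℓ ∉ (↑S : Set ℕ)),
      chig (CuspForm.heckeAlgebra.T hℓ hℓM hℓS) = ModularFormClass.qCoeff g ℓ)
    {M' : ℕ} [NeZero M'] (hM' : M' ∣ M) (hne : M' ≠ M) :
    ∃ P : MvPolynomial {l : Nat.Primes // (l : ℕ) ∉ S} ℤ,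
      MvPolynomial.aeval (fun l : {l : Nat.Primes // (l : ℕ) ∉ S} =>
        (heckeAlgebra.T l.1.2 (fun h => l.2 (hMS l.1 l.1.2 (h.trans hM')))
          (fun h => l.2 (Finset.mem_coe.mp h)) : heckeAlgebra M' 2 (↑S : Set ℕ))) P = 0 ∧
      chig (MvPolynomial.aeval (fun l : {l : Nat.Primes // (l : ℕ) ∉ S} =>
        (heckeAlgebra.T l.1.2 (fun h => l.2 (hMS l.1 l.1.2 h))
          (fun h => l.2 (Finset.mem_coe.mp h)) : heckeAlgebra M 2 (↑S : Set ℕ))) P) ≠ 0 := by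
  have he : Function.Surjective (fun l : {l : Nat.Primes // (l : ℕ) ∉ S} =>
      (⟨l.1, fun h => l.2 (hMS l.1 l.1.2 h), fun h => l.2 (Finset.mem_coe.mp h)⟩ :
        {ℓ : Nat.Primes // ¬ (ℓ : ℕ) ∣ M ∧ (ℓ : ℕ) ∉ (↑S : Set ℕ)})) := by
    rintro ⟨ℓ, hℓM, hℓS⟩
    exact ⟨⟨ℓ, fun h => hℓS (Finset.mem_coe.mpr h)⟩, rfl⟩
  obtain ⟨P, hP0, hP⟩ := exists_mvPolynomial hg S hMS chig hchig hM' hne _ he
  exact ⟨P, hP0, hP⟩

/-- **(F1b)/(SEP), shape of the S35-F ledger**: commutative polynomials in the `T_ℓ` indexed by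
`{ℓ : ℕ // ℓ.Prime ∧ ℓ ∉ S}`, separation after any `iota : chig.range →+* O'` into a domain of
characteristic zero. -/
theorem exists_separator_iota {g : CuspForm (Gamma0 M) 2} (hg : g.IsNewform)
    (S : Finset ℕ) (hMS : ∀ q : ℕ, q.Prime → q ∣ M → q ∈ S)
    (chig : CuspForm.heckeAlgebra M 2 (↑S : Set ℕ) →+* ℂ)
    (hchig : ∀ (ℓ : ℕ) (hℓ : ℓ.Prime) (hℓM : ¬ ℓ ∣ M) (hℓS : ℓ ∉ (↑S : Set ℕ)),
      chig (CuspForm.heckeAlgebra.T hℓ hℓM hℓS) = ModularFormClass.qCoeff g ℓ)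
    {O' : Type*} [CommRing O'] [IsDomain O'] [CharZero O'] (iota : chig.range →+* O')
    {M' : ℕ} [NeZero M'] (hM' : M' ∣ M) (hne : M' ≠ M) :
    ∃ P : MvPolynomial {ℓ : ℕ // ℓ.Prime ∧ ℓ ∉ S} ℤ,
      MvPolynomial.aeval (fun ℓ : {ℓ : ℕ // ℓ.Prime ∧ ℓ ∉ S} =>
        (heckeAlgebra.T ℓ.2.1 (fun h => ℓ.2.2 (hMS ℓ.1 ℓ.2.1 (h.trans hM')))
          (fun h => ℓ.2.2 (Finset.mem_coe.mp h)) : heckeAlgebra M' 2 (↑S : Set ℕ))) P = 0 ∧
      iota (chig.rangeRestrict (MvPolynomial.aeval (fun ℓ : {ℓ : ℕ // ℓ.Prime ∧ ℓ ∉ S} =>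
        (heckeAlgebra.T ℓ.2.1 (fun h => ℓ.2.2 (hMS ℓ.1 ℓ.2.1 h))
          (fun h => ℓ.2.2 (Finset.mem_coe.mp h)) : heckeAlgebra M 2 (↑S : Set ℕ))) P)) ≠ 0 := by
  have he : Function.Surjective (fun ℓ : {ℓ : ℕ // ℓ.Prime ∧ ℓ ∉ S} =>
      (⟨⟨ℓ.1, ℓ.2.1⟩, fun h => ℓ.2.2 (hMS ℓ.1 ℓ.2.1 h), fun h => ℓ.2.2 (Finset.mem_coe.mp h)⟩ :
        {ℓ : Nat.Primes // ¬ (ℓ : ℕ) ∣ M ∧ (ℓ : ℕ) ∉ (↑S : Set ℕ)})) := by
    rintro ⟨⟨ℓ, hℓ⟩, hℓM, hℓS⟩
    exact ⟨⟨ℓ, hℓ, fun h => hℓS (Finset.mem_coe.mpr h)⟩, rfl⟩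
  obtain ⟨P, hP0, hP⟩ := exists_mvPolynomial hg S hMS chig hchig hM' hne _ he
  refine ⟨P, hP0, fun h0 => hP ?_⟩
  haveI : Module.Finite ℤ (CuspForm.heckeAlgebra M 2 (↑S : Set ℕ)) :=
    Fermat.Agent.S22.result M 2 (↑S : Set ℕ)
  have h1 := injective_iota chig iota (h0.trans (map_zero iota).symm)
  exact congrArg Subtype.val h1

end Separator

end Fermat.Agent.S35.Separator
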