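import Mathlib
import Fermat.Agent.S30.Defs
import Fermat.Agent.Common.Frobenius
import Fermat.Agent.S35.Separator

/-!
# S35 (GT) + (ht): the Galois trick and the vanishing of a separator on the old part

Abstract statements in the `GeomInput` currency of S30.

* `map_T` (**Galois trick**): a Galois-equivariant additive map `a : I.X → I'.X` between the
  Galois modules of two geometric inputs (levels `N`, `N'`) commutes with the Hecke operator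
  `T_ℓ` (`ℓ ∤ N`, `ℓ ∤ N'`, `ℓ ≠ p`) on `p`-power torsion: both sides satisfy the
  Eichler–Shimura relation for a Frobenius lift `s` at `ℓ`, so
  `T_ℓ x = s • x + ℓ • s⁻¹ • x` at both levels.
* `map_theta_hecke_aeval`: if `c • a (θ_n v) = θ'_n v'` then
  `c • a (θ_n (P(T) v)) = θ'_n (P(T') v')` for every polynomial `P` in matching families of good
  Hecke operators of the two levels.
* `map_theta_hecke_eq_zero` (**(ht)**): if every `p`-power torsion point of `I'.X` is, up to the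
  constant `c`, in the image of the Kummer map `θ'` (KS), and the polynomial `s` vanishes in the
  Hecke algebra of level `N'`, then `a` kills `θ_n ((c • s(T)) v)` for all `n`, `v`.
  (`map_theta_hecke_eq_zero_free`: the same for a noncommutative polynomial.)
-/

set_option autoImplicit false
set_option linter.unusedVariables false
set_option linter.style.haveILetI false

namespace Fermat.Agent.S35.GT

open Fermat.Agent.S30 CuspForm

section GaloisTrick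

variable {p N N' : ℕ} [NeZero N] [NeZero N'] {S : Finset ℕ}

/-- The Galois action preserves `p ^ n`-torsion. -/
theorem smul_tors (I : GeomInput p N S) (σ : GQ) {m : ℕ} {x : I.X} (hx : m • x = 0) :
    m • (σ • x) = 0 := by
  have h := map_nsmul (DistribSMul.toAddMonoidHom I.X σ) m x
  rw [DistribSMul.toAddMonoidHom_apply, DistribSMul.toAddMonoidHom_apply] at h
  rw [← h, hx, smul_zero]

/-- Eichler–Shimura in solved form: `T_ℓ x = s • x + ℓ • s⁻¹ • x` on `p`-power torsion. -/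
theorem T_eq_frob (I : GeomInput p N S) (ℓ : ℕ) (hℓ : ℓ.Prime) (hℓN : ¬ ℓ ∣ N) (hℓp : ℓ ≠ p)
    (A : ValuationSubring Qb) (hA : A.LiesOverPrime ℓ) (s : GQ) (hs : A.IsFrobeniusAt s ℓ)
    (n : ℕ) (x : I.X) (hx : p ^ n • x = 0) :
    I.T ⟨ℓ, hℓ⟩ x = s • x + ℓ • (s⁻¹ • x) := by
  have hy : p ^ n • (s⁻¹ • x) = 0 := smul_tors I s⁻¹ hx
  have h := I.frob ℓ hℓ hℓN hℓp A hA s hs n (s⁻¹ • x) hy
  rw [smul_inv_smul] at h
  have h2 : I.T ⟨ℓ, hℓ⟩ x = s • x + ℓ • (s⁻¹ • x) - (s • x - I.T ⟨ℓ, hℓ⟩ x + ℓ • (s⁻¹ • x)) := by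
    abel
  rw [h2, h, sub_zero]

/-- **(GT), the Galois trick.**  A Galois-equivariant additive map between the Galois modules
of two geometric inputs commutes with the good Hecke operators on `p`-power torsion. -/
theorem map_T (I : GeomInput p N S) (I' : GeomInput p N' S) (a : I.X →+ I'.X)
    (ha : ∀ (σ : GQ) (x : I.X), a (σ • x) = σ • a x)
    (ℓ : ℕ) (hℓ : ℓ.Prime) (hℓN : ¬ ℓ ∣ N) (hℓN' : ¬ ℓ ∣ N') (hℓp : ℓ ≠ p)
    (n : ℕ) (x : I.X) (hx : p ^ n • x = 0) :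
    a (I.T ⟨ℓ, hℓ⟩ x) = I'.T ⟨ℓ, hℓ⟩ (a x) := by
  obtain ⟨A, s, hA, hs⟩ := Fermat.Agent.Common.exists_frobenius ℓ hℓ
  have hax : p ^ n • a x = 0 := by rw [← map_nsmul, hx, map_zero]
  rw [T_eq_frob I ℓ hℓ hℓN hℓp A hA s hs n x hx, T_eq_frob I' ℓ hℓ hℓN' hℓp A hA s hs n (a x) hax,
    map_add, map_nsmul, ha, ha]

end GaloisTrick

section Polynomial

variable {p N N' : ℕ} [NeZero N] [NeZero N'] {S : Finset ℕ}

/-- Transport of the relation `c • a (θ_n v) = θ'_n v'` along matching Hecke polynomials. -/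
theorem map_theta_hecke_aeval (I : GeomInput p N S) (I' : GeomInput p N' S) (a : I.X →+ I'.X)
    (ha : ∀ (σ : GQ) (x : I.X), a (σ • x) = σ • a x) (hpS : p ∈ S) (c : ℤ) (n : ℕ)
    {ι : Type*} (T : ι → heckeAlgebra N 2 (↑S : Set ℕ)) (T' : ι → heckeAlgebra N' 2 (↑S : Set ℕ))
    (hTT' : ∀ i, ∃ (ℓ : ℕ) (hℓ : ℓ.Prime) (hℓN : ¬ ℓ ∣ N) (hℓN' : ¬ ℓ ∣ N')
      (hℓS : ℓ ∉ (↑S : Set ℕ)),
      T i = heckeAlgebra.T hℓ hℓN hℓS ∧ T' i = heckeAlgebra.T hℓ hℓN' hℓS)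
    (P : MvPolynomial ι ℤ) :
    ∀ (v : I.Λ) (v' : I'.Λ), c • a (I.θ n v) = I'.θ n v' →
      c • a (I.θ n (I.hecke (MvPolynomial.aeval T P) v)) =
        I'.θ n (I'.hecke (MvPolynomial.aeval T' P) v') := by
  induction P using MvPolynomial.induction_on with
  | C z =>
    intro v v' h
    rw [MvPolynomial.aeval_C, MvPolynomial.aeval_C, eq_intCast, eq_intCast, map_intCast,
      map_intCast, Module.End.intCast_apply, Module.End.intCast_apply, map_zsmul, map_zsmul,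
      map_zsmul, smul_comm, h]
  | add P Q hP hQ =>
    intro v v' h
    rw [map_add, map_add, map_add, map_add, LinearMap.add_apply, LinearMap.add_apply, map_add,
      map_add, map_add, smul_add, hP v v' h, hQ v v' h]
  | mul_X P i hP =>
    intro v v' h
    obtain ⟨ℓ, hℓ, hℓN, hℓN', hℓS, hT, hT'⟩ := hTT' i
    have hℓp : ℓ ≠ p := fun hlp => hℓS (by rw [hlp]; exact Finset.mem_coe.mpr hpS)
    have e1 : MvPolynomial.aeval T (P * MvPolynomial.X i) = MvPolynomial.aeval T P * T i := by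
      rw [map_mul, MvPolynomial.aeval_X]
    have e2 : MvPolynomial.aeval T' (P * MvPolynomial.X i) = MvPolynomial.aeval T' P * T' i := by
      rw [map_mul, MvPolynomial.aeval_X]
    rw [e1, e2, map_mul, map_mul, Module.End.mul_apply, Module.End.mul_apply]
    apply hP
    rw [hT, hT', I.θ_hecke n ℓ hℓ hℓN hℓS v, I'.θ_hecke n ℓ hℓ hℓN' hℓS v',
      map_T I I' a ha ℓ hℓ hℓN hℓN' hℓp n (I.θ n v) (I.θ_tors n v), ← map_zsmul, h]

/-- **(ht), generic index.**  If the `p`-power torsion of `I'.X` is, up to the constant `c`, in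
the image of the Kummer maps of `I'`, and `P` vanishes on the Hecke operators of level `N'`,
then `a` kills the image of `c • P(T)` under the Kummer maps of `I`. -/
theorem map_theta_hecke_aeval_eq_zero (I : GeomInput p N S) (I' : GeomInput p N' S)
    (a : I.X →+ I'.X) (ha : ∀ (σ : GQ) (x : I.X), a (σ • x) = σ • a x) (hpS : p ∈ S) (c : ℤ)
    (hKS : ∀ (n : ℕ) (y : I'.X), p ^ n • y = 0 → ∃ v' : I'.Λ, c • y = I'.θ n v')
    {ι : Type*} (T : ι → heckeAlgebra N 2 (↑S : Set ℕ)) (T' : ι → heckeAlgebra N' 2 (↑S : Set ℕ))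
    (hTT' : ∀ i, ∃ (ℓ : ℕ) (hℓ : ℓ.Prime) (hℓN : ¬ ℓ ∣ N) (hℓN' : ¬ ℓ ∣ N')
      (hℓS : ℓ ∉ (↑S : Set ℕ)),
      T i = heckeAlgebra.T hℓ hℓN hℓS ∧ T' i = heckeAlgebra.T hℓ hℓN' hℓS)
    (P : MvPolynomial ι ℤ) (hP : MvPolynomial.aeval T' P = 0) (n : ℕ) (v : I.Λ) :
    a (I.θ n (I.hecke (c • MvPolynomial.aeval T P) v)) = 0 := by
  have hy : p ^ n • a (I.θ n v) = 0 := by rw [← map_nsmul, I.θ_tors n v, map_zero]
  obtain ⟨v', hv'⟩ := hKS n (a (I.θ n v)) hy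
  have h := map_theta_hecke_aeval I I' a ha hpS c n T T' hTT' P v v' hv'
  rw [hP, map_zero, LinearMap.zero_apply, map_zero] at h
  rw [map_zsmul, LinearMap.smul_apply, map_zsmul, map_zsmul]
  exact h

/-- **(ht)**, in the index type of the separator `CharOccurs.exists_separator_chig`. -/
theorem map_theta_hecke_eq_zero (I : GeomInput p N S) (I' : GeomInput p N' S)
    (a : I.X →+ I'.X) (ha : ∀ (σ : GQ) (x : I.X), a (σ • x) = σ • a x)
    (hM' : N' ∣ N) (hpS : p ∈ S) (c : ℤ)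
    (hKS : ∀ (n : ℕ) (y : I'.X), p ^ n • y = 0 → ∃ v' : I'.Λ, c • y = I'.θ n v')
    (s : MvPolynomial {ℓ : Nat.Primes // ¬ (ℓ : ℕ) ∣ N ∧ (ℓ : ℕ) ∉ (↑S : Set ℕ)} ℤ)
    (hs : MvPolynomial.aeval
      (fun ℓ : {ℓ : Nat.Primes // ¬ (ℓ : ℕ) ∣ N ∧ (ℓ : ℕ) ∉ (↑S : Set ℕ)} =>
        (heckeAlgebra.T ℓ.1.2 (fun h => ℓ.2.1 (h.trans hM')) ℓ.2.2 :
          heckeAlgebra N' 2 (↑S : Set ℕ))) s = 0)
    (n : ℕ) (v : I.Λ) :
    a (I.θ n (I.hecke (c • MvPolynomial.aeval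
      (fun ℓ : {ℓ : Nat.Primes // ¬ (ℓ : ℕ) ∣ N ∧ (ℓ : ℕ) ∉ (↑S : Set ℕ)} =>
        (heckeAlgebra.T ℓ.1.2 ℓ.2.1 ℓ.2.2 : heckeAlgebra N 2 (↑S : Set ℕ))) s) v)) = 0 :=
  map_theta_hecke_aeval_eq_zero I I' a ha hpS c hKS
    (fun ℓ : {ℓ : Nat.Primes // ¬ (ℓ : ℕ) ∣ N ∧ (ℓ : ℕ) ∉ (↑S : Set ℕ)} =>
      (heckeAlgebra.T ℓ.1.2 ℓ.2.1 ℓ.2.2 : heckeAlgebra N 2 (↑S : Set ℕ)))
    (fun ℓ : {ℓ : Nat.Primes // ¬ (ℓ : ℕ) ∣ N ∧ (ℓ : ℕ) ∉ (↑S : Set ℕ)} =>
      (heckeAlgebra.T ℓ.1.2 (fun h => ℓ.2.1 (h.trans hM')) ℓ.2.2 :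
        heckeAlgebra N' 2 (↑S : Set ℕ)))
    (fun ℓ => ⟨ℓ.1, ℓ.1.2, ℓ.2.1, fun h => ℓ.2.1 (h.trans hM'), ℓ.2.2, rfl, rfl⟩) s hs n v

/-- **(ht), free-algebra form, generic index.** -/
theorem map_theta_hecke_lift_eq_zero (I : GeomInput p N S) (I' : GeomInput p N' S)
    (a : I.X →+ I'.X) (ha : ∀ (σ : GQ) (x : I.X), a (σ • x) = σ • a x) (hpS : p ∈ S) (c : ℤ)
    (hKS : ∀ (n : ℕ) (y : I'.X), p ^ n • y = 0 → ∃ v' : I'.Λ, c • y = I'.θ n v')
    {ι : Type*} (T : ι → heckeAlgebra N 2 (↑S : Set ℕ)) (T' : ι → heckeAlgebra N' 2 (↑S : Set ℕ))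
    (hTT' : ∀ i, ∃ (ℓ : ℕ) (hℓ : ℓ.Prime) (hℓN : ¬ ℓ ∣ N) (hℓN' : ¬ ℓ ∣ N')
      (hℓS : ℓ ∉ (↑S : Set ℕ)),
      T i = heckeAlgebra.T hℓ hℓN hℓS ∧ T' i = heckeAlgebra.T hℓ hℓN' hℓS)
    (s : FreeAlgebra ℤ ι) (hs : FreeAlgebra.lift ℤ T' s = 0) (n : ℕ) (v : I.Λ) :
    a (I.θ n (I.hecke (c • FreeAlgebra.lift ℤ T s) v)) = 0 := by
  rw [Separator.lift_eq_aeval] at hs ⊢
  exact map_theta_hecke_aeval_eq_zero I I' a ha hpS c hKS T T' hTT' _ hs n v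

end Polynomial

section ExistsT

open CongruenceSubgroup

/-- **Existence of `t`** (the forms half of `NewRel`): for a newform `g` of level `M` with
eigencharacter `chig` away from `S`, a proper divisor `M'` of `M`, and geometric inputs `I`, `I'`
of levels `M`, `M'` such that the `p`-power torsion of `I'.X` lies, up to the constant `c ≠ 0`,
in the image of the Kummer maps (KS), there is a Hecke element `t` with `chig t ≠ 0` such that
EVERY Galois-equivariant additive map `a : I.X → I'.X` kills `θ_n (t v)` for all `n`, `v`. -/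
theorem exists_t {p M M' : ℕ} [NeZero M] [NeZero M'] {S : Finset ℕ}
    {g : CuspForm (Gamma0 M) 2} (hg : g.IsNewform)
    (hMS : ∀ q : ℕ, q.Prime → q ∣ M → q ∈ S)
    (chig : CuspForm.heckeAlgebra M 2 (↑S : Set ℕ) →+* ℂ)
    (hchig : ∀ (ℓ : ℕ) (hℓ : ℓ.Prime) (hℓM : ¬ ℓ ∣ M) (hℓS : ℓ ∉ (↑S : Set ℕ)),
      chig (CuspForm.heckeAlgebra.T hℓ hℓM hℓS) = ModularFormClass.qCoeff g ℓ)
    (hM' : M' ∣ M) (hne : M' ≠ M) (hpS : p ∈ S)
    (I : GeomInput p M S) (I' : GeomInput p M' S) (c : ℤ) (hc : c ≠ 0)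
    (hKS : ∀ (n : ℕ) (y : I'.X), p ^ n • y = 0 → ∃ v' : I'.Λ, c • y = I'.θ n v') :
    ∃ t : heckeAlgebra M 2 (↑S : Set ℕ), chig t ≠ 0 ∧
      ∀ (a : I.X →+ I'.X), (∀ (σ : GQ) (x : I.X), a (σ • x) = σ • a x) →
        ∀ (n : ℕ) (v : I.Λ), a (I.θ n (I.hecke t v)) = 0 := by
  obtain ⟨s, hs0, hs⟩ := CharOccurs.exists_separator_chig hg S hMS chig hchig hM' hne
  refine ⟨c • MvPolynomial.aeval
      (fun ℓ : {ℓ : Nat.Primes // ¬ (ℓ : ℕ) ∣ M ∧ (ℓ : ℕ) ∉ (↑S : Set ℕ)} =>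
        (heckeAlgebra.T ℓ.1.2 ℓ.2.1 ℓ.2.2 : heckeAlgebra M 2 (↑S : Set ℕ))) s, ?_, ?_⟩
  · rw [map_zsmul, zsmul_eq_mul]
    exact mul_ne_zero (Int.cast_ne_zero.mpr hc) hs
  · intro a ha n v
    exact map_theta_hecke_eq_zero I I' a ha hM' hpS c hKS s hs0 n v

end ExistsT

end Fermat.Agent.S35.GT
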