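/-
S35 (wave 7), package P8: the trace-machine assembly, generic in the polynomial relation.

Setting: the abstract geometric input `I : GeomInput p N S` of S30 / S31, a complete local ring
`T` in which `p` is not a unit, a ring homomorphism `π` from the Hecke algebra to `T` and ANY
`ρ : GaloisRepAdic T` whose Frobenius lifts at the primes `ℓ ∉ S` have characteristic polynomial
`X² - π(T_ℓ) X + ℓ` (so the representation produced by `S30.result` is consumed as it is).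

For a Frobenius lift `σ` at a prime `q ≠ p` put `Θ x := σ • x + q • σ⁻¹ • x` on the Galois module.
Assume that a polynomial `F ∈ ℤ[X]` satisfies `F(Θ) x = 0` for every `p`-power torsion element
`x` of a subgroup `K` (the `q`-new part), and that a Hecke element `t` maps the image of the
lattice into `K`.  Then

  `F(tr ρ(σ)) · π(t) = 0`   and   `det ρ(σ) = q`.

Consequently, if `T` is a domain, `π(t) ≠ 0` and the only roots of `F` in `T` are `± (q + 1)`,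
the characteristic polynomial of `ρ(σ)` is `X² - (q+1) X + q` or `X² + (q+1) X + q`.

Proof: as in `S34.UnipAsm.trace_det_congr`.  Weak Chebotarev gives a Frobenius lift `φ` at a good
prime `ℓ` with `σ ≡ φ ^ i` on a suitable finite level; Eichler–Shimura on the `p ^ (n + c)`-torsion
shows that `P := D_i(T_ℓ, ℓ)` acts on the image of the lattice as `Θ` (`ℓ ^ i ≡ ε(σ) = q`), hence
`F(P) · t` maps the lattice into `p ^ (n + c) Λ`, so `F(P) · t ∈ p ^ n 𝕋` by saturation, and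
`π(P) ≡ tr ρ(σ)` modulo `𝔪 ^ n`.
-/
import Mathlib
import Fermat.Agent.S30.Defs
import Fermat.Agent.S30.PowerSum
import Fermat.Agent.S30.AdicRed
import Fermat.Agent.S30.Sat
import Fermat.Agent.S30.S31Asm
import Fermat.Agent.S34.UnipAsm

set_option autoImplicit false

open Polynomial

namespace Fermat.Agent.S35.TraceAsm

open Fermat.Agent.S30 Fermat.Agent.S30.PowerSum Fermat.Agent.S30.AdicRed CuspForm

/-! ### the operator `Θ = σ + q σ⁻¹` and polynomials in it -/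

section Theta

variable {X : Type} [AddCommGroup X] [DistribMulAction GQ X]

/-- `Θ x = σ • x + q • σ⁻¹ • x` as an additive endomorphism of the Galois module. -/
noncomputable def thetaOp (X : Type) [AddCommGroup X] [DistribMulAction GQ X] (σ : GQ)
    (q : ℕ) : AddMonoid.End X :=
  DistribSMul.toAddMonoidHom X σ + q • DistribSMul.toAddMonoidHom X σ⁻¹

theorem thetaOp_apply (σ : GQ) (q : ℕ) (x : X) :
    thetaOp X σ q x = σ • x + q • (σ⁻¹ • x) := rfl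

omit [DistribMulAction GQ X] in
/-- the action of an integer constant in `AddMonoid.End X` -/
theorem algebraMap_int_end_apply (a : ℤ) (x : X) :
    (algebraMap ℤ (AddMonoid.End X) a) x = a • x := by
  rw [eq_intCast, AddMonoid.End.intCast_apply]

end Theta

/-! ### transport of a polynomial relation through the Kummer maps -/

section Poly

variable {p : ℕ} {N : ℕ} [NeZero N] {S : Finset ℕ}

/-- If the Hecke element `P` acts on the image of `θ m` as the additive endomorphism `Θ`, then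
`F(P)` acts as `F(Θ)`, for every `F ∈ ℤ[X]`. -/
theorem theta_hecke_aeval (I : GeomInput p N S) (m : ℕ)
    (P : heckeAlgebra N 2 (↑S : Set ℕ)) (Θ : AddMonoid.End I.X)
    (h : ∀ v : I.Λ, I.θ m (I.hecke P v) = Θ (I.θ m v)) (F : ℤ[X]) (v : I.Λ) :
    I.θ m (I.hecke (aeval P F) v) = (aeval Θ F) (I.θ m v) := by
  induction F using Polynomial.induction_on generalizing v with
  | C a =>
    rw [aeval_C, aeval_C, eq_intCast, map_intCast, Module.End.intCast_apply, map_zsmul,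
      algebraMap_int_end_apply]
  | add F G hF hG =>
    rw [map_add, map_add, map_add, LinearMap.add_apply, map_add, hF, hG]
    rfl
  | monomial n a ih =>
    have e1 : aeval P (C a * X ^ (n + 1)) = aeval P (C a * X ^ n) * P := by
      rw [pow_succ, ← mul_assoc, map_mul, aeval_X]
    have e2 : aeval Θ (C a * X ^ (n + 1)) = aeval Θ (C a * X ^ n) * Θ := by
      rw [pow_succ, ← mul_assoc, map_mul, aeval_X]
    rw [e1, e2, map_mul, Module.End.mul_apply, ih, h]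
    rfl

end Poly

/-! ### polynomials and congruences -/

section Congr

variable {T : Type} [CommRing T]

/-- `a ≡ b` modulo `J` implies `F(a) ≡ F(b)` modulo `J`. -/
theorem aeval_sub_aeval_mem (J : Ideal T) (F : ℤ[X]) {a b : T} (h : a - b ∈ J) :
    aeval a F - aeval b F ∈ J := by
  have hd : a - b ∣ aeval a F - aeval b F := by
    rw [aeval_def, aeval_def, eval₂_eq_eval_map, eval₂_eq_eval_map]
    exact Polynomial.sub_dvd_eval_sub a b _
  obtain ⟨c, hc⟩ := hd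
  rw [hc]
  exact Ideal.mul_mem_right _ _ h

end Congr

/-! ### the assembly -/

section Main

variable {p : ℕ} {N : ℕ} [NeZero N] {S : Finset ℕ}
  {T : Type} [CommRing T] [IsLocalRing T]

/-- The congruences `F(tr ρ(σ)) · π(t) ≡ 0` and `det ρ(σ) ≡ q` modulo `𝔪 ^ n` for a Frobenius
lift `σ` at `q ≠ p`, with the uniform saturation of the Hecke algebra in the lattice as an
explicit hypothesis. -/
theorem poly_trace_det_congr [Fact p.Prime] (I : GeomInput p N S) (hcyc : CycPadic p)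
    (hcheb : WeakCheb)
    (hsat : ∃ c : ℕ, ∀ (a : heckeAlgebra N 2 (↑S : Set ℕ)) (n : ℕ),
      (∀ v : I.Λ, ∃ w : I.Λ, I.hecke a v = p ^ (n + c) • w) →
        ∃ a' : heckeAlgebra N 2 (↑S : Set ℕ), a = p ^ n • a')
    (hpT : (p : T) ∈ IsLocalRing.maximalIdeal T) (hpS : p ∈ S)
    (hNS : ∀ q : ℕ, q.Prime → q ∣ N → q ∈ S)
    (π : heckeAlgebra N 2 (↑S : Set ℕ) →+* T) (ρ : GaloisRepAdic T)
    (hchar : ∀ (ℓ : ℕ) (hℓ : ℓ.Prime) (hℓN : ¬ ℓ ∣ N) (hℓS : ℓ ∉ (↑S : Set ℕ))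
      (A : ValuationSubring Qb), A.LiesOverPrime ℓ → ∀ φ : GQ, A.IsFrobeniusAt φ ℓ →
        LinearMap.charpoly (ρ.ρ φ) =
          X ^ 2 - C (π (heckeAlgebra.T hℓ hℓN hℓS)) * X + C ((ℓ : T)))
    (q : ℕ) (hq : q.Prime) (hqp : q ≠ p)
    (P : ValuationSubring Qb) (hP : P.LiesOverPrime q) (σ : GQ) (hσ : P.IsFrobeniusAt σ q)
    (K : AddSubgroup I.X) (F : ℤ[X]) (t : heckeAlgebra N 2 (↑S : Set ℕ))
    (hrel : ∀ (n : ℕ) (x : I.X), x ∈ K → p ^ n • x = 0 → (aeval (thetaOp I.X σ q) F) x = 0)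
    (ht : ∀ (n : ℕ) (v : I.Λ), I.θ n (I.hecke t v) ∈ K) (n : ℕ) :
    aeval (LinearMap.trace T ρ.V (ρ.ρ σ)) F * π t ∈ IsLocalRing.maximalIdeal T ^ n ∧
      LinearMap.det (ρ.ρ σ) - (q : T) ∈ IsLocalRing.maximalIdeal T ^ n := by
  obtain ⟨ε, hεL, hε⟩ := hcyc
  obtain ⟨c, hc⟩ := hsat
  -- the finite level
  obtain ⟨L₁, hL₁, h₁⟩ := S31Asm.exists_level_hom I.stab (I.θ (n + c))
  obtain ⟨L₂, hL₂, h₂⟩ := S31Asm.exists_level_hom I.stab
    ((DistribSMul.toAddMonoidHom I.X σ⁻¹).comp (I.θ (n + c)))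
  obtain ⟨L₃, hL₃, h₃⟩ := hεL (n + c)
  obtain ⟨L₄, hL₄, h₄⟩ := redHom_factors ρ n
  have hL12 : FiniteDimensional ℚ (L₁ ⊔ L₂ : IntermediateField ℚ Qb) :=
    IntermediateField.finiteDimensional_sup L₁ L₂
  have hL123 : FiniteDimensional ℚ (L₁ ⊔ L₂ ⊔ L₃ : IntermediateField ℚ Qb) :=
    IntermediateField.finiteDimensional_sup (L₁ ⊔ L₂) L₃
  have hL : FiniteDimensional ℚ (L₁ ⊔ L₂ ⊔ L₃ ⊔ L₄ : IntermediateField ℚ Qb) :=
    IntermediateField.finiteDimensional_sup (L₁ ⊔ L₂ ⊔ L₃) L₄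
  have le₁ : L₁ ≤ L₁ ⊔ L₂ ⊔ L₃ ⊔ L₄ := le_sup_left.trans (le_sup_left.trans le_sup_left)
  have le₂ : L₂ ≤ L₁ ⊔ L₂ ⊔ L₃ ⊔ L₄ := le_sup_right.trans (le_sup_left.trans le_sup_left)
  have le₃ : L₃ ≤ L₁ ⊔ L₂ ⊔ L₃ ⊔ L₄ := le_sup_right.trans le_sup_left
  have le₄ : L₄ ≤ L₁ ⊔ L₂ ⊔ L₃ ⊔ L₄ := le_sup_right
  have hεσ : ((ε σ : ℤ_[p]ˣ) : ℤ_[p]) = (q : ℤ_[p]) := (hε q hq hqp P hP).2 σ hσ
  have htors : ∀ v : I.Λ, p ^ (n + c) • (σ⁻¹ • I.θ (n + c) v) = 0 := fun v => by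
    rw [smul_comm, I.θ_tors, smul_zero]
  -- the Chebotarev step
  obtain ⟨ℓ, A, φ, i, hℓ, hℓS, hA, hφ, hLφ⟩ := hcheb (L₁ ⊔ L₂ ⊔ L₃ ⊔ L₄) S σ
  have hℓN : ¬ ℓ ∣ N := fun hd => hℓS (hNS ℓ hℓ hd)
  have hℓp : ℓ ≠ p := fun hd => hℓS (hd ▸ hpS)
  have hℓS' : ℓ ∉ (↑S : Set ℕ) := fun hd => hℓS (Finset.mem_coe.mp hd)
  have hσφ : ∀ x ∈ (L₁ ⊔ L₂ ⊔ L₃ ⊔ L₄ : IntermediateField ℚ Qb), (σ⁻¹ * φ ^ i) x = x := by
    intro x hx
    rw [AlgEquiv.mul_apply, ← hLφ x hx]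
    exact σ.symm_apply_apply x
  have hmul : σ * (σ⁻¹ * φ ^ i) = φ ^ i := mul_inv_cancel_left σ (φ ^ i)
  -- `φ ^ i` acts like `σ` on the image of `θ`
  have a1 : ∀ v : I.Λ, φ ^ i • I.θ (n + c) v = σ • I.θ (n + c) v := by
    intro v
    have e := h₁ (σ⁻¹ * φ ^ i) (fun x hx => hσφ x (le₁ hx)) v
    rw [← hmul, mul_smul, e]
  -- `φ⁻¹ ^ i` acts like `σ⁻¹` on the image of `θ`
  have a2 : ∀ v : I.Λ, φ⁻¹ ^ i • I.θ (n + c) v = σ⁻¹ • I.θ (n + c) v := by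
    intro v
    have e : (σ⁻¹ * φ ^ i) • (σ⁻¹ • I.θ (n + c) v) = σ⁻¹ • I.θ (n + c) v :=
      h₂ (σ⁻¹ * φ ^ i) (fun x hx => hσφ x (le₂ hx)) v
    have e' : φ ^ i • (σ⁻¹ • I.θ (n + c) v) = I.θ (n + c) v := by
      rw [← hmul, mul_smul, e, smul_inv_smul]
    rw [inv_pow, inv_smul_eq_iff, e']
  -- `ℓ ^ i ≡ q` modulo `p ^ (n + c)`
  have hdiv : ((p ^ (n + c) : ℕ) : ℤ) ∣ (ℓ : ℤ) ^ i - (q : ℤ) := by
    obtain ⟨w, hw⟩ := h₃ (σ⁻¹ * φ ^ i) (fun x hx => hσφ x (le₃ hx))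
    have e1 : ((ε φ : ℤ_[p]ˣ) : ℤ_[p]) = (ℓ : ℤ_[p]) := (hε ℓ hℓ hℓp A hA).2 φ hφ
    have e2 : ε (φ ^ i) = ε σ * ε (σ⁻¹ * φ ^ i) := by rw [← map_mul, hmul]
    have e3 := congrArg (fun u : ℤ_[p]ˣ => (u : ℤ_[p])) e2
    simp only [map_pow, Units.val_pow_eq_pow_val, Units.val_mul] at e3
    rw [e1, hεσ, hw] at e3
    have h1 : ((p : ℤ_[p]) ^ (n + c)) ∣ (((ℓ : ℤ) ^ i - (q : ℤ) : ℤ) : ℤ_[p]) := by
      refine ⟨(q : ℤ_[p]) * w, ?_⟩
      push_cast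
      rw [e3]
      ring
    have h2 := (PadicInt.pow_p_dvd_int_iff (n + c) ((ℓ : ℤ) ^ i - (q : ℤ))).mp h1
    exact_mod_cast h2
  -- the Hecke element `D_i(T_ℓ, ℓ)` acts on the image of `θ` as `Θ`
  have hθ : ∀ v : I.Λ, I.θ (n + c) (I.hecke (psum (heckeAlgebra.T hℓ hℓN hℓS')
      ((ℓ : ℕ) : heckeAlgebra N 2 (↑S : Set ℕ)) i) v) =
        thetaOp I.X σ q (I.θ (n + c) v) := by
    intro v
    rw [S31Asm.theta_hecke_psum I hℓ hℓN hℓS' hℓp hA hφ (n + c) v i, a1 v, a2 v, thetaOp_apply]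
    have e : (ℓ ^ i : ℕ) • (σ⁻¹ • I.θ (n + c) v) = q • (σ⁻¹ • I.θ (n + c) v) := by
      obtain ⟨k, hk⟩ := hdiv
      have e0 : ((ℓ ^ i : ℕ) : ℤ) = (q : ℤ) + ((p ^ (n + c) : ℕ) : ℤ) * k := by
        rw [← hk]; push_cast; ring
      rw [← natCast_zsmul, e0, add_smul, natCast_zsmul, mul_comm, mul_smul, natCast_zsmul,
        htors v, smul_zero, add_zero]
    rw [e]
  -- hence `F(D_i) * t` maps the lattice into `p ^ (n + c) Λ`
  have ha : ∀ v : I.Λ, ∃ w : I.Λ,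
      I.hecke (aeval (psum (heckeAlgebra.T hℓ hℓN hℓS')
        ((ℓ : ℕ) : heckeAlgebra N 2 (↑S : Set ℕ)) i) F * t) v = p ^ (n + c) • w := by
    intro v
    apply I.θ_ker (n + c)
    rw [map_mul, Module.End.mul_apply, theta_hecke_aeval I (n + c) _ _ hθ F]
    exact hrel (n + c) _ (ht (n + c) v) (I.θ_tors (n + c) _)
  obtain ⟨a', ha'⟩ := hc _ n ha
  have hπ : aeval (psum (π (heckeAlgebra.T hℓ hℓN hℓS')) ((ℓ : ℕ) : T) i) F * π t ∈
      IsLocalRing.maximalIdeal T ^ n := by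
    have e : aeval (psum (π (heckeAlgebra.T hℓ hℓN hℓS')) ((ℓ : ℕ) : T) i) F * π t =
        π (aeval (psum (heckeAlgebra.T hℓ hℓN hℓS')
          ((ℓ : ℕ) : heckeAlgebra N 2 (↑S : Set ℕ)) i) F * t) := by
      rw [map_mul, ← map_natCast π, ← map_psum]
      congr 1
      exact Polynomial.aeval_algHom_apply (π.toIntAlgHom) _ F
    rw [e, ha', map_nsmul, nsmul_eq_mul, Nat.cast_pow]
    exact Ideal.mul_mem_right _ _ (Ideal.pow_mem_pow hpT n)
  have hred : redHom ρ n σ = redHom ρ n φ ^ i := by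
    have e := h₄ (σ⁻¹ * φ ^ i) (fun x hx => hσφ x (le₄ hx))
    rw [← map_pow, ← hmul, map_mul, e, mul_one]
  have hchar' := hchar ℓ hℓ hℓN hℓS' A hA φ hφ
  refine ⟨?_, ?_⟩
  · have e2 := trace_sub_psum_mem ρ n hchar' hred
    have e3 := aeval_sub_aeval_mem (IsLocalRing.maximalIdeal T ^ n) F e2
    have hfinal : aeval (LinearMap.trace T ρ.V (ρ.ρ σ)) F * π t =
        (aeval (LinearMap.trace T ρ.V (ρ.ρ σ)) F -
          aeval (psum (π (heckeAlgebra.T hℓ hℓN hℓS')) ((ℓ : ℕ) : T) i) F) * π t +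
        aeval (psum (π (heckeAlgebra.T hℓ hℓN hℓS')) ((ℓ : ℕ) : T) i) F * π t := by ring
    rw [hfinal]
    exact Ideal.add_mem _ (Ideal.mul_mem_right _ _ e3) hπ
  · have e2 := Fermat.Agent.S34.UnipAsm.det_sub_pow_mem ρ n hchar' hred
    have e3 : ((ℓ : ℕ) : T) ^ i - (q : T) ∈ IsLocalRing.maximalIdeal T ^ n := by
      obtain ⟨k, hk⟩ := hdiv
      have e0 : ((ℓ : ℕ) : T) ^ i - (q : T) = (((ℓ : ℤ) ^ i - (q : ℤ) : ℤ) : T) := by
        push_cast; ring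
      rw [e0, hk]
      push_cast
      rw [pow_add, mul_assoc]
      exact Ideal.mul_mem_right _ _ (Ideal.pow_mem_pow hpT n)
    have hfinal : LinearMap.det (ρ.ρ σ) - (q : T) =
        (LinearMap.det (ρ.ρ σ) - ((ℓ : ℕ) : T) ^ i) + (((ℓ : ℕ) : T) ^ i - (q : T)) := by ring
    rw [hfinal]
    exact Ideal.add_mem _ e2 e3

/-- **The trace machine for a polynomial relation on the `q`-new part**: `F(tr ρ(σ)) · π(t) = 0`
and `det ρ(σ) = q` for a Frobenius lift `σ` at `q ≠ p`. -/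
theorem poly_trace_det [Fact p.Prime] [IsHausdorff (IsLocalRing.maximalIdeal T) T]
    (I : GeomInput p N S) (hcyc : CycPadic p) (hcheb : WeakCheb)
    (hpT : (p : T) ∈ IsLocalRing.maximalIdeal T) (hpS : p ∈ S)
    (hNS : ∀ q : ℕ, q.Prime → q ∣ N → q ∈ S)
    (π : heckeAlgebra N 2 (↑S : Set ℕ) →+* T) (ρ : GaloisRepAdic T)
    (hchar : ∀ (ℓ : ℕ) (hℓ : ℓ.Prime) (hℓN : ¬ ℓ ∣ N) (hℓS : ℓ ∉ (↑S : Set ℕ))
      (A : ValuationSubring Qb), A.LiesOverPrime ℓ → ∀ φ : GQ, A.IsFrobeniusAt φ ℓ →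
        LinearMap.charpoly (ρ.ρ φ) =
          X ^ 2 - C (π (heckeAlgebra.T hℓ hℓN hℓS)) * X + C ((ℓ : T)))
    (q : ℕ) (hq : q.Prime) (hqp : q ≠ p)
    (P : ValuationSubring Qb) (hP : P.LiesOverPrime q) (σ : GQ) (hσ : P.IsFrobeniusAt σ q)
    (K : AddSubgroup I.X) (F : ℤ[X]) (t : heckeAlgebra N 2 (↑S : Set ℕ))
    (hrel : ∀ (n : ℕ) (x : I.X), x ∈ K → p ^ n • x = 0 → (aeval (thetaOp I.X σ q) F) x = 0)
    (ht : ∀ (n : ℕ) (v : I.Λ), I.θ n (I.hecke t v) ∈ K) :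
    aeval (LinearMap.trace T ρ.V (ρ.ρ σ)) F * π t = 0 ∧ LinearMap.det (ρ.ρ σ) = (q : T) := by
  have hsat := Sat.exists_bound I.hecke I.hecke_injective p Fact.out
  have hcongr := fun n => poly_trace_det_congr I hcyc hcheb hsat hpT hpS hNS π ρ hchar q hq hqp
    P hP σ hσ K F t hrel ht n
  refine ⟨?_, ?_⟩
  · refine IsHausdorff.haus' (I := IsLocalRing.maximalIdeal T) _ fun n => ?_
    rw [SModEq.zero, smul_eq_mul, Ideal.mul_top]
    exact (hcongr n).1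
  · refine sub_eq_zero.mp ?_
    refine IsHausdorff.haus' (I := IsLocalRing.maximalIdeal T) _ fun n => ?_
    rw [SModEq.zero, smul_eq_mul, Ideal.mul_top]
    exact (hcongr n).2

/-- **The characteristic polynomial at a Frobenius lift at `q`** from a polynomial relation on
the `q`-new part whose only roots are `± (q + 1)`. -/
theorem charpoly_frob_of_rel [Fact p.Prime] [IsDomain T] [IsHausdorff (IsLocalRing.maximalIdeal T) T]
    (I : GeomInput p N S) (hcyc : CycPadic p) (hcheb : WeakCheb)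
    (hpT : (p : T) ∈ IsLocalRing.maximalIdeal T) (hpS : p ∈ S)
    (hNS : ∀ q : ℕ, q.Prime → q ∣ N → q ∈ S)
    (π : heckeAlgebra N 2 (↑S : Set ℕ) →+* T) (ρ : GaloisRepAdic T)
    (hchar : ∀ (ℓ : ℕ) (hℓ : ℓ.Prime) (hℓN : ¬ ℓ ∣ N) (hℓS : ℓ ∉ (↑S : Set ℕ))
      (A : ValuationSubring Qb), A.LiesOverPrime ℓ → ∀ φ : GQ, A.IsFrobeniusAt φ ℓ →
        LinearMap.charpoly (ρ.ρ φ) =
          X ^ 2 - C (π (heckeAlgebra.T hℓ hℓN hℓS)) * X + C ((ℓ : T)))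
    (q : ℕ) (hq : q.Prime) (hqp : q ≠ p)
    (P : ValuationSubring Qb) (hP : P.LiesOverPrime q) (σ : GQ) (hσ : P.IsFrobeniusAt σ q)
    (K : AddSubgroup I.X) (F : ℤ[X]) (t : heckeAlgebra N 2 (↑S : Set ℕ))
    (hrel : ∀ (n : ℕ) (x : I.X), x ∈ K → p ^ n • x = 0 → (aeval (thetaOp I.X σ q) F) x = 0)
    (ht : ∀ (n : ℕ) (v : I.Λ), I.θ n (I.hecke t v) ∈ K)
    (hπt : π t ≠ 0)
    (hF : ∀ z : T, aeval z F = 0 → z = (q : T) + 1 ∨ z = -((q : T) + 1)) :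
    LinearMap.charpoly (ρ.ρ σ) = X ^ 2 - C ((q : T) + 1) * X + C ((q : T)) ∨
      LinearMap.charpoly (ρ.ρ σ) = X ^ 2 + C ((q : T) + 1) * X + C ((q : T)) := by
  obtain ⟨h1, h2⟩ := poly_trace_det I hcyc hcheb hpT hpS hNS π ρ hchar q hq hqp P hP σ hσ K F t
    hrel ht
  have h3 : aeval (LinearMap.trace T ρ.V (ρ.ρ σ)) F = 0 :=
    (mul_eq_zero.mp h1).resolve_right hπt
  rw [Fermat.Agent.S34.UnipAsm.charpoly_eq_of_finrank_two ρ.finrank_eq, h2]
  rcases hF _ h3 with h | h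
  · left
    rw [h]
  · right
    rw [h, map_neg, neg_mul, sub_neg_eq_add]

end Main

/-! ### the two polynomials used by the geometric side -/

section Roots

variable {T : Type} [CommRing T] [IsDomain T]

/-- the roots of `X² - (q + 1)²` -/
theorem roots_sq (q : ℕ) (z : T)
    (h : aeval z (X ^ 2 - C (((q : ℤ) + 1) ^ 2) : ℤ[X]) = 0) :
    z = (q : T) + 1 ∨ z = -((q : T) + 1) := by
  have h' : (z - ((q : T) + 1)) * (z + ((q : T) + 1)) = 0 := by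
    have e : aeval z (X ^ 2 - C (((q : ℤ) + 1) ^ 2) : ℤ[X]) = z ^ 2 - ((q : T) + 1) ^ 2 := by
      simp
    rw [e] at h
    rw [← h]
    ring
  rcases mul_eq_zero.mp h' with h1 | h1
  · exact Or.inl (sub_eq_zero.mp h1)
  · exact Or.inr (eq_neg_of_add_eq_zero_left h1)

/-- the roots of `(X² - (q + 1)²) (X - (q + 1))` -/
theorem roots_sq_mul (q : ℕ) (z : T)
    (h : aeval z ((X ^ 2 - C (((q : ℤ) + 1) ^ 2)) * (X - C ((q : ℤ) + 1)) : ℤ[X]) = 0) :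
    z = (q : T) + 1 ∨ z = -((q : T) + 1) := by
  rw [map_mul] at h
  rcases mul_eq_zero.mp h with h1 | h1
  · exact roots_sq q z h1
  · left
    have e : aeval z (X - C ((q : ℤ) + 1) : ℤ[X]) = z - ((q : T) + 1) := by simp
    rw [e] at h1
    exact sub_eq_zero.mp h1

end Roots

end Fermat.Agent.S35.TraceAsm
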