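/-
S35 (wave 7): the frozen statement S35 from ONE hypothesis per prime `q ∥ M`, `q ≠ lam`:

  `NewRel lam M S chig q` : there are a geometric input `I : GeomInput lam M S` (S30 currency), a
  subgroup `K` of its Galois module (the `q`-new part), a polynomial `F ∈ ℤ[X]` whose only roots in
  a domain of characteristic zero are `± (q + 1)` and a Hecke element `t` with `chig t ≠ 0` such that
    * `F(Θ_σ) x = 0` for every Frobenius lift `σ` at `q` and every `lam`-power torsion `x ∈ K`,
      where `Θ_σ x = σ • x + q • σ⁻¹ • x`   (bad-prime Eichler–Shimura on the `q`-new part);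
    * `t` maps the image of the lattice into `K`   (newness of `g`).

`s35_of_newRel` : the conclusion of the frozen statement S35, using `S30.result` (the
representation, consumed as it is), `S22.result` (the Hecke algebra is a finite `ℤ`-module, hence
`iota` is injective), `PadicLift.cycPadic`, `S29.WeakCheb.exists_frobenius_pow` and the trace
machine `TraceAsm.charpoly_frob_of_rel`.
-/
import Mathlib
import Fermat.Agent.S35.TraceAsm
import Fermat.Agent.S30
import Fermat.Agent.S22
import Fermat.Agent.S30.PadicLift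
import Fermat.Agent.S29.WeakCheb

set_option autoImplicit false

open Polynomial

namespace Fermat.Agent.S35.S35Of

open Fermat.Agent.S30 Fermat.Agent.S35.TraceAsm CuspForm

/-- A ring homomorphism from the image of a character of a ring that is finite over `ℤ` to a
domain of characteristic zero is injective. -/
theorem injective_of_range {R : Type} [CommRing R] [Module.Finite ℤ R] (chi : R →+* ℂ)
    {O : Type} [CommRing O] [IsDomain O] [CharZero O] (iota : chi.range →+* O) :
    Function.Injective iota := by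
  have hint : Algebra.IsIntegral ℤ chi.range := by
    refine ⟨fun y => ?_⟩
    obtain ⟨x, hx⟩ := chi.rangeRestrict_surjective y
    have hxi : IsIntegral ℤ x := Algebra.IsIntegral.isIntegral x
    rw [← hx]
    exact hxi.map (chi.rangeRestrict.toIntAlgHom)
  have hker : (RingHom.ker iota).comap (algebraMap ℤ chi.range) = ⊥ := by
    rw [eq_bot_iff]
    intro n hn
    rw [Ideal.mem_comap, RingHom.mem_ker, eq_intCast, map_intCast] at hn
    rw [Ideal.mem_bot]
    exact_mod_cast hn
  have hbot : RingHom.ker iota = ⊥ := Ideal.eq_bot_of_comap_eq_bot hker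
  exact (RingHom.injective_iff_ker_eq_bot iota).mpr hbot

/-- The single input of S35 at a prime `q`: the bad-prime Eichler–Shimura relation on a `q`-new
part of the `lam`-power torsion that contains `t •` (image of the lattice) for a Hecke element
`t` not killed by the eigencharacter. -/
def NewRel (lam M : ℕ) [NeZero M] (S : Finset ℕ)
    (chig : CuspForm.heckeAlgebra M 2 (↑S : Set ℕ) →+* ℂ) (q : ℕ) : Prop :=
  ∃ (I : GeomInput lam M S) (K : AddSubgroup I.X) (F : ℤ[X])
    (t : CuspForm.heckeAlgebra M 2 (↑S : Set ℕ)),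
    chig t ≠ 0 ∧
    (∀ (T : Type) [CommRing T] [IsDomain T] [CharZero T] (z : T),
      aeval z F = 0 → z = (q : T) + 1 ∨ z = -((q : T) + 1)) ∧
    (∀ A : ValuationSubring Qb, A.LiesOverPrime q → ∀ σ : GQ, A.IsFrobeniusAt σ q →
      ∀ (n : ℕ) (x : I.X), x ∈ K → lam ^ n • x = 0 → (aeval (thetaOp I.X σ q) F) x = 0) ∧
    ∀ (n : ℕ) (v : I.Λ), I.θ n (I.hecke t v) ∈ K

/-- **S35 from the bad-prime relation on the `q`-new part.** -/
theorem s35_of_newRel
    {M : ℕ} [NeZero M]
    (lam : ℕ) [Fact lam.Prime]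
    (S : Finset ℕ)
    (O' : Type) [CommRing O'] [IsDomain O'] [IsDiscreteValuationRing O']
    [IsAdicComplete (IsLocalRing.maximalIdeal O') O'] [Finite (IsLocalRing.ResidueField O')]
    [CharZero O'] (hlamO' : (lam : O') ∈ IsLocalRing.maximalIdeal O')
    (chig : CuspForm.heckeAlgebra M 2 (↑S : Set ℕ) →+* ℂ)
    (iota : chig.range →+* O')
    (hlamS : lam ∈ S) (hMS : ∀ q : ℕ, q.Prime → q ∣ M → q ∈ S)
    (H : ∀ q : ℕ, q.Prime → q ≠ lam → q ∣ M → ¬ q ^ 2 ∣ M → NewRel lam M S chig q) :
    ∃ (O'' : Type) (_ : CommRing O'') (_ : IsDomain O'') (_ : IsDiscreteValuationRing O'')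
      (_ : IsAdicComplete (IsLocalRing.maximalIdeal O'') O'')
      (_ : Finite (IsLocalRing.ResidueField O''))
      (_ : CharZero O'') (_ : Algebra O' O'') (_ : Module.Finite O' O'')
      (_ : IsLocalHom (algebraMap O' O'')),
      Function.Injective (algebraMap O' O'') ∧
      ∃ ρ : GaloisRepAdic O'',
        (∀ (ℓ : ℕ) (hℓ : ℓ.Prime) (hℓM : ¬ ℓ ∣ M) (hℓS : ℓ ∉ (↑S : Set ℕ)),
          ∀ A : ValuationSubring (AlgebraicClosure ℚ), A.LiesOverPrime ℓ →
            ∀ σ : AlgebraicClosure ℚ ≃ₐ[ℚ] AlgebraicClosure ℚ, A.IsFrobeniusAt σ ℓ →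
              LinearMap.charpoly (ρ.ρ σ) =
                X ^ 2 - C (algebraMap O' O'' ((iota.comp chig.rangeRestrict)
                  (CuspForm.heckeAlgebra.T hℓ hℓM hℓS))) * X + C ((ℓ : O''))) ∧
        (∀ q : ℕ, q.Prime → q ≠ lam → q ∣ M → ¬ q ^ 2 ∣ M →
          ∀ A : ValuationSubring (AlgebraicClosure ℚ), A.LiesOverPrime q →
            ∀ σ : AlgebraicClosure ℚ ≃ₐ[ℚ] AlgebraicClosure ℚ, A.IsFrobeniusAt σ q →
              LinearMap.charpoly (ρ.ρ σ) = X ^ 2 - C ((q : O'') + 1) * X + C ((q : O'')) ∨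
              LinearMap.charpoly (ρ.ρ σ) = X ^ 2 + C ((q : O'') + 1) * X + C ((q : O''))) := by
  obtain ⟨O'', i1, i2, i3, i4, i5, i6, i7, i8, i9, hinj, ρ, hgood, -⟩ :=
    Fermat.Agent.S30.result lam M S hlamS hMS O' hlamO' (iota.comp chig.rangeRestrict)
  refine ⟨O'', i1, i2, i3, i4, i5, i6, i7, i8, i9, hinj, ρ, hgood, ?_⟩
  intro q hq hqlam hqM hq2 A hA σ hσ
  obtain ⟨I, K, F, t, hχt, hF, hrel, ht⟩ := H q hq hqlam hqM hq2
  have hpT : (lam : O'') ∈ IsLocalRing.maximalIdeal O'' := by
    have e : (lam : O'') = algebraMap O' O'' (lam : O') := (map_natCast _ lam).symm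
    rw [e, IsLocalRing.mem_maximalIdeal, map_mem_nonunits_iff]
    exact (IsLocalRing.mem_maximalIdeal _).mp hlamO'
  have hfin : Module.Finite ℤ (CuspForm.heckeAlgebra M 2 (↑S : Set ℕ)) :=
    Fermat.Agent.S22.result M 2 (↑S : Set ℕ)
  have hiota : Function.Injective iota := injective_of_range chig iota
  have hπt : ((algebraMap O' O'').comp (iota.comp chig.rangeRestrict)) t ≠ 0 := by
    intro h0
    have h1 : iota (chig.rangeRestrict t) = 0 := by
      apply hinj
      rw [map_zero]
      exact h0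
    have h2 : chig.rangeRestrict t = 0 := by
      apply hiota
      rw [map_zero]
      exact h1
    exact hχt (congrArg Subtype.val h2)
  exact charpoly_frob_of_rel I (Fermat.Agent.S30.PadicLift.cycPadic lam)
    (fun L _ S' σ => Fermat.Agent.S29.WeakCheb.exists_frobenius_pow L S' σ)
    hpT hlamS hMS ((algebraMap O' O'').comp (iota.comp chig.rangeRestrict)) ρ
    (fun ℓ hℓ hℓN hℓS A hA φ hφ => hgood ℓ hℓ hℓN hℓS A hA φ hφ)
    q hq hqlam A hA σ hσ K F t (hrel A hA σ hσ) ht hπt (hF O'')

end Fermat.Agent.S35.S35Of
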