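/-
S35 (wave 7): the assembly of `S35Of.NewRel` (the single input of `S35Of.s35_of_newRel`).

For a newform `g` of level `M' * q` (`q` prime) and a prime `lam`:

  `newRel_of_frobRel : KS lam M' S → Geom M' q lam → S35Of.NewRel lam (M' * q) S chig q`

where
* `Geom M' q lam` is the geometric contract of `Push.lean`: a polynomial `R` dividing a power of
  `(X² - 1)(X² - q²)` such that `R(σ)` kills the `lam`-power torsion of the `q`-new part
  `ker α_* ∩ ker β_*` of `J₀(M' q)(ℚ̄)` for every Frobenius lift `σ` at `q`;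
* `KS lam M' S` is Kummer surjectivity up to a constant at the lower level `M'`
  (the conclusion of `GeomJacE.exists_geomInput_ks_of`).

Ingredients: the geometric input of level `M' * q` with exposed Galois module
(`S34.GeomJacU.exists_geomInput_equiv`), the separator of a newform from the lower level
(`CharOccurs.exists_separator_chig`), the transfer of Hecke operators through Galois-equivariant
maps (`GT.map_theta_hecke_eq_zero`) and the identity
`σ² (Θ² - (q + 1)²) = (σ² - 1)(σ² - q²)` for `Θ = σ + q σ⁻¹`.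
-/
import Mathlib
import Fermat.Agent.S35.S35Of
import Fermat.Agent.S35.Push
import Fermat.Agent.S35.CharOccurs
import Fermat.Agent.S35.GT
import Fermat.Agent.S34.GeomJacU
import Fermat.Agent.S30.ThetaFam
import Fermat.Agent.S30.PerLatJ

set_option autoImplicit false
set_option linter.style.haveILetI false

open Polynomial

namespace Fermat.Agent.S35.NewRelOf

open Fermat.Agent.S30 Fermat.Agent.S35.TraceAsm Fermat.Agent.S35.Push CuspForm

/-! ### the algebraic bridge -/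

section Bridge

variable {E : Type*} [Ring E]

/-- For `g g' = g' g = 1` and `Θ = g + q g'`:
`(Θ² - (q + 1)²) ^ k = g' ^ (2 k) · ((g² - 1)(g² - q²)) ^ k`, in polynomial form. -/
theorem aeval_theta_eq (g g' : E) (h1 : g * g' = 1) (h2 : g' * g = 1) (q k : ℕ) :
    aeval (g + (q : E) * g') ((X ^ 2 - C (((q : ℤ) + 1) ^ 2)) ^ k : ℤ[X]) =
      g' ^ (2 * k) * aeval g (((X ^ 2 - 1) * (X ^ 2 - C ((q : ℤ) ^ 2))) ^ k : ℤ[X]) := by
  set Θ : E := g + (q : E) * g' with hΘ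
  have hgΘ : g * Θ = g ^ 2 + (q : E) := by
    rw [hΘ, mul_add, ← mul_assoc, (Nat.cast_commute q g).eq.symm, mul_assoc, h1, mul_one, sq]
  have hΘg : Θ * g = g ^ 2 + (q : E) := by
    rw [hΘ, add_mul, mul_assoc, h2, mul_one, sq]
  have hcomm : Commute g Θ := hgΘ.trans hΘg.symm
  have hpoly : ((X ^ 2 - 1) * (X ^ 2 - C ((q : ℤ) ^ 2)) : ℤ[X]) =
      (X ^ 2 + C (q : ℤ)) ^ 2 - C (((q : ℤ) + 1) ^ 2) * X ^ 2 := by
    simp only [C_pow, C_add, C_1]
    ring
  have e1 : g ^ 2 * (Θ ^ 2 - ((((q : ℤ) + 1) ^ 2 : ℤ) : E)) =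
      aeval g ((X ^ 2 - 1) * (X ^ 2 - C ((q : ℤ) ^ 2)) : ℤ[X]) := by
    rw [hpoly, map_sub, map_pow, map_add, map_mul, map_pow, aeval_X, aeval_C, aeval_C,
      eq_intCast, eq_intCast, Int.cast_natCast, mul_sub, ← hcomm.mul_pow, hgΘ,
      (Int.cast_commute _ (g ^ 2)).eq]
  have hc2 : Commute (g ^ 2) (Θ ^ 2 - ((((q : ℤ) + 1) ^ 2 : ℤ) : E)) :=
    (hcomm.pow_pow 2 2).sub_right (Int.commute_cast _ _)
  have e2 : aeval Θ ((X ^ 2 - C (((q : ℤ) + 1) ^ 2)) ^ k : ℤ[X]) =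
      (Θ ^ 2 - ((((q : ℤ) + 1) ^ 2 : ℤ) : E)) ^ k := by
    rw [map_pow, map_sub, map_pow, aeval_X, aeval_C, eq_intCast]
  have e3 : g' ^ (2 * k) * (g ^ 2) ^ k = 1 := by
    have hc : Commute g' g := h2.trans h1.symm
    rw [← pow_mul, ← hc.mul_pow, h2, one_pow]
  rw [e2, map_pow, ← e1, hc2.mul_pow, ← mul_assoc, e3, one_mul]

end Bridge

section GaloisBridge

variable {X : Type} [AddCommGroup X] [DistribMulAction GQ X]

/-- **Bridge**: if `((σ² - 1)(σ² - q²)) ^ k` kills `x`, so does `F(Θ_σ)` for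
`F = (X² - (q + 1)²) ^ k`, `Θ_σ = σ + q σ⁻¹`. -/
theorem aeval_thetaOp_eq_zero (σ : GQ) (q k : ℕ) (x : X)
    (h : frobPoly X σ (((Polynomial.X ^ 2 - 1) * (Polynomial.X ^ 2 - C ((q : ℤ) ^ 2))) ^ k) x
      = 0) :
    (aeval (thetaOp X σ q) ((Polynomial.X ^ 2 - C (((q : ℤ) + 1) ^ 2)) ^ k : ℤ[X])) x = 0 := by
  have h1 : DistribMulAction.toAddMonoidEnd GQ X σ * DistribMulAction.toAddMonoidEnd GQ X σ⁻¹
      = 1 := by
    rw [← map_mul, mul_inv_cancel, map_one]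
  have h2 : DistribMulAction.toAddMonoidEnd GQ X σ⁻¹ * DistribMulAction.toAddMonoidEnd GQ X σ
      = 1 := by
    rw [← map_mul, inv_mul_cancel, map_one]
  have hΘ : thetaOp X σ q = DistribMulAction.toAddMonoidEnd GQ X σ +
      (q : AddMonoid.End X) * DistribMulAction.toAddMonoidEnd GQ X σ⁻¹ := by
    refine DFunLike.ext _ _ fun y => ?_
    show σ • y + q • σ⁻¹ • y = σ • y + (q : AddMonoid.End X) (σ⁻¹ • y)
    rw [AddMonoid.End.natCast_apply]
  rw [hΘ, aeval_theta_eq _ _ h1 h2 q k]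
  show (DistribMulAction.toAddMonoidEnd GQ X σ⁻¹ ^ (2 * k))
    (frobPoly X σ (((Polynomial.X ^ 2 - 1) * (Polynomial.X ^ 2 - C ((q : ℤ) ^ 2))) ^ k) x) = 0
  rw [h, map_zero]

end GaloisBridge

/-! ### the two contracts -/

/-- **(KS)** Kummer surjectivity up to a constant at level `N`, in `GeomInput` currency
(the conclusion of `GeomJacE.exists_geomInput_ks_of`). -/
def KS (p N : ℕ) [NeZero N] (S : Finset ℕ) : Prop :=
  ∃ I : GeomInput p N S, I.Compat ∧ I.FiniteTors ∧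
    ∃ e : I.X ≃+ ModularCurve.JZero N,
      (∀ (σ : GQ) (x : I.X), e (σ • x) = σ • e x) ∧
      (∀ (ℓ : Nat.Primes) (x : I.X), e (I.T ℓ x) = ModularCurve.heckeOperatorBar N ℓ (e x)) ∧
      ∃ c : ℕ, c ≠ 0 ∧ ∀ (n : ℕ) (x : I.X), p ^ n • x = 0 → ∃ v : I.Λ, c • x = I.θ n v

/-- **(GEOM)** the geometric contract of S35 at `(N, q, p)`: some polynomial dividing a power of
`(X² - 1)(X² - q²)` satisfies `Push.FrobRel`. -/
def Geom (N q p : ℕ) [NeZero N] [NeZero q] : Prop :=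
  ∃ (R : ℤ[X]) (k : ℕ),
    R ∣ ((Polynomial.X ^ 2 - 1) * (Polynomial.X ^ 2 - C ((q : ℤ) ^ 2))) ^ k ∧ FrobRel N q p R

/-! ### the assembly -/

/-- **`NewRel` at level `M' * q` from (KS) at level `M'` and the geometric contract.** -/
theorem newRel_of_frobRel {M' q : ℕ} [NeZero M'] [NeZero q] [NeZero (M' * q)]
    (hq : q.Prime) (lam : ℕ) [Fact lam.Prime] (S : Finset ℕ)
    {g : CuspForm (CongruenceSubgroup.Gamma0 (M' * q)) 2} (hg : g.IsNewform)
    (hlamS : lam ∈ S) (hMS : ∀ r : ℕ, r.Prime → r ∣ M' * q → r ∈ S)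
    (chig : CuspForm.heckeAlgebra (M' * q) 2 (↑S : Set ℕ) →+* ℂ)
    (hchig : ∀ (ℓ : ℕ) (hℓ : ℓ.Prime) (hℓM : ¬ ℓ ∣ M' * q) (hℓS : ℓ ∉ (↑S : Set ℕ)),
      chig (CuspForm.heckeAlgebra.T hℓ hℓM hℓS) = ModularFormClass.qCoeff g ℓ)
    (hKS : KS lam M' S) (hgeo : Geom M' q lam) :
    S35Of.NewRel lam (M' * q) S chig q := by
  obtain ⟨I, -, -, e, he⟩ := Fermat.Agent.S34.GeomJacU.exists_geomInput_equiv lam (M' * q) S
    (Fermat.Agent.S30.ThetaFam.exists_family (M' * q))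
    (Fermat.Agent.S30.PerLatJ.exists_lattice (M' * q) S hMS)
  obtain ⟨I', -, -, e', he', -, c, hc, hks⟩ := hKS
  obtain ⟨R, k, hRk, hR⟩ := hgeo
  -- the two degeneracy maps in `GeomInput` currency
  let a : I.X →+ I'.X := (e'.symm.toAddMonoidHom.comp (pushAlpha M' q)).comp e.toAddMonoidHom
  let b : I.X →+ I'.X := (e'.symm.toAddMonoidHom.comp (pushBeta M' q)).comp e.toAddMonoidHom
  have ha_def : ∀ x : I.X, a x = e'.symm (pushAlpha M' q (e x)) := fun x => rfl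
  have hb_def : ∀ x : I.X, b x = e'.symm (pushBeta M' q (e x)) := fun x => rfl
  have he'symm : ∀ (σ : GQ) (y : ModularCurve.JZero M'), e'.symm (σ • y) = σ • e'.symm y := by
    intro σ y
    apply e'.injective
    rw [he', e'.apply_symm_apply, e'.apply_symm_apply]
  have ha : ∀ (σ : GQ) (x : I.X), a (σ • x) = σ • a x := by
    intro σ x
    rw [ha_def, ha_def, he, pushAlpha_smul, he'symm]
  have hb : ∀ (σ : GQ) (x : I.X), b (σ • x) = σ • b x := by
    intro σ x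
    rw [hb_def, hb_def, he, pushBeta_smul, he'symm]
  -- the separator
  have hM'ne : M' ≠ M' * q := by
    intro h
    have h1 : M' * 1 = M' * q := by rw [mul_one]; exact h
    have h2 : 1 = q := Nat.eq_of_mul_eq_mul_left (Nat.pos_of_ne_zero (NeZero.ne M')) h1
    exact hq.one_lt.ne h2
  obtain ⟨s, hs0, hs⟩ := Fermat.Agent.S35.CharOccurs.exists_separator_chig hg S hMS chig hchig
    (dvd_mul_right M' q) hM'ne
  have hks' : ∀ (n : ℕ) (y : I'.X), lam ^ n • y = 0 → ∃ v' : I'.Λ, (c : ℤ) • y = I'.θ n v' := by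
    intro n y hy
    obtain ⟨v', hv'⟩ := hks n y hy
    exact ⟨v', by rw [natCast_zsmul]; exact hv'⟩
  refine ⟨I, a.ker ⊓ b.ker, (Polynomial.X ^ 2 - C (((q : ℤ) + 1) ^ 2)) ^ k,
    (c : ℤ) • MvPolynomial.aeval
      (fun ℓ : {ℓ : Nat.Primes // ¬ (ℓ : ℕ) ∣ M' * q ∧ (ℓ : ℕ) ∉ (↑S : Set ℕ)} =>
        (heckeAlgebra.T ℓ.1.2 ℓ.2.1 ℓ.2.2 : heckeAlgebra (M' * q) 2 (↑S : Set ℕ))) s,
    ?_, ?_, ?_, ?_⟩
  · -- `chig t ≠ 0`
    rw [map_zsmul, zsmul_eq_mul]
    exact mul_ne_zero (by exact_mod_cast hc) hs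
  · -- the roots of `F`
    intro T _ _ _ z hz
    rw [map_pow] at hz
    exact roots_sq q z (eq_zero_of_pow_eq_zero hz)
  · -- the relation
    intro A hA σ hσ n x hx hxn
    have hxa : a x = 0 := AddMonoidHom.mem_ker.mp hx.1
    have hxb : b x = 0 := AddMonoidHom.mem_ker.mp hx.2
    have h1 : pushAlpha M' q (e x) = 0 := by
      rw [ha_def] at hxa
      exact (AddEquiv.map_eq_zero_iff e'.symm).mp hxa
    have h2 : pushBeta M' q (e x) = 0 := by
      rw [hb_def] at hxb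
      exact (AddEquiv.map_eq_zero_iff e'.symm).mp hxb
    have h3 : lam ^ n • e x = 0 := by rw [← map_nsmul, hxn, map_zero]
    have h4 := (hR.of_dvd hRk) A hA σ hσ n (e x) h3 h1 h2
    have h5 : frobPoly I.X σ
        (((Polynomial.X ^ 2 - 1) * (Polynomial.X ^ 2 - C ((q : ℤ) ^ 2))) ^ k) x = 0 := by
      apply e.injective
      have h6 := frobPoly_map e.toAddMonoidHom σ (he σ)
        (((Polynomial.X ^ 2 - 1) * (Polynomial.X ^ 2 - C ((q : ℤ) ^ 2))) ^ k) x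
      rw [map_zero]
      exact h6.trans h4
    exact aeval_thetaOp_eq_zero σ q k x h5
  · -- `t` maps the lattice into the `q`-new part
    intro n v
    exact ⟨AddMonoidHom.mem_ker.mpr
        (Fermat.Agent.S35.GT.map_theta_hecke_eq_zero I I' a ha (dvd_mul_right M' q) hlamS
          (c : ℤ) hks' s hs0 n v),
      AddMonoidHom.mem_ker.mpr
        (Fermat.Agent.S35.GT.map_theta_hecke_eq_zero I I' b hb (dvd_mul_right M' q) hlamS
          (c : ℤ) hks' s hs0 n v)⟩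

/-- **`NewRel` at a level `M` exactly divisible by `q`**, from (KS) at the lower level `M / q`
and the geometric contract at `(M / q, q, lam)`. -/
theorem newRel_of_dvd {M : ℕ} [NeZero M] (lam : ℕ) [Fact lam.Prime] (S : Finset ℕ)
    {g : CuspForm (CongruenceSubgroup.Gamma0 M) 2} (hg : g.IsNewform)
    (hlamS : lam ∈ S) (hMS : ∀ r : ℕ, r.Prime → r ∣ M → r ∈ S)
    (chig : CuspForm.heckeAlgebra M 2 (↑S : Set ℕ) →+* ℂ)
    (hchig : ∀ (ℓ : ℕ) (hℓ : ℓ.Prime) (hℓM : ¬ ℓ ∣ M) (hℓS : ℓ ∉ (↑S : Set ℕ)),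
      chig (CuspForm.heckeAlgebra.T hℓ hℓM hℓS) = ModularFormClass.qCoeff g ℓ)
    (q : ℕ) (hq : q.Prime) (hqlam : q ≠ lam) (hqM : q ∣ M) (hq2 : ¬ q ^ 2 ∣ M)
    (hKS : ∀ (N : ℕ) [NeZero N], (∀ r : ℕ, r.Prime → r ∣ N → r ∈ S) → KS lam N S)
    (hgeo : ∀ (N r : ℕ) [NeZero N] [NeZero r], r.Prime → ¬ r ∣ N → r ≠ lam → Geom N r lam) :
    S35Of.NewRel lam M S chig q := by
  obtain ⟨M', rfl⟩ : ∃ M', M = M' * q := ⟨M / q, (Nat.div_mul_cancel hqM).symm⟩
  haveI : NeZero M' := ⟨fun h => NeZero.ne (M' * q) (by rw [h, zero_mul])⟩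
  haveI : NeZero q := ⟨hq.ne_zero⟩
  have hqM' : ¬ q ∣ M' := by
    intro h
    apply hq2
    rw [sq]
    exact Nat.mul_dvd_mul h (dvd_refl q)
  exact newRel_of_frobRel hq lam S hg hlamS hMS chig hchig
    (hKS M' (fun r hr h => hMS r hr (h.trans (dvd_mul_right M' q))))
    (hgeo M' q hq hqM' hqlam)

/-- **S35 from the two contracts (KS) and (GEOM).** -/
theorem s35_of_contracts
    {M : ℕ} [NeZero M] {g : CuspForm (CongruenceSubgroup.Gamma0 M) 2} (hg : g.IsNewform)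
    (lam : ℕ) [Fact lam.Prime]
    (S : Finset ℕ)
    (O' : Type) [CommRing O'] [IsDomain O'] [IsDiscreteValuationRing O']
    [IsAdicComplete (IsLocalRing.maximalIdeal O') O'] [Finite (IsLocalRing.ResidueField O')]
    [CharZero O'] (hlamO' : (lam : O') ∈ IsLocalRing.maximalIdeal O')
    (chig : CuspForm.heckeAlgebra M 2 (↑S : Set ℕ) →+* ℂ)
    (hchig : ∀ (ℓ : ℕ) (hℓ : ℓ.Prime) (hℓM : ¬ ℓ ∣ M) (hℓS : ℓ ∉ (↑S : Set ℕ)),
      chig (CuspForm.heckeAlgebra.T hℓ hℓM hℓS) = ModularFormClass.qCoeff g ℓ)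
    (iota : chig.range →+* O')
    (hlamS : lam ∈ S) (hMS : ∀ q : ℕ, q.Prime → q ∣ M → q ∈ S)
    (hKS : ∀ (N : ℕ) [NeZero N], (∀ r : ℕ, r.Prime → r ∣ N → r ∈ S) → KS lam N S)
    (hgeo : ∀ (N r : ℕ) [NeZero N] [NeZero r], r.Prime → ¬ r ∣ N → r ≠ lam → Geom N r lam) :
    ∃ (O'' : Type) (_ : CommRing O'') (_ : IsDomain O'') (_ : IsDiscreteValuationRing O'')
      (_ : IsAdicComplete (IsLocalRing.maximalIdeal O'') O'')
      (_ : Finite (IsLocalRing.ResidueField O''))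
      (_ : CharZero O'') (_ : Algebra O' O'') (_ : Module.Finite O' O'')
      (_ : IsLocalHom (algebraMap O' O'')),
      Function.Injective (algebraMap O' O'') ∧
      ∃ ρ : GaloisRepAdic O'',
        (∀ (ℓ : ℕ) (hℓ : ℓ.Prime) (hℓM : ¬ ℓ ∣ M) (hℓS : ℓ ∉ (↑S : Set ℕ)),
          ∀ A : ValuationSubring (AlgebraicClosure ℚ), A.LiesOverPrime ℓ →
            ∀ σ : AlgebraicClosure ℚ ≃ₐ[ℚ] AlgebraicClosure ℚ, A.IsFrobeniusAt σ ℓ →
              LinearMap.charpoly (ρ.ρ σ) =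
                Polynomial.X ^ 2 - C (algebraMap O' O'' ((iota.comp chig.rangeRestrict)
                  (CuspForm.heckeAlgebra.T hℓ hℓM hℓS))) * Polynomial.X + C ((ℓ : O''))) ∧
        (∀ q : ℕ, q.Prime → q ≠ lam → q ∣ M → ¬ q ^ 2 ∣ M →
          ∀ A : ValuationSubring (AlgebraicClosure ℚ), A.LiesOverPrime q →
            ∀ σ : AlgebraicClosure ℚ ≃ₐ[ℚ] AlgebraicClosure ℚ, A.IsFrobeniusAt σ q →
              LinearMap.charpoly (ρ.ρ σ) =
                  Polynomial.X ^ 2 - C ((q : O'') + 1) * Polynomial.X + C ((q : O'')) ∨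
              LinearMap.charpoly (ρ.ρ σ) =
                  Polynomial.X ^ 2 + C ((q : O'') + 1) * Polynomial.X + C ((q : O''))) :=
  S35Of.s35_of_newRel lam S O' hlamO' chig iota hlamS hMS
    (fun q hq hqlam hqM hq2 =>
      newRel_of_dvd lam S hg hlamS hMS chig hchig q hq hqlam hqM hq2 hKS hgeo)

end Fermat.Agent.S35.NewRelOf
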