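/-
S35 (wave 7): the frozen statement S35 from the SINGLE remaining input, the geometric contract.

`s35_of_geom`    : S35 from `∀ N r, r prime, r ∤ N, r ≠ lam → NewRelOf.Geom N r lam`
                   (some polynomial dividing a power of `(X² - 1)(X² - r²)` satisfies
                   `Push.FrobRel N r lam`);
`s35_of_frobRel` : S35 from `∀ N r, … → Push.FrobRel N r lam ((X² - 1)³ (X² - r²))`
                   (the relation `(σ² - 1)³ (σ² - r²) x = 0` on the `lam`-power torsion of the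
                   `r`-new part of `J₀(N r)(ℚ̄)`, for every Frobenius lift `σ` at `r`).

Everything else is on main: `NewRelOf.s35_of_contracts` (assembly) and `KS.exists_geomInput_ks`
(Kummer surjectivity up to a constant).
-/
import Mathlib
import Fermat.Agent.S35.NewRelOf
import Fermat.Agent.S35.KS

set_option autoImplicit false

open Polynomial

namespace Fermat.Agent.S35.S35Top

open Fermat.Agent.S30 Fermat.Agent.S35.Push Fermat.Agent.S35.NewRelOf CuspForm

/-- `(X² - 1)³ (X² - r²)` divides `((X² - 1)(X² - r²))³`. -/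
theorem geom_of_frobRel {N r p : ℕ} [NeZero N] [NeZero r]
    (h : FrobRel N r p ((Polynomial.X ^ 2 - 1) ^ 3 * (Polynomial.X ^ 2 - C ((r : ℤ) ^ 2)))) :
    Geom N r p :=
  ⟨_, 3, ⟨(Polynomial.X ^ 2 - C ((r : ℤ) ^ 2)) ^ 2, by ring⟩, h⟩

/-- **S35 from the geometric contract** (`Geom` form). -/
theorem s35_of_geom
    {M : ℕ} [NeZero M] {g : CuspForm (CongruenceSubgroup.Gamma0 M) 2} (hg : g.IsNewform)
    (lam : ℕ) [Fact lam.Prime]
    (S : Finset ℕ)
    (O' : Type) [CommRing O'] [IsDomain O'] [IsDiscreteValuationRing O']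
    [IsAdicComplete (IsLocalRing.maximalIdeal O') O'] [Finite (IsLocalRing.ResidueField O')]
    [CharZero O'] (hlamO' : (lam : O') ∈ IsLocalRing.maximalIdeal O')
    (chig : CuspForm.heckeAlgebra M 2 (↑S : Set ℕ) →+* ℂ)
    (hchig : ∀ (ℓ : ℕ) (hℓ : ℓ.Prime) (hℓM : ¬ ℓ ∣ M) (hℓS : ℓ ∉ (↑S : Set ℕ)),
      chig (CuspForm.heckeAlgebra.T hℓ hℓM hℓS) = ModularFormClass.qCoeff g ℓ)
    (iota : chig.range →+* O')
    (hlamS : lam ∈ S) (hMS : ∀ q : ℕ, q.Prime → q ∣ M → q ∈ S)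
    (hgeo : ∀ (N r : ℕ) [NeZero N] [NeZero r], r.Prime → ¬ r ∣ N → r ≠ lam → Geom N r lam) :
    ∃ (O'' : Type) (_ : CommRing O'') (_ : IsDomain O'') (_ : IsDiscreteValuationRing O'')
      (_ : IsAdicComplete (IsLocalRing.maximalIdeal O'') O'')
      (_ : Finite (IsLocalRing.ResidueField O''))
      (_ : CharZero O'') (_ : Algebra O' O'') (_ : Module.Finite O' O'')
      (_ : IsLocalHom (algebraMap O' O'')),
      Function.Injective (algebraMap O' O'') ∧
      ∃ ρ : GaloisRepAdic O'',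
        (∀ (ℓ : ℕ) (hℓ : ℓ.Prime) (hℓM : ¬ ℓ ∣ M) (hℓS : ℓ ∉ (↑S : Set ℕ)),
          ∀ A : ValuationSubring (AlgebraicClosure ℚ), A.LiesOverPrime ℓ →
            ∀ σ : AlgebraicClosure ℚ ≃ₐ[ℚ] AlgebraicClosure ℚ, A.IsFrobeniusAt σ ℓ →
              LinearMap.charpoly (ρ.ρ σ) =
                Polynomial.X ^ 2 - C (algebraMap O' O'' ((iota.comp chig.rangeRestrict)
                  (CuspForm.heckeAlgebra.T hℓ hℓM hℓS))) * Polynomial.X + C ((ℓ : O''))) ∧
        (∀ q : ℕ, q.Prime → q ≠ lam → q ∣ M → ¬ q ^ 2 ∣ M →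
          ∀ A : ValuationSubring (AlgebraicClosure ℚ), A.LiesOverPrime q →
            ∀ σ : AlgebraicClosure ℚ ≃ₐ[ℚ] AlgebraicClosure ℚ, A.IsFrobeniusAt σ q →
              LinearMap.charpoly (ρ.ρ σ) =
                  Polynomial.X ^ 2 - C ((q : O'') + 1) * Polynomial.X + C ((q : O'')) ∨
              LinearMap.charpoly (ρ.ρ σ) =
                  Polynomial.X ^ 2 + C ((q : O'') + 1) * Polynomial.X + C ((q : O''))) :=
  s35_of_contracts hg lam S O' hlamO' chig hchig iota hlamS hMS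
    (fun N _ hNS => Fermat.Agent.S35.KS.exists_geomInput_ks lam N S hNS) hgeo

/-- **S35 from the bad-prime Eichler–Shimura relation `(σ² - 1)³ (σ² - r²) = 0` on the
`lam`-power torsion of the `r`-new part.** -/
theorem s35_of_frobRel
    {M : ℕ} [NeZero M] {g : CuspForm (CongruenceSubgroup.Gamma0 M) 2} (hg : g.IsNewform)
    (lam : ℕ) [Fact lam.Prime]
    (S : Finset ℕ)
    (O' : Type) [CommRing O'] [IsDomain O'] [IsDiscreteValuationRing O']
    [IsAdicComplete (IsLocalRing.maximalIdeal O') O'] [Finite (IsLocalRing.ResidueField O')]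
    [CharZero O'] (hlamO' : (lam : O') ∈ IsLocalRing.maximalIdeal O')
    (chig : CuspForm.heckeAlgebra M 2 (↑S : Set ℕ) →+* ℂ)
    (hchig : ∀ (ℓ : ℕ) (hℓ : ℓ.Prime) (hℓM : ¬ ℓ ∣ M) (hℓS : ℓ ∉ (↑S : Set ℕ)),
      chig (CuspForm.heckeAlgebra.T hℓ hℓM hℓS) = ModularFormClass.qCoeff g ℓ)
    (iota : chig.range →+* O')
    (hlamS : lam ∈ S) (hMS : ∀ q : ℕ, q.Prime → q ∣ M → q ∈ S)
    (hES : ∀ (N r : ℕ) [NeZero N] [NeZero r], r.Prime → ¬ r ∣ N → r ≠ lam →
      FrobRel N r lam ((Polynomial.X ^ 2 - 1) ^ 3 * (Polynomial.X ^ 2 - C ((r : ℤ) ^ 2)))) :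
    ∃ (O'' : Type) (_ : CommRing O'') (_ : IsDomain O'') (_ : IsDiscreteValuationRing O'')
      (_ : IsAdicComplete (IsLocalRing.maximalIdeal O'') O'')
      (_ : Finite (IsLocalRing.ResidueField O''))
      (_ : CharZero O'') (_ : Algebra O' O'') (_ : Module.Finite O' O'')
      (_ : IsLocalHom (algebraMap O' O'')),
      Function.Injective (algebraMap O' O'') ∧
      ∃ ρ : GaloisRepAdic O'',
        (∀ (ℓ : ℕ) (hℓ : ℓ.Prime) (hℓM : ¬ ℓ ∣ M) (hℓS : ℓ ∉ (↑S : Set ℕ)),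
          ∀ A : ValuationSubring (AlgebraicClosure ℚ), A.LiesOverPrime ℓ →
            ∀ σ : AlgebraicClosure ℚ ≃ₐ[ℚ] AlgebraicClosure ℚ, A.IsFrobeniusAt σ ℓ →
              LinearMap.charpoly (ρ.ρ σ) =
                Polynomial.X ^ 2 - C (algebraMap O' O'' ((iota.comp chig.rangeRestrict)
                  (CuspForm.heckeAlgebra.T hℓ hℓM hℓS))) * Polynomial.X + C ((ℓ : O''))) ∧
        (∀ q : ℕ, q.Prime → q ≠ lam → q ∣ M → ¬ q ^ 2 ∣ M →
          ∀ A : ValuationSubring (AlgebraicClosure ℚ), A.LiesOverPrime q →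
            ∀ σ : AlgebraicClosure ℚ ≃ₐ[ℚ] AlgebraicClosure ℚ, A.IsFrobeniusAt σ q →
              LinearMap.charpoly (ρ.ρ σ) =
                  Polynomial.X ^ 2 - C ((q : O'') + 1) * Polynomial.X + C ((q : O'')) ∨
              LinearMap.charpoly (ρ.ρ σ) =
                  Polynomial.X ^ 2 + C ((q : O'') + 1) * Polynomial.X + C ((q : O''))) :=
  s35_of_geom hg lam S O' hlamO' chig hchig iota hlamS hMS
    (fun N r _ _ hr hrN hrlam => geom_of_frobRel (hES N r hr hrN hrlam))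

end Fermat.Agent.S35.S35Top
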