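/-
S35 (wave 7): the top of the geometric chain.  The frozen statement S35 from the TWO local
contracts of the Eichler–Shimura Kummer descent (Route C):

* `EsCoreT.EsLocT₁ M q p (EsGaussInst.esOp M q) A σ` : the local datum on the finite chart;
* `EsCoreT.EsLocT₂ M q p (EsGaussInst.esOp M q) A σ` : the local datum at the cusps.

Chain: `EsGaussInst.gaussContract` (Claim R) + the two contracts
⟹ `EsCoreT.esCoreT_of_contracts` (level core) ⟹ `EsPush.esQ_of_core` ((ES-q) over `ℚ̄`)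
⟹ `EsFinal.frobRel_of_esQ` (`(σ² - 1)³ (σ² - q²) = 0` on the `q`-new part)
⟹ `S35Top.s35_of_frobRel` (forms / Galois side).
-/
import Mathlib
import Fermat.Agent.S35.S35Top
import Fermat.Agent.S35.EsFinal
import Fermat.Agent.S35.EsPush
import Fermat.Agent.S35.EsCoreT
import Fermat.Agent.S35.EsGaussInst

set_option autoImplicit false

open Polynomial

namespace Fermat.Agent.S35.EsAsmTop

open Fermat.Agent.S30 Fermat.Agent.S35.Push CuspForm

local notation "Qb" => AlgebraicClosure ℚ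

/-- The two local contracts at `(M, q, p)`, for every place `A` over `q` and every Frobenius lift
`σ` at `A`. -/
def LocContracts (M q p : ℕ) [NeZero M] [NeZero q] : Prop :=
  ∀ A : ValuationSubring Qb, A.LiesOverPrime q → ∀ σ : Qb ≃ₐ[ℚ] Qb, A.IsFrobeniusAt σ q →
    EsCoreT.EsLocT₁ M q p (EsGaussInst.esOp M q) A σ ∧
    EsCoreT.EsLocT₂ M q p (EsGaussInst.esOp M q) A σ

/-- **The bad-prime Eichler–Shimura relation `(σ² - 1)³ (σ² - q²) = 0` on the `p`-power torsion
of the `q`-new part of `J₀(M q)(ℚ̄)`, from the two local contracts.** -/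
theorem frobRel_of_loc (M q p : ℕ) [NeZero M] [NeZero q] (hq : q.Prime) (hqM : ¬ q ∣ M)
    (hp : p.Prime) (hpq : p ≠ q) (h : LocContracts M q p) :
    FrobRel M q p ((Polynomial.X ^ 2 - 1) ^ 3 * (Polynomial.X ^ 2 - C ((q : ℤ) ^ 2))) :=
  EsFinal.frobRel_of_esQ hp.ne_zero hq hqM
    (EsPush.esQ_of_core M q p hq hqM fun A hA σ hσ =>
      EsCoreT.esCoreT_of_contracts M q p (EsGaussInst.esOp M q) hq hp hpq A σ
        (EsGaussInst.gaussContract M q hq hqM A σ hσ) (h A hA σ hσ).1 (h A hA σ hσ).2)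

/-- **S35 from the two local contracts.** -/
theorem s35_of_loc
    {M : ℕ} [NeZero M] {g : CuspForm (CongruenceSubgroup.Gamma0 M) 2} (hg : g.IsNewform)
    (lam : ℕ) [Fact lam.Prime]
    (S : Finset ℕ)
    (O' : Type) [CommRing O'] [IsDomain O'] [IsDiscreteValuationRing O']
    [IsAdicComplete (IsLocalRing.maximalIdeal O') O'] [Finite (IsLocalRing.ResidueField O')]
    [CharZero O'] (hlamO' : (lam : O') ∈ IsLocalRing.maximalIdeal O')
    (chig : CuspForm.heckeAlgebra M 2 (↑S : Set ℕ) →+* ℂ)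
    (hchig : ∀ (ℓ : ℕ) (hℓ : ℓ.Prime) (hℓM : ¬ ℓ ∣ M) (hℓS : ℓ ∉ (↑S : Set ℕ)),
      chig (CuspForm.heckeAlgebra.T hℓ hℓM hℓS) = ModularFormClass.qCoeff g ℓ)
    (iota : chig.range →+* O')
    (hlamS : lam ∈ S) (hMS : ∀ q : ℕ, q.Prime → q ∣ M → q ∈ S)
    (hloc : ∀ (N r : ℕ) [NeZero N] [NeZero r], r.Prime → ¬ r ∣ N → r ≠ lam →
      LocContracts N r lam) :
    ∃ (O'' : Type) (_ : CommRing O'') (_ : IsDomain O'') (_ : IsDiscreteValuationRing O'')
      (_ : IsAdicComplete (IsLocalRing.maximalIdeal O'') O'')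
      (_ : Finite (IsLocalRing.ResidueField O''))
      (_ : CharZero O'') (_ : Algebra O' O'') (_ : Module.Finite O' O'')
      (_ : IsLocalHom (algebraMap O' O'')),
      Function.Injective (algebraMap O' O'') ∧
      ∃ ρ : GaloisRepAdic O'',
        (∀ (ℓ : ℕ) (hℓ : ℓ.Prime) (hℓM : ¬ ℓ ∣ M) (hℓS : ℓ ∉ (↑S : Set ℕ)),
          ∀ A : ValuationSubring (AlgebraicClosure ℚ), A.LiesOverPrime ℓ →
            ∀ σ : AlgebraicClosure ℚ ≃ₐ[ℚ] AlgebraicClosure ℚ, A.IsFrobeniusAt σ ℓ →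
              LinearMap.charpoly (ρ.ρ σ) =
                Polynomial.X ^ 2 - C (algebraMap O' O'' ((iota.comp chig.rangeRestrict)
                  (CuspForm.heckeAlgebra.T hℓ hℓM hℓS))) * Polynomial.X + C ((ℓ : O''))) ∧
        (∀ q : ℕ, q.Prime → q ≠ lam → q ∣ M → ¬ q ^ 2 ∣ M →
          ∀ A : ValuationSubring (AlgebraicClosure ℚ), A.LiesOverPrime q →
            ∀ σ : AlgebraicClosure ℚ ≃ₐ[ℚ] AlgebraicClosure ℚ, A.IsFrobeniusAt σ q →
              LinearMap.charpoly (ρ.ρ σ) =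
                  Polynomial.X ^ 2 - C ((q : O'') + 1) * Polynomial.X + C ((q : O'')) ∨
              LinearMap.charpoly (ρ.ρ σ) =
                  Polynomial.X ^ 2 + C ((q : O'') + 1) * Polynomial.X + C ((q : O''))) :=
  S35Top.s35_of_frobRel hg lam S O' hlamO' chig hchig iota hlamS hMS
    (fun N r _ _ hr hrN hrlam =>
      frobRel_of_loc N r lam hr hrN Fact.out hrlam.symm (hloc N r hr hrN hrlam))

end Fermat.Agent.S35.EsAsmTop
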