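/-
S35 (wave 7, Route C), contract (EsLoc₂): the local datum of the Eichler–Shimura descent at the
cusps of the chart `W[1/j]` — the contract-level assembly (twin of `S34.GLoc` / `S34.KLocCusp`).

`E` is a level operator (`EsCore.LevelOp`), `w₀ := E L s w ((σ² - 1)² fL)`.

* `esLocT₂_of_closure` : `EsCoreT.EsLocT₂` from the clause on the carriers of the chart
  `W[1/j]` in the `IsIntegralClosure B W[X] F` shape (`algebraMap W[X] F = evFinf W (M q)`), at
  the maximal ideals containing `π` and `X ↦ 1/j` (via `S34.GLoc.hloc_cusp_of_closure`);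
* `CuspSmooth M q p A` : the smooth-point lemma at the cusps, as a statement about an ARBITRARY
  function `w₀ ≡ 1` on the Gauss ring whose divisor over `ℚ̄` is divisible by `p ^ n` and
  supported at places rational at the level;
* `RatDvd M q p E A σ` : the divisor of `w₀ = E ((σ² - 1)² fL)` over `ℚ̄` is divisible by `p ^ n`
  and supported at rational places, at all large levels;
* `esLocT₂_of_smooth` : `GaussContract → RatDvd → CuspSmooth → EsLocT₂`.
-/
import Mathlib
import Fermat.Agent.S35.EsCoreT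
import Fermat.Agent.S34.GLoc

set_option autoImplicit false
set_option linter.unusedSectionVars false
set_option linter.style.haveILetI false

noncomputable section

namespace Fermat.Agent.S35.EsLoc2

open Polynomial ModularCurve AlgebraicCurve Fermat.Agent.S18 Fermat.Agent.S18.Endgame
  Fermat.Agent.S37
open Fermat.Agent.S34 Fermat.Agent.S34.KummerStep Fermat.Agent.S34.GDescent
open Fermat.Agent.S35.EsCore Fermat.Agent.S35.EsCoreT

local notation "Qb" => AlgebraicClosure ℚ

variable (M q p : ℕ) [NeZero M] [NeZero q]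

set_option maxHeartbeats 800000 in
/-- **`EsCoreT.EsLocT₂` from the clause on the carriers in the `IsIntegralClosure` shape**
(`algebraMap W[X] F = evFinf W (M q)`, `X ↦ 1/j`), at the maximal ideals containing `π` and
`X`. -/
theorem esLocT₂_of_closure (E : LevelOp (M * q)) (A : ValuationSubring Qb) (σ : Qb ≃ₐ[ℚ] Qb)
    (hK : ∀ (n : ℕ) (D : Divisor Qb (modularFunctionFieldBar (M * q)))
      (f : modularFunctionFieldBar (M * q)), f ≠ 0 →
      (∀ P : Place Qb (modularFunctionFieldBar (M * q)), P.ord f = (p : ℤ) ^ n * D P) →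
      ∃ (S₀ : Finset Qb) (T : Finset (Place Qb (modularFunctionFieldBar (M * q)))),
        ∀ (L : Type) [Field L] [Algebra ℚ L] (ι : L →+* Qb),
        LevelChange.IsLevel A q S₀ ι → GalLevel.IsStable ι →
        ∀ fL : S24.FF L (M * q),
          S24.CoeffBC.bc ι (modularFunctionFieldFull (M * q)) fL = f →
        (∀ P ∈ T, RatAtLevel (M * q) ι P) →
        ∀ ϖ : ↥(A.comap ι), Irreducible ϖ →
        ∀ s : L ≃+* L, (∀ c : L, ι (s c) = σ (ι c)) →
        ∀ w : S24.FF L (M * q) ≃ₐ[L] S24.FF L (M * q),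
          (w : S24.FF L (M * q) →ₐ[L] S24.FF L (M * q)).comp (heckeAlphaBar L M q) =
            heckeBetaBar L M q →
          (w : S24.FF L (M * q) →ₐ[L] S24.FF L (M * q)).comp (heckeBetaBar L M q) =
            heckeAlphaBar L M q →
        ∀ [Algebra (↥(A.comap ι))[X] (S24.FF L (M * q))],
          algebraMap (↥(A.comap ι))[X] (S24.FF L (M * q)) = Gauss.evFinf (A.comap ι) (M * q) →
        ∀ (B : Type) [CommRing B] [Algebra (↥(A.comap ι))[X] B] [Algebra B (S24.FF L (M * q))]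
          [IsScalarTower (↥(A.comap ι))[X] B (S24.FF L (M * q))]
          [IsIntegralClosure B (↥(A.comap ι))[X] (S24.FF L (M * q))]
          (𝔪 : Ideal B), 𝔪.IsMaximal → algebraMap (↥(A.comap ι))[X] B (C ϖ) ∈ 𝔪 →
          algebraMap (↥(A.comap ι))[X] B X ∈ 𝔪 →
          ∃ g : S24.FF L (M * q), GaussOne ϖ (S24.jBC L (M * q)) g ∧ ∃ d : B, d ∉ 𝔪 ∧
            ∃ t : B, algebraMap B (S24.FF L (M * q)) t =
              algebraMap B (S24.FF L (M * q)) d *
                (E L s w (DDGauss.dd (M * q) (s.trans s) fL) * g ^ (p ^ n))) :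
    EsLocT₂ M q p E A σ := by
  intro n D f hf hD
  obtain ⟨S₀, T, hS₀⟩ := hK n D f hf hD
  refine ⟨S₀, T, ?_⟩
  intro L _ _ ι hlev hst fL hfL hrat ϖ hϖ s hs w hwα hwβ
  letI : Algebra (↥(A.comap ι))[X] (S24.FF L (M * q)) :=
    (Gauss.evFinf (A.comap ι) (M * q)).toAlgebra
  exact GLoc.hloc_cusp_of_closure (A.comap ι) (M * q) rfl
    ↥(integralClosure (↥(A.comap ι))[X] (S24.FF L (M * q))) ϖ
    (fun g => GaussOne ϖ (S24.jBC L (M * q)) g)
    (fun g => E L s w (DDGauss.dd (M * q) (s.trans s) fL) * g ^ (p ^ n))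
    (fun 𝔪 h𝔪 hC hX => hS₀ L ι hlev hst fL hfL hrat ϖ hϖ s hs w hwα hwβ rfl
      ↥(integralClosure (↥(A.comap ι))[X] (S24.FF L (M * q))) 𝔪 h𝔪 hC hX)

/-- **The smooth-point lemma at the cusps** (package (C4), cusp chart), as a contract: at every
(sufficiently large, Galois-stable) level, for every function `w₀ ≡ 1` on the Gauss ring whose
divisor over `ℚ̄` is divisible by `p ^ n` and supported at places rational at the level, on every
carrier `B` of the chart `W[1/j]` and at every maximal ideal `𝔪 ∋ π, 1/j` there is `g ≡ 1` on the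
Gauss ring with `w₀ * g ^ (p ^ n)` regular at `𝔪`. -/
def CuspSmooth (A : ValuationSubring Qb) : Prop :=
  ∃ S₀ : Finset Qb, ∀ (L : Type) [Field L] [Algebra ℚ L] (ι : L →+* Qb),
    LevelChange.IsLevel A q S₀ ι → GalLevel.IsStable ι →
    ∀ ϖ : ↥(A.comap ι), Irreducible ϖ →
    ∀ (n : ℕ) (w₀ : S24.FF L (M * q)), GaussOne ϖ (S24.jBC L (M * q)) w₀ →
    (∀ Q : Place Qb (modularFunctionFieldBar (M * q)),
      ((p : ℤ) ^ n) ∣ Q.ord (S24.CoeffBC.bc ι (modularFunctionFieldFull (M * q)) w₀)) →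
    (∀ Q : Place Qb (modularFunctionFieldBar (M * q)),
      Q.ord (S24.CoeffBC.bc ι (modularFunctionFieldFull (M * q)) w₀) ≠ 0 →
      RatAtLevel (M * q) ι Q) →
    ∀ [Algebra (↥(A.comap ι))[X] (S24.FF L (M * q))],
      algebraMap (↥(A.comap ι))[X] (S24.FF L (M * q)) = Gauss.evFinf (A.comap ι) (M * q) →
    ∀ (B : Type) [CommRing B] [Algebra (↥(A.comap ι))[X] B] [Algebra B (S24.FF L (M * q))]
      [IsScalarTower (↥(A.comap ι))[X] B (S24.FF L (M * q))]
      [IsIntegralClosure B (↥(A.comap ι))[X] (S24.FF L (M * q))]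
      (𝔪 : Ideal B), 𝔪.IsMaximal → algebraMap (↥(A.comap ι))[X] B (C ϖ) ∈ 𝔪 →
      algebraMap (↥(A.comap ι))[X] B X ∈ 𝔪 →
      ∃ g : S24.FF L (M * q), GaussOne ϖ (S24.jBC L (M * q)) g ∧ ∃ d : B, d ∉ 𝔪 ∧
        ∃ t : B, algebraMap B (S24.FF L (M * q)) t =
          algebraMap B (S24.FF L (M * q)) d * (w₀ * g ^ (p ^ n))

/-- **Rationality and divisibility of the divisor of `E ((σ² - 1)² fL)`**, as a contract: for
`div f = p ^ n • D`, at every sufficiently large Galois-stable level where `f = bc fL`, every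
order of `bc (E ((σ² - 1)² fL))` is divisible by `p ^ n`, and the places where it does not vanish
are rational at the level. -/
def RatDvd (E : LevelOp (M * q)) (A : ValuationSubring Qb) (σ : Qb ≃ₐ[ℚ] Qb) : Prop :=
  ∀ (n : ℕ) (D : Divisor Qb (modularFunctionFieldBar (M * q)))
    (f : modularFunctionFieldBar (M * q)), f ≠ 0 →
    (∀ P : Place Qb (modularFunctionFieldBar (M * q)), P.ord f = (p : ℤ) ^ n * D P) →
    ∃ S₀ : Finset Qb, ∀ (L : Type) [Field L] [Algebra ℚ L] (ι : L →+* Qb),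
      LevelChange.IsLevel A q S₀ ι → GalLevel.IsStable ι →
      ∀ fL : S24.FF L (M * q),
        S24.CoeffBC.bc ι (modularFunctionFieldFull (M * q)) fL = f →
      ∀ s : L ≃+* L, (∀ c : L, ι (s c) = σ (ι c)) →
      ∀ w : S24.FF L (M * q) ≃ₐ[L] S24.FF L (M * q),
        (w : S24.FF L (M * q) →ₐ[L] S24.FF L (M * q)).comp (heckeAlphaBar L M q) =
          heckeBetaBar L M q →
        (w : S24.FF L (M * q) →ₐ[L] S24.FF L (M * q)).comp (heckeBetaBar L M q) =
          heckeAlphaBar L M q →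
      (∀ Q : Place Qb (modularFunctionFieldBar (M * q)),
        ((p : ℤ) ^ n) ∣ Q.ord (S24.CoeffBC.bc ι (modularFunctionFieldFull (M * q))
          (E L s w (DDGauss.dd (M * q) (s.trans s) fL)))) ∧
      (∀ Q : Place Qb (modularFunctionFieldBar (M * q)),
        Q.ord (S24.CoeffBC.bc ι (modularFunctionFieldFull (M * q))
          (E L s w (DDGauss.dd (M * q) (s.trans s) fL))) ≠ 0 →
        RatAtLevel (M * q) ι Q)

set_option maxHeartbeats 800000 in
/-- **(EsLoc₂) from Claim R, the divisor bookkeeping and the smooth-point lemma at the cusps.** -/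
theorem esLocT₂_of_smooth (E : LevelOp (M * q)) (A : ValuationSubring Qb) (σ : Qb ≃ₐ[ℚ] Qb)
    (hG : GaussContract M q E A σ) (hRD : RatDvd M q p E A σ) (hSM : CuspSmooth M q p A) :
    EsLocT₂ M q p E A σ := by
  classical
  refine esLocT₂_of_closure M q p E A σ ?_
  intro n D f hf hD
  obtain ⟨S₁, hS₁⟩ := hG
  obtain ⟨S₂, hS₂⟩ := hRD n D f hf hD
  obtain ⟨S₃, hS₃⟩ := hSM
  refine ⟨S₁ ∪ (S₂ ∪ S₃), ∅, ?_⟩
  intro L _ _ ι hlev hst fL hfL _ ϖ hϖ s hs w hwα hwβ _ halg B _ _ _ _ _ 𝔪 h𝔪 hC hX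
  have hl₁ : LevelChange.IsLevel A q S₁ ι := GalLevel.isLevel_mono hlev Finset.subset_union_left
  have hl₂ : LevelChange.IsLevel A q S₂ ι := GalLevel.isLevel_mono hlev
    (Finset.subset_union_left.trans Finset.subset_union_right)
  have hl₃ : LevelChange.IsLevel A q S₃ ι := GalLevel.isLevel_mono hlev
    (Finset.subset_union_right.trans Finset.subset_union_right)
  have hfL0 : fL ≠ 0 := by
    rintro rfl
    exact hf (by rw [← hfL, map_zero])
  have hf₂ : DDGauss.dd (M * q) (s.trans s) fL ≠ 0 := DDGauss.dd_ne_zero (M * q) (s.trans s) hfL0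
  obtain ⟨hdvd, hratz⟩ := hS₂ L ι hl₂ hst fL hfL s hs w hwα hwβ
  exact hS₃ L ι hl₃ hst ϖ hϖ n (E L s w (DDGauss.dd (M * q) (s.trans s) fL))
    (hS₁ L ι hl₁ hst ϖ hϖ s hs w hwα hwβ _ hf₂) hdvd hratz halg B 𝔪 h𝔪 hC hX

end Fermat.Agent.S35.EsLoc2
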