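import Mathlib
import Fermat.Agent.S35.EsOrd
import Fermat.Agent.S37.HeckeInputs

/-!
# S35 (Route C, package (C3a)): the norm formula along the two degeneracy maps

The hypothesis `EsOrd.NormOrd` of `EsOrd.ord_esBar` for `α = heckeAlphaBar ℚ̄ N ℓ` and
`β = heckeBetaBar ℚ̄ N ℓ` (from `S37.FunctionFieldMaps.sum_fiberAlong_ord`), and the resulting
order formula / vanishing statement for the Eichler–Shimura operator at level `N ℓ` over `ℚ̄`.
-/

set_option autoImplicit false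

noncomputable section

namespace Fermat.Agent.S35.EsOrdInst

open AlgebraicCurve ModularCurve Fermat.Agent.S37 Fermat.Agent.S35

local notation "Qb" => AlgebraicClosure ℚ

variable (N ℓ : ℕ) [NeZero N] [NeZero ℓ]

/-- The norm formula along `α`. -/
theorem normOrd_alpha :
    EsOrd.NormOrd (heckeAlphaBar Qb N ℓ) (HeckeInputs.alphaIntegral N ℓ) := by
  intro v f hf
  obtain ⟨hx, hfd⟩ := Fermat.Agent.S18.Witness.bar_transcendental_finite N
  obtain ⟨hx', hfd'⟩ := Fermat.Agent.S18.Witness.bar_transcendental_finite (N * ℓ)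
  exact FunctionFieldMaps.sum_fiberAlong_ord (heckeAlphaBar Qb N ℓ) _ hx _ hx'
    (HeckeInputs.alphaIntegral N ℓ) v f hf

/-- The norm formula along `β`. -/
theorem normOrd_beta :
    EsOrd.NormOrd (heckeBetaBar Qb N ℓ) (HeckeInputs.betaIntegral N ℓ) := by
  intro v f hf
  obtain ⟨hx, hfd⟩ := Fermat.Agent.S18.Witness.bar_transcendental_finite N
  obtain ⟨hx', hfd'⟩ := Fermat.Agent.S18.Witness.bar_transcendental_finite (N * ℓ)
  exact FunctionFieldMaps.sum_fiberAlong_ord (heckeBetaBar Qb N ℓ) _ hx _ hx'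
    (HeckeInputs.betaIntegral N ℓ) v f hf

variable (g : SemilinearAut Qb (modularFunctionFieldBar (N * ℓ)))
  (w : modularFunctionFieldBar (N * ℓ) ≃ₐ[Qb] modularFunctionFieldBar (N * ℓ)) (q : ℕ)

/-- **No horizontal divisor, level `N ℓ` over `ℚ̄`.**  If `y` has order `0` on a class `C₀` of
places containing `g⁻¹ • Q`, `g • Q`, `w⁻¹ • Q` and the two correspondence fibres of `Q`, then
`esBar y` has order `0` at `Q`. -/
theorem ord_esBar_eq_zero (C₀ : Place Qb (modularFunctionFieldBar (N * ℓ)) → Prop)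
    (Q : Place Qb (modularFunctionFieldBar (N * ℓ)))
    (hg : C₀ (g⁻¹ • Q)) (hg' : C₀ (g • Q)) (hw : C₀ (w⁻¹ • Q))
    (hfα : ∀ P : Place Qb (modularFunctionFieldBar (N * ℓ)),
      P.restrictAlong (heckeBetaBar Qb N ℓ) (HeckeInputs.betaIntegral N ℓ) =
        Q.restrictAlong (heckeAlphaBar Qb N ℓ) (HeckeInputs.alphaIntegral N ℓ) → C₀ P)
    (hfβ : ∀ P : Place Qb (modularFunctionFieldBar (N * ℓ)),
      P.restrictAlong (heckeAlphaBar Qb N ℓ) (HeckeInputs.alphaIntegral N ℓ) =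
        Q.restrictAlong (heckeBetaBar Qb N ℓ) (HeckeInputs.betaIntegral N ℓ) → C₀ P)
    {y : modularFunctionFieldBar (N * ℓ)} (hy : y ≠ 0)
    (hy₀ : ∀ P : Place Qb (modularFunctionFieldBar (N * ℓ)), C₀ P → P.ord y = 0) :
    Q.ord (EsOrd.esBar g w (heckeAlphaBar Qb N ℓ) (heckeBetaBar Qb N ℓ) q y) = 0 :=
  EsOrd.ord_esBar_eq_zero g w _ _ q (HeckeInputs.alphaIntegral N ℓ) (HeckeInputs.betaIntegral N ℓ)
    (normOrd_alpha N ℓ) (normOrd_beta N ℓ) C₀ Q hg hg' hw hfα hfβ hy hy₀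

end Fermat.Agent.S35.EsOrdInst
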