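import Mathlib
import Fermat.Agent.S35.EsOrdInst
import Fermat.Agent.S34.GDescent

/-!
# S35 (Route C): divisibility and rationality of the divisor of `ES (dd f)`

The two `S₀`/order inputs of the smooth-point case of the local datum for the Eichler–Shimura
operator, over `ℚ̄`:

* `dvd_ord_esBar` : if every order of `y` is divisible by `m`, so is every order of
  `EsOrd.esBar g w α β q y` (from the order formula `EsOrd.ord_esBar`);
* `dvd_ord_dd`, `dvd_ord_dd_of_div` : the same for the double difference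
  `g (g f) * f / (g f) ^ 2`;
* `exists_level_ratAt` : the finitely many places in the divisor of a nonzero function of
  `F_N / ℚ̄` are rational at every level containing a suitable finite set `S₀`
  (`S37.RatPlace.exists_rational_level_finset`);
* `exists_level_es` : both statements for `z = esBar g w α β q (dd_{g} f)` at level `N ℓ`.
-/

set_option autoImplicit false

noncomputable section

namespace Fermat.Agent.S35.EsRat

open AlgebraicCurve ModularCurve Fermat.Agent.S37 Fermat.Agent.S35 Fermat.Agent.S34.DDLocal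

local notation "Qb" => AlgebraicClosure ℚ

section Abstract

variable {K F F' : Type*} [Field K] [Field F] [Field F'] [Algebra K F] [Algebra K F']

/-- the double difference of a function whose orders are all divisible by `m` has all its
orders divisible by `m` -/
theorem dvd_ord_dd (g : SemilinearAut K F) (m : ℤ) {f : F} (hf : f ≠ 0)
    (h : ∀ P : Place K F, m ∣ P.ord f) (Q : Place K F) :
    m ∣ Q.ord (g • g • f * f / (g • f) ^ 2) := by
  have h1 : g • f ≠ 0 := (smul_ne_zero_iff_ne g).mpr hf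
  have h2 : g • g • f ≠ 0 := (smul_ne_zero_iff_ne g).mpr h1
  rw [div_eq_mul_inv, Q.ord_mul (mul_ne_zero h2 hf) (inv_ne_zero (pow_ne_zero 2 h1)),
    Q.ord_mul h2 hf, Place.ord_inv, ← zpow_natCast (g • f) 2, Place.ord_zpow, ord_smul_left,
    ord_smul_left, ord_smul_left]
  exact dvd_add (dvd_add (h _) (h _)) ((Dvd.dvd.mul_left (h _) _).neg_right)

/-- the double difference of a function with `div f = m • D` -/
theorem dvd_ord_dd_of_div (g : SemilinearAut K F) (m : ℤ) {f : F} (hf : f ≠ 0)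
    (D : Place K F → ℤ) (hD : ∀ P : Place K F, P.ord f = m * D P) (Q : Place K F) :
    m ∣ Q.ord (g • g • f * f / (g • f) ^ 2) :=
  dvd_ord_dd g m hf (fun P => ⟨D P, hD P⟩) Q

variable [HasPrincipalDivisors K F]
  (g : SemilinearAut K F) (w : F ≃ₐ[K] F) (α β : F' →ₐ[K] F) (q : ℕ)
  (hα : α.toRingHom.IsIntegral) (hβ : β.toRingHom.IsIntegral)

/-- **Divisibility of the divisor of `esBar y`.** -/
theorem dvd_ord_esBar (hNα : EsOrd.NormOrd α hα) (hNβ : EsOrd.NormOrd β hβ) (m : ℤ) {y : F}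
    (hy : y ≠ 0) (h : ∀ P : Place K F, m ∣ P.ord y) (Q : Place K F) :
    m ∣ Q.ord (EsOrd.esBar g w α β q y) := by
  rw [EsOrd.ord_esBar g w α β q hα hβ hNα hNβ Q hy]
  exact dvd_sub (dvd_sub (dvd_add (dvd_add (h _) (Dvd.dvd.mul_left (h _) _))
    (Dvd.dvd.mul_left (h _) _)) (Dvd.dvd.mul_left (Finset.dvd_sum fun P _ => h P) _))
    (Dvd.dvd.mul_left (Finset.dvd_sum fun P _ => h P) _)

end Abstract

section Level

variable (N : ℕ) [NeZero N]

/-- **Rationality of the divisor of a nonzero function at all large levels.** -/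
theorem exists_level_ratAt (z : modularFunctionFieldBar N) (hz : z ≠ 0) :
    ∃ S₀ : Finset Qb, ∀ (L : Type) [Field L] [Algebra ℚ L] (ι : L →+* Qb),
      (∀ a ∈ S₀, ∃ b : L, ι b = a) →
      ∀ Q : Place Qb (modularFunctionFieldBar N), Q.ord z ≠ 0 →
        Fermat.Agent.S34.GDescent.RatAtLevel N ι Q := by
  classical
  obtain ⟨D, hD, -⟩ := HasPrincipalDivisors.exists_divisor (K := Qb) z hz
  obtain ⟨S, hS⟩ := RatPlace.exists_rational_level_finset N D.support
  refine ⟨S, fun L _ _ ι hι Q hQ => hS L ι hι Q (Finsupp.mem_support_iff.mpr ?_)⟩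
  rw [hD Q]
  exact hQ

end Level

section Es

variable (N ℓ : ℕ) [NeZero N] [NeZero ℓ]
  (g₁ g : SemilinearAut Qb (modularFunctionFieldBar (N * ℓ)))
  (w : modularFunctionFieldBar (N * ℓ) ≃ₐ[Qb] modularFunctionFieldBar (N * ℓ)) (q : ℕ)

/-- **Divisibility, level `N ℓ` over `ℚ̄`.** -/
theorem dvd_ord_esBar_level (m : ℤ) {y : modularFunctionFieldBar (N * ℓ)} (hy : y ≠ 0)
    (h : ∀ P : Place Qb (modularFunctionFieldBar (N * ℓ)), m ∣ P.ord y)
    (Q : Place Qb (modularFunctionFieldBar (N * ℓ))) :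
    m ∣ Q.ord (EsOrd.esBar g₁ w (heckeAlphaBar Qb N ℓ) (heckeBetaBar Qb N ℓ) q y) :=
  dvd_ord_esBar g₁ w _ _ q (HeckeInputs.alphaIntegral N ℓ) (HeckeInputs.betaIntegral N ℓ)
    (EsOrdInst.normOrd_alpha N ℓ) (EsOrdInst.normOrd_beta N ℓ) m hy h Q

/-- **The two inputs of the smooth-point case for `z = ES (dd_g f)`**, `div f = m • D`: every
order of `z` is divisible by `m`, and the places in the divisor of `z` are rational at every
level containing a suitable finite set. -/
theorem exists_level_es (m : ℤ) {f : modularFunctionFieldBar (N * ℓ)} (hf : f ≠ 0)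
    (h : ∀ P : Place Qb (modularFunctionFieldBar (N * ℓ)), m ∣ P.ord f) :
    (∀ Q : Place Qb (modularFunctionFieldBar (N * ℓ)),
      m ∣ Q.ord (EsOrd.esBar g₁ w (heckeAlphaBar Qb N ℓ) (heckeBetaBar Qb N ℓ) q
        (g • g • f * f / (g • f) ^ 2))) ∧
    ∃ S₀ : Finset Qb, ∀ (L : Type) [Field L] [Algebra ℚ L] (ι : L →+* Qb),
      (∀ a ∈ S₀, ∃ b : L, ι b = a) →
      ∀ Q : Place Qb (modularFunctionFieldBar (N * ℓ)),
        Q.ord (EsOrd.esBar g₁ w (heckeAlphaBar Qb N ℓ) (heckeBetaBar Qb N ℓ) q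
          (g • g • f * f / (g • f) ^ 2)) ≠ 0 →
        Fermat.Agent.S34.GDescent.RatAtLevel (N * ℓ) ι Q := by
  have h1 : g • f ≠ 0 := (smul_ne_zero_iff_ne g).mpr hf
  have h2 : g • g • f ≠ 0 := (smul_ne_zero_iff_ne g).mpr h1
  have hdd : g • g • f * f / (g • f) ^ 2 ≠ 0 :=
    div_ne_zero (mul_ne_zero h2 hf) (pow_ne_zero 2 h1)
  refine ⟨dvd_ord_esBar_level N ℓ g₁ w q m hdd (dvd_ord_dd g m hf h), ?_⟩
  exact exists_level_ratAt (N * ℓ) _
    (EsOrd.esBar_ne_zero g₁ w (heckeAlphaBar Qb N ℓ) (heckeBetaBar Qb N ℓ) q hdd)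

end Es

end Fermat.Agent.S35.EsRat
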