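/-
S35 (wave 7, Route C): the contract `EsLoc2.RatDvd` for the Eichler–Shimura operator — the
divisor over `ℚ̄` of `E ((σ² - 1)² fL)` is divisible by `p ^ n` and supported at places rational
at every sufficiently large level.  (The `S₀`/order input of the smooth-point case of the local
datum: cusps `EsLoc2.CuspSmooth`, and the smooth points of the finite chart.)

* `bc_dd` : the change of level of the double difference `DDGauss.dd N t y` is the double
  difference over `ℚ̄` for the arithmetic Galois action of a lift of `t`;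
* `ratDvd_of_bridge` : `RatDvd` for every level operator `E` whose change of level to `ℚ̄` is
  `EsOrd.esBar` (`EsRat.exists_level_es` + a primitive `q`-th root of unity in `S₀`);
* `ratDvd_esNorm`, `ratDvd_esOp` : the two (equal) presentations `EsNorm.esL`, `EsOp.esL` of the
  Eichler–Shimura operator at a level.
-/
import Mathlib
import Fermat.Agent.S35.EsLoc2
import Fermat.Agent.S35.EsRat
import Fermat.Agent.S35.EsNorm
import Fermat.Agent.S35.EsOp
import Fermat.Agent.S34.FrobPartner

set_option autoImplicit false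
set_option linter.unusedSectionVars false
set_option linter.style.haveILetI false

noncomputable section

namespace Fermat.Agent.S35.EsRatDvd

open ModularCurve AlgebraicCurve Fermat.Agent.S18 Fermat.Agent.S24 Fermat.Agent.S37
open Fermat.Agent.S34 Fermat.Agent.S34.GDescent Fermat.Agent.S34.CoeffAut
open Fermat.Agent.S35.EsCore Fermat.Agent.S35.EsLoc2

local notation "Qb" => AlgebraicClosure ℚ

/-- the change of level of the coefficient action -/
theorem bc_act (N : ℕ) [NeZero N] {L : Type} [Field L] [Algebra ℚ L] (ι : L →+* Qb)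
    (σ₂ : Qb ≃ₐ[ℚ] Qb) (t : L ≃+* L) (ht : ∀ c : L, ι (t c) = σ₂ (ι c)) (x : FF L N) :
    CoeffBC.bc ι (modularFunctionFieldFull N) (act N t x) =
      arithmeticGalois (modularFunctionFieldFull N) σ₂ •
        CoeffBC.bc ι (modularFunctionFieldFull N) x :=
  GRat.bc_bc_eq_smul N ι σ₂ (t : L →+* L) ht x

/-- the change of level is multiplicative on the double difference -/
theorem bc_dd_aux (N : ℕ) [NeZero N] {L : Type} [Field L] [Algebra ℚ L] (ι : L →+* Qb)
    (t : L ≃+* L) (y : FF L N) :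
    CoeffBC.bc ι (modularFunctionFieldFull N) (DDGauss.dd N t y) =
      CoeffBC.bc ι (modularFunctionFieldFull N) (act N t (act N t y)) *
        CoeffBC.bc ι (modularFunctionFieldFull N) y /
        (CoeffBC.bc ι (modularFunctionFieldFull N) (act N t y)) ^ 2 := by
  rw [DDGauss.dd_def, map_div₀, map_mul, map_pow]

/-- **The change of level of the double difference**: if `bc y = f` then `bc (dd_t y)` is the
double difference of `f` over `ℚ̄` for the arithmetic Galois action of a lift `σ₂` of `t`. -/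
theorem bc_dd (N : ℕ) [NeZero N] {L : Type} [Field L] [Algebra ℚ L] (ι : L →+* Qb)
    (σ₂ : Qb ≃ₐ[ℚ] Qb) (t : L ≃+* L) (ht : ∀ c : L, ι (t c) = σ₂ (ι c)) (y : FF L N)
    (f : modularFunctionFieldBar N) (hf : CoeffBC.bc ι (modularFunctionFieldFull N) y = f) :
    CoeffBC.bc ι (modularFunctionFieldFull N) (DDGauss.dd N t y) =
      arithmeticGalois (modularFunctionFieldFull N) σ₂ •
          arithmeticGalois (modularFunctionFieldFull N) σ₂ • f * f /
        (arithmeticGalois (modularFunctionFieldFull N) σ₂ • f) ^ 2 := by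
  subst hf
  rw [bc_dd_aux, bc_act N ι σ₂ t ht (act N t y), bc_act N ι σ₂ t ht y]

variable (M q p : ℕ) [NeZero M] [NeZero q]

set_option maxHeartbeats 800000 in
/-- **`RatDvd` for every level operator that becomes `EsOrd.esBar` over `ℚ̄`.** -/
theorem ratDvd_of_bridge (E : LevelOp (M * q)) (hq : q.Prime) (hqM : ¬ q ∣ M)
    (A : ValuationSubring Qb) (σ : Qb ≃ₐ[ℚ] Qb)
    (hbr : ∀ (L : Type) [Field L] [Algebra ℚ L] (ι : L →+* Qb) (ζ : Lˣ), IsPrimitiveRoot ζ q →
      ∀ s : L ≃+* L, (∀ c : L, ι (s c) = σ (ι c)) →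
      ∀ w : FF L (M * q) ≃ₐ[L] FF L (M * q),
        (w : FF L (M * q) →ₐ[L] FF L (M * q)).comp (heckeAlphaBar L M q) = heckeBetaBar L M q →
        (w : FF L (M * q) →ₐ[L] FF L (M * q)).comp (heckeBetaBar L M q) = heckeAlphaBar L M q →
      ∀ w' : FF Qb (M * q) ≃ₐ[Qb] FF Qb (M * q),
        (w' : FF Qb (M * q) →ₐ[Qb] FF Qb (M * q)).comp (heckeAlphaBar Qb M q) =
          heckeBetaBar Qb M q →
        (w' : FF Qb (M * q) →ₐ[Qb] FF Qb (M * q)).comp (heckeBetaBar Qb M q) =
          heckeAlphaBar Qb M q →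
      ∀ y : FF L (M * q),
        CoeffBC.bc ι (modularFunctionFieldFull (M * q)) (E L s w y) =
          EsOrd.esBar (arithmeticGalois (modularFunctionFieldFull (M * q)) σ) w'
            (heckeAlphaBar Qb M q) (heckeBetaBar Qb M q) q
            (CoeffBC.bc ι (modularFunctionFieldFull (M * q)) y)) :
    RatDvd M q p E A σ := by
  classical
  intro n D f hf hD
  obtain ⟨w', hwα', hwβ'⟩ := FrobPartner.exists_atkinLehner_level (RingHom.id Qb) M q hq hqM
  obtain ⟨ζ₀, hζ₀⟩ := HasEnoughRootsOfUnity.exists_primitiveRoot Qb q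
  obtain ⟨hdvd, S₀, hS₀⟩ := EsRat.exists_level_es M q
    (arithmeticGalois (modularFunctionFieldFull (M * q)) σ)
    (arithmeticGalois (modularFunctionFieldFull (M * q)) (σ * σ)) w' q ((p : ℤ) ^ n) hf
    (fun P => ⟨D P, hD P⟩)
  refine ⟨insert ζ₀ S₀, ?_⟩
  intro L _ _ ι hlev hst fL hfL s hs w hwα hwβ
  obtain ⟨b, hb⟩ := hlev.1 ζ₀ (Finset.mem_insert_self _ _)
  have hbprim : IsPrimitiveRoot b q :=
    IsPrimitiveRoot.of_map_of_injective (f := ι) (by rw [hb]; exact hζ₀) ι.injective
  have hbu : IsUnit b := hbprim.isUnit hq.ne_zero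
  have hζ : IsPrimitiveRoot hbu.unit q := IsPrimitiveRoot.coe_units_iff.mp hbprim
  have hs2 : ∀ c : L, ι ((s.trans s) c) = (σ * σ) (ι c) := by
    intro c
    rw [RingEquiv.trans_apply, hs, hs]
    rfl
  have key : CoeffBC.bc ι (modularFunctionFieldFull (M * q))
      (E L s w (DDGauss.dd (M * q) (s.trans s) fL)) =
      EsOrd.esBar (arithmeticGalois (modularFunctionFieldFull (M * q)) σ) w'
        (heckeAlphaBar Qb M q) (heckeBetaBar Qb M q) q
        (arithmeticGalois (modularFunctionFieldFull (M * q)) (σ * σ) •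
            arithmeticGalois (modularFunctionFieldFull (M * q)) (σ * σ) • f * f /
          (arithmeticGalois (modularFunctionFieldFull (M * q)) (σ * σ) • f) ^ 2) :=
    (hbr L ι hbu.unit hζ s hs w hwα hwβ w' hwα' hwβ' _).trans
      (congrArg (EsOrd.esBar (arithmeticGalois (modularFunctionFieldFull (M * q)) σ) w'
        (heckeAlphaBar Qb M q) (heckeBetaBar Qb M q) q)
        (bc_dd (M * q) ι (σ * σ) (s.trans s) hs2 fL f hfL))
  rw [key]
  exact ⟨hdvd, hS₀ L ι (fun a ha => hlev.1 a (Finset.mem_insert_of_mem ha))⟩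

/-- **`RatDvd` for the Eichler–Shimura operator** (`EsNorm.esL`). -/
theorem ratDvd_esNorm (hq : q.Prime) (hqM : ¬ q ∣ M) (A : ValuationSubring Qb)
    (σ : Qb ≃ₐ[ℚ] Qb) :
    RatDvd M q p (fun _ _ _ s w => EsNorm.esL M q s w) A σ :=
  ratDvd_of_bridge M q p _ hq hqM A σ
    (fun _ _ _ ι ζ hζ s hs w hwα hwβ w' hwα' hwβ' y =>
      EsNorm.bc_esL ι M q hq hqM ζ hζ σ s hs w hwα hwβ w' hwα' hwβ' y)

/-- **`RatDvd` for the Eichler–Shimura operator** (`EsOp.esL`). -/
theorem ratDvd_esOp (hq : q.Prime) (hqM : ¬ q ∣ M) (A : ValuationSubring Qb)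
    (σ : Qb ≃ₐ[ℚ] Qb) :
    RatDvd M q p (fun _ _ _ s w => EsOp.esL M q s w) A σ :=
  ratDvd_of_bridge M q p _ hq hqM A σ
    (fun _ _ _ ι ζ hζ s hs w hwα hwβ w' hwα' hwβ' y =>
      (congrArg (CoeffBC.bc ι (modularFunctionFieldFull (M * q)))
        (EsOp.esL_eq_esQ M q s w y)).trans
        (EsNorm.bc_esL ι M q hq hqM ζ hζ σ s hs w hwα hwβ w' hwα' hwβ' y))

end Fermat.Agent.S35.EsRatDvd
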