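/-
S35 (wave 7, Route C), contract (EsLoc₁): the local datum of the Eichler–Shimura descent on the
finite chart — the contract-level assembly (twin of `S35.EsLoc2`).

* `esLocT₁_of_closure` : `EsCoreT.EsLocT₁` from the clause on the carriers of the chart `W[j]`
  in the `IsIntegralClosure B W[X] F` shape (via `S34.GLoc.hloc_fin_of_closure`);
* `FinSmooth M q p A` : the smooth-point lemma on the finite chart, as a statement about an
  ARBITRARY function `w₀ ≡ 1` on the Gauss ring whose divisor over `ℚ̄` is divisible by `p ^ n`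
  and supported at places rational at the level, at the closed points in the smooth alternative
  of `NodePtsInst.node_pts_fin`;
* `esLocT₁_of_smooth` : `RatDvd → FinSmooth → EsLocT₁` for the Eichler–Shimura operator
  `EsGaussInst.esOp M q` (the node clause is `EsNodeInst.esL_fin_smooth_or`, Claim R is
  `EsGaussInst.gaussContract`);
* `esLocT₁_of_finSmooth` : `FinSmooth → EsLocT₁` (`RatDvd` from `EsRatDvd.ratDvd_esOp`).
-/
import Mathlib
import Fermat.Agent.S35.EsNodeInst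
import Fermat.Agent.S35.EsCoreT
import Fermat.Agent.S35.EsGaussInst
import Fermat.Agent.S35.EsLoc2
import Fermat.Agent.S35.EsRatDvd
import Fermat.Agent.S34.GLoc

set_option autoImplicit false
set_option linter.unusedSectionVars false
set_option linter.style.haveILetI false

noncomputable section

namespace Fermat.Agent.S35.EsLoc1Of

open Polynomial ModularCurve AlgebraicCurve Fermat.Agent.S18 Fermat.Agent.S18.Endgame
  Fermat.Agent.S37
open Fermat.Agent.S34 Fermat.Agent.S34.KummerStep Fermat.Agent.S34.GDescent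
open Fermat.Agent.S35.EsCore Fermat.Agent.S35.EsCoreT

local notation "Qb" => AlgebraicClosure ℚ

variable (M q p : ℕ) [NeZero M] [NeZero q]

set_option maxHeartbeats 800000 in
/-- **`EsCoreT.EsLocT₁` from the clause on the carriers in the `IsIntegralClosure` shape**
(`algebraMap W[X] F = evF W (M q)`, `X ↦ j`), at the maximal ideals containing `π`. -/
theorem esLocT₁_of_closure (E : LevelOp (M * q)) (A : ValuationSubring Qb) (σ : Qb ≃ₐ[ℚ] Qb)
    (hK : ∀ (n : ℕ) (D : Divisor Qb (modularFunctionFieldBar (M * q)))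
      (f : modularFunctionFieldBar (M * q)), f ≠ 0 →
      (∀ P : Place Qb (modularFunctionFieldBar (M * q)), P.ord f = (p : ℤ) ^ n * D P) →
      ∃ (S₀ : Finset Qb) (T : Finset (Place Qb (modularFunctionFieldBar (M * q)))),
        ∀ (L : Type) [Field L] [Algebra ℚ L] (ι : L →+* Qb),
        LevelChange.IsLevel A q S₀ ι → GalLevel.IsStable ι →
        ∀ fL : S24.FF L (M * q),
          S24.CoeffBC.bc ι (modularFunctionFieldFull (M * q)) fL = f →
        (∀ P ∈ T, RatAtLevel (M * q) ι P) →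
        ∀ ϖ : ↥(A.comap ι), Irreducible ϖ →
        ∀ s : L ≃+* L, (∀ c : L, ι (s c) = σ (ι c)) →
        ∀ w : S24.FF L (M * q) ≃ₐ[L] S24.FF L (M * q),
          (w : S24.FF L (M * q) →ₐ[L] S24.FF L (M * q)).comp (heckeAlphaBar L M q) =
            heckeBetaBar L M q →
          (w : S24.FF L (M * q) →ₐ[L] S24.FF L (M * q)).comp (heckeBetaBar L M q) =
            heckeAlphaBar L M q →
        ∀ [Algebra (↥(A.comap ι))[X] (S24.FF L (M * q))],
          algebraMap (↥(A.comap ι))[X] (S24.FF L (M * q)) = Gauss.evF (A.comap ι) (M * q) →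
        ∀ (B : Type) [CommRing B] [Algebra (↥(A.comap ι))[X] B] [Algebra B (S24.FF L (M * q))]
          [IsScalarTower (↥(A.comap ι))[X] B (S24.FF L (M * q))]
          [IsIntegralClosure B (↥(A.comap ι))[X] (S24.FF L (M * q))]
          (𝔪 : Ideal B), 𝔪.IsMaximal → algebraMap (↥(A.comap ι))[X] B (C ϖ) ∈ 𝔪 →
          ∃ g : S24.FF L (M * q), GaussOne ϖ (S24.jBC L (M * q)) g ∧ ∃ d : B, d ∉ 𝔪 ∧
            ∃ t : B, algebraMap B (S24.FF L (M * q)) t =
              algebraMap B (S24.FF L (M * q)) d *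
                (E L s w (DDGauss.dd (M * q) (s.trans s) fL) * g ^ (p ^ n))) :
    EsLocT₁ M q p E A σ := by
  intro n D f hf hD
  obtain ⟨S₀, T, hS₀⟩ := hK n D f hf hD
  refine ⟨S₀, T, ?_⟩
  intro L _ _ ι hlev hst fL hfL hrat ϖ hϖ s hs w hwα hwβ
  letI : Algebra (↥(A.comap ι))[X] (S24.FF L (M * q)) :=
    (Gauss.evF (A.comap ι) (M * q)).toAlgebra
  exact GLoc.hloc_fin_of_closure (A.comap ι) (M * q) rfl
    ↥(integralClosure (↥(A.comap ι))[X] (S24.FF L (M * q))) ϖ
    (fun g => GaussOne ϖ (S24.jBC L (M * q)) g)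
    (fun g => E L s w (DDGauss.dd (M * q) (s.trans s) fL) * g ^ (p ^ n))
    (fun 𝔪 h𝔪 hC => hS₀ L ι hlev hst fL hfL hrat ϖ hϖ s hs w hwα hwβ rfl
      ↥(integralClosure (↥(A.comap ι))[X] (S24.FF L (M * q))) 𝔪 h𝔪 hC)

/-- **The smooth-point lemma on the finite chart** (package (C4), finite chart), as a contract:
at every (sufficiently large, Galois-stable) level, for every function `w₀ ≡ 1` on the Gauss ring
whose divisor over `ℚ̄` is divisible by `p ^ n` and supported at places rational at the level, on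
every carrier `B` of the chart `W[j]` and at every maximal ideal `𝔪 ∋ π` in the smooth
alternative (`𝔪 B_𝔪 = (π, u)`, `u ∈ 𝔪`) there is `g ≡ 1` on the Gauss ring with
`w₀ * g ^ (p ^ n)` regular at `𝔪`. -/
def FinSmooth (A : ValuationSubring Qb) : Prop :=
  ∃ S₀ : Finset Qb, ∀ (L : Type) [Field L] [Algebra ℚ L] (ι : L →+* Qb),
    LevelChange.IsLevel A q S₀ ι → GalLevel.IsStable ι →
    ∀ ϖ : ↥(A.comap ι), Irreducible ϖ →
    ∀ w : S24.FF L (M * q) ≃ₐ[L] S24.FF L (M * q),
      (w : S24.FF L (M * q) →ₐ[L] S24.FF L (M * q)).comp (heckeAlphaBar L M q) =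
        heckeBetaBar L M q →
      (w : S24.FF L (M * q) →ₐ[L] S24.FF L (M * q)).comp (heckeBetaBar L M q) =
        heckeAlphaBar L M q →
    ∀ (n : ℕ) (w₀ : S24.FF L (M * q)), w₀ ≠ 0 → GaussOne ϖ (S24.jBC L (M * q)) w₀ →
    (∀ Q : Place Qb (modularFunctionFieldBar (M * q)),
      ((p : ℤ) ^ n) ∣ Q.ord (S24.CoeffBC.bc ι (modularFunctionFieldFull (M * q)) w₀)) →
    (∀ Q : Place Qb (modularFunctionFieldBar (M * q)),
      Q.ord (S24.CoeffBC.bc ι (modularFunctionFieldFull (M * q)) w₀) ≠ 0 →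
      RatAtLevel (M * q) ι Q) →
    ∀ [Algebra (↥(A.comap ι))[X] (S24.FF L (M * q))],
      algebraMap (↥(A.comap ι))[X] (S24.FF L (M * q)) = Gauss.evF (A.comap ι) (M * q) →
    ∀ (B : Type) [CommRing B] [Algebra (↥(A.comap ι))[X] B] [Algebra B (S24.FF L (M * q))]
      [IsScalarTower (↥(A.comap ι))[X] B (S24.FF L (M * q))]
      [IsIntegralClosure B (↥(A.comap ι))[X] (S24.FF L (M * q))]
      (𝔪 : Ideal B) (_h𝔪 : 𝔪.IsMaximal), algebraMap (↥(A.comap ι))[X] B (C ϖ) ∈ 𝔪 →
      (∃ u ∈ 𝔪, IsLocalRing.maximalIdeal (Localization.AtPrime 𝔪) =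
        Ideal.span {algebraMap B (Localization.AtPrime 𝔪)
          (algebraMap (↥(A.comap ι))[X] B (C ϖ)), algebraMap B (Localization.AtPrime 𝔪) u}) →
      ∃ g : S24.FF L (M * q), GaussOne ϖ (S24.jBC L (M * q)) g ∧ ∃ d : B, d ∉ 𝔪 ∧
        ∃ t : B, algebraMap B (S24.FF L (M * q)) t =
          algebraMap B (S24.FF L (M * q)) d * (w₀ * g ^ (p ^ n))

set_option maxHeartbeats 1600000 in
/-- **(EsLoc₁) for the Eichler–Shimura operator, from the divisor bookkeeping and the smooth-point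
lemma on the finite chart**: nodes by `EsNodeInst.esL_fin_smooth_or`, Claim R by
`EsGaussInst.gaussContract`. -/
theorem esLocT₁_of_smooth (hq : q.Prime) (hqM : ¬ q ∣ M) (A : ValuationSubring Qb)
    (hA : A.LiesOverPrime q) (σ : Qb ≃ₐ[ℚ] Qb) (hσ : A.IsFrobeniusAt σ q)
    (hRD : EsLoc2.RatDvd M q p (EsGaussInst.esOp M q) A σ) (hSM : FinSmooth M q p A) :
    EsLocT₁ M q p (EsGaussInst.esOp M q) A σ := by
  classical
  refine esLocT₁_of_closure M q p (EsGaussInst.esOp M q) A σ ?_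
  intro n D f hf hD
  obtain ⟨ζ₀, hζ₀⟩ := HasEnoughRootsOfUnity.exists_primitiveRoot Qb q
  obtain ⟨S₁, hS₁⟩ := EsGaussInst.gaussContract M q hq hqM A σ hσ
  obtain ⟨S₂, hS₂⟩ := hRD n D f hf hD
  obtain ⟨S₃, hS₃⟩ := hSM
  refine ⟨{ζ₀} ∪ (S₁ ∪ (S₂ ∪ S₃)), D.support, ?_⟩
  intro L _ _ ι hlev hst fL hfL hratT ϖ hϖ s hs w hwα hwβ _ halg B _ _ _ _ _ 𝔪 h𝔪 hC
  have hl₁ : LevelChange.IsLevel A q S₁ ι := GalLevel.isLevel_mono hlev
    (Finset.subset_union_left.trans Finset.subset_union_right)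
  have hl₂ : LevelChange.IsLevel A q S₂ ι := GalLevel.isLevel_mono hlev
    ((Finset.subset_union_left.trans Finset.subset_union_right).trans
      Finset.subset_union_right)
  have hl₃ : LevelChange.IsLevel A q S₃ ι := GalLevel.isLevel_mono hlev
    ((Finset.subset_union_right.trans Finset.subset_union_right).trans
      Finset.subset_union_right)
  have hfL0 : fL ≠ 0 := by
    rintro rfl
    exact hf (by rw [← hfL, map_zero])
  have hf₂ : DDGauss.dd (M * q) (s.trans s) fL ≠ 0 := DDGauss.dd_ne_zero (M * q) (s.trans s) hfL0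
  obtain ⟨ζ, hζ⟩ := EsGaussInst.exists_primitiveRoot_of_mem ι q hζ₀
    (hlev.1 ζ₀ (Finset.mem_union_left _ (Finset.mem_singleton_self ζ₀)))
  letI : Algebra (↥(A.comap ι))[X] (S24.FF L M) := (Gauss.evF (A.comap ι) M).toAlgebra
  rcases EsNodeInst.esL_fin_smooth_or M q p hq hqM A hA σ hσ ι _ hlev hst n D fL hfL0
      (fun P => by rw [hfL]; exact hD P)
      (fun P hP => hratT P (Finsupp.mem_support_iff.mpr hP)) ϖ hϖ s hs w hwα hwβ ζ hζ rfl
      ↥(integralClosure (↥(A.comap ι))[X] (S24.FF L M)) halg B 𝔪 h𝔪 hC with hsm | hnode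
  · obtain ⟨hdvd, hratz⟩ := hS₂ L ι hl₂ hst fL hfL s hs w hwα hwβ
    have hw₀ : EsGaussInst.esOp M q L s w (DDGauss.dd (M * q) (s.trans s) fL) ≠ 0 :=
      EsOp.esL_ne_zero M q s w hf₂
    exact hS₃ L ι hl₃ hst ϖ hϖ w hwα hwβ n
      (EsGaussInst.esOp M q L s w (DDGauss.dd (M * q) (s.trans s) fL)) hw₀
      (hS₁ L ι hl₁ hst ϖ hϖ s hs w hwα hwβ _ hf₂) hdvd hratz halg B 𝔪 h𝔪 hC hsm
  · rw [EsGaussInst.esOp_apply, EsGaussInst.esL_eq_esNorm]
    exact hnode

/-- **(EsLoc₁) for the Eichler–Shimura operator from the smooth-point lemma on the finite chart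
alone** (`RatDvd` is `EsRatDvd.ratDvd_esOp`). -/
theorem esLocT₁_of_finSmooth (hq : q.Prime) (hqM : ¬ q ∣ M) (A : ValuationSubring Qb)
    (hA : A.LiesOverPrime q) (σ : Qb ≃ₐ[ℚ] Qb) (hσ : A.IsFrobeniusAt σ q)
    (hSM : FinSmooth M q p A) : EsLocT₁ M q p (EsGaussInst.esOp M q) A σ :=
  esLocT₁_of_smooth M q p hq hqM A hA σ hσ (EsRatDvd.ratDvd_esOp M q p hq hqM A σ) hSM

end Fermat.Agent.S35.EsLoc1Of
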