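import Mathlib
import Fermat.Agent.S34.KLoc

/-!
# S35 (Route C), package (C4), abstract: the local datum of the Kummer step at a point `𝔫 = (ϖ, u)`

Chart-generic, in the binders of `S34.KLoc.kloc_of_two`.  `B` a chart of the level function field
`FL`, `𝔫 ∋ ϖ` a maximal ideal with `𝔫 B_𝔫 = (ϖ, u)`, `u ∈ B` a unit at both Gauss valuations
(`(φ u)⁻¹ ∈ O₁ ∩ O₂`).  `G1` is a class of functions "`≡ 1` modulo `ϖ`" (closed under products and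
inverses, contained in `O₁ ∩ O₂`, with `a - 1 ∈ M₁ ∩ M₂`, containing `1 - ϖ c / u` for `c ∈ W`).

`smooth_hloc`: if `w₀ ∈ G1`, every place through `𝔫` in the support of `div w₀` is rational at the
level and `p ^ n` divides all orders of `w₀` at the places through `𝔫`, then there are `g ∈ G1`
and `d ∉ 𝔫` with `d * (w₀ * g ^ (p ^ n))` in the chart.

Proof: a rational place `P` through `𝔫` has the local equation `u - c_P`, `c_P ∈ ϖ W`
(`S34.LocAt.loc_smooth`); `g := ∏ (1 - c_P / u) ^ (- ord_P w₀ / p ^ n)`; then `w₀ * g ^ (p ^ n)`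
has the divisor `deg • div u` on the class of `𝔫`, Hartogs (`S34.SectionsLoc`) makes
`ε := w₀ * g ^ (p ^ n) * u ^ (- deg)` a unit at `𝔫`, and `deg = 0` because `w₀ * g ^ (p ^ n) ≡ 1`
modulo `ϖ` while `u ∈ 𝔫`.
-/

set_option autoImplicit false
set_option linter.unusedSectionVars false
set_option linter.unusedVariables false

noncomputable section

namespace Fermat.Agent.S35.EsSmooth

open AlgebraicCurve Fermat.Agent.S37.GaloisValue Fermat.Agent.S37.WChart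
open Fermat.Agent.S34 Fermat.Agent.S34.Sections Fermat.Agent.S34.SectionsLoc

section Main

variable {K F L FL : Type*} [Field K] [Field F] [Algebra K F] [Field L] [Field FL]
  [Algebra L FL]
  (A : ValuationSubring K) (ι : L →+* K) (W : ValuationSubring L) (bcF : FL →+* F)
  {B : Type*} [CommRing B] [IsDomain B] [IsNoetherianRing B] [IsIntegrallyClosed B]
  [Algebra W B] (φ : B →+* FL)

/-- **The local datum at a point with `𝔫 B_𝔫 = (ϖ, u)`, chart-generic.** -/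
theorem smooth_hloc [HasPrincipalDivisors K F]
    (hWA : ∀ x : L, x ∈ W ↔ ι x ∈ A)
    (hφ : Function.Injective φ)
    (hφW : ∀ w : W, bcF (φ (algebraMap W B w)) = algebraMap K F (ι w))
    (hfrac : ∀ x : FL, ∃ y₁ y₂ : B, y₂ ≠ 0 ∧ x * φ y₂ = φ y₁)
    (ϖ : W) (hϖ0 : ϖ ≠ 0) (hW : ∀ w : W, IsUnit w ∨ ϖ ∣ w)
    (hsep : ∀ w : W, w ≠ 0 → ∃ n : ℕ, ¬ ϖ ^ n ∣ w)
    (hext : ∀ 𝔮 : Ideal B, 𝔮.IsPrime → 𝔮 ≠ ⊥ → algebraMap W B ϖ ∉ 𝔮 →
      ∃ P : Place K F, ∀ y : B, bcF (φ y) ∈ P.toValuationSubring ∧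
        (y ∈ 𝔮 ↔ IsValueAt P (bcF (φ y)) 0))
    (𝔫 : Ideal B) [h𝔫max : 𝔫.IsMaximal] (hϖ𝔫 : algebraMap W B ϖ ∈ 𝔫)
    (u : B) (hu0 : u ≠ 0)
    (hu : IsLocalRing.maximalIdeal (Localization.AtPrime 𝔫) =
      Ideal.span {algebraMap W (Localization.AtPrime 𝔫) ϖ,
        algebraMap B (Localization.AtPrime 𝔫) u})
    (𝔭₁ 𝔭₂ : Ideal B) [h𝔭₁ : 𝔭₁.IsPrime] [h𝔭₂ : 𝔭₂.IsPrime]
    (hϖ₁ : algebraMap W B ϖ ∈ 𝔭₁) (hϖ₂ : algebraMap W B ϖ ∈ 𝔭₂)
    (hS1 : 𝔭₁ ⊓ 𝔭₂ ≤ Ideal.span {algebraMap W B ϖ})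
    (O₁ M₁ O₂ M₂ : Set FL)
    (hMO₁ : ∀ m ∈ M₁, ∀ o ∈ O₁, m * o ∈ M₁) (hM₁ : ∀ y : B, φ y ∈ M₁ ↔ y ∈ 𝔭₁)
    (hMO₂ : ∀ m ∈ M₂, ∀ o ∈ O₂, m * o ∈ M₂) (hM₂ : ∀ y : B, φ y ∈ M₂ ↔ y ∈ 𝔭₂)
    (hO₁ : ∀ a ∈ O₁, ∀ b ∈ O₁, a * b ∈ O₁) (hO₂ : ∀ a ∈ O₂, ∀ b ∈ O₂, a * b ∈ O₂)
    (hBO₁ : ∀ y : B, φ y ∈ O₁) (hBO₂ : ∀ y : B, φ y ∈ O₂)
    (huO₁ : (φ u)⁻¹ ∈ O₁) (huO₂ : (φ u)⁻¹ ∈ O₂)
    (G1 : FL → Prop) (hG1one : G1 1) (hG1mul : ∀ a b : FL, G1 a → G1 b → G1 (a * b))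
    (hG1inv : ∀ a : FL, G1 a → G1 a⁻¹)
    (hG1O₁ : ∀ a : FL, G1 a → a ∈ O₁) (hG1O₂ : ∀ a : FL, G1 a → a ∈ O₂)
    (hG1M₁ : ∀ a : FL, G1 a → a - 1 ∈ M₁) (hG1M₂ : ∀ a : FL, G1 a → a - 1 ∈ M₂)
    (hG1u : ∀ c : W, G1 (1 - φ (algebraMap W B (ϖ * c)) / φ u))
    (w₀ : FL) (hw₀ : G1 w₀) (p n : ℕ)
    (hdvd : ∀ Q : Place K F, Through (bcF.comp φ) 𝔫 Q → ((p : ℤ) ^ n) ∣ Q.ord (bcF w₀))
    (hrat : ∀ Q : Place K F, Through (bcF.comp φ) 𝔫 Q → Q.ord (bcF w₀) ≠ 0 →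
      RatAt ι bcF Q) :
    ∃ g : FL, G1 g ∧ ∃ d : B, d ∉ 𝔫 ∧ ∃ t : B, φ t = φ d * (w₀ * g ^ (p ^ n)) := by
  classical
  set ψ : B →+* F := bcF.comp φ with hψdef
  have hψ : Function.Injective ψ := bcF.injective.comp hφ
  have hψW : ∀ w : W, ψ (algebraMap W B w) = algebraMap K F (ι w) := hφW
  set R := Localization.AtPrime 𝔫 with hRdef
  set φR : R →+* FL := KLoc.locMap φ hφ 𝔫 with hφRdef
  have hφR : Function.Injective φR := KLoc.locMap_injective φ hφ 𝔫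
  set ψR : R →+* F := bcF.comp φR with hψRdef
  have hψRinj : Function.Injective ψR := bcF.injective.comp hφR
  have hψR : ∀ y : B, ψR (algebraMap B R y) = ψ y := fun y => by
    show bcF (φR (algebraMap B R y)) = bcF (φ y)
    rw [hφRdef, KLoc.locMap_algebraMap]
  have hψRW : ∀ w : W, ψR (algebraMap W R w) = algebraMap K F (ι w) := by
    intro w
    rw [IsScalarTower.algebraMap_apply W B R, hψR, hψW]
  have hfracR : ∀ x : FL, ∃ r₁ r₂ : R, r₂ ≠ 0 ∧ x * φR r₂ = φR r₁ := by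
    intro x
    obtain ⟨y₁, y₂, hy₂, he⟩ := hfrac x
    refine ⟨algebraMap B R y₁, algebraMap B R y₂, ?_, ?_⟩
    · intro h0
      apply hy₂
      apply hφ
      rw [map_zero, ← KLoc.locMap_algebraMap φ hφ 𝔫 y₂, h0, map_zero]
    · rw [hφRdef, KLoc.locMap_algebraMap, KLoc.locMap_algebraMap]
      exact he
  set C : Place K F → Prop := fun Q => Through ψ 𝔫 Q with hCdef
  have hCR : ∀ Q : Place K F, C Q ↔ ∀ r : R, ψR r ∈ Q.toValuationSubring := fun Q =>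
    (through_iff_localization W ψ ψR 𝔫 hψR Q).symm
  have hdata : ∀ P : Place K F, C P → RatAt ι bcF P →
      RatAtB ι ψR P ∧ ∃ s : R →ₐ[W] W, IsSectionOf ι W ψR P s ∧
        ∀ r : R, r ∈ IsLocalRing.maximalIdeal R ↔ ¬ IsUnit (s r) := by
    intro P hCP hPrat
    have hRB : RatAtB ι ψR P := ratAtB_of_ratAt ι bcF φR hφR hfracR hPrat
    have hratOn : RatOn ι ψ P := fun y hy => hPrat.1 (φ y) hy
    have hin : InClass A ψ 𝔫 P :=
      KLoc.inClass_of_through A ι W ψ hWA hψW ϖ hW 𝔫 h𝔫max.ne_top hϖ𝔫 hCP hratOn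
    obtain ⟨s, hs, hsm, -⟩ :=
      exists_section_localization (R := R) (ψR := ψR) A ι W hWA hψW hψR hin hratOn
    exact ⟨hRB, s, hs, hsm⟩
  -- basic facts
  have hϖB0 : algebraMap W B ϖ ≠ 0 := by
    intro h0
    have h1 : bcF (φ (algebraMap W B ϖ)) = 0 := by rw [h0, map_zero, map_zero]
    rw [hφW] at h1
    have h2 : ι (ϖ : L) = 0 := (map_eq_zero (algebraMap K F)).mp h1
    exact hϖ0 (Subtype.ext ((map_eq_zero ι).mp h2))
  have huR : algebraMap B R u ∈ IsLocalRing.maximalIdeal R := by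
    rw [hu]; exact Ideal.subset_span (Set.mem_insert_of_mem _ rfl)
  have hu𝔫 : u ∈ 𝔫 := (IsLocalization.AtPrime.to_map_mem_maximal_iff R 𝔫 u).mp huR
  have hφu0 : φ u ≠ 0 := fun h0 => hu0 (hφ (by rw [h0, map_zero]))
  have hψu0 : ψ u ≠ 0 := (map_ne_zero bcF).mpr hφu0
  have h1𝔭₁ : (1 : B) ∉ 𝔭₁ := (Ideal.ne_top_iff_one 𝔭₁).mp h𝔭₁.ne_top
  have hG1ne : ∀ a : FL, G1 a → a ≠ 0 := by
    intro a ha h0
    have h1 := hG1M₁ a ha
    rw [h0, zero_sub] at h1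
    have h2 : φ (-1 : B) ∈ M₁ := by rw [map_neg, map_one]; exact h1
    have h3 : (-1 : B) ∈ 𝔭₁ := (hM₁ _).mp h2
    exact h1𝔭₁ (by have := 𝔭₁.neg_mem h3; rwa [neg_neg] at this)
  have hG1pow : ∀ a : FL, G1 a → ∀ m : ℕ, G1 (a ^ m) := by
    intro a ha m
    induction m with
    | zero => rw [pow_zero]; exact hG1one
    | succ m ih => rw [pow_succ]; exact hG1mul _ _ ih ha
  have hG1zpow : ∀ a : FL, G1 a → ∀ z : ℤ, G1 (a ^ z) := by
    intro a ha z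
    obtain ⟨m, rfl | rfl⟩ := Int.eq_nat_or_neg z
    · rw [zpow_natCast]; exact hG1pow a ha m
    · rw [zpow_neg, zpow_natCast]; exact hG1inv _ (hG1pow a ha m)
  have hw₀0 : w₀ ≠ 0 := hG1ne w₀ hw₀
  have hbw₀0 : bcF w₀ ≠ 0 := (map_ne_zero bcF).mpr hw₀0
  -- the places through `𝔫` in the support of `div w₀`
  obtain ⟨E, hE, -⟩ := HasPrincipalDivisors.exists_divisor (K := K) (bcF w₀) hbw₀0
  set T : Finset (Place K F) := E.support.filter (fun Q => C Q) with hT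
  have hTmem : ∀ Q : Place K F, Q ∈ T ↔ (Q.ord (bcF w₀) ≠ 0 ∧ C Q) := by
    intro Q
    rw [hT, Finset.mem_filter, Finsupp.mem_support_iff, hE]
  -- the local equations `u - c_P`
  have hex : ∀ P : Place K F, ∃ c : W, P ∈ T →
      (P.ord (ψ (u - algebraMap W B (ϖ * c))) = 1 ∧
        ∀ Q : Place K F, C Q → Q ≠ P → Q.ord (ψ (u - algebraMap W B (ϖ * c))) = 0) := by
    intro P
    by_cases hP : P ∈ T
    · obtain ⟨hord, hCP⟩ := (hTmem P).mp hP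
      obtain ⟨hRB, s, hs, hsm⟩ := hdata P hCP (hrat P hCP hord)
      have hgen := ((GenAt.exists_gen_smooth hW hϖ0 hsep (algebraMap B R u) hu s s s).1 s).2
      have hordgen := LocPlace.ord_of_isLocalGen hψRinj hψRW hϖ0 hs hRB hgen
      have hnu : ¬ IsUnit (s (algebraMap B R u)) := (hsm _).mp huR
      obtain ⟨c, hc⟩ := (hW _).resolve_left hnu
      have heq : ψR (algebraMap B R u - algebraMap W R (s (algebraMap B R u))) =
          ψ (u - algebraMap W B (ϖ * c)) := by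
        rw [hc, IsScalarTower.algebraMap_apply W B R, ← map_sub, hψR]
      refine ⟨c, fun _ => ⟨?_, fun Q hQ hne => ?_⟩⟩
      · rw [← heq]; exact hordgen.1
      · rw [← heq]; exact hordgen.2 Q ((hCR Q).mp hQ) hne
    · exact ⟨0, fun h => absurd h hP⟩
  choose c hc using hex
  have hexe : ∀ P : Place K F, ∃ e : ℤ, C P → P.ord (bcF w₀) = (p : ℤ) ^ n * e := by
    intro P
    by_cases hP : C P
    · obtain ⟨e, he⟩ := hdvd P hP
      exact ⟨e, fun _ => he⟩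
    · exact ⟨0, fun h => absurd h hP⟩
  choose e he using hexe
  -- the factors `1 - c_P / u`
  set k : Place K F → FL := fun P => 1 - φ (algebraMap W B (ϖ * c P)) / φ u with hkdef
  have hkG1 : ∀ P : Place K F, G1 (k P) := fun P => hG1u (c P)
  have hk0 : ∀ P : Place K F, k P ≠ 0 := fun P => hG1ne _ (hkG1 P)
  have hkeq : ∀ P : Place K F, bcF (k P) = ψ (u - algebraMap W B (ϖ * c P)) * (ψ u)⁻¹ := by
    intro P
    have h1 : k P = φ (u - algebraMap W B (ϖ * c P)) * (φ u)⁻¹ := by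
      rw [hkdef, map_sub]
      field_simp
    rw [h1, map_mul, map_inv₀]
    rfl
  have hkord : ∀ P ∈ T, ∀ Q : Place K F, C Q →
      Q.ord (bcF (k P)) = (if Q = P then 1 else 0) - Q.ord (ψ u) := by
    intro P hP Q hCQ
    obtain ⟨h1, h2⟩ := hc P hP
    have hne : ψ (u - algebraMap W B (ϖ * c P)) ≠ 0 := by
      intro h0
      rw [h0, Place.ord_zero] at h1
      exact zero_ne_one h1
    rw [hkeq, Q.ord_mul hne (inv_ne_zero hψu0), Place.ord_inv]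
    by_cases hQP : Q = P
    · rw [if_pos hQP, hQP, h1]; ring
    · rw [if_neg hQP, h2 Q hCQ hQP]; ring
  -- the function `g`
  set g : FL := ∏ P ∈ T, k P ^ (-e P) with hgdef
  have hgG1 : G1 g := by
    rw [hgdef]
    exact Finset.prod_induction _ G1 hG1mul hG1one (fun P _ => hG1zpow _ (hkG1 P) _)
  have hg0 : g ≠ 0 := hG1ne g hgG1
  set w₁ : FL := w₀ * g ^ (p ^ n) with hw₁def
  have hw₁G1 : G1 w₁ := hG1mul _ _ hw₀ (hG1pow g hgG1 _)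
  have hw₁0 : w₁ ≠ 0 := hG1ne w₁ hw₁G1
  set dg : ℤ := (p : ℤ) ^ n * ∑ P ∈ T, e P with hdgdef
  have hw₁ord : ∀ Q : Place K F, C Q → Q.ord (bcF w₁) = dg * Q.ord (ψ u) := by
    intro Q hCQ
    have h1 : Q.ord (bcF g) = ∑ P ∈ T, (-e P) * Q.ord (bcF (k P)) := by
      rw [hgdef]
      exact DDLocal.ord_prod_zpow bcF Q T k (fun P => -e P) (fun P _ => hk0 P)
    have h2 : ∀ P ∈ T, (-e P) * Q.ord (bcF (k P)) =
        (if Q = P then -e P else 0) + e P * Q.ord (ψ u) := by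
      intro P hP
      rw [hkord P hP Q hCQ]
      by_cases hQP : Q = P
      · rw [if_pos hQP, if_pos hQP]; ring
      · rw [if_neg hQP, if_neg hQP]; ring
    have h3 : Q.ord (bcF g) = (if Q ∈ T then -e Q else 0) + (∑ P ∈ T, e P) * Q.ord (ψ u) := by
      rw [h1, Finset.sum_congr rfl h2, Finset.sum_add_distrib, Finset.sum_ite_eq,
        ← Finset.sum_mul]
    have h4 : Q.ord (bcF w₁) = Q.ord (bcF w₀) + (p : ℤ) ^ n * Q.ord (bcF g) := by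
      rw [hw₁def, map_mul, map_pow,
        Q.ord_mul hbw₀0 (pow_ne_zero _ ((map_ne_zero bcF).mpr hg0)), ord_pow]
      push_cast
      ring
    rw [h4, h3, hdgdef]
    by_cases hQT : Q ∈ T
    · rw [if_pos hQT, he Q hCQ]; ring
    · rw [if_neg hQT]
      have h5 : Q.ord (bcF w₀) = 0 := by
        by_contra h
        exact hQT ((hTmem Q).mpr ⟨h, hCQ⟩)
      rw [h5]; ring
  -- powers of `u` are units at both Gauss valuations
  have hOzpow₁ : ∀ z : ℤ, (φ u) ^ z ∈ O₁ := by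
    have hpow : ∀ (a : FL), a ∈ O₁ → ∀ m : ℕ, a ^ m ∈ O₁ := by
      intro a ha m
      induction m with
      | zero => rw [pow_zero, ← map_one φ]; exact hBO₁ 1
      | succ m ih => rw [pow_succ]; exact hO₁ _ ih _ ha
    intro z
    obtain ⟨m, rfl | rfl⟩ := Int.eq_nat_or_neg z
    · rw [zpow_natCast]; exact hpow _ (hBO₁ u) m
    · rw [zpow_neg, zpow_natCast, ← inv_pow]; exact hpow _ huO₁ m
  have hOzpow₂ : ∀ z : ℤ, (φ u) ^ z ∈ O₂ := by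
    have hpow : ∀ (a : FL), a ∈ O₂ → ∀ m : ℕ, a ^ m ∈ O₂ := by
      intro a ha m
      induction m with
      | zero => rw [pow_zero, ← map_one φ]; exact hBO₂ 1
      | succ m ih => rw [pow_succ]; exact hO₂ _ ih _ ha
    intro z
    obtain ⟨m, rfl | rfl⟩ := Int.eq_nat_or_neg z
    · rw [zpow_natCast]; exact hpow _ (hBO₂ u) m
    · rw [zpow_neg, zpow_natCast, ← inv_pow]; exact hpow _ huO₂ m
  -- Hartogs at `𝔫`
  have hH : ∀ x : FL, x ≠ 0 → x ∈ O₁ → x ∈ O₂ → (∀ Q : Place K F, C Q → Q.ord (bcF x) = 0) →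
      ∃ d : B, d ∉ 𝔫 ∧ ∃ t : B, φ t = φ d * x := by
    intro x hx0 hx₁ hx₂ hxord
    obtain ⟨a, b, hb, hab⟩ := hfrac x
    have hφb : φ b ≠ 0 := fun h0 => hb (hφ (by rw [h0, map_zero]))
    have ha : a ≠ 0 := by
      rintro rfl
      rw [map_zero] at hab
      exact mul_ne_zero hx0 hφb hab
    have hhor : ∀ Q : Place K F, Through ψ 𝔫 Q → Q.ord (ψ b) ≤ Q.ord (ψ a) := by
      intro Q hQ
      have h1 : ψ a = bcF x * ψ b := by
        show bcF (φ a) = bcF x * bcF (φ b)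
        rw [← map_mul, hab]
      have hψb : ψ b ≠ 0 := (map_ne_zero bcF).mpr hφb
      rw [h1, Q.ord_mul ((map_ne_zero bcF).mpr hx0) hψb, hxord Q hQ, zero_add]
    obtain ⟨d, hd, t, ht⟩ := exists_integral_multiple W ψ hψ ϖ hext 𝔫 a b ha hb
      (fun 𝔭 h𝔭 hϖ𝔭 _ => KLoc.exists_notMem_dvd_of_two_sets φ hφ (algebraMap W B ϖ) hϖB0 𝔭₁ 𝔭₂
        hϖ₁ hϖ₂ hS1 O₁ M₁ O₂ M₂ hMO₁ hM₁ hMO₂ hM₂ x hx₁ hx₂ a b hb hab 𝔭 h𝔭 hϖ𝔭) hhor
    refine ⟨d, hd, t, ?_⟩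
    apply mul_right_cancel₀ hφb
    calc φ t * φ b = φ (b * t) := by rw [map_mul]; ring
      _ = φ (d * a) := by rw [ht]
      _ = φ d * (x * φ b) := by rw [map_mul, hab]
      _ = φ d * x * φ b := by ring
  -- a function `≡ 1` cannot vanish at `𝔫`
  have hkey : ∀ z : FL, G1 z → ∀ a d : B, φ a = φ d * z → a ∈ 𝔫 → d ∈ 𝔫 := by
    intro z hz a d had ha
    have h1 : φ (a - d) = (z - 1) * φ d := by rw [map_sub, had]; ring
    have h2 : a - d ∈ 𝔭₁ := (hM₁ _).mp (h1 ▸ hMO₁ _ (hG1M₁ z hz) _ (hBO₁ d))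
    have h3 : a - d ∈ 𝔭₂ := (hM₂ _).mp (h1 ▸ hMO₂ _ (hG1M₂ z hz) _ (hBO₂ d))
    obtain ⟨y, hy⟩ := Ideal.mem_span_singleton.mp (hS1 (Ideal.mem_inf.mpr ⟨h2, h3⟩))
    have h4 : a - d ∈ 𝔫 := by rw [hy]; exact 𝔫.mul_mem_right _ hϖ𝔫
    have h5 := 𝔫.sub_mem ha h4
    rwa [sub_sub_cancel] at h5
  -- the unit `ε`
  set ε : FL := w₁ * (φ u) ^ (-dg) with hεdef
  have hε0 : ε ≠ 0 := mul_ne_zero hw₁0 (zpow_ne_zero _ hφu0)
  have hεord : ∀ Q : Place K F, C Q → Q.ord (bcF ε) = 0 := by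
    intro Q hCQ
    have h1 : bcF ε = bcF w₁ * (ψ u) ^ (-dg) := by
      rw [hεdef, map_mul, map_zpow₀]
      rfl
    rw [h1, Q.ord_mul ((map_ne_zero bcF).mpr hw₁0) (zpow_ne_zero _ hψu0), hw₁ord Q hCQ,
      Place.ord_zpow]
    ring
  have hεinv : ε⁻¹ = w₁⁻¹ * (φ u) ^ dg := by
    rw [hεdef, mul_inv, ← zpow_neg, neg_neg]
  have hεinvord : ∀ Q : Place K F, C Q → Q.ord (bcF ε⁻¹) = 0 := by
    intro Q hCQ
    rw [map_inv₀, Place.ord_inv, hεord Q hCQ, neg_zero]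
  obtain ⟨d, hd, t, ht⟩ := hH ε hε0 (hO₁ _ (hG1O₁ _ hw₁G1) _ (hOzpow₁ _))
    (hO₂ _ (hG1O₂ _ hw₁G1) _ (hOzpow₂ _)) hεord
  obtain ⟨d', hd', t', ht'⟩ := hH ε⁻¹ (inv_ne_zero hε0)
    (hεinv ▸ hO₁ _ (hG1O₁ _ (hG1inv _ hw₁G1)) _ (hOzpow₁ _))
    (hεinv ▸ hO₂ _ (hG1O₂ _ (hG1inv _ hw₁G1)) _ (hOzpow₂ _)) hεinvord
  -- the degree vanishes
  have hdg : dg = 0 := by
    rcases lt_trichotomy dg 0 with hlt | h0 | hgt
    · -- `w₁⁻¹ = ε⁻¹ * u ^ m`, `m ≥ 1`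
      exfalso
      obtain ⟨m, hm⟩ := Int.eq_ofNat_of_zero_le (neg_nonneg.mpr hlt.le)
      have hm1 : 1 ≤ m := by omega
      have h1 : w₁⁻¹ = ε⁻¹ * (φ u) ^ m := by
        rw [hεinv, mul_assoc, ← zpow_natCast, ← zpow_add₀ hφu0, ← hm, add_neg_cancel, zpow_zero,
          mul_one]
      have h2 : φ (t' * u ^ m) = φ d' * w₁⁻¹ := by
        rw [map_mul, map_pow, ht', h1]; ring
      apply hd'
      refine hkey _ (hG1inv _ hw₁G1) _ _ h2 (𝔫.mul_mem_left _ ?_)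
      exact 𝔫.pow_mem_of_mem hu𝔫 m hm1
    · exact h0
    · exfalso
      obtain ⟨m, hm⟩ := Int.eq_ofNat_of_zero_le hgt.le
      have hm1 : 1 ≤ m := by omega
      have h1 : w₁ = ε * (φ u) ^ m := by
        rw [hεdef, mul_assoc, ← zpow_natCast, ← zpow_add₀ hφu0, ← hm, neg_add_cancel, zpow_zero,
          mul_one]
      have h2 : φ (t * u ^ m) = φ d * w₁ := by
        rw [map_mul, map_pow, ht, h1]; ring
      apply hd
      refine hkey _ hw₁G1 _ _ h2 (𝔫.mul_mem_left _ ?_)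
      exact 𝔫.pow_mem_of_mem hu𝔫 m hm1
  refine ⟨g, hgG1, d, hd, t, ?_⟩
  rw [ht, hεdef, hdg, neg_zero, zpow_zero, mul_one]

end Main

end Fermat.Agent.S35.EsSmooth
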