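import Mathlib
import Fermat.Agent.S35.EsSmooth
import Fermat.Agent.S34.KLocRaw
import Fermat.Agent.S37.HeckeInputs

/-!
# S35 (Route C), package (C4), raw currency: the local datum at a point `𝔫 = (π, u)` of a chart

`smooth_chart` is `EsSmooth.smooth_hloc` in the raw `S18` currency of `S34.KLocRaw.kloc_chart`,
for ANY chart `B` of `F = S24.FF L N` (finite chart or cusp chart): level `(L, ι)`,
`W = A.comap ι` a discrete valuation ring with uniformiser `π`, `w` an `L`-automorphism of `F`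
(Atkin–Lehner), all elements `y` of `B` having `y`, `w y` with `W`-integral `q`-expansion, (S1) in
raw form, `𝔫 ∋ π` a maximal ideal of `B` with `𝔫 B_𝔫 = (π, u)` where `u ∈ B` is a unit at both
Gauss valuations (`red u ≠ 0`, `red (w u) ≠ 0`).

If `w₀ = 1 + π m` with `m`, `w m` of `W`-integral `q`-expansion (`≡ 1` at both Gauss valuations),
all orders of `bc ι w₀` are divisible by `p ^ n` and the places in the support of its divisor are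
rational at the level, then there are `g = 1 + π m'` of the same kind and `d ∉ 𝔫` with
`d * (w₀ * g ^ (p ^ n)) ∈ B`.

The first section is the calculus of the class `G1` "`≡ 1` modulo `π` on `O₁ ∩ O₂`".
-/

set_option autoImplicit false
set_option linter.unusedSectionVars false
set_option linter.unusedVariables false
set_option linter.style.haveILetI false

noncomputable section

namespace Fermat.Agent.S35.EsSmoothRaw

section Abstract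

variable {FL : Type*} [Field FL] {K₁ K₂ : Type*} [CommRing K₁] [CommRing K₂]
  (O₁ O₂ : Subring FL) (π : FL)

/-- `a = 1 + π m` with `m ∈ O₁ ∩ O₂` -/
def G1 (a : FL) : Prop := ∃ m : FL, m ∈ O₁ ∧ m ∈ O₂ ∧ a = 1 + π * m

variable {O₁ O₂ π}

theorem G1.one : G1 O₁ O₂ π 1 := ⟨0, O₁.zero_mem, O₂.zero_mem, by ring⟩

theorem G1.mul (hπ₁ : π ∈ O₁) (hπ₂ : π ∈ O₂) {a b : FL} (ha : G1 O₁ O₂ π a)
    (hb : G1 O₁ O₂ π b) : G1 O₁ O₂ π (a * b) := by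
  obtain ⟨m, hm₁, hm₂, rfl⟩ := ha
  obtain ⟨m', hm'₁, hm'₂, rfl⟩ := hb
  refine ⟨m + m' + π * (m * m'), ?_, ?_, by ring⟩
  · exact O₁.add_mem (O₁.add_mem hm₁ hm'₁) (O₁.mul_mem hπ₁ (O₁.mul_mem hm₁ hm'₁))
  · exact O₂.add_mem (O₂.add_mem hm₂ hm'₂) (O₂.mul_mem hπ₂ (O₂.mul_mem hm₂ hm'₂))

theorem G1.mem₁ (hπ₁ : π ∈ O₁) {a : FL} (ha : G1 O₁ O₂ π a) : a ∈ O₁ := by
  obtain ⟨m, hm₁, hm₂, rfl⟩ := ha
  exact O₁.add_mem O₁.one_mem (O₁.mul_mem hπ₁ hm₁)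

theorem G1.mem₂ (hπ₂ : π ∈ O₂) {a : FL} (ha : G1 O₁ O₂ π a) : a ∈ O₂ := by
  obtain ⟨m, hm₁, hm₂, rfl⟩ := ha
  exact O₂.add_mem O₂.one_mem (O₂.mul_mem hπ₂ hm₂)

theorem G1.sub_one₁ (ρ₁ : O₁ →+* K₁) (hπ₁ : π ∈ O₁) (hρ₁ : ρ₁ ⟨π, hπ₁⟩ = 0) {a : FL}
    (ha : G1 O₁ O₂ π a) : ∃ h : a - 1 ∈ O₁, ρ₁ ⟨a - 1, h⟩ = 0 := by
  obtain ⟨m, hm₁, hm₂, rfl⟩ := ha
  have e : (1 + π * m - 1 : FL) = π * m := by ring
  have h : (1 + π * m - 1 : FL) ∈ O₁ := by rw [e]; exact O₁.mul_mem hπ₁ hm₁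
  refine ⟨h, ?_⟩
  have e2 : (⟨1 + π * m - 1, h⟩ : O₁) = ⟨π, hπ₁⟩ * ⟨m, hm₁⟩ := Subtype.ext e
  rw [e2, map_mul, hρ₁, zero_mul]

theorem G1.sub_one₂ (ρ₂ : O₂ →+* K₂) (hπ₂ : π ∈ O₂) (hρ₂ : ρ₂ ⟨π, hπ₂⟩ = 0) {a : FL}
    (ha : G1 O₁ O₂ π a) : ∃ h : a - 1 ∈ O₂, ρ₂ ⟨a - 1, h⟩ = 0 := by
  obtain ⟨m, hm₁, hm₂, rfl⟩ := ha
  have e : (1 + π * m - 1 : FL) = π * m := by ring
  have h : (1 + π * m - 1 : FL) ∈ O₂ := by rw [e]; exact O₂.mul_mem hπ₂ hm₂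
  refine ⟨h, ?_⟩
  have e2 : (⟨1 + π * m - 1, h⟩ : O₂) = ⟨π, hπ₂⟩ * ⟨m, hm₂⟩ := Subtype.ext e
  rw [e2, map_mul, hρ₂, zero_mul]

theorem G1.rho₁ (ρ₁ : O₁ →+* K₁) (hπ₁ : π ∈ O₁) (hρ₁ : ρ₁ ⟨π, hπ₁⟩ = 0) {a : FL}
    (ha : G1 O₁ O₂ π a) : ρ₁ ⟨a, ha.mem₁ hπ₁⟩ = 1 := by
  obtain ⟨h, h0⟩ := ha.sub_one₁ ρ₁ hπ₁ hρ₁
  have e : (⟨a, ha.mem₁ hπ₁⟩ : O₁) = ⟨a - 1, h⟩ + 1 := Subtype.ext (by
    show a = a - 1 + 1
    ring)
  rw [e, map_add, h0, map_one, zero_add]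

theorem G1.rho₂ (ρ₂ : O₂ →+* K₂) (hπ₂ : π ∈ O₂) (hρ₂ : ρ₂ ⟨π, hπ₂⟩ = 0) {a : FL}
    (ha : G1 O₁ O₂ π a) : ρ₂ ⟨a, ha.mem₂ hπ₂⟩ = 1 := by
  obtain ⟨h, h0⟩ := ha.sub_one₂ ρ₂ hπ₂ hρ₂
  have e : (⟨a, ha.mem₂ hπ₂⟩ : O₂) = ⟨a - 1, h⟩ + 1 := Subtype.ext (by
    show a = a - 1 + 1
    ring)
  rw [e, map_add, h0, map_one, zero_add]

theorem G1.inv [Nontrivial K₁] [Nontrivial K₂] (ρ₁ : O₁ →+* K₁) (ρ₂ : O₂ →+* K₂)
    (hπ₁ : π ∈ O₁) (hπ₂ : π ∈ O₂) (hρ₁ : ρ₁ ⟨π, hπ₁⟩ = 0) (hρ₂ : ρ₂ ⟨π, hπ₂⟩ = 0)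
    (hinv₁ : ∀ (x : FL) (hx : x ∈ O₁), ρ₁ ⟨x, hx⟩ ≠ 0 → x⁻¹ ∈ O₁)
    (hinv₂ : ∀ (x : FL) (hx : x ∈ O₂), ρ₂ ⟨x, hx⟩ ≠ 0 → x⁻¹ ∈ O₂)
    {a : FL} (ha : G1 O₁ O₂ π a) : G1 O₁ O₂ π a⁻¹ := by
  have h1 : a⁻¹ ∈ O₁ := hinv₁ a (ha.mem₁ hπ₁) (by rw [ha.rho₁ ρ₁ hπ₁ hρ₁]; exact one_ne_zero)
  have h2 : a⁻¹ ∈ O₂ := hinv₂ a (ha.mem₂ hπ₂) (by rw [ha.rho₂ ρ₂ hπ₂ hρ₂]; exact one_ne_zero)
  have ha0 : a ≠ 0 := by
    rintro rfl
    have h3 := ha.rho₁ ρ₁ hπ₁ hρ₁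
    have e : (⟨0, ha.mem₁ hπ₁⟩ : O₁) = 0 := rfl
    rw [e, map_zero] at h3
    exact zero_ne_one h3
  obtain ⟨m, hm₁, hm₂, e⟩ := ha
  refine ⟨-(m * a⁻¹), O₁.neg_mem (O₁.mul_mem hm₁ h1), O₂.neg_mem (O₂.mul_mem hm₂ h2), ?_⟩
  have e2 : π * m = a - 1 := by rw [e]; ring
  have e3 : π * -(m * a⁻¹) = -((π * m) * a⁻¹) := by ring
  rw [e3, e2]
  field_simp
  ring

end Abstract

open ModularCurve AlgebraicCurve Fermat.Agent.S18.Gauss Fermat.Agent.S24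
open Fermat.Agent.S37.GaloisValue Fermat.Agent.S34

local notation "Qb" => AlgebraicClosure ℚ

variable {L : Type} [Field L] [Algebra ℚ L] (N : ℕ) [NeZero N]

section Content

variable (W : ValuationSubring L)

omit [NeZero N] in
theorem const_mem_contentSub (c : W) :
    algebraMap L (FF L N) (c : L) ∈ KLocChart.contentSub W N := by
  show ((algebraMap L (FF L N) (c : L) : FF L N) : LaurentSeries L) ∈ contentRing W
  rw [KLocChart.coe_algebraMap_const]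
  exact C_mem_contentRing W c

variable [IsDiscreteValuationRing W]

omit [NeZero N] in
theorem redSub_unif {π : W} (hπ : Irreducible π)
    (h : algebraMap L (FF L N) (π : L) ∈ KLocChart.contentSub W N) :
    KLocChart.redSub W N ⟨algebraMap L (FF L N) (π : L), h⟩ = 0 := by
  rw [KLocChart.redSub_apply]
  have key : ∀ (f : LaurentSeries L) (hf : f ∈ contentRing W), f = HahnSeries.C (π : L) →
      red W ⟨f, hf⟩ = 0 := by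
    intro f hf e
    subst e
    exact red_C_unif W hπ
  exact key _ _ (KLocChart.coe_algebraMap_const N (π : L))

omit [NeZero N] in
theorem inv_mem_contentSub {x : FF L N} (hx : x ∈ KLocChart.contentSub W N)
    (hred : KLocChart.redSub W N ⟨x, hx⟩ ≠ 0) : x⁻¹ ∈ KLocChart.contentSub W N := by
  show ((x⁻¹ : FF L N) : LaurentSeries L) ∈ contentRing W
  have e : ((x⁻¹ : FF L N) : LaurentSeries L) = ((x : FF L N) : LaurentSeries L)⁻¹ :=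
    map_inv₀ (algebraMap (FF L N) (LaurentSeries L)) x
  rw [e]
  exact inv_mem_contentRing W hx hred

end Content

/-- **The local datum at a point `𝔫 = (π, u)` of a chart, raw currency, any chart.** -/
theorem smooth_chart (A : ValuationSubring Qb) (ι : L →+* Qb)
    [IsDiscreteValuationRing ↥(A.comap ι)]
    {π : ↥(A.comap ι)} (hπ : Irreducible π)
    (w : FF L N ≃ₐ[L] FF L N)
    (B : Type*) [CommRing B] [IsDomain B] [IsNoetherianRing B] [IsIntegrallyClosed B]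
    [Algebra ↥(A.comap ι) B] [Algebra B (FF L N)] [IsFractionRing B (FF L N)]
    (hBW : ∀ c : ↥(A.comap ι), algebraMap B (FF L N) (algebraMap ↥(A.comap ι) B c) =
      algebraMap L (FF L N) (c : L))
    (hB₁ : ∀ y : B,
      ((algebraMap B (FF L N) y : FF L N) : LaurentSeries L) ∈ contentRing (A.comap ι))
    (hB₂ : ∀ y : B,
      ((w (algebraMap B (FF L N) y) : FF L N) : LaurentSeries L) ∈ contentRing (A.comap ι))
    (hS1 : ∀ y : B, red (A.comap ι) ⟨_, hB₁ y⟩ = 0 → red (A.comap ι) ⟨_, hB₂ y⟩ = 0 →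
      ∃ y' : B, algebraMap B (FF L N) y =
        algebraMap L (FF L N) (π : L) * algebraMap B (FF L N) y')
    (𝔫 : Ideal B) [h𝔫max : 𝔫.IsMaximal] (hπ𝔫 : algebraMap ↥(A.comap ι) B π ∈ 𝔫)
    (u : B)
    (hu : IsLocalRing.maximalIdeal (Localization.AtPrime 𝔫) =
      Ideal.span {algebraMap ↥(A.comap ι) (Localization.AtPrime 𝔫) π,
        algebraMap B (Localization.AtPrime 𝔫) u})
    (hu₁ : red (A.comap ι) ⟨_, hB₁ u⟩ ≠ 0) (hu₂ : red (A.comap ι) ⟨_, hB₂ u⟩ ≠ 0)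
    (p n : ℕ) (w₀ : FF L N)
    (hw₀ : ∃ m : FF L N, (m : LaurentSeries L) ∈ contentRing (A.comap ι) ∧
      ((w m : FF L N) : LaurentSeries L) ∈ contentRing (A.comap ι) ∧
      w₀ = 1 + algebraMap L (FF L N) (π : L) * m)
    (hdvd : ∀ Q : Place Qb (modularFunctionFieldBar N),
      ((p : ℤ) ^ n) ∣ Q.ord (CoeffBC.bc ι (modularFunctionFieldFull N) w₀))
    (hrat : ∀ Q : Place Qb (modularFunctionFieldBar N),
      Q.ord (CoeffBC.bc ι (modularFunctionFieldFull N) w₀) ≠ 0 → GDescent.RatAtLevel N ι Q) :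
    ∃ g : FF L N, (∃ m : FF L N, (m : LaurentSeries L) ∈ contentRing (A.comap ι) ∧
        ((w m : FF L N) : LaurentSeries L) ∈ contentRing (A.comap ι) ∧
        g = 1 + algebraMap L (FF L N) (π : L) * m) ∧
      ∃ d : B, d ∉ 𝔫 ∧ ∃ t : B,
        algebraMap B (FF L N) t = algebraMap B (FF L N) d * (w₀ * g ^ (p ^ n)) := by
  classical
  have hinj : Function.Injective (algebraMap B (FF L N)) := IsFractionRing.injective B (FF L N)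
  -- the two subrings and reduction maps
  let O₁ : Subring (FF L N) := KLocChart.contentSub (A.comap ι) N
  let O₂ : Subring (FF L N) :=
    (KLocChart.contentSub (A.comap ι) N).comap (w : FF L N →+* FF L N)
  let ρ₁ : O₁ →+* LaurentSeries (IsLocalRing.ResidueField ↥(A.comap ι)) :=
    KLocChart.redSub (A.comap ι) N
  let ρ₂ : O₂ →+* LaurentSeries (IsLocalRing.ResidueField ↥(A.comap ι)) :=
    (KLocChart.redSub (A.comap ι) N).comp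
      ((w : FF L N →+* FF L N).restrict O₂ (KLocChart.contentSub (A.comap ι) N) (fun _ h => h))
  have hρ₂ : ∀ (x : FF L N) (hx : x ∈ O₂), ρ₂ ⟨x, hx⟩ = ρ₁ ⟨w x, hx⟩ := fun x hx => rfl
  have hBO₁ : ∀ y : B, algebraMap B (FF L N) y ∈ O₁ := hB₁
  have hBO₂ : ∀ y : B, algebraMap B (FF L N) y ∈ O₂ := hB₂
  let r₁ : B →+* LaurentSeries (IsLocalRing.ResidueField ↥(A.comap ι)) :=
    ρ₁.comp ((algebraMap B (FF L N)).codRestrict O₁ hBO₁)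
  let r₂ : B →+* LaurentSeries (IsLocalRing.ResidueField ↥(A.comap ι)) :=
    ρ₂.comp ((algebraMap B (FF L N)).codRestrict O₂ hBO₂)
  have hr₁ : ∀ y : B, r₁ y = red (A.comap ι) ⟨_, hB₁ y⟩ := fun y => rfl
  have hr₂ : ∀ y : B, r₂ y = red (A.comap ι) ⟨_, hB₂ y⟩ := fun y => rfl
  have hr₁' : ∀ y : B, r₁ y = ρ₁ ⟨algebraMap B (FF L N) y, hBO₁ y⟩ := fun y => rfl
  have hr₂' : ∀ y : B, r₂ y = ρ₂ ⟨algebraMap B (FF L N) y, hBO₂ y⟩ := fun y => rfl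
  haveI h𝔭₁ : (RingHom.ker r₁).IsPrime := RingHom.ker_isPrime r₁
  haveI h𝔭₂ : (RingHom.ker r₂).IsPrime := RingHom.ker_isPrime r₂
  -- the uniformiser
  set πF : FF L N := algebraMap L (FF L N) (π : L) with hπFdef
  have hπO₁ : πF ∈ O₁ := const_mem_contentSub N (A.comap ι) π
  have hwπ : w πF = πF := w.commutes (π : L)
  have hπO₂ : πF ∈ O₂ := by
    show w πF ∈ O₁
    rw [hwπ]
    exact hπO₁
  have hρπ₁ : ρ₁ ⟨πF, hπO₁⟩ = 0 := redSub_unif N (A.comap ι) hπ hπO₁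
  have hρπ₂ : ρ₂ ⟨πF, hπO₂⟩ = 0 := by
    rw [hρ₂]
    have e : (⟨w πF, hπO₂⟩ : O₁) = ⟨πF, hπO₁⟩ := Subtype.ext hwπ
    rw [e]
    exact hρπ₁
  have hπB : algebraMap B (FF L N) (algebraMap ↥(A.comap ι) B π) = πF := hBW π
  have hπ₁ : algebraMap ↥(A.comap ι) B π ∈ RingHom.ker r₁ := by
    rw [RingHom.mem_ker, hr₁']
    have e : (⟨algebraMap B (FF L N) (algebraMap ↥(A.comap ι) B π), hBO₁ _⟩ : O₁) =
        ⟨πF, hπO₁⟩ := Subtype.ext hπB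
    rw [e]
    exact hρπ₁
  have hπ₂ : algebraMap ↥(A.comap ι) B π ∈ RingHom.ker r₂ := by
    rw [RingHom.mem_ker, hr₂']
    have e : (⟨algebraMap B (FF L N) (algebraMap ↥(A.comap ι) B π), hBO₂ _⟩ : O₂) =
        ⟨πF, hπO₂⟩ := Subtype.ext hπB
    rw [e]
    exact hρπ₂
  -- (S1)
  have hS1' : RingHom.ker r₁ ⊓ RingHom.ker r₂ ≤ Ideal.span {algebraMap ↥(A.comap ι) B π} := by
    rintro y ⟨hy₁, hy₂⟩
    rw [SetLike.mem_coe, RingHom.mem_ker, hr₁] at hy₁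
    rw [SetLike.mem_coe, RingHom.mem_ker, hr₂] at hy₂
    obtain ⟨y', hy'⟩ := hS1 y hy₁ hy₂
    have e : y = algebraMap ↥(A.comap ι) B π * y' := hinj (by rw [map_mul, hπB, hy'])
    rw [e]
    exact Ideal.mul_mem_right _ _ (Ideal.subset_span rfl)
  -- the sets
  let M₁ : Set (FF L N) := {z | ∃ hz : z ∈ O₁, ρ₁ ⟨z, hz⟩ = 0}
  let M₂ : Set (FF L N) := {z | ∃ hz : z ∈ O₂, ρ₂ ⟨z, hz⟩ = 0}
  have hMO₁ : ∀ m ∈ M₁, ∀ o ∈ (O₁ : Set (FF L N)), m * o ∈ M₁ := by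
    rintro m ⟨hm, hm0⟩ o ho
    refine ⟨O₁.mul_mem hm ho, ?_⟩
    have e : (⟨m * o, O₁.mul_mem hm ho⟩ : O₁) = ⟨m, hm⟩ * ⟨o, ho⟩ := rfl
    rw [e, map_mul, hm0, zero_mul]
  have hMO₂ : ∀ m ∈ M₂, ∀ o ∈ (O₂ : Set (FF L N)), m * o ∈ M₂ := by
    rintro m ⟨hm, hm0⟩ o ho
    refine ⟨O₂.mul_mem hm ho, ?_⟩
    have e : (⟨m * o, O₂.mul_mem hm ho⟩ : O₂) = ⟨m, hm⟩ * ⟨o, ho⟩ := rfl
    rw [e, map_mul, hm0, zero_mul]
  have hM₁ : ∀ y : B, algebraMap B (FF L N) y ∈ M₁ ↔ y ∈ RingHom.ker r₁ := by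
    intro y
    rw [RingHom.mem_ker, hr₁']
    exact ⟨fun ⟨_, h⟩ => h, fun h => ⟨hBO₁ y, h⟩⟩
  have hM₂ : ∀ y : B, algebraMap B (FF L N) y ∈ M₂ ↔ y ∈ RingHom.ker r₂ := by
    intro y
    rw [RingHom.mem_ker, hr₂']
    exact ⟨fun ⟨_, h⟩ => h, fun h => ⟨hBO₂ y, h⟩⟩
  -- inverses
  have hinv₁ : ∀ (x : FF L N) (hx : x ∈ O₁), ρ₁ ⟨x, hx⟩ ≠ 0 → x⁻¹ ∈ O₁ :=
    fun x hx h => inv_mem_contentSub N (A.comap ι) hx h
  have hinv₂ : ∀ (x : FF L N) (hx : x ∈ O₂), ρ₂ ⟨x, hx⟩ ≠ 0 → x⁻¹ ∈ O₂ := by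
    intro x hx h
    show w x⁻¹ ∈ O₁
    rw [map_inv₀]
    exact inv_mem_contentSub N (A.comap ι) hx h
  -- the generator
  have hu0 : u ≠ 0 := by
    rintro rfl
    apply hu₁
    rw [← hr₁, map_zero]
  have huO₁ : (algebraMap B (FF L N) u)⁻¹ ∈ O₁ :=
    hinv₁ _ (hBO₁ u) (by rw [← hr₁']; rw [hr₁]; exact hu₁)
  have huO₂ : (algebraMap B (FF L N) u)⁻¹ ∈ O₂ :=
    hinv₂ _ (hBO₂ u) (by rw [← hr₂']; rw [hr₂]; exact hu₂)
  -- the chart hypotheses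
  have hφW : ∀ c : ↥(A.comap ι), CoeffBC.bc ι (modularFunctionFieldFull N)
      (algebraMap B (FF L N) (algebraMap ↥(A.comap ι) B c)) =
      algebraMap Qb ↥(modularFunctionFieldBar N) (ι c) := by
    intro c
    rw [hBW c, CoeffBC.bc_algebraMap]
  have hfrac : ∀ x : FF L N, ∃ y₁ y₂ : B, y₂ ≠ 0 ∧
      x * algebraMap B (FF L N) y₂ = algebraMap B (FF L N) y₁ := by
    intro x
    obtain ⟨⟨y₁, y₂⟩, h⟩ := IsLocalization.surj (nonZeroDivisors B) x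
    exact ⟨y₁, y₂, nonZeroDivisors.ne_zero y₂.2, h⟩
  have hext : ∀ 𝔮 : Ideal B, 𝔮.IsPrime → 𝔮 ≠ ⊥ → algebraMap ↥(A.comap ι) B π ∉ 𝔮 →
      ∃ Q : Place Qb (modularFunctionFieldBar N), ∀ y : B,
        CoeffBC.bc ι (modularFunctionFieldFull N) (algebraMap B (FF L N) y) ∈
          Q.toValuationSubring ∧
        (y ∈ 𝔮 ↔ IsValueAt Q
          (CoeffBC.bc ι (modularFunctionFieldFull N) (algebraMap B (FF L N) y)) 0) := by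
    intro 𝔮 h𝔮 h0 hπ𝔮
    have := h𝔮
    refine Fermat.Agent.S37.ExtPlace.exists_place_of_prime_chart N ι (A.comap ι) hπ
      (algebraMap B (FF L N)) hinj (fun c => ⟨algebraMap ↥(A.comap ι) B c, hBW c⟩) 𝔮 h0 ?_
    intro b hb hmem
    have : b = algebraMap ↥(A.comap ι) B π := hinj (by rw [hb, hπB])
    exact hπ𝔮 (this ▸ hmem)
  -- the class `G1`
  have hG1u : ∀ c : ↥(A.comap ι), G1 O₁ O₂ πF
      (1 - algebraMap B (FF L N) (algebraMap ↥(A.comap ι) B (π * c)) /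
        algebraMap B (FF L N) u) := by
    intro c
    have hcO₁ : algebraMap L (FF L N) (c : L) ∈ O₁ := const_mem_contentSub N (A.comap ι) c
    have hcO₂ : algebraMap L (FF L N) (c : L) ∈ O₂ := by
      show w (algebraMap L (FF L N) (c : L)) ∈ O₁
      rw [w.commutes]
      exact hcO₁
    refine ⟨-(algebraMap L (FF L N) (c : L) * (algebraMap B (FF L N) u)⁻¹),
      O₁.neg_mem (O₁.mul_mem hcO₁ huO₁), O₂.neg_mem (O₂.mul_mem hcO₂ huO₂), ?_⟩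
    rw [hBW (π * c)]
    have e : algebraMap L (FF L N) ((π * c : ↥(A.comap ι)) : L) =
        πF * algebraMap L (FF L N) (c : L) := by
      rw [hπFdef, ← map_mul]
      rfl
    rw [e]
    ring
  obtain ⟨g, hg, d, hd, t, ht⟩ := EsSmooth.smooth_hloc A ι (A.comap ι)
    (CoeffBC.bc ι (modularFunctionFieldFull N)) (algebraMap B (FF L N)) (fun x => Iff.rfl) hinj
    hφW hfrac π hπ.ne_zero (Fermat.Agent.S37.WChartInst.dvr_unit_or_dvd hπ)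
    (KLocRaw.exists_not_pow_dvd hπ) hext 𝔫 hπ𝔫 u hu0 hu (RingHom.ker r₁) (RingHom.ker r₂)
    hπ₁ hπ₂ hS1' (O₁ : Set (FF L N)) M₁ (O₂ : Set (FF L N)) M₂ hMO₁ hM₁ hMO₂ hM₂
    (fun a ha b hb => O₁.mul_mem ha hb) (fun a ha b hb => O₂.mul_mem ha hb) hBO₁ hBO₂ huO₁ huO₂
    (G1 O₁ O₂ πF) G1.one (fun a b ha hb => ha.mul hπO₁ hπO₂ hb)
    (fun a ha => ha.inv ρ₁ ρ₂ hπO₁ hπO₂ hρπ₁ hρπ₂ hinv₁ hinv₂)
    (fun a ha => ha.mem₁ hπO₁) (fun a ha => ha.mem₂ hπO₂)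
    (fun a ha => ha.sub_one₁ ρ₁ hπO₁ hρπ₁) (fun a ha => ha.sub_one₂ ρ₂ hπO₂ hρπ₂)
    hG1u w₀ hw₀ p n (fun Q _ => hdvd Q) (fun Q _ hQ => hrat Q hQ)
  exact ⟨g, hg, d, hd, t, ht⟩

end Fermat.Agent.S35.EsSmoothRaw
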