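import Mathlib

/-!
# S35, route C, (C4) feeder: normalising the local parameter at a one-component point

Comp currency (as in `S34.Comp` / `S34.CompPts` / `S35.NodePts`): `B` a chart ring,
`r₁ r₂ : B → K_i` the two reduction maps (`K_i` domains), `π ∈ B` with
`(S1)`: `r₁ b = 0 → r₂ b = 0 → π ∣ b`, `𝔫 ∋ π` a maximal ideal, `R = B_𝔫`.

A point is a **node** if `ker r₁ ≤ 𝔫` and `ker r₂ ≤ 𝔫`; otherwise it lies on exactly one
component.  The landed dichotomies (`S34.CompLevel.dich_fin_level`,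
`S34.FinDichLevel.finite_dich`, `S34.CuspFracE.cusp_point`) give SOME `u` with
`𝔪_R = (π, u)` at the smooth points.  The smooth-point lemma of route C needs a parameter
`u ∈ 𝔫` which is a unit at BOTH vertical valuations, i.e. `r₁ u ≠ 0` and `r₂ u ≠ 0`
(then `1 - c / u` is `≡ 1` at both Gauss valuations for every `c ∈ π W`).

* `ker_le_of_notMem` : `e ∈ ker r₂ \ 𝔫` forces `ker r₁ ≤ 𝔫`.
* `ker_le_or_ker_le` : `π ∈ 𝔫` forces `ker r₁ ≤ 𝔫` or `ker r₂ ≤ 𝔫`.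
* `exists_mem_of_loc` : a generator `u₀ : R` of `𝔪_R = (π, u₀)` may be taken in `𝔫 ⊆ B`.
* `smooth_of_dich` : at a one-component point the node alternative `(π, X, Y)`, `π ∣ X Y`
  collapses to the smooth alternative.
* `exists_good_gen` : at a one-component point with `𝔪_R = (π, u₀)` and some `x ∈ 𝔫` with
  `r₁ x ≠ 0`, `r₂ x ≠ 0` there is `u ∈ 𝔫` with `𝔪_R = (π, u)`, `r₁ u ≠ 0`, `r₂ u ≠ 0`
  (`u = e u₀ + x ^ k`, `k ∈ {2, 3}`, Nakayama).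
* `exists_good_gen_of_both`, `exists_good_gen_of_smooth` : the same at EVERY point with
  `𝔪_R = (π, u₀)` (no component hypothesis: at a point on both components one of
  `u₀ + x ^ k`, `k ∈ {2, 3, 4}`, works).
* `node_or_good` : the trichotomy-free form: every closed point `𝔫 ∋ π` is a node or has a
  good parameter.
-/

set_option autoImplicit false
set_option linter.unusedSectionVars false

namespace Fermat.Agent.S35.SmoothGen

open IsLocalRing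

variable {B K₁ K₂ : Type*} [CommRing B] [CommRing K₁] [IsDomain K₁] [CommRing K₂] [IsDomain K₂]
  (r₁ : B →+* K₁) (r₂ : B →+* K₂) (𝔫 : Ideal B) [h𝔫 : 𝔫.IsMaximal]

/-- `(S1)` and an element of `ker r₂` outside `𝔫 ∋ π` force `ker r₁ ≤ 𝔫`. -/
theorem ker_le_of_notMem (π : B) (hS1 : ∀ b, r₁ b = 0 → r₂ b = 0 → π ∣ b) (hπ𝔫 : π ∈ 𝔫)
    {e : B} (he : r₂ e = 0) (he𝔫 : e ∉ 𝔫) : RingHom.ker r₁ ≤ 𝔫 := by
  intro y hy
  have h1 : π ∣ e * y :=
    hS1 _ (by rw [map_mul, RingHom.mem_ker.mp hy, mul_zero]) (by rw [map_mul, he, zero_mul])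
  have h2 : e * y ∈ 𝔫 := by
    obtain ⟨c, hc⟩ := h1
    rw [hc]
    exact 𝔫.mul_mem_right _ hπ𝔫
  exact (h𝔫.isPrime.mem_or_mem h2).resolve_left he𝔫

/-- every closed point of the special fibre lies on one of the two components -/
theorem ker_le_or_ker_le (π : B) (hS1 : ∀ b, r₁ b = 0 → r₂ b = 0 → π ∣ b) (hπ𝔫 : π ∈ 𝔫) :
    RingHom.ker r₁ ≤ 𝔫 ∨ RingHom.ker r₂ ≤ 𝔫 := by
  by_contra hcon
  obtain ⟨hcon1, hcon2⟩ := not_or.mp hcon
  obtain ⟨a, ha, ha𝔫⟩ := SetLike.not_le_iff_exists.mp hcon1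
  obtain ⟨b, hb, hb𝔫⟩ := SetLike.not_le_iff_exists.mp hcon2
  have h1 : π ∣ a * b :=
    hS1 _ (by rw [map_mul, RingHom.mem_ker.mp ha, zero_mul])
      (by rw [map_mul, RingHom.mem_ker.mp hb, mul_zero])
  have h2 : a * b ∈ 𝔫 := by
    obtain ⟨c, hc⟩ := h1
    rw [hc]
    exact 𝔫.mul_mem_right _ hπ𝔫
  rcases h𝔫.isPrime.mem_or_mem h2 with h | h
  · exact ha𝔫 h
  · exact hb𝔫 h

variable (R : Type*) [CommRing R] [Algebra B R] [IsLocalization.AtPrime R 𝔫] [IsLocalRing R]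

/-- elements outside `𝔫` become units of `B_𝔫` -/
theorem isUnit_algebraMap_of_notMem {s : B} (hs : s ∉ 𝔫) : IsUnit (algebraMap B R s) :=
  IsLocalization.map_units R (⟨s, hs⟩ : 𝔫.primeCompl)

/-- elements of `𝔫` land in the maximal ideal of `B_𝔫` -/
theorem algebraMap_mem_maximalIdeal {b : B} (hb : b ∈ 𝔫) :
    algebraMap B R b ∈ maximalIdeal R :=
  (IsLocalization.AtPrime.to_map_mem_maximal_iff R 𝔫 b).mpr hb

/-- a second generator of `𝔪_R = (π, u₀)` may be taken in `𝔫 ⊆ B` -/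
theorem exists_mem_of_loc (π : B) (u₀ : R)
    (h𝔪 : maximalIdeal R = Ideal.span {algebraMap B R π, u₀}) :
    ∃ b ∈ 𝔫, maximalIdeal R = Ideal.span {algebraMap B R π, algebraMap B R b} := by
  obtain ⟨⟨b, s⟩, hbs⟩ := IsLocalization.surj 𝔫.primeCompl u₀
  have hbs' : u₀ * algebraMap B R s = algebraMap B R b := hbs
  obtain ⟨v, hv⟩ := isUnit_algebraMap_of_notMem 𝔫 R s.2
  have hu₀ : u₀ ∈ maximalIdeal R := by
    rw [h𝔪]
    exact Ideal.subset_span (Set.mem_insert_of_mem _ rfl)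
  have hb𝔪 : algebraMap B R b ∈ maximalIdeal R := by
    rw [← hbs']
    exact Ideal.mul_mem_right _ _ hu₀
  refine ⟨b, (IsLocalization.AtPrime.to_map_mem_maximal_iff R 𝔫 b).mp hb𝔪, ?_⟩
  rw [h𝔪]
  apply le_antisymm
  · rw [Ideal.span_le]
    rintro y (rfl | hy)
    · exact Ideal.subset_span (Set.mem_insert _ _)
    · rw [Set.mem_singleton_iff.mp hy]
      have h1 : u₀ = algebraMap B R b * (v⁻¹ : Rˣ) := by
        rw [← hbs', ← hv, mul_assoc, Units.mul_inv, mul_one]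
      rw [h1]
      exact Ideal.mul_mem_right _ _ (Ideal.subset_span (Set.mem_insert_of_mem _ rfl))
  · rw [Ideal.span_le]
    rintro y (rfl | hy)
    · exact Ideal.subset_span (Set.mem_insert _ _)
    · rw [Set.mem_singleton_iff.mp hy, ← hbs']
      exact Ideal.mul_mem_right _ _ (Ideal.subset_span (Set.mem_insert_of_mem _ rfl))

/-- **At a one-component point the node alternative collapses**: if `e ∈ ker r₂ \ 𝔫`, then
`𝔪_R = (π, X, Y)` with `π ∣ X Y` is `(π, X)` or `(π, Y)`. -/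
theorem smooth_of_dich (π : B) (hπ₁ : r₁ π = 0)
    (hS1 : ∀ b, r₁ b = 0 → r₂ b = 0 → π ∣ b)
    {e : B} (he : r₂ e = 0) (he𝔫 : e ∉ 𝔫)
    (hdich : (∃ u ∈ 𝔫, maximalIdeal R = Ideal.span {algebraMap B R π, algebraMap B R u}) ∨
      (∃ X ∈ 𝔫, ∃ Y ∈ 𝔫, π ∣ X * Y ∧ maximalIdeal R =
        Ideal.span {algebraMap B R π, algebraMap B R X, algebraMap B R Y})) :
    ∃ u ∈ 𝔫, maximalIdeal R = Ideal.span {algebraMap B R π, algebraMap B R u} := by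
  rcases hdich with h | ⟨X, hX, Y, hY, hXY, h𝔪⟩
  · exact h
  obtain ⟨v, hv⟩ := isUnit_algebraMap_of_notMem 𝔫 R he𝔫
  -- an element of `ker r₁` is a multiple of `π` in `R`
  have hker : ∀ Z : B, r₁ Z = 0 → algebraMap B R Z ∈ Ideal.span {algebraMap B R π} := by
    intro Z hZ
    obtain ⟨c, hc⟩ := hS1 (e * Z) (by rw [map_mul, hZ, mul_zero]) (by rw [map_mul, he, zero_mul])
    have h1 : algebraMap B R Z = algebraMap B R π * (algebraMap B R c * (v⁻¹ : Rˣ)) := by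
      have h2 : algebraMap B R e * algebraMap B R Z = algebraMap B R π * algebraMap B R c := by
        rw [← map_mul, hc, map_mul]
      calc algebraMap B R Z = (algebraMap B R e * algebraMap B R Z) * (v⁻¹ : Rˣ) := by
            rw [← hv, mul_comm (v : R), mul_assoc, Units.mul_inv, mul_one]
        _ = algebraMap B R π * (algebraMap B R c * (v⁻¹ : Rˣ)) := by rw [h2, mul_assoc]
    rw [h1]
    exact Ideal.mul_mem_right _ _ (Ideal.subset_span rfl)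
  have hprod : r₁ X * r₁ Y = 0 := by
    obtain ⟨c, hc⟩ := hXY
    rw [← map_mul, hc, map_mul, hπ₁, zero_mul]
  have hle : ∀ Z : B, algebraMap B R Z ∈ Ideal.span {algebraMap B R π} → ∀ T : B,
      Ideal.span {algebraMap B R π, algebraMap B R Z, algebraMap B R T} =
        Ideal.span {algebraMap B R π, algebraMap B R T} := by
    intro Z hZ T
    apply le_antisymm
    · rw [Ideal.span_le]
      rintro y (rfl | rfl | hy)
      · exact Ideal.subset_span (Set.mem_insert _ _)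
      · exact Ideal.span_mono (by simp) hZ
      · rw [Set.mem_singleton_iff.mp hy]
        exact Ideal.subset_span (Set.mem_insert_of_mem _ rfl)
    · apply Ideal.span_mono
      rintro y (rfl | hy)
      · exact Set.mem_insert _ _
      · rw [Set.mem_singleton_iff.mp hy]
        exact Set.mem_insert_of_mem _ (Set.mem_insert_of_mem _ rfl)
  rcases mul_eq_zero.mp hprod with h0 | h0
  · refine ⟨Y, hY, ?_⟩
    rw [h𝔪, hle X (hker X h0) Y]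
  · refine ⟨X, hX, ?_⟩
    rw [h𝔪]
    have hswap : ({algebraMap B R π, algebraMap B R X, algebraMap B R Y} : Set R) =
        {algebraMap B R π, algebraMap B R Y, algebraMap B R X} := by
      ext y
      simp only [Set.mem_insert_iff, Set.mem_singleton_iff]
      tauto
    rw [hswap, hle Y (hker Y h0) X]

/-- **Nakayama step**: replacing the parameter `u₀` by `e u₀ + t`, `e ∉ 𝔫`, `t ∈ 𝔫²`-like
(`t = x * y`, `x y ∈ 𝔫`), does not change `(π, u₀) = 𝔪_R`. -/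
theorem span_eq_of_modify (π : B) {u₀ : B}
    (h𝔪 : maximalIdeal R = Ideal.span {algebraMap B R π, algebraMap B R u₀})
    (hπ𝔫 : π ∈ 𝔫) (hu₀ : u₀ ∈ 𝔫)
    {e : B} (he𝔫 : e ∉ 𝔫) {x y : B} (hx : x ∈ 𝔫) (hy : y ∈ 𝔫) :
    maximalIdeal R = Ideal.span {algebraMap B R π, algebraMap B R (e * u₀ + x * y)} := by
  obtain ⟨v, hv⟩ := isUnit_algebraMap_of_notMem 𝔫 R he𝔫
  set N : Ideal R := Ideal.span {algebraMap B R π, algebraMap B R (e * u₀ + x * y)} with hN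
  have hNle : N ≤ maximalIdeal R := by
    rw [hN, Ideal.span_le]
    rintro z (rfl | hz)
    · exact algebraMap_mem_maximalIdeal 𝔫 R hπ𝔫
    · rw [Set.mem_singleton_iff.mp hz]
      exact algebraMap_mem_maximalIdeal 𝔫 R
        (𝔫.add_mem (𝔫.mul_mem_left _ hu₀) (𝔫.mul_mem_left _ hy))
  refine le_antisymm ?_ hNle
  have hfg : (maximalIdeal R).FG := by
    rw [h𝔪]
    exact Submodule.fg_span (Set.toFinite _)
  refine Submodule.le_of_le_smul_of_le_jacobson_bot hfg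
    (IsLocalRing.maximalIdeal_le_jacobson ⊥) ?_
  have hxy : algebraMap B R x * algebraMap B R y ∈ maximalIdeal R • maximalIdeal R := by
    rw [smul_eq_mul]
    exact Ideal.mul_mem_mul (algebraMap_mem_maximalIdeal 𝔫 R hx)
      (algebraMap_mem_maximalIdeal 𝔫 R hy)
  conv_lhs => rw [h𝔪]
  rw [Ideal.span_le]
  rintro z (rfl | hz)
  · exact Submodule.mem_sup_left (Ideal.subset_span (Set.mem_insert _ _))
  · rw [Set.mem_singleton_iff.mp hz]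
    have h1 : algebraMap B R u₀ =
        (v⁻¹ : Rˣ) * algebraMap B R (e * u₀ + x * y) +
          (-(v⁻¹ : Rˣ)) * (algebraMap B R x * algebraMap B R y) := by
      rw [map_add, map_mul, map_mul, ← hv]
      have : ((v⁻¹ : Rˣ) : R) * (v : R) = 1 := Units.inv_mul v
      linear_combination (-(algebraMap B R u₀)) * this
    rw [h1]
    refine Submodule.add_mem_sup ?_ ?_
    · exact Ideal.mul_mem_left _ _ (Ideal.subset_span (Set.mem_insert_of_mem _ rfl))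
    · exact Ideal.mul_mem_left _ _ hxy

/-- **A good parameter at a one-component point.**  `e ∈ ker r₂ \ 𝔫` (the point is not on the
second component), `𝔪_R = (π, u₀)`, and some `x ∈ 𝔫` with `r₁ x ≠ 0`, `r₂ x ≠ 0`.  Then there
is `u ∈ 𝔫` with `𝔪_R = (π, u)`, `r₁ u ≠ 0` and `r₂ u ≠ 0`. -/
theorem exists_good_gen (π : B)
    (hS1 : ∀ b, r₁ b = 0 → r₂ b = 0 → π ∣ b) (hπ𝔫 : π ∈ 𝔫)
    {e : B} (he : r₂ e = 0) (he𝔫 : e ∉ 𝔫)
    {x : B} (hx : x ∈ 𝔫) (hx₁ : r₁ x ≠ 0) (hx₂ : r₂ x ≠ 0)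
    {u₀ : B} (hu₀ : u₀ ∈ 𝔫)
    (h𝔪 : maximalIdeal R = Ideal.span {algebraMap B R π, algebraMap B R u₀}) :
    ∃ u ∈ 𝔫, maximalIdeal R = Ideal.span {algebraMap B R π, algebraMap B R u} ∧
      r₁ u ≠ 0 ∧ r₂ u ≠ 0 := by
  have hk₁ : RingHom.ker r₁ ≤ 𝔫 := ker_le_of_notMem r₁ r₂ 𝔫 π hS1 hπ𝔫 he he𝔫
  have hr₂ : ∀ y : B, r₂ y ≠ 0 → r₂ (e * u₀ + x * y) ≠ 0 := by
    intro y hy
    rw [map_add, map_mul, map_mul, he, zero_mul, zero_add]
    exact mul_ne_zero hx₂ hy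
  have hmem : ∀ y : B, y ∈ 𝔫 → e * u₀ + x * y ∈ 𝔫 := fun y hy =>
    𝔫.add_mem (𝔫.mul_mem_left _ hu₀) (𝔫.mul_mem_left _ hy)
  by_cases h2 : r₁ (e * u₀ + x * x) = 0
  · -- then `k = 3` works
    refine ⟨e * u₀ + x * (x * x), hmem _ (𝔫.mul_mem_left _ hx),
      span_eq_of_modify 𝔫 R π h𝔪 hπ𝔫 hu₀ he𝔫 hx (𝔫.mul_mem_left _ hx), ?_,
      hr₂ _ (by rw [map_mul]; exact mul_ne_zero hx₂ hx₂)⟩
    intro h3
    have h4 : r₁ x * r₁ x * (r₁ x - 1) = 0 := by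
      rw [map_add, map_mul, map_mul] at h2
      rw [map_add, map_mul, map_mul, map_mul] at h3
      linear_combination h3 - h2
    have h5 : r₁ x - 1 = 0 := by
      rcases mul_eq_zero.mp h4 with h | h
      · exact absurd (mul_self_eq_zero.mp h) hx₁
      · exact h
    have h6 : x - 1 ∈ 𝔫 := hk₁ (by rw [RingHom.mem_ker, map_sub, map_one]; exact h5)
    have h7 : (1 : B) ∈ 𝔫 := by
      have := 𝔫.sub_mem hx h6
      rwa [sub_sub_cancel] at this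
    exact h𝔫.ne_top ((Ideal.eq_top_iff_one 𝔫).mpr h7)
  · exact ⟨e * u₀ + x * x, hmem _ hx, span_eq_of_modify 𝔫 R π h𝔪 hπ𝔫 hu₀ he𝔫 hx hx, h2,
      hr₂ _ hx₂⟩

/-- two different powers of an element of `𝔫` cannot both cancel the same constant modulo a
component through `𝔫` -/
theorem not_two_zero (hk₁ : RingHom.ker r₁ ≤ 𝔫) {x : B} (hx : x ∈ 𝔫) (hx₁ : r₁ x ≠ 0) (c : B)
    {m n : ℕ} (hmn : m < n) (hm : r₁ (c + x * x ^ m) = 0) (hn : r₁ (c + x * x ^ n) = 0) :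
    False := by
  obtain ⟨d, rfl⟩ : ∃ d, n = m + (d + 1) := ⟨n - m - 1, by omega⟩
  have h1 : r₁ x * r₁ x ^ m * (r₁ x ^ (d + 1) - 1) = 0 := by
    rw [map_add, map_mul, map_pow] at hm hn
    rw [pow_add] at hn
    linear_combination hn - hm
  have h2 : r₁ x ^ (d + 1) - 1 = 0 := by
    rcases mul_eq_zero.mp h1 with h | h
    · exact absurd h (mul_ne_zero hx₁ (pow_ne_zero _ hx₁))
    · exact h
  have h3 : x ^ (d + 1) - 1 ∈ 𝔫 :=
    hk₁ (by rw [RingHom.mem_ker, map_sub, map_pow, map_one]; exact h2)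
  have h4 : x ^ (d + 1) ∈ 𝔫 := by
    rw [pow_succ]
    exact 𝔫.mul_mem_left _ hx
  have h5 : (1 : B) ∈ 𝔫 := by
    have := 𝔫.sub_mem h4 h3
    rwa [sub_sub_cancel] at this
  exact h𝔫.ne_top ((Ideal.eq_top_iff_one 𝔫).mpr h5)

/-- **A good parameter at a point on both components** (if such a point is smooth): one of
`u₀ + x ^ k`, `k ∈ {2, 3, 4}`, does not vanish on either component. -/
theorem exists_good_gen_of_both (π : B) (hπ𝔫 : π ∈ 𝔫)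
    (hk₁ : RingHom.ker r₁ ≤ 𝔫) (hk₂ : RingHom.ker r₂ ≤ 𝔫)
    {x : B} (hx : x ∈ 𝔫) (hx₁ : r₁ x ≠ 0) (hx₂ : r₂ x ≠ 0)
    {u₀ : B} (hu₀ : u₀ ∈ 𝔫)
    (h𝔪 : maximalIdeal R = Ideal.span {algebraMap B R π, algebraMap B R u₀}) :
    ∃ u ∈ 𝔫, maximalIdeal R = Ideal.span {algebraMap B R π, algebraMap B R u} ∧
      r₁ u ≠ 0 ∧ r₂ u ≠ 0 := by
  have h1𝔫 : (1 : B) ∉ 𝔫 := fun h => h𝔫.ne_top ((Ideal.eq_top_iff_one 𝔫).mpr h)
  have hpow : ∀ k : ℕ, x ^ (k + 1) ∈ 𝔫 := fun k => by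
    rw [pow_succ]
    exact 𝔫.mul_mem_left _ hx
  have hmem : ∀ k : ℕ, 1 * u₀ + x * x ^ (k + 1) ∈ 𝔫 := fun k =>
    𝔫.add_mem (𝔫.mul_mem_left _ hu₀) (𝔫.mul_mem_left _ (hpow k))
  have hgen : ∀ k : ℕ, maximalIdeal R =
      Ideal.span {algebraMap B R π, algebraMap B R (1 * u₀ + x * x ^ (k + 1))} := fun k =>
    span_eq_of_modify 𝔫 R π h𝔪 hπ𝔫 hu₀ h1𝔫 hx (hpow k)
  have key : ∀ k : ℕ, r₁ (1 * u₀ + x * x ^ (k + 1)) ≠ 0 → r₂ (1 * u₀ + x * x ^ (k + 1)) ≠ 0 →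
      ∃ u ∈ 𝔫, maximalIdeal R = Ideal.span {algebraMap B R π, algebraMap B R u} ∧
        r₁ u ≠ 0 ∧ r₂ u ≠ 0 := fun k h1 h2 => ⟨_, hmem k, hgen k, h1, h2⟩
  have n1 := fun {m n : ℕ} (hmn : m < n) => not_two_zero r₁ 𝔫 hk₁ hx hx₁ (1 * u₀) hmn
  have n2 := fun {m n : ℕ} (hmn : m < n) => not_two_zero r₂ 𝔫 hk₂ hx hx₂ (1 * u₀) hmn
  by_cases a0 : r₁ (1 * u₀ + x * x ^ (0 + 1)) = 0
  · -- `k = 0` is bad for `r₁`: `k = 1, 2` are good for `r₁`
    have a1 : r₁ (1 * u₀ + x * x ^ (1 + 1)) ≠ 0 := fun h => n1 (by norm_num) a0 h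
    have a2 : r₁ (1 * u₀ + x * x ^ (2 + 1)) ≠ 0 := fun h => n1 (by norm_num) a0 h
    by_cases b1 : r₂ (1 * u₀ + x * x ^ (1 + 1)) = 0
    · exact key 2 a2 (fun h => n2 (by norm_num) b1 h)
    · exact key 1 a1 b1
  · by_cases b0 : r₂ (1 * u₀ + x * x ^ (0 + 1)) = 0
    · -- `k = 0` is bad for `r₂`: `k = 1, 2` are good for `r₂`
      have b1 : r₂ (1 * u₀ + x * x ^ (1 + 1)) ≠ 0 := fun h => n2 (by norm_num) b0 h
      have b2 : r₂ (1 * u₀ + x * x ^ (2 + 1)) ≠ 0 := fun h => n2 (by norm_num) b0 h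
      by_cases a1 : r₁ (1 * u₀ + x * x ^ (1 + 1)) = 0
      · exact key 2 (fun h => n1 (by norm_num) a1 h) b2
      · exact key 1 a1 b1
    · exact key 0 a0 b0

/-- **A good parameter at every smooth point.**  Under `(S1)`, if `𝔪_R = (π, u₀)` and some
`x ∈ 𝔫` does not vanish on either component, then there is `u ∈ 𝔫` with `𝔪_R = (π, u)`,
`r₁ u ≠ 0` and `r₂ u ≠ 0`. -/
theorem exists_good_gen_of_smooth (π : B)
    (hS1 : ∀ b, r₁ b = 0 → r₂ b = 0 → π ∣ b) (hπ𝔫 : π ∈ 𝔫)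
    {x : B} (hx : x ∈ 𝔫) (hx₁ : r₁ x ≠ 0) (hx₂ : r₂ x ≠ 0)
    {u₀ : B} (hu₀ : u₀ ∈ 𝔫)
    (h𝔪 : maximalIdeal R = Ideal.span {algebraMap B R π, algebraMap B R u₀}) :
    ∃ u ∈ 𝔫, maximalIdeal R = Ideal.span {algebraMap B R π, algebraMap B R u} ∧
      r₁ u ≠ 0 ∧ r₂ u ≠ 0 := by
  by_cases hk₂ : RingHom.ker r₂ ≤ 𝔫
  · by_cases hk₁ : RingHom.ker r₁ ≤ 𝔫
    · exact exists_good_gen_of_both r₁ r₂ 𝔫 R π hπ𝔫 hk₁ hk₂ hx hx₁ hx₂ hu₀ h𝔪
    · obtain ⟨e, he, he𝔫⟩ := SetLike.not_le_iff_exists.mp hk₁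
      have hS1' : ∀ b, r₂ b = 0 → r₁ b = 0 → π ∣ b := fun b h2 h1 => hS1 b h1 h2
      obtain ⟨u, hu, h1, h2, h3⟩ :=
        exists_good_gen r₂ r₁ 𝔫 R π hS1' hπ𝔫 he he𝔫 hx hx₂ hx₁ hu₀ h𝔪
      exact ⟨u, hu, h1, h3, h2⟩
  · obtain ⟨e, he, he𝔫⟩ := SetLike.not_le_iff_exists.mp hk₂
    exact exists_good_gen r₁ r₂ 𝔫 R π hS1 hπ𝔫 he he𝔫 hx hx₁ hx₂ hu₀ h𝔪

/-- **Node or good parameter.**  Under `(S1)`, given the dichotomy smooth / node at `𝔫 ∋ π`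
(the conclusion of `S34.CompLevel.dich_fin_level` / `S34.FinDichLevel.finite_dich`) and some
`x ∈ 𝔫` which does not vanish on either component: either `𝔫` is a node (it lies on both
components), or there is a parameter `u ∈ 𝔫`, `𝔪_R = (π, u)`, which does not vanish on either
component. -/
theorem node_or_good (π : B) (hπ₁ : r₁ π = 0) (hπ₂ : r₂ π = 0)
    (hS1 : ∀ b, r₁ b = 0 → r₂ b = 0 → π ∣ b) (hπ𝔫 : π ∈ 𝔫)
    {x : B} (hx : x ∈ 𝔫) (hx₁ : r₁ x ≠ 0) (hx₂ : r₂ x ≠ 0)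
    (hdich : (∃ u ∈ 𝔫, maximalIdeal R = Ideal.span {algebraMap B R π, algebraMap B R u}) ∨
      (∃ X ∈ 𝔫, ∃ Y ∈ 𝔫, π ∣ X * Y ∧ maximalIdeal R =
        Ideal.span {algebraMap B R π, algebraMap B R X, algebraMap B R Y})) :
    (RingHom.ker r₁ ≤ 𝔫 ∧ RingHom.ker r₂ ≤ 𝔫) ∨
    ∃ u ∈ 𝔫, maximalIdeal R = Ideal.span {algebraMap B R π, algebraMap B R u} ∧
      r₁ u ≠ 0 ∧ r₂ u ≠ 0 := by
  by_cases hk₂ : RingHom.ker r₂ ≤ 𝔫
  · by_cases hk₁ : RingHom.ker r₁ ≤ 𝔫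
    · exact Or.inl ⟨hk₁, hk₂⟩
    · right
      obtain ⟨e, he, he𝔫⟩ := SetLike.not_le_iff_exists.mp hk₁
      have hS1' : ∀ b, r₂ b = 0 → r₁ b = 0 → π ∣ b := fun b h2 h1 => hS1 b h1 h2
      obtain ⟨u₀, hu₀, h𝔪⟩ := smooth_of_dich r₂ r₁ 𝔫 R π hπ₂ hS1' he he𝔫 hdich
      obtain ⟨u, hu, h1, h2, h3⟩ :=
        exists_good_gen r₂ r₁ 𝔫 R π hS1' hπ𝔫 he he𝔫 hx hx₂ hx₁ hu₀ h𝔪
      exact ⟨u, hu, h1, h3, h2⟩
  · right
    obtain ⟨e, he, he𝔫⟩ := SetLike.not_le_iff_exists.mp hk₂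
    obtain ⟨u₀, hu₀, h𝔪⟩ := smooth_of_dich r₁ r₂ 𝔫 R π hπ₁ hS1 he he𝔫 hdich
    exact exists_good_gen r₁ r₂ 𝔫 R π hS1 hπ𝔫 he he𝔫 hx hx₁ hx₂ hu₀ h𝔪

end Fermat.Agent.S35.SmoothGen
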