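import Mathlib
import Fermat.Agent.S35.SmoothGen
import Fermat.Agent.S34.FinDichLevel
import Fermat.Agent.S34.ContentVal
import Fermat.Agent.S34.LocCusp

/-!
# S35, route C, (C4) feeder: good local parameters on the two charts of level `M q`

`W` a discrete valuation ring of a level `L`, `F = S24.FF L (M * q)`, `w` an Atkin–Lehner
automorphism of `F`.  On a carrier `B` of a chart the two reduction maps are
`r₁ = red ∘ coe` and `r₂ = red ∘ coe ∘ w`.  A parameter `u ∈ 𝔫` at a closed point `𝔫 ∋ ϖ` is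
**good** if `𝔪_{B_𝔫} = (ϖ, u)` and `u` is a unit at both Gauss valuations, i.e. `u⁻¹` and
`w(u)⁻¹` have `W`-integral `q`-expansions (then `1 - c / u ≡ 1` at both Gauss valuations for
every `c ∈ ϖ W`).

Finite chart (`B` any integral closure of `W[X]`, `X ↦ j`, in `F`):

* `exists_poly_mem` : there is `S ∈ W[X]`, `S̄ ≠ 0`, with `S(j) ∈ 𝔫`.
* `good_of_smooth_fin` : **every smooth point `𝔪_{B_𝔫} = (ϖ, u₀)` has a good parameter**
  (= the smooth alternative of `S35.NodePtsInst.node_pts_fin`, `S34.CompLevel.dich_fin_level`,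
  `S34.FinDichLevel.finite_dich`, upgraded).
* `node_or_good_of_dich`, `finite_node_or_good` : EITHER `𝔫` contains the kernels of both
  reduction maps (a node) OR `𝔫` has a good parameter.

Chart at infinity (`B` any integral closure of `W[X]`, `X ↦ 1/j`, in `F`):

* `cusp_good` : **every cusp `𝔫 ∋ ϖ, 1/j` has a good parameter.**
-/

set_option autoImplicit false
set_option linter.unusedSectionVars false
set_option linter.style.haveILetI false

noncomputable section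

namespace Fermat.Agent.S35.SmoothGenInst

open Polynomial ModularCurve Fermat.Agent.S18 Fermat.Agent.S18.Gauss Fermat.Agent.S24
  IsLocalRing

local notation "Qb" => AlgebraicClosure ℚ

/-- a maximal ideal of `W[X]` contains a polynomial which is nonzero modulo the maximal ideal
of the local ring `W` -/
theorem exists_mem_map_residue_ne_zero {W : Type*} [CommRing W] [IsLocalRing W]
    (𝔭 : Ideal W[X]) [h𝔭 : 𝔭.IsMaximal] : ∃ S ∈ 𝔭, S.map (residue W) ≠ 0 := by
  by_contra hcon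
  have hall : ∀ S ∈ 𝔭, S.map (residue W) = 0 := by
    intro S hS
    by_contra h
    exact hcon ⟨S, hS, h⟩
  have hX : (X : W[X]) ∉ 𝔭 := by
    intro h
    have h1 := hall X h
    rw [Polynomial.map_X] at h1
    exact Polynomial.X_ne_zero h1
  obtain ⟨y, i, hi, hyi⟩ := h𝔭.exists_inv hX
  have h2 := congrArg (Polynomial.map (residue W)) hyi
  rw [Polynomial.map_add, Polynomial.map_mul, Polynomial.map_X, hall i hi, add_zero,
    Polynomial.map_one] at h2
  have h3 := congrArg (fun p : (ResidueField W)[X] => p.coeff 0) h2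
  simp only [Polynomial.mul_coeff_zero, Polynomial.coeff_X_zero, mul_zero,
    Polynomial.coeff_one_zero] at h3
  exact zero_ne_one h3

section Red

variable {L : Type} [Field L] [Algebra ℚ L] {W : ValuationSubring L}
  [IsDiscreteValuationRing ↥W] {M q : ℕ} [NeZero M] [NeZero q]

/-- a function with `W`-integral `q`-expansion and nonzero reduction is a unit of the content
ring -/
theorem inv_mem_of_red_ne_zero {N : ℕ} {x : FF L N} (h : (x : LaurentSeries L) ∈ contentRing W)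
    (hne : red W ⟨_, h⟩ ≠ 0) : ((x⁻¹ : FF L N) : LaurentSeries L) ∈ contentRing W := by
  have h2 : ((x⁻¹ : FF L N) : LaurentSeries L) = (x : LaurentSeries L)⁻¹ :=
    map_inv₀ (algebraMap (FF L N) (LaurentSeries L)) x
  rw [h2]
  exact inv_mem_contentRing W h hne

/-- `S(j)` is a unit at the first Gauss valuation -/
theorem red_evF_ne_zero {S : (↥W)[X]} (hS : S.map (residue ↥W) ≠ 0)
    (h : ((evF W (M * q) S : FF L (M * q)) : LaurentSeries L) ∈ contentRing W) :
    red W ⟨_, h⟩ ≠ 0 := by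
  have h1 : red W ⟨((evF W (M * q) S : FF L (M * q)) : LaurentSeries L), h⟩ = redJ W S := rfl
  rw [h1]
  exact fun h0 => hS ((redJ_eq_zero_iff W S).mp h0)

/-- `S(j)` is a unit at the second Gauss valuation -/
theorem red_w_evF_ne_zero (w : FF L (M * q) ≃ₐ[L] FF L (M * q))
    (hwα : (w : FF L (M * q) →ₐ[L] FF L (M * q)).comp (heckeAlphaBar L M q) =
      heckeBetaBar L M q)
    {S : (↥W)[X]} (hS : S.map (residue ↥W) ≠ 0)
    (h : ((w (evF W (M * q) S) : FF L (M * q)) : LaurentSeries L) ∈ contentRing W) :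
    red W ⟨_, h⟩ ≠ 0 := by
  have hwj : w (jBC L (M * q)) = heckeBetaBar L M q (jBC L M) := by
    rw [← Fermat.Agent.S34.ContentVal.alpha_jBC M q, ← hwα]
    rfl
  haveI : IsScalarTower (↥W) L (FF L (M * q)) := IsScalarTower.of_algebraMap_eq (fun _ => rfl)
  have h1 : w (evF W (M * q) S) = aeval (heckeBetaBar L M q (jBC L M)) S := by
    rw [← Fermat.Agent.S34.ContentVal.ev_eq_evF, Fermat.Agent.S18.Endgame.ev_apply, ← hwj]
    exact (Polynomial.aeval_algHom_apply
      ((w : FF L (M * q) →ₐ[L] FF L (M * q)).restrictScalars (↥W)) (jBC L (M * q)) S).symm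
  have h2 : ((w (evF W (M * q) S) : FF L (M * q)) : LaurentSeries L) =
      qExpand L q (evL W S) := by
    rw [h1, Fermat.Agent.S34.ContentVal.coe_aeval_beta_jBC]
  have h3 : red W ⟨((w (evF W (M * q) S) : FF L (M * q)) : LaurentSeries L), h⟩ =
      red W ⟨qExpand L q (evL W S),
        qExpand_mem_contentRing W q (evL_mem_contentRing W S)⟩ := by
    congr 1
    exact Subtype.ext h2
  rw [h3, red_qExpand W q (evL_mem_contentRing W S), red_evL]
  intro h0
  have h4 : redJ W S = 0 := qExpand_injective q (by rw [h0, map_zero])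
  exact hS ((redJ_eq_zero_iff W S).mp h4)

end Red

/-! ### The finite chart -/

section Chart

variable {L : Type} [Field L] [Algebra ℚ L] (W : ValuationSubring L)
  [IsDiscreteValuationRing ↥W] (M q : ℕ) [NeZero M] [NeZero q]
  [Algebra (↥W)[X] (FF L (M * q))]
  (B : Type*) [CommRing B] [Algebra (↥W)[X] B] [Algebra B (FF L (M * q))]
  [IsScalarTower (↥W)[X] B (FF L (M * q))]
  [IsIntegralClosure B (↥W)[X] (FF L (M * q))]

include M q in
/-- a maximal ideal of the chart ring contains `S(j)` for some `S ∈ W[X]` nonzero modulo the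
maximal ideal -/
theorem exists_poly_mem (𝔫 : Ideal B) [𝔫.IsMaximal] :
    ∃ S : (↥W)[X], algebraMap (↥W)[X] B S ∈ 𝔫 ∧ S.map (residue ↥W) ≠ 0 := by
  haveI : Algebra.IsIntegral (↥W)[X] B :=
    IsIntegralClosure.isIntegral_algebra (↥W)[X] (A := B) (FF L (M * q))
  haveI : (𝔫.comap (algebraMap (↥W)[X] B)).IsMaximal :=
    Ideal.isMaximal_comap_of_isIntegral_of_isMaximal (R := (↥W)[X]) 𝔫
  obtain ⟨S, hS, hS'⟩ := exists_mem_map_residue_ne_zero (𝔫.comap (algebraMap (↥W)[X] B))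
  exact ⟨S, hS, hS'⟩

/-- **The two reduction maps of a carrier of the finite chart**, with `(S1)` and an element of
`𝔫` which does not vanish on either component. -/
theorem exists_red_maps_fin (hq : q.Prime) (π : ↥W) (hπ : Irreducible π)
    (w : FF L (M * q) ≃ₐ[L] FF L (M * q))
    (hwα : (w : FF L (M * q) →ₐ[L] FF L (M * q)).comp (heckeAlphaBar L M q) =
      heckeBetaBar L M q)
    (hS1 : ∀ x : FF L (M * q), (evF W (M * q)).IsIntegralElem x →
      ∀ (h1 : (x : LaurentSeries L) ∈ contentRing W)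
        (h2 : ((w x : FF L (M * q)) : LaurentSeries L) ∈ contentRing W),
        red W ⟨_, h1⟩ = 0 → red W ⟨_, h2⟩ = 0 →
        ∃ y, (evF W (M * q)).IsIntegralElem y ∧
          x = algebraMap L (FF L (M * q)) ((π : W) : L) * y)
    (halg : algebraMap (↥W)[X] (FF L (M * q)) = evF W (M * q))
    (𝔫 : Ideal B) [𝔫.IsMaximal] :
    ∃ r₁ r₂ : B →+* LaurentSeries (ResidueField ↥W),
      (∀ (b : B) (h : ((algebraMap B (FF L (M * q)) b : FF L (M * q)) : LaurentSeries L) ∈
        contentRing W), r₁ b = red W ⟨_, h⟩) ∧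
      (∀ (b : B) (h : ((w (algebraMap B (FF L (M * q)) b) : FF L (M * q)) : LaurentSeries L) ∈
        contentRing W), r₂ b = red W ⟨_, h⟩) ∧
      (∀ b : B, ((algebraMap B (FF L (M * q)) b : FF L (M * q)) : LaurentSeries L) ∈
        contentRing W) ∧
      (∀ b : B, ((w (algebraMap B (FF L (M * q)) b) : FF L (M * q)) : LaurentSeries L) ∈
        contentRing W) ∧
      r₁ (algebraMap (↥W)[X] B (C π)) = 0 ∧ r₂ (algebraMap (↥W)[X] B (C π)) = 0 ∧
      (∀ b, r₁ b = 0 → r₂ b = 0 → algebraMap (↥W)[X] B (C π) ∣ b) ∧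
      ∃ x ∈ 𝔫, r₁ x ≠ 0 ∧ r₂ x ≠ 0 := by
  classical
  have hBinj : Function.Injective (algebraMap B (FF L (M * q))) :=
    IsIntegralClosure.algebraMap_injective B (↥W)[X] (FF L (M * q))
  have hBint := Fermat.Agent.S34.CompInst.isIntegralElem_algebraMap W (M * q) halg B
  have hwInt : ∀ x : FF L (M * q), (evF W (M * q)).IsIntegralElem x →
      (evF W (M * q)).IsIntegralElem (w x) := fun x hx =>
    Fermat.Agent.S34.CompInst.isIntegralElem_atkin W M q hq w hwα hx
  have hInt : ∀ x : FF L (M * q), (evF W (M * q)).IsIntegralElem x →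
      (x : LaurentSeries L) ∈ contentRing W := fun x hx =>
    Fermat.Agent.S34.FrobPartner.mem_contentRing_of_int W (M * q) hx
  -- the two reduction maps of `B`
  have hmem₁ : ∀ b : B, ((algebraMap (FF L (M * q)) (LaurentSeries L)).comp
      (algebraMap B (FF L (M * q)))) b ∈ contentRing W := fun b => hInt _ (hBint b)
  have hmem₂ : ∀ b : B, ((algebraMap (FF L (M * q)) (LaurentSeries L)).comp
      ((w : FF L (M * q) →ₐ[L] FF L (M * q)).toRingHom.comp
      (algebraMap B (FF L (M * q))))) b ∈ contentRing W := fun b =>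
    hInt _ (hwInt _ (hBint b))
  let r₁ : B →+* LaurentSeries (ResidueField ↥W) :=
    (red W).comp (((algebraMap (FF L (M * q)) (LaurentSeries L)).comp
      (algebraMap B (FF L (M * q)))).codRestrict (contentRing W) hmem₁)
  let r₂ : B →+* LaurentSeries (ResidueField ↥W) :=
    (red W).comp (((algebraMap (FF L (M * q)) (LaurentSeries L)).comp
      ((w : FF L (M * q) →ₐ[L] FF L (M * q)).toRingHom.comp
      (algebraMap B (FF L (M * q))))).codRestrict (contentRing W) hmem₂)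
  have hr₁def : ∀ (b : B) (h : ((algebraMap B (FF L (M * q)) b : FF L (M * q)) :
      LaurentSeries L) ∈ contentRing W), r₁ b = red W ⟨_, h⟩ := fun b h => rfl
  have hr₂def : ∀ (b : B) (h : ((w (algebraMap B (FF L (M * q)) b) : FF L (M * q)) :
      LaurentSeries L) ∈ contentRing W), r₂ b = red W ⟨_, h⟩ := fun b h => rfl
  have red_congr : ∀ (f g : LaurentSeries L) (hf : f ∈ contentRing W) (hg : g ∈ contentRing W),
      f = g → red W ⟨f, hf⟩ = red W ⟨g, hg⟩ := by
    intro f g hf hg h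
    subst h
    rfl
  have hπF : algebraMap B (FF L (M * q)) (algebraMap (↥W)[X] B (C π)) =
      algebraMap L (FF L (M * q)) ((π : W) : L) := by
    rw [← IsScalarTower.algebraMap_apply, halg, evF_C]
  have hπ₁ : r₁ (algebraMap (↥W)[X] B (C π)) = 0 := by
    rw [hr₁def _ (hmem₁ _), ← red_C_unif W hπ]
    apply red_congr
    rw [hπF]
    exact Fermat.Agent.S37.GaussPrime.coe_unif π
  have hπ₂ : r₂ (algebraMap (↥W)[X] B (C π)) = 0 := by
    rw [hr₂def _ (hmem₂ _), ← red_C_unif W hπ]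
    apply red_congr
    rw [hπF, AlgEquiv.commutes]
    exact Fermat.Agent.S37.GaussPrime.coe_unif π
  have hS1' : ∀ b, r₁ b = 0 → r₂ b = 0 → algebraMap (↥W)[X] B (C π) ∣ b := by
    intro b h1 h2
    obtain ⟨y, hyI, hy⟩ := hS1 (algebraMap B (FF L (M * q)) b) (hBint b)
      (hmem₁ b) (hmem₂ b) h1 h2
    obtain ⟨c, rfl⟩ := Fermat.Agent.S34.CompInst.exists_algebraMap_eq W (M * q) halg B hyI
    refine ⟨c, hBinj ?_⟩
    rw [map_mul, hπF, hy]
  -- the auxiliary element `S(j) ∈ 𝔫`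
  obtain ⟨S, hS𝔫, hS⟩ := exists_poly_mem W M q B 𝔫
  have hSF : algebraMap B (FF L (M * q)) (algebraMap (↥W)[X] B S) = evF W (M * q) S := by
    rw [← IsScalarTower.algebraMap_apply, halg]
  have hx₁ : r₁ (algebraMap (↥W)[X] B S) ≠ 0 := by
    have hm : ((algebraMap B (FF L (M * q)) (algebraMap (↥W)[X] B S) : FF L (M * q)) :
        LaurentSeries L) ∈ contentRing W := hmem₁ _
    have h1 : ((evF W (M * q) S : FF L (M * q)) : LaurentSeries L) ∈ contentRing W := by
      rw [← hSF]; exact hm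
    rw [hr₁def _ hm, red_congr _ _ hm h1 (by rw [hSF])]
    exact red_evF_ne_zero hS h1
  have hx₂ : r₂ (algebraMap (↥W)[X] B S) ≠ 0 := by
    have hm : ((w (algebraMap B (FF L (M * q)) (algebraMap (↥W)[X] B S)) : FF L (M * q)) :
        LaurentSeries L) ∈ contentRing W := hmem₂ _
    have h1 : ((w (evF W (M * q) S) : FF L (M * q)) : LaurentSeries L) ∈ contentRing W := by
      rw [← hSF]; exact hm
    rw [hr₂def _ hm, red_congr _ _ hm h1 (by rw [hSF])]
    exact red_w_evF_ne_zero w hwα hS h1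
  exact ⟨r₁, r₂, hr₁def, hr₂def, hmem₁, hmem₂, hπ₁, hπ₂, hS1', _, hS𝔫, hx₁, hx₂⟩

/-- **Every smooth point of the finite chart has a good parameter** (raw form, `(S1)` as
hypothesis). -/
theorem good_of_smooth_fin_of (hq : q.Prime) (π : ↥W) (hπ : Irreducible π)
    (w : FF L (M * q) ≃ₐ[L] FF L (M * q))
    (hwα : (w : FF L (M * q) →ₐ[L] FF L (M * q)).comp (heckeAlphaBar L M q) =
      heckeBetaBar L M q)
    (hS1 : ∀ x : FF L (M * q), (evF W (M * q)).IsIntegralElem x →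
      ∀ (h1 : (x : LaurentSeries L) ∈ contentRing W)
        (h2 : ((w x : FF L (M * q)) : LaurentSeries L) ∈ contentRing W),
        red W ⟨_, h1⟩ = 0 → red W ⟨_, h2⟩ = 0 →
        ∃ y, (evF W (M * q)).IsIntegralElem y ∧
          x = algebraMap L (FF L (M * q)) ((π : W) : L) * y)
    (halg : algebraMap (↥W)[X] (FF L (M * q)) = evF W (M * q))
    (𝔫 : Ideal B) [𝔫.IsMaximal] (hπ𝔫 : algebraMap (↥W)[X] B (C π) ∈ 𝔫)
    (R : Type*) [CommRing R] [Algebra B R] [IsLocalization.AtPrime R 𝔫] [IsLocalRing R]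
    (hsm : ∃ u ∈ 𝔫, maximalIdeal R =
        Ideal.span {algebraMap B R (algebraMap (↥W)[X] B (C π)), algebraMap B R u}) :
    ∃ u ∈ 𝔫, maximalIdeal R =
        Ideal.span {algebraMap B R (algebraMap (↥W)[X] B (C π)), algebraMap B R u} ∧
      (((algebraMap B (FF L (M * q)) u)⁻¹ : FF L (M * q)) : LaurentSeries L) ∈ contentRing W ∧
      (((w (algebraMap B (FF L (M * q)) u))⁻¹ : FF L (M * q)) : LaurentSeries L) ∈
        contentRing W := by
  obtain ⟨r₁, r₂, hr₁, hr₂, hm₁, hm₂, hπ₁, hπ₂, hS1', x, hx, hx₁, hx₂⟩ :=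
    exists_red_maps_fin W M q B hq π hπ w hwα hS1 halg 𝔫
  obtain ⟨u₀, hu₀, h𝔪⟩ := hsm
  obtain ⟨u, hu, h𝔪', hu₁, hu₂⟩ := Fermat.Agent.S35.SmoothGen.exists_good_gen_of_smooth r₁ r₂
    𝔫 R (algebraMap (↥W)[X] B (C π)) hS1' hπ𝔫 hx hx₁ hx₂ hu₀ h𝔪
  refine ⟨u, hu, h𝔪', inv_mem_of_red_ne_zero (hm₁ u) ?_, inv_mem_of_red_ne_zero (hm₂ u) ?_⟩
  · rw [← hr₁ u (hm₁ u)]; exact hu₁
  · rw [← hr₂ u (hm₂ u)]; exact hu₂

/-- **Node or good parameter on the finite chart**, from the dichotomy smooth / node at `𝔫`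
and `(S1)`. -/
theorem node_or_good_of_dich (hq : q.Prime) (π : ↥W) (hπ : Irreducible π)
    (w : FF L (M * q) ≃ₐ[L] FF L (M * q))
    (hwα : (w : FF L (M * q) →ₐ[L] FF L (M * q)).comp (heckeAlphaBar L M q) =
      heckeBetaBar L M q)
    (hS1 : ∀ x : FF L (M * q), (evF W (M * q)).IsIntegralElem x →
      ∀ (h1 : (x : LaurentSeries L) ∈ contentRing W)
        (h2 : ((w x : FF L (M * q)) : LaurentSeries L) ∈ contentRing W),
        red W ⟨_, h1⟩ = 0 → red W ⟨_, h2⟩ = 0 →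
        ∃ y, (evF W (M * q)).IsIntegralElem y ∧
          x = algebraMap L (FF L (M * q)) ((π : W) : L) * y)
    (halg : algebraMap (↥W)[X] (FF L (M * q)) = evF W (M * q))
    (𝔫 : Ideal B) [𝔫.IsMaximal] (hπ𝔫 : algebraMap (↥W)[X] B (C π) ∈ 𝔫)
    (R : Type*) [CommRing R] [Algebra B R] [IsLocalization.AtPrime R 𝔫] [IsLocalRing R]
    (hdich : (∃ u ∈ 𝔫, maximalIdeal R =
        Ideal.span {algebraMap B R (algebraMap (↥W)[X] B (C π)), algebraMap B R u}) ∨
      (∃ X ∈ 𝔫, ∃ Y ∈ 𝔫, algebraMap (↥W)[X] B (C π) ∣ X * Y ∧ maximalIdeal R =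
        Ideal.span {algebraMap B R (algebraMap (↥W)[X] B (C π)), algebraMap B R X,
          algebraMap B R Y})) :
    ((∀ (b : B) (h : ((algebraMap B (FF L (M * q)) b : FF L (M * q)) : LaurentSeries L) ∈
          contentRing W), red W ⟨_, h⟩ = 0 → b ∈ 𝔫) ∧
      (∀ (b : B) (h : ((w (algebraMap B (FF L (M * q)) b) : FF L (M * q)) : LaurentSeries L) ∈
          contentRing W), red W ⟨_, h⟩ = 0 → b ∈ 𝔫)) ∨
    ∃ u ∈ 𝔫, maximalIdeal R =
        Ideal.span {algebraMap B R (algebraMap (↥W)[X] B (C π)), algebraMap B R u} ∧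
      (((algebraMap B (FF L (M * q)) u)⁻¹ : FF L (M * q)) : LaurentSeries L) ∈ contentRing W ∧
      (((w (algebraMap B (FF L (M * q)) u))⁻¹ : FF L (M * q)) : LaurentSeries L) ∈
        contentRing W := by
  obtain ⟨r₁, r₂, hr₁, hr₂, hm₁, hm₂, hπ₁, hπ₂, hS1', x, hx, hx₁, hx₂⟩ :=
    exists_red_maps_fin W M q B hq π hπ w hwα hS1 halg 𝔫
  rcases Fermat.Agent.S35.SmoothGen.node_or_good r₁ r₂ 𝔫 R (algebraMap (↥W)[X] B (C π))
    hπ₁ hπ₂ hS1' hπ𝔫 hx hx₁ hx₂ hdich with ⟨hk₁, hk₂⟩ | ⟨u, hu, h𝔪, hu₁, hu₂⟩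
  · left
    refine ⟨fun b h hb => hk₁ ?_, fun b h hb => hk₂ ?_⟩
    · rw [RingHom.mem_ker, hr₁ b h]
      exact hb
    · rw [RingHom.mem_ker, hr₂ b h]
      exact hb
  · right
    refine ⟨u, hu, h𝔪, inv_mem_of_red_ne_zero (hm₁ u) ?_, inv_mem_of_red_ne_zero (hm₂ u) ?_⟩
    · rw [← hr₁ u (hm₁ u)]; exact hu₁
    · rw [← hr₂ u (hm₂ u)]; exact hu₂

end Chart

section Level

variable {L : Type} [Field L] [Algebra ℚ L] (ι : L →+* Qb) (W : ValuationSubring L)
  [IsDiscreteValuationRing ↥W] (M q : ℕ) [NeZero M] [NeZero q] [Fact q.Prime]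
  [CharP (ResidueField ↥W) q]

include ι in
/-- **Every smooth point of the finite chart of level `M q` has a good parameter**: if
`𝔪_{B_𝔫} = (ϖ, u₀)` then `𝔪_{B_𝔫} = (ϖ, u)` for some `u ∈ 𝔫` such that `u⁻¹` and `w(u)⁻¹` have
`W`-integral `q`-expansions. -/
theorem good_of_smooth_fin (hqM : ¬ q ∣ M) {π : ↥W} (hπ : Irreducible π)
    (w : FF L (M * q) ≃ₐ[L] FF L (M * q))
    (hwα : (w : FF L (M * q) →ₐ[L] FF L (M * q)).comp (heckeAlphaBar L M q) =
      heckeBetaBar L M q)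
    (hwβ : (w : FF L (M * q) →ₐ[L] FF L (M * q)).comp (heckeBetaBar L M q) =
      heckeAlphaBar L M q)
    [Algebra (↥W)[X] (FF L (M * q))]
    (halg : algebraMap (↥W)[X] (FF L (M * q)) = evF W (M * q))
    (B : Type*) [CommRing B] [Algebra (↥W)[X] B] [Algebra B (FF L (M * q))]
    [IsScalarTower (↥W)[X] B (FF L (M * q))]
    [IsIntegralClosure B (↥W)[X] (FF L (M * q))]
    (𝔫 : Ideal B) [𝔫.IsMaximal] (hπ𝔫 : algebraMap (↥W)[X] B (C π) ∈ 𝔫)
    (R : Type*) [CommRing R] [Algebra B R] [IsLocalization.AtPrime R 𝔫] [IsLocalRing R]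
    (hsm : ∃ u ∈ 𝔫, maximalIdeal R =
        Ideal.span {algebraMap B R (algebraMap (↥W)[X] B (C π)), algebraMap B R u}) :
    ∃ u ∈ 𝔫, maximalIdeal R =
        Ideal.span {algebraMap B R (algebraMap (↥W)[X] B (C π)), algebraMap B R u} ∧
      (((algebraMap B (FF L (M * q)) u)⁻¹ : FF L (M * q)) : LaurentSeries L) ∈ contentRing W ∧
      (((w (algebraMap B (FF L (M * q)) u))⁻¹ : FF L (M * q)) : LaurentSeries L) ∈
        contentRing W :=
  good_of_smooth_fin_of W M q B (Fact.out : q.Prime) π hπ w hwα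
    (fun x hint h1 h2 hr1 hr2 =>
      Fermat.Agent.S34.FinDich.s1_fin_level ι W M q hqM hπ w hwα hwβ x hint h1 h2 hr1 hr2)
    halg 𝔫 hπ𝔫 R hsm

/-! ### The chart at infinity -/

include ι in
/-- **Every cusp of level `M q` has a good parameter**: on every carrier `B` of the chart
`W[1/j]`, at every maximal ideal `𝔫 ∋ ϖ, 1/j`, `𝔪_{B_𝔫} = (ϖ, u)` for some `u ∈ 𝔫` such that
`u⁻¹` and `w(u)⁻¹` have `W`-integral `q`-expansions. -/
theorem cusp_good [IsAlgClosed (ResidueField ↥W)] (hqM : ¬ q ∣ M) {π : ↥W}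
    (hπ : Irreducible π)
    (hroots : ∀ x : Qb, (∃ n : ℕ, ¬ q ∣ n ∧ x ^ n = 1) → ∃ b : L, ι b = x)
    (w : FF L (M * q) ≃ₐ[L] FF L (M * q))
    (hwα : (w : FF L (M * q) →ₐ[L] FF L (M * q)).comp (heckeAlphaBar L M q) =
      heckeBetaBar L M q)
    (hwβ : (w : FF L (M * q) →ₐ[L] FF L (M * q)).comp (heckeBetaBar L M q) =
      heckeAlphaBar L M q)
    [Algebra (↥W)[X] (FF L (M * q))]
    (halg : algebraMap (↥W)[X] (FF L (M * q)) = evFinf W (M * q))
    (B : Type*) [CommRing B] [Algebra (↥W)[X] B] [Algebra B (FF L (M * q))]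
    [IsScalarTower (↥W)[X] B (FF L (M * q))]
    [IsIntegralClosure B (↥W)[X] (FF L (M * q))]
    (𝔫 : Ideal B) [h𝔫 : 𝔫.IsMaximal] (hπ𝔫 : algebraMap (↥W)[X] B (C π) ∈ 𝔫)
    (hX𝔫 : algebraMap (↥W)[X] B X ∈ 𝔫) :
    ∃ u ∈ 𝔫, maximalIdeal (Localization.AtPrime 𝔫) =
        Ideal.span {algebraMap B (Localization.AtPrime 𝔫) (algebraMap (↥W)[X] B (C π)),
          algebraMap B (Localization.AtPrime 𝔫) u} ∧
      (((algebraMap B (FF L (M * q)) u)⁻¹ : FF L (M * q)) : LaurentSeries L) ∈ contentRing W ∧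
      (((w (algebraMap B (FF L (M * q)) u))⁻¹ : FF L (M * q)) : LaurentSeries L) ∈
        contentRing W := by
  classical
  have hinj : Function.Injective (algebraMap B (FF L (M * q))) :=
    IsIntegralClosure.algebraMap_injective B (↥W)[X] (FF L (M * q))
  have hsurj : ∀ x : FF L (M * q), (evFinf W (M * q)).IsIntegralElem x →
      ∃ b : B, algebraMap B (FF L (M * q)) b = x := fun x hx =>
    (Fermat.Agent.S34.ChartAct.exists_algebraMap_eq_iff_inf W (M * q) halg B x).mpr hx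
  have hint : ∀ b : B, (evFinf W (M * q)).IsIntegralElem (algebraMap B (FF L (M * q)) b) :=
    fun b =>
    (Fermat.Agent.S34.ChartAct.exists_algebraMap_eq_iff_inf W (M * q) halg B _).mp ⟨b, rfl⟩
  have hXF : algebraMap B (FF L (M * q)) (algebraMap (↥W)[X] B X) = (jBC L (M * q))⁻¹ := by
    rw [← IsScalarTower.algebraMap_apply, halg, evFinf_X]
  have hπF : algebraMap B (FF L (M * q)) (algebraMap (↥W)[X] B (C π)) =
      algebraMap L (FF L (M * q)) ((π : W) : L) := by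
    rw [← IsScalarTower.algebraMap_apply, halg, evFinf_C]
  have hφ₁ : ∀ b : B, ((algebraMap B (FF L (M * q)) b : FF L (M * q)) : LaurentSeries L) ∈
      contentRing W := fun b =>
    Fermat.Agent.S34.CuspRes.mem_contentRing_of_int_inf W (M * q) (hint b)
  have hφ₂ : ∀ b : B, (((((w : FF L (M * q) →ₐ[L] FF L (M * q)) :
      FF L (M * q) →+* FF L (M * q)).comp (algebraMap B (FF L (M * q)))) b : FF L (M * q)) :
      LaurentSeries L) ∈ contentRing W := fun b =>
    Fermat.Agent.S34.CuspRes.mem_contentRing_w_of_int_inf W M q w hwα (hint b)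
  -- (S1)
  have hspan := Fermat.Agent.S34.CuspRes.span_eq_ker_inf_ker ι W (M * q) hπ w
    (Fermat.Agent.S34.FinDich.v3a W M q hqM w hwα hwβ) (algebraMap B (FF L (M * q))) hinj hint
    hsurj hφ₁ hφ₂ (algebraMap (↥W)[X] B (C π)) hπF
  set r₁ := Fermat.Agent.S34.CuspRes.res W (M * q) (algebraMap B (FF L (M * q))) hφ₁ with hr₁
  set r₂ := Fermat.Agent.S34.CuspRes.res W (M * q) (((w : FF L (M * q) →ₐ[L] FF L (M * q)) :
    FF L (M * q) →+* FF L (M * q)).comp (algebraMap B (FF L (M * q)))) hφ₂ with hr₂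
  have hS1' : ∀ b, r₁ b = 0 → r₂ b = 0 → algebraMap (↥W)[X] B (C π) ∣ b := by
    intro b h1 h2
    have hb : b ∈ Ideal.span {algebraMap (↥W)[X] B (C π)} := by
      rw [hspan]
      exact ⟨h1, h2⟩
    exact Ideal.mem_span_singleton.mp hb
  -- `1/j ∈ 𝔫` does not vanish on either component
  have hx₁ : r₁ (algebraMap (↥W)[X] B X) ≠ 0 := by
    have hm : (((jBC L (M * q))⁻¹ : FF L (M * q)) : LaurentSeries L) ∈ contentRing W := by
      rw [← hXF]; exact hφ₁ _
    rw [hr₁, Fermat.Agent.S34.CuspRes.res_apply W (M * q) _ hφ₁ _ (hφ₁ _),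
      Fermat.Agent.S34.CuspRes.red_congr W (hφ₁ _) hm (by rw [hXF])]
    exact Fermat.Agent.S34.CuspRes.red_jInv_ne_zero W (M * q) hm
  have hx₂ : r₂ (algebraMap (↥W)[X] B X) ≠ 0 := by
    have hm : ((w (jBC L (M * q))⁻¹ : FF L (M * q)) : LaurentSeries L) ∈ contentRing W := by
      rw [← hXF]; exact hφ₂ _
    rw [hr₂, Fermat.Agent.S34.CuspRes.res_apply W (M * q) _ hφ₂ _ (hφ₂ _),
      Fermat.Agent.S34.CuspRes.red_congr W (hφ₂ _) hm
        (by show ((w (algebraMap B (FF L (M * q)) (algebraMap (↥W)[X] B X)) :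
              FF L (M * q)) : LaurentSeries L) = _
            rw [hXF])]
    exact Fermat.Agent.S34.CuspRes.red_w_jInv_ne_zero W M q w hwα hm
  -- the smooth structure at the cusp
  obtain ⟨u₀', h𝔪₀⟩ := Fermat.Agent.S34.CuspPt.cusp_dich_carrier_of ι W M q w B hqM hπ hroots
    hwα hwβ halg 𝔫 hπ𝔫 hX𝔫
    (fun hψ₁ hψ₂ => Fermat.Agent.S34.CuspSep.exists_separator W M q w hwα hwβ
      (algebraMap B (FF L (M * q))) hinj hsurj hψ₁ hψ₂ 𝔫 h𝔫 hXF hX𝔫)
  obtain ⟨u₀, hu₀, h𝔪⟩ := Fermat.Agent.S35.SmoothGen.exists_mem_of_loc 𝔫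
    (Localization.AtPrime 𝔫) (algebraMap (↥W)[X] B (C π)) u₀' h𝔪₀
  obtain ⟨u, hu, h𝔪', hu₁, hu₂⟩ := Fermat.Agent.S35.SmoothGen.exists_good_gen_of_smooth r₁ r₂
    𝔫 (Localization.AtPrime 𝔫) (algebraMap (↥W)[X] B (C π)) hS1' hπ𝔫 hX𝔫 hx₁ hx₂ hu₀ h𝔪
  refine ⟨u, hu, h𝔪', inv_mem_of_red_ne_zero (hφ₁ u) ?_, inv_mem_of_red_ne_zero (hφ₂ u) ?_⟩
  · rw [← Fermat.Agent.S34.CuspRes.res_apply W (M * q) _ hφ₁ u (hφ₁ u)]; exact hu₁
  · exact hu₂

end Level

/-- **Node or good parameter on the finite chart of level `M q` at a Galois-stable level.**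
For every carrier `B` of the finite chart over `W = A.comap ι`, every Atkin–Lehner automorphism
`w` and every maximal ideal `𝔫 ∋ ϖ` of `B`: EITHER `𝔫` is a node (it contains the kernels of
both reduction maps `red ∘ coe`, `red ∘ coe ∘ w`), OR `𝔪_{B_𝔫} = (ϖ, u)` for some `u ∈ 𝔫` such
that `u⁻¹` and `w(u)⁻¹` have `W`-integral `q`-expansions. -/
theorem finite_node_or_good (A : ValuationSubring Qb) {L : Type} [Field L] [Algebra ℚ L]
    (ι : L →+* Qb) (M q : ℕ) [NeZero M] [NeZero q] (hq : q.Prime) (hqM : ¬ q ∣ M)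
    (S : Finset Qb) (hlev : Fermat.Agent.S37.LevelChange.IsLevel A q S ι)
    (hstab : Fermat.Agent.S34.GalLevel.IsStable ι) (hA : A.LiesOverPrime q)
    (π : ↥(A.comap ι)) (hπ : Irreducible π)
    (w : FF L (M * q) ≃ₐ[L] FF L (M * q))
    (hwα : (w : FF L (M * q) →ₐ[L] FF L (M * q)).comp (heckeAlphaBar L M q) =
      heckeBetaBar L M q)
    (hwβ : (w : FF L (M * q) →ₐ[L] FF L (M * q)).comp (heckeBetaBar L M q) =
      heckeAlphaBar L M q)
    [Algebra (↥(A.comap ι))[X] (FF L (M * q))]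
    (halg : algebraMap (↥(A.comap ι))[X] (FF L (M * q)) = evF (A.comap ι) (M * q))
    (B : Type*) [CommRing B] [Algebra (↥(A.comap ι))[X] B] [Algebra B (FF L (M * q))]
    [IsScalarTower (↥(A.comap ι))[X] B (FF L (M * q))]
    [IsIntegralClosure B (↥(A.comap ι))[X] (FF L (M * q))]
    (𝔫 : Ideal B) [𝔫.IsMaximal] (hπ𝔫 : algebraMap (↥(A.comap ι))[X] B (C π) ∈ 𝔫)
    (R : Type*) [CommRing R] [Algebra B R] [IsLocalization.AtPrime R 𝔫] [IsLocalRing R] :
    ((∀ (b : B) (h : ((algebraMap B (FF L (M * q)) b : FF L (M * q)) : LaurentSeries L) ∈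
          contentRing (A.comap ι)), red (A.comap ι) ⟨_, h⟩ = 0 → b ∈ 𝔫) ∧
      (∀ (b : B) (h : ((w (algebraMap B (FF L (M * q)) b) : FF L (M * q)) : LaurentSeries L) ∈
          contentRing (A.comap ι)), red (A.comap ι) ⟨_, h⟩ = 0 → b ∈ 𝔫)) ∨
    ∃ u ∈ 𝔫, maximalIdeal R =
        Ideal.span {algebraMap B R (algebraMap (↥(A.comap ι))[X] B (C π)), algebraMap B R u} ∧
      (((algebraMap B (FF L (M * q)) u)⁻¹ : FF L (M * q)) : LaurentSeries L) ∈
        contentRing (A.comap ι) ∧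
      (((w (algebraMap B (FF L (M * q)) u))⁻¹ : FF L (M * q)) : LaurentSeries L) ∈
        contentRing (A.comap ι) := by
  have hdich := Fermat.Agent.S34.FinDichLevel.finite_dich A ι M q hq hqM S hlev hstab hA π hπ
    halg B 𝔫 hπ𝔫 R
  obtain ⟨-, -, hdvr, -, -, hchar, -, -⟩ := hlev
  haveI := hdvr
  haveI := hchar
  haveI : Fact q.Prime := ⟨hq⟩
  exact node_or_good_of_dich (A.comap ι) M q B hq π hπ w hwα
    (fun x hint h1 h2 hr1 hr2 =>
      Fermat.Agent.S34.FinDich.s1_fin_level ι (A.comap ι) M q hqM hπ w hwα hwβ x hint h1 h2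
        hr1 hr2)
    halg 𝔫 hπ𝔫 R hdich

end Fermat.Agent.S35.SmoothGenInst
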