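import Mathlib
import Fermat.Agent.S35.EsSmoothRaw
import Fermat.Agent.S35.SmoothGenInst
import Fermat.Agent.S34.GLoc
import Fermat.Agent.S34.FinDich
import Fermat.Agent.S34.KLocInst
import Fermat.Agent.S34.ChartAct
import Fermat.Agent.S34.CuspRes
import Fermat.Agent.S34.FrobPartner
import Fermat.Agent.S34.ContentVal
import Fermat.Agent.S34.TwoGauss

/-!
# S35 (Route C), package (C4), finite chart: the smooth clause of `EsCore.EsLoc₁`

`A` a valuation subring of `ℚ̄`, `(L, ι)` a level with `W = A.comap ι` a discrete valuation ring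
with residue characteristic `q ∤ M`, `w` an Atkin–Lehner automorphism of `F = S24.FF L (M * q)`;
`B` any carrier of the finite chart of level `M q` (integral closure of `W[X]`, `X ↦ j`).

`es_smooth_fin'` : at a maximal ideal `𝔪 ∋ ϖ` of `B` which is a SMOOTH point — the first
alternative of `NodePtsInst.node_pts_fin` / `CompLevel.dich_fin_level`: `𝔪 B_𝔪 = (ϖ, u)` — for
EVERY function `w₀` with `GaussOne ϖ j w₀` such that all orders of `bc ι w₀` are divisible by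
`p ^ n` and the support of its divisor is rational at the level, there are `g` with
`GaussOne ϖ j g` and `d ∉ 𝔪` with `d * (w₀ * g ^ (p ^ n)) ∈ B` (the hypothesis shape of
`GLoc.hloc_fin_of_closure` for `P := GaussOne ϖ j`, `z g := w₀ * g ^ (p ^ n)`).

Assembly: `EsSmoothRaw.smooth_chart` (= `EsSmooth.smooth_hloc` in raw currency) at the good
parameter of `SmoothGen.exists_good_gen_of_smooth`, the chart instances of `S34.KLocInst`,
(H_int) on both branches, (S1) `FinDich.s1_fin_level`, and the two directions of the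
two-valuation theorem (`ContentVal.mem_both_of_inC`, `TwoGauss.inC_of_mem_both`).

`es_smooth_fin` : the same statement with the (unused) level hypotheses of the announced
interface.
-/

set_option autoImplicit false
set_option linter.unusedSectionVars false
set_option linter.unusedVariables false
set_option linter.style.haveILetI false

noncomputable section

namespace Fermat.Agent.S35.EsSmoothFin

open Polynomial ModularCurve AlgebraicCurve Fermat.Agent.S18 Fermat.Agent.S37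
open Fermat.Agent.S34 Fermat.Agent.S34.GDescent Fermat.Agent.S34.KummerStep

local notation "Qb" => AlgebraicClosure ℚ

variable (M q : ℕ) [NeZero M] [NeZero q]

set_option maxHeartbeats 1600000 in
/-- **The smooth clause of the local datum on the finite chart**, for an arbitrary function
`w₀ ≡ 1` on the Gauss ring. -/
theorem es_smooth_fin' (A : ValuationSubring Qb) {L : Type} [Field L] [Algebra ℚ L]
    (ι : L →+* Qb)
    [IsDiscreteValuationRing ↥(A.comap ι)]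
    [CharP (IsLocalRing.ResidueField ↥(A.comap ι)) q]
    (hq : q.Prime) (hqM : ¬ q ∣ M)
    (ϖ : ↥(A.comap ι)) (hϖ : Irreducible ϖ)
    (w : S24.FF L (M * q) ≃ₐ[L] S24.FF L (M * q))
    (hwα : (w : S24.FF L (M * q) →ₐ[L] S24.FF L (M * q)).comp (heckeAlphaBar L M q) =
      heckeBetaBar L M q)
    (hwβ : (w : S24.FF L (M * q) →ₐ[L] S24.FF L (M * q)).comp (heckeBetaBar L M q) =
      heckeAlphaBar L M q)
    [Algebra (↥(A.comap ι))[X] (S24.FF L (M * q))]
    (halg : algebraMap (↥(A.comap ι))[X] (S24.FF L (M * q)) = Gauss.evF (A.comap ι) (M * q))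
    (B : Type*) [CommRing B] [Algebra (↥(A.comap ι))[X] B] [Algebra B (S24.FF L (M * q))]
    [IsScalarTower (↥(A.comap ι))[X] B (S24.FF L (M * q))]
    [IsIntegralClosure B (↥(A.comap ι))[X] (S24.FF L (M * q))]
    (𝔪 : Ideal B) [h𝔪 : 𝔪.IsMaximal] (hC : algebraMap (↥(A.comap ι))[X] B (C ϖ) ∈ 𝔪)
    (hsm : ∃ u ∈ 𝔪, IsLocalRing.maximalIdeal (Localization.AtPrime 𝔪) =
      Ideal.span {algebraMap B (Localization.AtPrime 𝔪) (algebraMap (↥(A.comap ι))[X] B (C ϖ)),
        algebraMap B (Localization.AtPrime 𝔪) u})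
    (p n : ℕ) (w₀ : S24.FF L (M * q)) (hw₀ : GaussOne ϖ (S24.jBC L (M * q)) w₀)
    (hdvd : ∀ Q : Place Qb (modularFunctionFieldBar (M * q)),
      ((p : ℤ) ^ n) ∣ Q.ord (S24.CoeffBC.bc ι (modularFunctionFieldFull (M * q)) w₀))
    (hrat : ∀ Q : Place Qb (modularFunctionFieldBar (M * q)),
      Q.ord (S24.CoeffBC.bc ι (modularFunctionFieldFull (M * q)) w₀) ≠ 0 →
        RatAtLevel (M * q) ι Q) :
    ∃ g : S24.FF L (M * q), GaussOne ϖ (S24.jBC L (M * q)) g ∧ ∃ d : B, d ∉ 𝔪 ∧ ∃ t : B,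
      algebraMap B (S24.FF L (M * q)) t =
        algebraMap B (S24.FF L (M * q)) d * (w₀ * g ^ (p ^ n)) := by
  classical
  haveI : Fact q.Prime := ⟨hq⟩
  -- the chart ring
  haveI : IsDomain B := KLocInst.isDomain_fin (A.comap ι) (M * q) B
  haveI : IsNoetherianRing B := KLocInst.isNoetherianRing_fin (A.comap ι) (M * q) halg B
  haveI : IsFractionRing B (S24.FF L (M * q)) :=
    KLocInst.isFractionRing_fin (A.comap ι) (M * q) halg B
  haveI : IsIntegrallyClosed B := KLocInst.isIntegrallyClosed_fin (A.comap ι) (M * q) halg B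
  letI : Algebra ↥(A.comap ι) B := ((algebraMap (↥(A.comap ι))[X] B).comp C).toAlgebra
  haveI : IsScalarTower ↥(A.comap ι) (↥(A.comap ι))[X] B :=
    IsScalarTower.of_algebraMap_eq (fun _ => rfl)
  have hBW : ∀ c : ↥(A.comap ι), algebraMap B (S24.FF L (M * q)) (algebraMap ↥(A.comap ι) B c) =
      algebraMap L (S24.FF L (M * q)) (c : L) := by
    intro c
    show algebraMap B (S24.FF L (M * q)) (algebraMap (↥(A.comap ι))[X] B (C c)) = _
    rw [← IsScalarTower.algebraMap_apply, halg, Gauss.evF_C]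
  have hint : ∀ y : B, (Gauss.evF (A.comap ι) (M * q)).IsIntegralElem
      (algebraMap B (S24.FF L (M * q)) y) := fun y =>
    (ChartAct.exists_algebraMap_eq_iff_fin (A.comap ι) (M * q) halg B _).mp ⟨y, rfl⟩
  have hB₁ : ∀ y : B, ((algebraMap B (S24.FF L (M * q)) y : S24.FF L (M * q)) :
      LaurentSeries L) ∈ Gauss.contentRing (A.comap ι) := fun y =>
    FrobPartner.mem_contentRing_of_int (A.comap ι) (M * q) (hint y)
  have hB₂ : ∀ y : B, ((w (algebraMap B (S24.FF L (M * q)) y) : S24.FF L (M * q)) :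
      LaurentSeries L) ∈ Gauss.contentRing (A.comap ι) := fun y =>
    CuspRes.mem_contentRing_w_of_int_fin (A.comap ι) M q w hwα (hint y)
  have hπ𝔪 : algebraMap ↥(A.comap ι) B ϖ ∈ 𝔪 := hC
  have hS1 : ∀ y : B, Gauss.red (A.comap ι) ⟨_, hB₁ y⟩ = 0 →
      Gauss.red (A.comap ι) ⟨_, hB₂ y⟩ = 0 →
      ∃ y' : B, algebraMap B (S24.FF L (M * q)) y =
        algebraMap L (S24.FF L (M * q)) (ϖ : L) * algebraMap B (S24.FF L (M * q)) y' := by
    intro y hr1 hr2
    obtain ⟨y', hy', hxy⟩ := FinDich.s1_fin_level ι (A.comap ι) M q hqM hϖ w hwα hwβ _ (hint y)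
      (hB₁ y) (hB₂ y) hr1 hr2
    obtain ⟨b', rfl⟩ :=
      (ChartAct.exists_algebraMap_eq_iff_fin (A.comap ι) (M * q) halg B y').mpr hy'
    exact ⟨b', hxy⟩
  -- the good parameter
  obtain ⟨r₁, r₂, hr₁, hr₂, hm₁, hm₂, hπ₁, hπ₂, hS1', x, hx, hx₁, hx₂⟩ :=
    SmoothGenInst.exists_red_maps_fin (A.comap ι) M q B hq ϖ hϖ w hwα
      (fun x hint h1 h2 hr1 hr2 =>
        FinDich.s1_fin_level ι (A.comap ι) M q hqM hϖ w hwα hwβ x hint h1 h2 hr1 hr2)
      halg 𝔪
  obtain ⟨u₀, hu₀, hspan₀⟩ := hsm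
  obtain ⟨u, hu, hspan, hu₁, hu₂⟩ := SmoothGen.exists_good_gen_of_smooth r₁ r₂ 𝔪
    (Localization.AtPrime 𝔪) (algebraMap (↥(A.comap ι))[X] B (C ϖ)) hS1' hC hx hx₁ hx₂ hu₀
    hspan₀
  have hspan' : IsLocalRing.maximalIdeal (Localization.AtPrime 𝔪) =
      Ideal.span {algebraMap ↥(A.comap ι) (Localization.AtPrime 𝔪) ϖ,
        algebraMap B (Localization.AtPrime 𝔪) u} := by
    rw [hspan, IsScalarTower.algebraMap_apply ↥(A.comap ι) B (Localization.AtPrime 𝔪)]
    rfl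
  -- `w₀ ≡ 1` at both Gauss valuations
  have hϖ0 : (ϖ : L) ≠ 0 := fun h => hϖ.ne_zero (Subtype.ext h)
  have hπF : algebraMap ↥(A.comap ι) (S24.FF L (M * q)) ϖ ≠ 0 := by
    rw [GLoc.algebraMap_W_eq]
    exact (_root_.map_ne_zero _).mpr hϖ0
  obtain ⟨c, hc, hw₀c⟩ := hw₀.inC hπF
  obtain ⟨hc₁, hc₂⟩ := ContentVal.mem_both_of_inC (A.comap ι) M q hϖ w hwα c hc
  have hw₀' : w₀ = 1 + algebraMap L (S24.FF L (M * q)) (ϖ : L) * c := by
    rw [← GLoc.algebraMap_W_eq, ← hw₀c]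
    ring
  obtain ⟨g, ⟨m, hmem₁, hmem₂, hg⟩, d, hd, t, ht⟩ := EsSmoothRaw.smooth_chart (M * q) A ι hϖ w B
    hBW hB₁ hB₂ hS1 𝔪 hπ𝔪 u hspan' (by rw [← hr₁ u (hB₁ u)]; exact hu₁)
    (by rw [← hr₂ u (hB₂ u)]; exact hu₂) p n w₀ ⟨c, hc₁, hc₂, hw₀'⟩ hdvd hrat
  refine ⟨g, ?_, d, hd, t, ht⟩
  refine gaussOne_of_inC ⟨m, TwoGauss.inC_of_mem_both (A.comap ι) M q
    (w : S24.FF L (M * q) →ₐ[L] S24.FF L (M * q)) hqM hwα hwβ hϖ.not_isUnit m hmem₁ hmem₂, ?_⟩
  rw [hg, add_sub_cancel_left]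
  rfl

/-- **The smooth clause of the local datum on the finite chart**, announced interface (the level
hypotheses `IsAlgClosed`, `hA`, `hstab`, `hroots` are not used). -/
theorem es_smooth_fin (A : ValuationSubring Qb) {L : Type} [Field L] [Algebra ℚ L]
    (ι : L →+* Qb)
    [IsDiscreteValuationRing ↥(A.comap ι)]
    [IsAlgClosed (IsLocalRing.ResidueField ↥(A.comap ι))]
    [CharP (IsLocalRing.ResidueField ↥(A.comap ι)) q]
    (hq : q.Prime) (hqM : ¬ q ∣ M) (hA : A.LiesOverPrime q) (hstab : GalLevel.IsStable ι)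
    (hroots : ∀ x : Qb, (∃ n : ℕ, ¬ q ∣ n ∧ x ^ n = 1) → ∃ b : L, ι b = x)
    (ϖ : ↥(A.comap ι)) (hϖ : Irreducible ϖ)
    (w : S24.FF L (M * q) ≃ₐ[L] S24.FF L (M * q))
    (hwα : (w : S24.FF L (M * q) →ₐ[L] S24.FF L (M * q)).comp (heckeAlphaBar L M q) =
      heckeBetaBar L M q)
    (hwβ : (w : S24.FF L (M * q) →ₐ[L] S24.FF L (M * q)).comp (heckeBetaBar L M q) =
      heckeAlphaBar L M q)
    [Algebra (↥(A.comap ι))[X] (S24.FF L (M * q))]
    (halg : algebraMap (↥(A.comap ι))[X] (S24.FF L (M * q)) = Gauss.evF (A.comap ι) (M * q))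
    (B : Type*) [CommRing B] [Algebra (↥(A.comap ι))[X] B] [Algebra B (S24.FF L (M * q))]
    [IsScalarTower (↥(A.comap ι))[X] B (S24.FF L (M * q))]
    [IsIntegralClosure B (↥(A.comap ι))[X] (S24.FF L (M * q))]
    (𝔪 : Ideal B) [h𝔪 : 𝔪.IsMaximal] (hC : algebraMap (↥(A.comap ι))[X] B (C ϖ) ∈ 𝔪)
    (hsm : ∃ u ∈ 𝔪, IsLocalRing.maximalIdeal (Localization.AtPrime 𝔪) =
      Ideal.span {algebraMap B (Localization.AtPrime 𝔪) (algebraMap (↥(A.comap ι))[X] B (C ϖ)),
        algebraMap B (Localization.AtPrime 𝔪) u})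
    (p n : ℕ) (w₀ : S24.FF L (M * q)) (hw₀0 : w₀ ≠ 0)
    (hw₀ : GaussOne ϖ (S24.jBC L (M * q)) w₀)
    (hrat : ∀ Q : Place Qb (modularFunctionFieldBar (M * q)),
      Q.ord (S24.CoeffBC.bc ι (modularFunctionFieldFull (M * q)) w₀) ≠ 0 →
        RatAtLevel (M * q) ι Q)
    (hdvd : ∀ Q : Place Qb (modularFunctionFieldBar (M * q)),
      ((p : ℤ) ^ n) ∣ Q.ord (S24.CoeffBC.bc ι (modularFunctionFieldFull (M * q)) w₀)) :
    ∃ g : S24.FF L (M * q), GaussOne ϖ (S24.jBC L (M * q)) g ∧ ∃ d : B, d ∉ 𝔪 ∧ ∃ t : B,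
      algebraMap B (S24.FF L (M * q)) t =
        algebraMap B (S24.FF L (M * q)) d * (w₀ * g ^ (p ^ n)) :=
  es_smooth_fin' M q A ι hq hqM ϖ hϖ w hwα hwβ halg B 𝔪 hC hsm p n w₀ hw₀ hdvd hrat

end Fermat.Agent.S35.EsSmoothFin
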