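/-
S35 (wave 7, Route C), contract (EsLoc₁) CLOSED for the Eichler–Shimura operator:
`esLoc₁ : EsCoreT.EsLocT₁ M q p (EsGaussInst.esOp M q) A σ` for `q` prime, `q ∤ M`, `A` over `q`,
`σ` a Frobenius lift at `A`.

* `finSmooth` : the contract `EsLoc1Of.FinSmooth M q p A` (`EsSmoothFin.es_smooth_fin`, `S₀ = ∅`);
* `esLoc₁`    : `EsLoc1Of.esLocT₁_of_finSmooth` (nodes: `EsNodeInst.esL_fin_smooth_or`; Claim R:
  `EsGaussInst.gaussContract`; divisor bookkeeping: `EsRatDvd.ratDvd_esOp`).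
-/
import Mathlib
import Fermat.Agent.S35.EsLoc1Of
import Fermat.Agent.S35.EsSmoothFin

set_option autoImplicit false
set_option linter.unusedSectionVars false
set_option linter.style.haveILetI false

noncomputable section

namespace Fermat.Agent.S35.EsLoc1Fin

open Polynomial ModularCurve AlgebraicCurve Fermat.Agent.S18 Fermat.Agent.S37
open Fermat.Agent.S34 Fermat.Agent.S34.KummerStep Fermat.Agent.S34.GDescent
open Fermat.Agent.S35.EsCore Fermat.Agent.S35.EsCoreT

local notation "Qb" => AlgebraicClosure ℚ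

variable (M q p : ℕ) [NeZero M] [NeZero q]

set_option maxHeartbeats 800000 in
/-- **The smooth-point lemma on the finite chart, as the contract `EsLoc1Of.FinSmooth`.** -/
theorem finSmooth (hq : q.Prime) (hqM : ¬ q ∣ M) (A : ValuationSubring Qb)
    (hA : A.LiesOverPrime q) : EsLoc1Of.FinSmooth M q p A := by
  refine ⟨∅, ?_⟩
  intro L _ _ ι hlev hst ϖ hϖ w hwα hwβ n w₀ hw₀0 hw₀ hdvd hrat _ halg B _ _ _ _ _ 𝔪 h𝔪 hC hsm
  obtain ⟨-, hroots, hdvr, hclosed, -, hchar, -, -⟩ := hlev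
  haveI := hdvr
  haveI := hclosed
  haveI := hchar
  haveI := h𝔪
  exact EsSmoothFin.es_smooth_fin M q A ι hq hqM hA hst hroots ϖ hϖ w hwα hwβ halg B 𝔪 hC hsm
    p n w₀ hw₀0 hw₀ hrat hdvd

/-- **Contract (EsLoc₁) for the Eichler–Shimura operator**: the local datum at every closed point
of the special fibre of the finite chart. -/
theorem esLoc₁ (hq : q.Prime) (hqM : ¬ q ∣ M) (A : ValuationSubring Qb)
    (hA : A.LiesOverPrime q) (σ : Qb ≃ₐ[ℚ] Qb) (hσ : A.IsFrobeniusAt σ q) :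
    EsLocT₁ M q p (EsGaussInst.esOp M q) A σ :=
  EsLoc1Of.esLocT₁_of_finSmooth M q p hq hqM A hA σ hσ (finSmooth M q p hq hqM A hA)

end Fermat.Agent.S35.EsLoc1Fin
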