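import Mathlib
import Fermat.Agent.S34.CuspAbs
import Fermat.Agent.S34.CuspRes
import Fermat.Agent.S34.CuspSep
import Fermat.Agent.S34.CuspDich

/-!
# S35 (Route C, (C4) at the cusps): one-branch points and a normalised local generator

Abstract part (`B` a ring with two reductions `r₁ r₂` into fields, `(π) = ker r₁ ⊓ ker r₂`,
`𝔫` a prime containing `π` that does not lie on both components, `R = B_𝔫`):

* `exists_global_generator` : `𝔪_R = (π, u₀)` ⊢ `𝔪_R = (π, b)` with `b ∈ 𝔫` (`b ∈ B`);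
* `red_ne_zero_of_generator` : a generator of `𝔪_R` modulo `π` has nonzero reduction on the
  component through `𝔫`;
* `span_add_sq` : `(π, b) = (π, b + n₀ ^ 2)` for `n₀ ∈ 𝔫`;
* `exists_normalised` : **`𝔪_R = (π, u)` with `u ∈ 𝔫` and `r₁ u ≠ 0`, `r₂ u ≠ 0`**
  (`u` is a unit at both vertical primes);
* `prime_of_one_branch` : `π` is a prime element of `R`.

Instance (`W` a discrete valuation ring of `L` with algebraically closed residue field of
characteristic `q ∤ M`, `φ : B → FF L (M q)` a carrier of the integral closure of `W[1/j]`,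
`𝔫` a maximal ideal containing `ϖ` and `1/j`, `r₁ = red ∘ coe ∘ φ`, `r₂ = red ∘ coe ∘ w ∘ φ`):

* `cusp_not_node`, `cusp_generator`, `cusp_generator_inv`, `cusp_prime`.
-/

set_option autoImplicit false
set_option linter.unusedSectionVars false
set_option linter.style.haveILetI false

noncomputable section

namespace Fermat.Agent.S35.CuspGen

open IsLocalRing

/-! ### Abstract part -/

section Abstract

variable {B κ κ' : Type*} [CommRing B] [Field κ] [Field κ']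

/-- The second generator of `𝔪_R = (π, u₀)` can be taken in `B` (and then it lies in `𝔫`). -/
theorem exists_global_generator (𝔫 : Ideal B) [𝔫.IsPrime] (π : B)
    (u₀ : Localization.AtPrime 𝔫)
    (hu₀ : maximalIdeal (Localization.AtPrime 𝔫) =
      Ideal.span {algebraMap B (Localization.AtPrime 𝔫) π, u₀}) :
    ∃ b : B, b ∈ 𝔫 ∧ maximalIdeal (Localization.AtPrime 𝔫) =
      Ideal.span {algebraMap B (Localization.AtPrime 𝔫) π,
        algebraMap B (Localization.AtPrime 𝔫) b} := by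
  obtain ⟨b, s, rfl⟩ := IsLocalization.exists_mk'_eq 𝔫.primeCompl u₀
  have hs : IsUnit (algebraMap B (Localization.AtPrime 𝔫) (s : B)) :=
    IsLocalization.map_units _ s
  have hspec : IsLocalization.mk' (Localization.AtPrime 𝔫) b s *
      algebraMap B (Localization.AtPrime 𝔫) (s : B) =
      algebraMap B (Localization.AtPrime 𝔫) b := IsLocalization.mk'_spec _ b s
  have heq : Ideal.span {algebraMap B (Localization.AtPrime 𝔫) π,
      IsLocalization.mk' (Localization.AtPrime 𝔫) b s} =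
      Ideal.span {algebraMap B (Localization.AtPrime 𝔫) π,
        algebraMap B (Localization.AtPrime 𝔫) b} := by
    apply le_antisymm
    · rw [Ideal.span_le]
      rintro x (rfl | rfl)
      · exact Ideal.subset_span (by simp)
      · have h1 : IsLocalization.mk' (Localization.AtPrime 𝔫) b s =
            algebraMap B (Localization.AtPrime 𝔫) b * ((hs.unit⁻¹ : (Localization.AtPrime 𝔫)ˣ) :
              Localization.AtPrime 𝔫) := by
          have hu : ((hs.unit : (Localization.AtPrime 𝔫)ˣ) : Localization.AtPrime 𝔫) =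
              algebraMap B (Localization.AtPrime 𝔫) (s : B) := hs.unit_spec
          calc IsLocalization.mk' (Localization.AtPrime 𝔫) b s
              = IsLocalization.mk' (Localization.AtPrime 𝔫) b s *
                  (((hs.unit : (Localization.AtPrime 𝔫)ˣ) : Localization.AtPrime 𝔫) *
                    ((hs.unit⁻¹ : (Localization.AtPrime 𝔫)ˣ) : Localization.AtPrime 𝔫)) := by
                rw [Units.mul_inv, mul_one]
            _ = (IsLocalization.mk' (Localization.AtPrime 𝔫) b s *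
                  algebraMap B (Localization.AtPrime 𝔫) (s : B)) *
                    ((hs.unit⁻¹ : (Localization.AtPrime 𝔫)ˣ) : Localization.AtPrime 𝔫) := by
                rw [hu, mul_assoc]
            _ = _ := by rw [hspec]
        rw [SetLike.mem_coe, h1]
        exact Ideal.mul_mem_right _ _ (Ideal.subset_span (by simp))
    · rw [Ideal.span_le]
      rintro x (rfl | rfl)
      · exact Ideal.subset_span (by simp)
      · rw [SetLike.mem_coe, ← hspec]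
        exact Ideal.mul_mem_right _ _ (Ideal.subset_span (by simp))
  refine ⟨b, ?_, hu₀.trans heq⟩
  have hmem : algebraMap B (Localization.AtPrime 𝔫) b ∈
      maximalIdeal (Localization.AtPrime 𝔫) := by
    rw [hu₀, heq]
    exact Ideal.subset_span (by simp)
  exact (IsLocalization.AtPrime.to_map_mem_maximal_iff (Localization.AtPrime 𝔫) 𝔫 b).mp hmem

/-- A generator `v` of `𝔪_R` modulo `π` at a point of the component `r` alone is not killed by
`r`, provided `𝔫` contains an element with nonzero reduction. -/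
theorem red_ne_zero_of_generator (r : B →+* κ) (r' : B →+* κ') (π : B)
    (hπ : Ideal.span {π} = RingHom.ker r ⊓ RingHom.ker r') (𝔫 : Ideal B) [𝔫.IsPrime]
    (h : RingHom.ker r ≤ 𝔫) (h' : ¬ RingHom.ker r' ≤ 𝔫)
    (n₀ : B) (hn₀ : n₀ ∈ 𝔫) (hrn₀ : r n₀ ≠ 0) (v : B)
    (hv : maximalIdeal (Localization.AtPrime 𝔫) =
      Ideal.span {algebraMap B (Localization.AtPrime 𝔫) π,
        algebraMap B (Localization.AtPrime 𝔫) v}) : r v ≠ 0 := by
  intro hv0
  have hker := Fermat.Agent.S34.CuspAbs.ker_locRed r 𝔫 r' π hπ h h'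
  have hle : maximalIdeal (Localization.AtPrime 𝔫) ≤
      RingHom.ker (Fermat.Agent.S34.CuspAbs.locRed r 𝔫 h) := by
    rw [hv, Ideal.span_le]
    rintro x (rfl | rfl)
    · rw [← hker]
      exact Ideal.subset_span rfl
    · rw [SetLike.mem_coe, RingHom.mem_ker, Fermat.Agent.S34.CuspAbs.locRed_algebraMap]
      exact hv0
  have hmem : algebraMap B (Localization.AtPrime 𝔫) n₀ ∈
      maximalIdeal (Localization.AtPrime 𝔫) :=
    (IsLocalization.AtPrime.to_map_mem_maximal_iff (Localization.AtPrime 𝔫) 𝔫 n₀).mpr hn₀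
  have h0 := hle hmem
  rw [RingHom.mem_ker, Fermat.Agent.S34.CuspAbs.locRed_algebraMap] at h0
  exact hrn₀ h0

/-- `(π, b) = (π, b + n₀ ^ 2)` in the local ring at `𝔫`, for `n₀ ∈ 𝔫`. -/
theorem span_add_sq (𝔫 : Ideal B) [𝔫.IsPrime] (π b n₀ : B) (hn₀ : n₀ ∈ 𝔫)
    (hb : maximalIdeal (Localization.AtPrime 𝔫) =
      Ideal.span {algebraMap B (Localization.AtPrime 𝔫) π,
        algebraMap B (Localization.AtPrime 𝔫) b}) :
    maximalIdeal (Localization.AtPrime 𝔫) =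
      Ideal.span {algebraMap B (Localization.AtPrime 𝔫) π,
        algebraMap B (Localization.AtPrime 𝔫) (b + n₀ ^ 2)} := by
  set R := Localization.AtPrime 𝔫 with hR
  set ι := algebraMap B R with hι
  have hn₀m : ι n₀ ∈ maximalIdeal R :=
    (IsLocalization.AtPrime.to_map_mem_maximal_iff R 𝔫 n₀).mpr hn₀
  have hπm : ι π ∈ maximalIdeal R := by
    rw [hb]; exact Ideal.subset_span (by simp)
  have hbm : ι b ∈ maximalIdeal R := by
    rw [hb]; exact Ideal.subset_span (by simp)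
  obtain ⟨x, y, hxy⟩ : ∃ x y : R, x * ι π + y * ι b = ι n₀ := by
    have h1 := hn₀m
    rw [hb] at h1
    exact Ideal.mem_span_pair.mp h1
  have hunit : IsUnit (1 + ι n₀ * y) := by
    have h1 : -(ι n₀ * y) ∈ nonunits R :=
      (mem_maximalIdeal _).mp (neg_mem (Ideal.mul_mem_right _ _ hn₀m))
    have h2 := IsLocalRing.isUnit_one_sub_self_of_mem_nonunits _ h1
    rwa [sub_neg_eq_add] at h2
  have hexp : ι (b + n₀ ^ 2) = (1 + ι n₀ * y) * ι b + (ι n₀ * x) * ι π := by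
    rw [map_add, map_pow, pow_two]
    nth_rewrite 2 [← hxy]
    ring
  apply le_antisymm
  · rw [hb, Ideal.span_le]
    rintro z (rfl | rfl)
    · exact Ideal.subset_span (by simp)
    · have h1 : ι b = ((hunit.unit⁻¹ : Rˣ) : R) * (ι (b + n₀ ^ 2) - (ι n₀ * x) * ι π) := by
        rw [hexp, add_sub_cancel_right, ← mul_assoc]
        nth_rewrite 2 [← hunit.unit_spec]
        rw [Units.inv_mul, one_mul]
      rw [SetLike.mem_coe, h1]
      refine Ideal.mul_mem_left _ _ (Ideal.sub_mem _ (Ideal.subset_span (by simp)) ?_)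
      exact Ideal.mul_mem_left _ _ (Ideal.subset_span (by simp))
  · rw [Ideal.span_le]
    rintro z (rfl | rfl)
    · exact hπm
    · rw [SetLike.mem_coe, map_add, map_pow]
      exact Ideal.add_mem _ hbm (Ideal.pow_mem_of_mem _ hn₀m 2 (by norm_num))

/-- one-sided form of `exists_normalised` -/
theorem exists_normalised_aux (r : B →+* κ) (r' : B →+* κ') (π : B)
    (hπ : Ideal.span {π} = RingHom.ker r ⊓ RingHom.ker r') (𝔫 : Ideal B) [𝔫.IsPrime]
    (h : RingHom.ker r ≤ 𝔫) (h' : ¬ RingHom.ker r' ≤ 𝔫)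
    (n₀ : B) (hn₀ : n₀ ∈ 𝔫) (h₁ : r n₀ ≠ 0) (h₂ : r' n₀ ≠ 0)
    (u₀ : Localization.AtPrime 𝔫)
    (hu₀ : maximalIdeal (Localization.AtPrime 𝔫) =
      Ideal.span {algebraMap B (Localization.AtPrime 𝔫) π, u₀}) :
    ∃ u : B, u ∈ 𝔫 ∧ maximalIdeal (Localization.AtPrime 𝔫) =
      Ideal.span {algebraMap B (Localization.AtPrime 𝔫) π,
        algebraMap B (Localization.AtPrime 𝔫) u} ∧ r u ≠ 0 ∧ r' u ≠ 0 := by
  obtain ⟨b, hb𝔫, hb⟩ := exists_global_generator 𝔫 π u₀ hu₀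
  by_cases hb2 : r' b = 0
  · have hu := span_add_sq 𝔫 π b n₀ hn₀ hb
    refine ⟨b + n₀ ^ 2, 𝔫.add_mem hb𝔫 (Ideal.pow_mem_of_mem _ hn₀ 2 (by norm_num)), hu,
      red_ne_zero_of_generator r r' π hπ 𝔫 h h' n₀ hn₀ h₁ _ hu, ?_⟩
    rw [map_add, hb2, zero_add, map_pow]
    exact pow_ne_zero 2 h₂
  · exact ⟨b, hb𝔫, hb, red_ne_zero_of_generator r r' π hπ 𝔫 h h' n₀ hn₀ h₁ b hb, hb2⟩

/-- **Normalised generator at a one-branch point.**  `(π) = ker r₁ ⊓ ker r₂`, `𝔫 ∋ π` a prime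
not on both components, `n₀ ∈ 𝔫` with nonzero reductions, `𝔪_R = (π, u₀)`: then
`𝔪_R = (π, u)` with `u ∈ 𝔫`, `u ∈ B`, and `r₁ u ≠ 0`, `r₂ u ≠ 0`. -/
theorem exists_normalised (r₁ : B →+* κ) (r₂ : B →+* κ') (π : B)
    (hπ : Ideal.span {π} = RingHom.ker r₁ ⊓ RingHom.ker r₂) (𝔫 : Ideal B) [h𝔫 : 𝔫.IsPrime]
    (hπ𝔫 : π ∈ 𝔫) (hnode : ¬ (RingHom.ker r₁ ≤ 𝔫 ∧ RingHom.ker r₂ ≤ 𝔫))
    (n₀ : B) (hn₀ : n₀ ∈ 𝔫) (h₁ : r₁ n₀ ≠ 0) (h₂ : r₂ n₀ ≠ 0)
    (u₀ : Localization.AtPrime 𝔫)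
    (hu₀ : maximalIdeal (Localization.AtPrime 𝔫) =
      Ideal.span {algebraMap B (Localization.AtPrime 𝔫) π, u₀}) :
    ∃ u : B, u ∈ 𝔫 ∧ maximalIdeal (Localization.AtPrime 𝔫) =
      Ideal.span {algebraMap B (Localization.AtPrime 𝔫) π,
        algebraMap B (Localization.AtPrime 𝔫) u} ∧ r₁ u ≠ 0 ∧ r₂ u ≠ 0 := by
  have hor : RingHom.ker r₁ ≤ 𝔫 ∨ RingHom.ker r₂ ≤ 𝔫 := by
    have hle : RingHom.ker r₁ ⊓ RingHom.ker r₂ ≤ 𝔫 := by
      rw [← hπ, Ideal.span_le]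
      intro x hx
      rw [Set.mem_singleton_iff] at hx
      rw [hx]
      exact hπ𝔫
    exact h𝔫.inf_le.mp hle
  rcases hor with h | h
  · have h' : ¬ RingHom.ker r₂ ≤ 𝔫 := fun h' => hnode ⟨h, h'⟩
    exact exists_normalised_aux r₁ r₂ π hπ 𝔫 h h' n₀ hn₀ h₁ h₂ u₀ hu₀
  · have h' : ¬ RingHom.ker r₁ ≤ 𝔫 := fun h' => hnode ⟨h', h⟩
    have hπ' : Ideal.span {π} = RingHom.ker r₂ ⊓ RingHom.ker r₁ := by rw [hπ, inf_comm]
    obtain ⟨u, hu𝔫, hu, hu₂, hu₁⟩ :=
      exists_normalised_aux r₂ r₁ π hπ' 𝔫 h h' n₀ hn₀ h₂ h₁ u₀ hu₀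
    exact ⟨u, hu𝔫, hu, hu₁, hu₂⟩

/-- **At a one-branch point `π` is a prime element of the local ring.** -/
theorem prime_of_one_branch (r₁ : B →+* κ) (r₂ : B →+* κ') (π : B)
    (hπ : Ideal.span {π} = RingHom.ker r₁ ⊓ RingHom.ker r₂) (𝔫 : Ideal B) [h𝔫 : 𝔫.IsPrime]
    (hπ𝔫 : π ∈ 𝔫) (hnode : ¬ (RingHom.ker r₁ ≤ 𝔫 ∧ RingHom.ker r₂ ≤ 𝔫))
    (hπ0 : algebraMap B (Localization.AtPrime 𝔫) π ≠ 0) :
    Prime (algebraMap B (Localization.AtPrime 𝔫) π) := by
  have hor : RingHom.ker r₁ ≤ 𝔫 ∨ RingHom.ker r₂ ≤ 𝔫 := by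
    have hle : RingHom.ker r₁ ⊓ RingHom.ker r₂ ≤ 𝔫 := by
      rw [← hπ, Ideal.span_le]
      intro x hx
      rw [Set.mem_singleton_iff] at hx
      rw [hx]
      exact hπ𝔫
    exact h𝔫.inf_le.mp hle
  rw [← Ideal.span_singleton_prime hπ0]
  rcases hor with h | h
  · have h' : ¬ RingHom.ker r₂ ≤ 𝔫 := fun h' => hnode ⟨h, h'⟩
    rw [Fermat.Agent.S34.CuspAbs.ker_locRed r₁ 𝔫 r₂ π hπ h h']
    exact RingHom.ker_isPrime _
  · have h' : ¬ RingHom.ker r₁ ≤ 𝔫 := fun h' => hnode ⟨h', h⟩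
    have hπ' : Ideal.span {π} = RingHom.ker r₂ ⊓ RingHom.ker r₁ := by rw [hπ, inf_comm]
    rw [Fermat.Agent.S34.CuspAbs.ker_locRed r₂ 𝔫 r₁ π hπ' h h']
    exact RingHom.ker_isPrime _

end Abstract

/-! ### The cusps of level `M q` -/

section Cusp

open Polynomial ModularCurve Fermat.Agent.S18 Fermat.Agent.S18.Gauss Fermat.Agent.S24
  Fermat.Agent.S34

local notation "Qb" => AlgebraicClosure ℚ

variable {L : Type} [Field L] [Algebra ℚ L] (ι : L →+* Qb) (W : ValuationSubring L)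
  [IsDiscreteValuationRing ↥W] (M q : ℕ) [NeZero M] [NeZero q]
  [Fact q.Prime] [CharP (IsLocalRing.ResidueField ↥W) q]
  [IsAlgClosed (IsLocalRing.ResidueField ↥W)]
  (w : FF L (M * q) ≃ₐ[L] FF L (M * q))

/-- **A cusp of level `M q` lies on exactly one component**: not both vertical primes pass
through `𝔫 ∋ 1/j`. -/
theorem cusp_not_node {B : Type*} [CommRing B] (φ : B →+* FF L (M * q))
    (hwα : (w : FF L (M * q) →ₐ[L] FF L (M * q)).comp (heckeAlphaBar L M q) =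
      heckeBetaBar L M q)
    (hwβ : (w : FF L (M * q) →ₐ[L] FF L (M * q)).comp (heckeBetaBar L M q) =
      heckeAlphaBar L M q)
    (hinj : Function.Injective φ)
    (hsurj : ∀ x, (evFinf W (M * q)).IsIntegralElem x → ∃ b, φ b = x)
    (hφ₁ : ∀ b, ((φ b : FF L (M * q)) : LaurentSeries L) ∈ contentRing W)
    (hφ₂ : ∀ b, (((((w : FF L (M * q) →ₐ[L] FF L (M * q)) :
      FF L (M * q) →+* FF L (M * q)).comp φ) b : FF L (M * q)) : LaurentSeries L) ∈
        contentRing W)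
    (𝔫 : Ideal B) [h𝔫 : 𝔫.IsMaximal]
    (tj : B) (htj : φ tj = (jBC L (M * q))⁻¹) (htj𝔫 : tj ∈ 𝔫) :
    ¬ (RingHom.ker (CuspRes.res W (M * q) φ hφ₁) ≤ 𝔫 ∧
      RingHom.ker (CuspRes.res W (M * q)
        (((w : FF L (M * q) →ₐ[L] FF L (M * q)) : FF L (M * q) →+* FF L (M * q)).comp φ)
        hφ₂) ≤ 𝔫) := by
  obtain ⟨t, z, D, k, hk, hD, hz, ht₁, ht₂⟩ :=
    CuspSep.exists_separator W M q w hwα hwβ φ hinj hsurj hφ₁ hφ₂ 𝔫 h𝔫 htj htj𝔫
  exact CuspAbs.not_ker_le_and_ker_le _ _ 𝔫 t z D k hk hD hz ht₁ ht₂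

include ι in
/-- **Normalised generator at a cusp of level `M q`**: `𝔪(B_𝔫) = (ϖ, u)` with `u ∈ 𝔫`
(`u ∈ B`) a unit at both Gauss valuations (`r₁ u ≠ 0`, `r₂ u ≠ 0`). -/
theorem cusp_generator {B : Type*} [CommRing B] (φ : B →+* FF L (M * q))
    (hqM : ¬ q ∣ M) {ϖ : ↥W} (hϖ : Irreducible ϖ)
    (hroots : ∀ x : Qb, (∃ n : ℕ, ¬ q ∣ n ∧ x ^ n = 1) → ∃ b : L, ι b = x)
    (hwα : (w : FF L (M * q) →ₐ[L] FF L (M * q)).comp (heckeAlphaBar L M q) =
      heckeBetaBar L M q)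
    (hwβ : (w : FF L (M * q) →ₐ[L] FF L (M * q)).comp (heckeBetaBar L M q) =
      heckeAlphaBar L M q)
    (hinj : Function.Injective φ)
    (hint : ∀ b, (evFinf W (M * q)).IsIntegralElem (φ b))
    (hsurj : ∀ x, (evFinf W (M * q)).IsIntegralElem x → ∃ b, φ b = x)
    (hφ₁ : ∀ b, ((φ b : FF L (M * q)) : LaurentSeries L) ∈ contentRing W)
    (hφ₂ : ∀ b, (((((w : FF L (M * q) →ₐ[L] FF L (M * q)) :
      FF L (M * q) →+* FF L (M * q)).comp φ) b : FF L (M * q)) : LaurentSeries L) ∈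
        contentRing W)
    (πB : B) (hπB : φ πB = algebraMap L (FF L (M * q)) ((ϖ : ↥W) : L))
    (𝔫 : Ideal B) [h𝔫 : 𝔫.IsMaximal] (hπ𝔫 : πB ∈ 𝔫)
    (tj : B) (htj : φ tj = (jBC L (M * q))⁻¹) (htj𝔫 : tj ∈ 𝔫) :
    ∃ u : B, u ∈ 𝔫 ∧ maximalIdeal (Localization.AtPrime 𝔫) =
      Ideal.span {algebraMap B (Localization.AtPrime 𝔫) πB,
        algebraMap B (Localization.AtPrime 𝔫) u} ∧
      CuspRes.res W (M * q) φ hφ₁ u ≠ 0 ∧
      CuspRes.res W (M * q)
        (((w : FF L (M * q) →ₐ[L] FF L (M * q)) : FF L (M * q) →+* FF L (M * q)).comp φ)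
        hφ₂ u ≠ 0 := by
  have hspan := CuspRes.span_eq_ker_inf_ker ι W (M * q) hϖ w
    (fun x hx₁ hx₂ => FinDich.v3a W M q hqM w hwα hwβ x hx₁ hx₂) φ hinj hint hsurj hφ₁ hφ₂ πB hπB
  have hnode := cusp_not_node W M q w φ hwα hwβ hinj hsurj hφ₁ hφ₂ 𝔫 tj htj htj𝔫
  obtain ⟨u₀, hu₀⟩ := CuspDich.cusp_point ι W M q w φ hqM hϖ hroots hwα hwβ hinj hint hsurj
    πB hπB 𝔫 hπ𝔫 tj htj htj𝔫
  have hj₁ : (((jBC L (M * q))⁻¹ : FF L (M * q)) : LaurentSeries L) ∈ contentRing W := by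
    rw [← htj]; exact hφ₁ tj
  have hj₂ : ((w (jBC L (M * q))⁻¹ : FF L (M * q)) : LaurentSeries L) ∈ contentRing W := by
    rw [← htj]; exact hφ₂ tj
  have h3₁ : CuspRes.res W (M * q) φ hφ₁ tj ≠ 0 := by
    rw [CuspRes.res_apply W (M * q) φ hφ₁ tj (hφ₁ tj),
      CuspRes.red_congr W (hφ₁ tj) hj₁ (by rw [htj])]
    exact CuspRes.red_jInv_ne_zero W (M * q) hj₁
  have h3₂ : CuspRes.res W (M * q)
      (((w : FF L (M * q) →ₐ[L] FF L (M * q)) : FF L (M * q) →+* FF L (M * q)).comp φ)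
      hφ₂ tj ≠ 0 := by
    rw [CuspRes.res_apply W (M * q) _ hφ₂ tj (hφ₂ tj),
      CuspRes.red_congr W (hφ₂ tj) hj₂ (by
        show ((w (φ tj) : FF L (M * q)) : LaurentSeries L) = _
        rw [htj])]
    exact CuspRes.red_w_jInv_ne_zero W M q w hwα hj₂
  exact exists_normalised _ _ πB hspan 𝔫 hπ𝔫 hnode tj htj𝔫 h3₁ h3₂ u₀ hu₀

include ι in
/-- **Normalised generator at a cusp, inverse form**: `𝔪(B_𝔫) = (ϖ, u)`, `u ∈ 𝔫`, and the
`q`-expansions of `1/u` and of `w (1/u)` are `W`-integral. -/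
theorem cusp_generator_inv {B : Type*} [CommRing B] (φ : B →+* FF L (M * q))
    (hqM : ¬ q ∣ M) {ϖ : ↥W} (hϖ : Irreducible ϖ)
    (hroots : ∀ x : Qb, (∃ n : ℕ, ¬ q ∣ n ∧ x ^ n = 1) → ∃ b : L, ι b = x)
    (hwα : (w : FF L (M * q) →ₐ[L] FF L (M * q)).comp (heckeAlphaBar L M q) =
      heckeBetaBar L M q)
    (hwβ : (w : FF L (M * q) →ₐ[L] FF L (M * q)).comp (heckeBetaBar L M q) =
      heckeAlphaBar L M q)
    (hinj : Function.Injective φ)
    (hint : ∀ b, (evFinf W (M * q)).IsIntegralElem (φ b))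
    (hsurj : ∀ x, (evFinf W (M * q)).IsIntegralElem x → ∃ b, φ b = x)
    (πB : B) (hπB : φ πB = algebraMap L (FF L (M * q)) ((ϖ : ↥W) : L))
    (𝔫 : Ideal B) [h𝔫 : 𝔫.IsMaximal] (hπ𝔫 : πB ∈ 𝔫)
    (tj : B) (htj : φ tj = (jBC L (M * q))⁻¹) (htj𝔫 : tj ∈ 𝔫) :
    ∃ u : B, u ∈ 𝔫 ∧ maximalIdeal (Localization.AtPrime 𝔫) =
      Ideal.span {algebraMap B (Localization.AtPrime 𝔫) πB,
        algebraMap B (Localization.AtPrime 𝔫) u} ∧
      ((((φ u)⁻¹ : FF L (M * q)) : FF L (M * q)) : LaurentSeries L) ∈ contentRing W ∧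
      ((w (φ u)⁻¹ : FF L (M * q)) : LaurentSeries L) ∈ contentRing W := by
  have hφ₁ : ∀ b, ((φ b : FF L (M * q)) : LaurentSeries L) ∈ contentRing W :=
    fun b => CuspRes.mem_contentRing_of_int_inf W (M * q) (hint b)
  have hφ₂ : ∀ b, (((((w : FF L (M * q) →ₐ[L] FF L (M * q)) :
      FF L (M * q) →+* FF L (M * q)).comp φ) b : FF L (M * q)) : LaurentSeries L) ∈
      contentRing W :=
    fun b => CuspRes.mem_contentRing_w_of_int_inf W M q w hwα (hint b)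
  obtain ⟨u, hu𝔫, hu, hu₁, hu₂⟩ := cusp_generator ι W M q w φ hqM hϖ hroots hwα hwβ hinj hint
    hsurj hφ₁ hφ₂ πB hπB 𝔫 hπ𝔫 tj htj htj𝔫
  refine ⟨u, hu𝔫, hu, ?_, ?_⟩
  · have h1 : ((((φ u)⁻¹ : FF L (M * q)) : FF L (M * q)) : LaurentSeries L) =
        ((φ u : FF L (M * q)) : LaurentSeries L)⁻¹ := rfl
    rw [h1]
    exact inv_mem_contentRing W (hφ₁ u) hu₁
  · have h1 : ((w (φ u)⁻¹ : FF L (M * q)) : LaurentSeries L) =
        ((w (φ u) : FF L (M * q)) : LaurentSeries L)⁻¹ := by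
      rw [map_inv₀]
      rfl
    rw [h1]
    exact inv_mem_contentRing W (hφ₂ u) hu₂

include ι in
/-- **`ϖ` is a prime element of the local ring at a cusp of level `M q`.** -/
theorem cusp_prime {B : Type*} [CommRing B] (φ : B →+* FF L (M * q))
    (hqM : ¬ q ∣ M) {ϖ : ↥W} (hϖ : Irreducible ϖ)
    (hwα : (w : FF L (M * q) →ₐ[L] FF L (M * q)).comp (heckeAlphaBar L M q) =
      heckeBetaBar L M q)
    (hwβ : (w : FF L (M * q) →ₐ[L] FF L (M * q)).comp (heckeBetaBar L M q) =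
      heckeAlphaBar L M q)
    (hinj : Function.Injective φ)
    (hint : ∀ b, (evFinf W (M * q)).IsIntegralElem (φ b))
    (hsurj : ∀ x, (evFinf W (M * q)).IsIntegralElem x → ∃ b, φ b = x)
    (πB : B) (hπB : φ πB = algebraMap L (FF L (M * q)) ((ϖ : ↥W) : L))
    (𝔫 : Ideal B) [h𝔫 : 𝔫.IsMaximal] (hπ𝔫 : πB ∈ 𝔫)
    (tj : B) (htj : φ tj = (jBC L (M * q))⁻¹) (htj𝔫 : tj ∈ 𝔫) :
    Prime (algebraMap B (Localization.AtPrime 𝔫) πB) := by
  have hφ₁ : ∀ b, ((φ b : FF L (M * q)) : LaurentSeries L) ∈ contentRing W :=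
    fun b => CuspRes.mem_contentRing_of_int_inf W (M * q) (hint b)
  have hφ₂ : ∀ b, (((((w : FF L (M * q) →ₐ[L] FF L (M * q)) :
      FF L (M * q) →+* FF L (M * q)).comp φ) b : FF L (M * q)) : LaurentSeries L) ∈
      contentRing W :=
    fun b => CuspRes.mem_contentRing_w_of_int_inf W M q w hwα (hint b)
  have hspan := CuspRes.span_eq_ker_inf_ker ι W (M * q) hϖ w
    (fun x hx₁ hx₂ => FinDich.v3a W M q hqM w hwα hwβ x hx₁ hx₂) φ hinj hint hsurj hφ₁ hφ₂ πB hπB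
  have hnode := cusp_not_node W M q w φ hwα hwβ hinj hsurj hφ₁ hφ₂ 𝔫 tj htj htj𝔫
  haveI : IsDomain B := hinj.isDomain φ
  have hπ0 : πB ≠ 0 := by
    intro h0
    have h1 : φ πB = 0 := by rw [h0, map_zero]
    rw [hπB] at h1
    exact Fermat.Agent.S37.GaussPrime.unif_ne_zero (N := M * q) hϖ h1
  have hπ0' : algebraMap B (Localization.AtPrime 𝔫) πB ≠ 0 := by
    intro h0
    apply hπ0
    have hinjR : Function.Injective (algebraMap B (Localization.AtPrime 𝔫)) :=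
      IsLocalization.injective (Localization.AtPrime 𝔫) 𝔫.primeCompl_le_nonZeroDivisors
    exact hinjR (h0.trans (map_zero _).symm)
  exact prime_of_one_branch _ _ πB hspan 𝔫 hπ𝔫 hnode hπ0'

end Cusp

end Fermat.Agent.S35.CuspGen
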