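/-
S35 (wave 7, Route C), contract (EsLoc₂) CLOSED: the local datum of the Eichler–Shimura descent
at the cusps of the chart `W[1/j]`.

* `cusp_smooth_level` : the smooth-point lemma at a cusp, at a level: `EsSmoothRaw.smooth_chart`
  (helper3/helper23) on every carrier `B` of the chart `W[1/j]` of level `M q`, at every maximal
  ideal `𝔪 ∋ π, 1/j`, with the normalised generator `CuspGen.cusp_generator` (helper16), the
  carrier facts of `S34.KLocCusp`, (H_int) `S34.CuspRes`, (S1) `S34.FinDich.s1_inf_level`, and the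
  two directions (V3a)/(V3b) of the two-valuation theorem (`S34.TwoGauss`) for the passage
  `GaussOne ⇄ 1 + π m`;
* `cuspSmooth : EsLoc2.CuspSmooth M q p A`;
* `esLocT₂ : EsCoreT.EsLocT₂ M q p (EsGaussInst.esOp M q) A σ` for `q` prime, `q ∤ M`, `σ` a
  Frobenius lift at `q` for `A`.
-/
import Mathlib
import Fermat.Agent.S35.EsLoc2
import Fermat.Agent.S35.EsRatDvd
import Fermat.Agent.S35.EsSmoothRaw
import Fermat.Agent.S35.CuspGen
import Fermat.Agent.S35.EsGaussInst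
import Fermat.Agent.S34.KLocCusp
import Fermat.Agent.S34.TwoGauss

set_option autoImplicit false
set_option linter.unusedSectionVars false
set_option linter.style.haveILetI false

noncomputable section

namespace Fermat.Agent.S35.EsLocCusp

open Polynomial ModularCurve AlgebraicCurve Fermat.Agent.S18 Fermat.Agent.S18.Gauss
  Fermat.Agent.S24 Fermat.Agent.S37
open Fermat.Agent.S34 Fermat.Agent.S34.KummerStep Fermat.Agent.S34.GDescent
open Fermat.Agent.S35.EsCore Fermat.Agent.S35.EsCoreT Fermat.Agent.S35.EsLoc2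

local notation "Qb" => AlgebraicClosure ℚ

variable (M q p : ℕ) [NeZero M] [NeZero q]

set_option maxHeartbeats 1600000 in
/-- **The smooth-point lemma at a cusp, at a level.** -/
theorem cusp_smooth_level (hq : q.Prime) (hqM : ¬ q ∣ M) (A : ValuationSubring Qb)
    (S₀ : Finset Qb) {L : Type} [Field L] [Algebra ℚ L] (ι : L →+* Qb)
    (hlev : LevelChange.IsLevel A q S₀ ι) (ϖ : ↥(A.comap ι)) (hϖ : Irreducible ϖ)
    (n : ℕ) (w₀ : FF L (M * q)) (hw₀ : GaussOne ϖ (jBC L (M * q)) w₀)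
    (hdvd : ∀ Q : Place Qb (modularFunctionFieldBar (M * q)),
      ((p : ℤ) ^ n) ∣ Q.ord (CoeffBC.bc ι (modularFunctionFieldFull (M * q)) w₀))
    (hrat : ∀ Q : Place Qb (modularFunctionFieldBar (M * q)),
      Q.ord (CoeffBC.bc ι (modularFunctionFieldFull (M * q)) w₀) ≠ 0 →
      RatAtLevel (M * q) ι Q)
    [Algebra (↥(A.comap ι))[X] (FF L (M * q))]
    (halg : algebraMap (↥(A.comap ι))[X] (FF L (M * q)) = evFinf (A.comap ι) (M * q))
    (B : Type) [CommRing B] [Algebra (↥(A.comap ι))[X] B] [Algebra B (FF L (M * q))]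
    [IsScalarTower (↥(A.comap ι))[X] B (FF L (M * q))]
    [IsIntegralClosure B (↥(A.comap ι))[X] (FF L (M * q))]
    (𝔪 : Ideal B) [h𝔪 : 𝔪.IsMaximal] (hC : algebraMap (↥(A.comap ι))[X] B (C ϖ) ∈ 𝔪)
    (hX : algebraMap (↥(A.comap ι))[X] B X ∈ 𝔪) :
    ∃ g : FF L (M * q), GaussOne ϖ (jBC L (M * q)) g ∧ ∃ d : B, d ∉ 𝔪 ∧
      ∃ t : B, algebraMap B (FF L (M * q)) t =
        algebraMap B (FF L (M * q)) d * (w₀ * g ^ (p ^ n)) := by
  classical
  obtain ⟨-, hroots, hdvr, hclosed, -, hchar, -, -⟩ := hlev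
  haveI := hdvr
  haveI := hclosed
  haveI := hchar
  haveI : Fact q.Prime := ⟨hq⟩
  haveI := GAsm.isScalarTower_W (A.comap ι) (M * q)
  obtain ⟨w, hwα, hwβ⟩ := FrobPartner.exists_atkinLehner_level ι M q hq hqM
  -- the chart ring
  letI : Algebra ↥(A.comap ι) B := ((algebraMap (↥(A.comap ι))[X] B).comp C).toAlgebra
  haveI : IsDomain B := KLocCusp.isDomain_inf (A.comap ι) (M * q) B
  haveI : IsNoetherianRing B := KLocCusp.isNoetherianRing_inf (A.comap ι) (M * q) halg B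
  haveI : IsIntegrallyClosed B := KLocCusp.isIntegrallyClosed_inf (A.comap ι) (M * q) halg B
  haveI : IsFractionRing B (FF L (M * q)) :=
    KLocCusp.isFractionRing_inf (A.comap ι) (M * q) halg B
  have hinj : Function.Injective (algebraMap B (FF L (M * q))) :=
    IsIntegralClosure.algebraMap_injective B (↥(A.comap ι))[X] (FF L (M * q))
  have hint : ∀ y : B, (evFinf (A.comap ι) (M * q)).IsIntegralElem
      (algebraMap B (FF L (M * q)) y) := fun y =>
    (ChartAct.exists_algebraMap_eq_iff_inf (A.comap ι) (M * q) halg B _).mp ⟨y, rfl⟩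
  have hsurj : ∀ x : FF L (M * q), (evFinf (A.comap ι) (M * q)).IsIntegralElem x →
      ∃ b : B, algebraMap B (FF L (M * q)) b = x := fun x hx =>
    (ChartAct.exists_algebraMap_eq_iff_inf (A.comap ι) (M * q) halg B x).mpr hx
  have hB₁ : ∀ y : B, ((algebraMap B (FF L (M * q)) y : FF L (M * q)) : LaurentSeries L) ∈
      contentRing (A.comap ι) := fun y =>
    CuspRes.mem_contentRing_of_int_inf (A.comap ι) (M * q) (hint y)
  have hB₂ : ∀ y : B, ((w (algebraMap B (FF L (M * q)) y) : FF L (M * q)) : LaurentSeries L) ∈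
      contentRing (A.comap ι) := fun y =>
    CuspRes.mem_contentRing_w_of_int_inf (A.comap ι) M q w hwα (hint y)
  have hBW : ∀ c : ↥(A.comap ι), algebraMap B (FF L (M * q)) (algebraMap ↥(A.comap ι) B c) =
      algebraMap L (FF L (M * q)) (c : L) := by
    intro c
    show algebraMap B (FF L (M * q)) (algebraMap (↥(A.comap ι))[X] B (C c)) = _
    rw [← IsScalarTower.algebraMap_apply, halg, evFinf_C]
  have hXF : algebraMap B (FF L (M * q)) (algebraMap (↥(A.comap ι))[X] B X) =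
      (jBC L (M * q))⁻¹ := by
    rw [← IsScalarTower.algebraMap_apply, halg, evFinf_X]
  have hS1 : ∀ y : B, red (A.comap ι) ⟨_, hB₁ y⟩ = 0 → red (A.comap ι) ⟨_, hB₂ y⟩ = 0 →
      ∃ y' : B, algebraMap B (FF L (M * q)) y =
        algebraMap L (FF L (M * q)) (ϖ : L) * algebraMap B (FF L (M * q)) y' := by
    intro y hr1 hr2
    obtain ⟨y0, hy0, -, -, hxy⟩ := FinDich.s1_inf_level ι (A.comap ι) M q hqM hϖ w hwα hwβ _
      (hint y) (hB₁ y) (hB₂ y) hr1 hr2
    obtain ⟨y', rfl⟩ := hsurj y0 hy0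
    exact ⟨y', hxy⟩
  -- the normalised generator
  obtain ⟨u, -, hu, hu₁, hu₂⟩ := CuspGen.cusp_generator ι (A.comap ι) M q w
    (algebraMap B (FF L (M * q))) hqM hϖ hroots hwα hwβ hinj hint hsurj hB₁ hB₂
    (algebraMap ↥(A.comap ι) B ϖ) (hBW ϖ) 𝔪 hC (algebraMap (↥(A.comap ι))[X] B X) hXF hX
  have hu' : IsLocalRing.maximalIdeal (Localization.AtPrime 𝔪) =
      Ideal.span {algebraMap ↥(A.comap ι) (Localization.AtPrime 𝔪) ϖ,
        algebraMap B (Localization.AtPrime 𝔪) u} := by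
    rw [hu, IsScalarTower.algebraMap_apply ↥(A.comap ι) B (Localization.AtPrime 𝔪)]
  -- `w₀ = 1 + ϖ m`
  have hϖF : algebraMap ↥(A.comap ι) (FF L (M * q)) ϖ ≠ 0 := by
    intro h0
    have h1 : algebraMap L (FF L (M * q)) ((ϖ : ↥(A.comap ι)) : L) = 0 := h0
    have h2 : ((ϖ : ↥(A.comap ι)) : L) = 0 := by
      rwa [map_eq_zero] at h1
    exact hϖ.ne_zero (Subtype.ext h2)
  obtain ⟨c, hc, hw₀c⟩ := GaussOne.inC hϖF hw₀
  obtain ⟨hc₁, hc₂⟩ := TwoGauss.mem_both_of_inC (A.comap ι) M q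
    (w : FF L (M * q) →ₐ[L] FF L (M * q)) hwα hϖ c hc
  have hw₀' : ∃ m : FF L (M * q), (m : LaurentSeries L) ∈ contentRing (A.comap ι) ∧
      ((w m : FF L (M * q)) : LaurentSeries L) ∈ contentRing (A.comap ι) ∧
      w₀ = 1 + algebraMap L (FF L (M * q)) (ϖ : L) * m := by
    refine ⟨c, hc₁, hc₂, ?_⟩
    have h1 : w₀ - 1 = algebraMap L (FF L (M * q)) ((ϖ : ↥(A.comap ι)) : L) * c := hw₀c
    rw [← h1]
    ring
  obtain ⟨g, ⟨m, hm₁, hm₂, hgm⟩, d, hd, t, ht⟩ := EsSmoothRaw.smooth_chart (M * q) A ι hϖ w B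
    hBW hB₁ hB₂ hS1 𝔪 hC u hu' hu₁ hu₂ p n w₀ hw₀' hdvd hrat
  refine ⟨g, ?_, d, hd, t, ht⟩
  refine gaussOne_of_inC ⟨m, TwoGauss.inC_of_mem_both (A.comap ι) M q
    (w : FF L (M * q) →ₐ[L] FF L (M * q)) hqM hwα hwβ hϖ.not_isUnit m hm₁ hm₂, ?_⟩
  have h1 : g - 1 = algebraMap L (FF L (M * q)) ((ϖ : ↥(A.comap ι)) : L) * m := by
    rw [hgm]
    ring
  exact h1

/-- **The smooth-point lemma at the cusps as a contract.** -/
theorem cuspSmooth (hq : q.Prime) (hqM : ¬ q ∣ M) (A : ValuationSubring Qb) :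
    CuspSmooth M q p A :=
  ⟨∅, fun _ _ _ ι hlev _ ϖ hϖ n w₀ hw₀ hdvd hrat _ halg B _ _ _ _ _ 𝔪 h𝔪 hC hX =>
    haveI := h𝔪
    cusp_smooth_level M q p hq hqM A ∅ ι hlev ϖ hϖ n w₀ hw₀ hdvd hrat halg B 𝔪 hC hX⟩

/-- **Contract (EsLoc₂)**: the local datum of the Eichler–Shimura descent at the cusps.
(`hp`, `hpq`, `hA` are not used; the signature is the one of the final assembly.) -/
theorem esLocT₂ (hq : q.Prime) (hqM : ¬ q ∣ M) (_hp : p.Prime) (_hpq : p ≠ q)
    (A : ValuationSubring Qb) (_hA : A.LiesOverPrime q) (σ : Qb ≃ₐ[ℚ] Qb)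
    (hσ : A.IsFrobeniusAt σ q) :
    EsLocT₂ M q p (EsGaussInst.esOp M q) A σ :=
  esLocT₂_of_smooth M q p _ A σ (EsGaussInst.gaussContract M q hq hqM A σ hσ)
    (EsRatDvd.ratDvd_esOp M q p hq hqM A σ) (cuspSmooth M q p hq hqM A)

end Fermat.Agent.S35.EsLocCusp
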