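import Mathlib
import Fermat.Agent.S34.TwoExt

/-!
# S35 (wave 7), package (Ga) input: an adapted basis of `V₁ ∩ V₂`

In the setting of `S34.TwoExt.Hyp` (a discrete valuation ring `O` with fraction field `K`,
a finite separable extension `E / K`, two valuation subrings `V₁ ≠ V₂` of `E` above `O` with
residually independent families `b₁`, `b₂`, `[E : K] ≤ m₁ + m₂`) there is a `K`-basis of `E`
made of integral elements, congruent to `b₁` at `V₁` and to `0` at `V₂` on the first block,
to `0` at `V₁` and to `b₂` at `V₂` on the second block, such that the coordinates of every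
element of `V₁ ∩ V₂` lie in `O`.
-/

set_option autoImplicit false

namespace Fermat.Agent.S35.AdBasis

open IsLocalRing Fermat.Agent.S34 Fermat.Agent.S34.TwoExt

section Abstract

variable {O : Type*} {K : Type*} {E : Type*} [CommRing O] [IsDomain O]
  [IsDiscreteValuationRing O] [Field K] [Field E] [Algebra O K] [IsFractionRing O K]
  [Algebra K E] [Algebra O E] [IsScalarTower O K E]

omit [IsDomain O] [IsDiscreteValuationRing O] [Field K] [Algebra O K] [IsFractionRing O K]
  [Algebra K E] [IsScalarTower O K E] [CommRing O] [Algebra O E] in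
/-- The nonunits of a valuation subring are stable under multiplication by its elements. -/
lemma mul_mem_nonunits (V : ValuationSubring E) {a x : E} (ha : a ∈ V)
    (hx : x ∈ V.nonunits) : a * x ∈ V.nonunits := by
  rw [ValuationSubring.mem_nonunits_iff, map_mul]
  calc V.valuation a * V.valuation x ≤ 1 * V.valuation x :=
        mul_le_mul_left ((V.valuation_le_one_iff _).2 ha) _
    _ = V.valuation x := one_mul _
    _ < 1 := (V.mem_nonunits_iff).1 hx

omit [Field K] [Algebra O K] [IsFractionRing O K] [Algebra K E] [IsScalarTower O K E] in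
/-- Elements of the maximal ideal of `O` are nonunits of every valuation subring above `O` in
which the uniformiser is not invertible. -/
lemma algebraMap_mem_nonunits {π : O} (hπ : Irreducible π) (V : ValuationSubring E)
    (hV : ∀ a : O, algebraMap O E a ∈ V) (hinv : (algebraMap O E π)⁻¹ ∉ V) {u : O}
    (hu : u ∈ maximalIdeal O) : algebraMap O E u ∈ V.nonunits := by
  rw [hπ.maximalIdeal_eq, Ideal.mem_span_singleton'] at hu
  obtain ⟨r, rfl⟩ := hu
  rw [map_mul]
  exact mul_mem_nonunits V (hV r) ((V.mem_nonunits_iff).2 (valuation_pi_lt_one V hinv))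

omit [Field E] [Algebra K E] [Algebra O E] [IsScalarTower O K E] in
/-- Normalisation of a finite nonzero family of `K`: after scaling, all members lie in `O` and
one of them is a unit. -/
lemma exists_normalise {ι : Type*} [Finite ι] (a : ι → K) (ha : ∃ j, a j ≠ 0) :
    ∃ (t : K) (c : ι → O), t ≠ 0 ∧ (∀ j, algebraMap O K (c j) = t * a j) ∧
      ∃ j, c j ∉ maximalIdeal O := by
  classical
  have := Fintype.ofFinite ι
  obtain ⟨d, hd⟩ := IsLocalization.exist_integer_multiples_of_finite (nonZeroDivisors O) a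
  choose c₀ hc₀ using hd
  have hd0 : algebraMap O K (d : O) ≠ 0 := by
    have := nonZeroDivisors.ne_zero d.2
    exact fun h => this ((IsFractionRing.injective O K) (by rw [h, map_zero]))
  have hc₀' : ∀ j, algebraMap O K (c₀ j) = algebraMap O K (d : O) * a j := by
    intro j; rw [hc₀ j, Algebra.smul_def]
  obtain ⟨g, hg⟩ := (IsPrincipalIdealRing.principal (Ideal.span (Set.range c₀))).principal
  have hmem : ∀ j, c₀ j ∈ Ideal.span {g} := by
    intro j
    have : c₀ j ∈ Ideal.span (Set.range c₀) := Ideal.subset_span ⟨j, rfl⟩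
    rw [hg] at this
    exact this
  have hg0 : g ≠ 0 := by
    rintro rfl
    obtain ⟨j, hj⟩ := ha
    have h1 := hmem j
    rw [Ideal.mem_span_singleton'] at h1
    obtain ⟨r, hr⟩ := h1
    rw [mul_zero] at hr
    have h2 := hc₀' j
    rw [← hr, map_zero] at h2
    exact (mul_ne_zero hd0 hj) h2.symm
  have hg0' : algebraMap O K g ≠ 0 :=
    fun h => hg0 ((IsFractionRing.injective O K) (by rw [h, map_zero]))
  choose c hc using fun j => Ideal.mem_span_singleton'.1 (hmem j)
  refine ⟨algebraMap O K (d : O) / algebraMap O K g, c, div_ne_zero hd0 hg0', ?_, ?_⟩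
  · intro j
    rw [div_mul_eq_mul_div, eq_div_iff hg0', ← map_mul, hc j, hc₀' j]
  · by_contra hall
    push Not at hall
    have hle : Ideal.span (Set.range c₀) ≤ maximalIdeal O * Ideal.span {g} := by
      rw [Ideal.span_le]
      rintro _ ⟨j, rfl⟩
      rw [← hc j]
      exact Ideal.mul_mem_mul (hall j) (Ideal.mem_span_singleton_self g)
    have hgm : g ∈ maximalIdeal O * Ideal.span {g} := by
      apply hle
      rw [hg]
      exact Ideal.mem_span_singleton_self g
    rw [Ideal.mem_mul_span_singleton] at hgm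
    obtain ⟨z, hz, hzg⟩ := hgm
    have hz1 : z = 1 := by
      have : z * g = 1 * g := by rw [hzg, one_mul]
      exact mul_right_cancel₀ hg0 this
    rw [hz1] at hz
    exact (Ideal.ne_top_iff_one _).1 (IsLocalRing.maximalIdeal.isMaximal O).ne_top hz

variable {π : O} {V₁ V₂ : ValuationSubring E} {m₁ m₂ : ℕ} {b₁ : Fin m₁ → E} {b₂ : Fin m₂ → E}

omit [Algebra O K] [IsFractionRing O K] [IsScalarTower O K E] in
/-- The residual independence of an adapted family: an `O`-combination which is a nonunit at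
both valuations has all its coefficients in the maximal ideal. -/
lemma mem_maximalIdeal_of_sum (h : Hyp K π V₁ V₂ b₁ b₂) {v : Fin m₁ ⊕ Fin m₂ → E}
    (hv₁ : ∀ i, v (Sum.inl i) - b₁ i ∈ V₁.nonunits) (hv₁' : ∀ i, v (Sum.inl i) ∈ V₂.nonunits)
    (hv₂' : ∀ k, v (Sum.inr k) ∈ V₁.nonunits) (hv₂ : ∀ k, v (Sum.inr k) - b₂ k ∈ V₂.nonunits)
    (c : Fin m₁ ⊕ Fin m₂ → O)
    (hS₁ : ∑ j, algebraMap O E (c j) * v j ∈ V₁.nonunits)
    (hS₂ : ∑ j, algebraMap O E (c j) * v j ∈ V₂.nonunits) : ∀ j, c j ∈ maximalIdeal O := by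
  rw [Fintype.sum_sum_type] at hS₁ hS₂
  have h1 : ∀ i, c (Sum.inl i) ∈ maximalIdeal O := by
    apply h.indep₁ (fun i => c (Sum.inl i))
    have e : ∑ i, algebraMap O E (c (Sum.inl i)) * b₁ i =
        (∑ i, algebraMap O E (c (Sum.inl i)) * v (Sum.inl i) +
          ∑ k, algebraMap O E (c (Sum.inr k)) * v (Sum.inr k)) -
        ∑ k, algebraMap O E (c (Sum.inr k)) * v (Sum.inr k) -
        ∑ i, algebraMap O E (c (Sum.inl i)) * (v (Sum.inl i) - b₁ i) := by
      simp only [mul_sub, Finset.sum_sub_distrib]; ring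
    rw [e]
    refine sub_mem (sub_mem hS₁ (sum_mem fun k _ => mul_mem_nonunits V₁ (h.le₁ _) (hv₂' k)))
      (sum_mem fun i _ => mul_mem_nonunits V₁ (h.le₁ _) (hv₁ i))
  have h2 : ∀ k, c (Sum.inr k) ∈ maximalIdeal O := by
    apply h.indep₂ (fun k => c (Sum.inr k))
    have e : ∑ k, algebraMap O E (c (Sum.inr k)) * b₂ k =
        (∑ i, algebraMap O E (c (Sum.inl i)) * v (Sum.inl i) +
          ∑ k, algebraMap O E (c (Sum.inr k)) * v (Sum.inr k)) -
        ∑ i, algebraMap O E (c (Sum.inl i)) * v (Sum.inl i) -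
        ∑ k, algebraMap O E (c (Sum.inr k)) * (v (Sum.inr k) - b₂ k) := by
      simp only [mul_sub, Finset.sum_sub_distrib]; ring
    rw [e]
    refine sub_mem (sub_mem hS₂ (sum_mem fun i _ => mul_mem_nonunits V₂ (h.le₂ _) (hv₁' i)))
      (sum_mem fun k _ => mul_mem_nonunits V₂ (h.le₂ _) (hv₂ k))
  rintro (i | k)
  · exact h1 i
  · exact h2 k

variable [FiniteDimensional K E] [Algebra.IsSeparable K E]

/-- **Adapted basis.** A `K`-basis of `E` made of elements integral over `O`, congruent to
`(b₁, 0)` at `(V₁, V₂)` on the first block and to `(0, b₂)` on the second block, in which the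
coordinates of every element of `V₁ ∩ V₂` lie in `O`. -/
theorem exists_adapted_basis (h : Hyp K π V₁ V₂ b₁ b₂) :
    ∃ b : Module.Basis (Fin m₁ ⊕ Fin m₂) K E,
      (∀ j, IsIntegral O (b j)) ∧
      (∀ i, b (Sum.inl i) - b₁ i ∈ V₁.nonunits ∧ b (Sum.inl i) ∈ V₂.nonunits) ∧
      (∀ k, b (Sum.inr k) ∈ V₁.nonunits ∧ b (Sum.inr k) - b₂ k ∈ V₂.nonunits) ∧
      ∀ x : E, x ∈ V₁ → x ∈ V₂ → ∀ j, ∃ c : O, algebraMap O K c = b.repr x j := by
  classical
  -- the family
  have hex₁ : ∀ i, ∃ z : E, IsIntegral O z ∧ z - b₁ i ∈ V₁.nonunits ∧ z - 0 ∈ V₂.nonunits :=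
    fun i => Hyp.exists_isIntegral_approx K h (h.mem₁ i) V₂.zero_mem
  have hex₂ : ∀ k, ∃ z : E, IsIntegral O z ∧ z - 0 ∈ V₁.nonunits ∧ z - b₂ k ∈ V₂.nonunits :=
    fun k => Hyp.exists_isIntegral_approx K h V₁.zero_mem (h.mem₂ k)
  choose z₁ hz₁ using hex₁
  choose z₂ hz₂ using hex₂
  let v : Fin m₁ ⊕ Fin m₂ → E := Sum.elim z₁ z₂
  have hv₁ : ∀ i, v (Sum.inl i) - b₁ i ∈ V₁.nonunits := fun i => (hz₁ i).2.1
  have hv₁' : ∀ i, v (Sum.inl i) ∈ V₂.nonunits := fun i => by
    have := (hz₁ i).2.2; rwa [sub_zero] at this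
  have hv₂' : ∀ k, v (Sum.inr k) ∈ V₁.nonunits := fun k => by
    have := (hz₂ k).2.1; rwa [sub_zero] at this
  have hv₂ : ∀ k, v (Sum.inr k) - b₂ k ∈ V₂.nonunits := fun k => (hz₂ k).2.2
  have hvint : ∀ j, IsIntegral O (v j) := by
    rintro (i | k)
    · exact (hz₁ i).1
    · exact (hz₂ k).1
  have hR := mem_maximalIdeal_of_sum h hv₁ hv₁' hv₂' hv₂
  have hmapE : ∀ c : O, algebraMap K E (algebraMap O K c) = algebraMap O E c :=
    fun c => (IsScalarTower.algebraMap_apply O K E c).symm
  -- linear independence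
  have hli : LinearIndependent K v := by
    rw [Fintype.linearIndependent_iff]
    intro a ha
    by_contra hne
    push Not at hne
    obtain ⟨t, c, ht, hc, j₀, hj₀⟩ := exists_normalise (O := O) a hne
    have hsum : ∑ j, algebraMap O E (c j) * v j = 0 := by
      have : ∑ j, algebraMap O E (c j) * v j = t • ∑ j, a j • v j := by
        rw [Finset.smul_sum]
        refine Finset.sum_congr rfl fun j _ => ?_
        rw [← hmapE, hc j, smul_smul, Algebra.smul_def]
      rw [this, ha, smul_zero]
    exact hj₀ (hR c (by rw [hsum]; exact zero_mem _) (by rw [hsum]; exact zero_mem _) j₀)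
  have hcard : Fintype.card (Fin m₁ ⊕ Fin m₂) = Module.finrank K E := by
    rw [Hyp.finrank_eq K h, Fintype.card_sum, Fintype.card_fin, Fintype.card_fin]
  haveI : Nonempty (Fin m₁ ⊕ Fin m₂) := by
    rw [← Fintype.card_pos_iff, hcard]
    exact Module.finrank_pos
  refine ⟨basisOfLinearIndependentOfCardEqFinrank hli hcard, ?_, ?_, ?_, ?_⟩
  · intro j; rw [coe_basisOfLinearIndependentOfCardEqFinrank]; exact hvint j
  · intro i; rw [coe_basisOfLinearIndependentOfCardEqFinrank]; exact ⟨hv₁ i, hv₁' i⟩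
  · intro k; rw [coe_basisOfLinearIndependentOfCardEqFinrank]; exact ⟨hv₂' k, hv₂ k⟩
  · intro x hx₁ hx₂
    set b := basisOfLinearIndependentOfCardEqFinrank hli hcard with hb
    have hbv : ∀ j, b j = v j := fun j => by
      rw [hb, coe_basisOfLinearIndependentOfCardEqFinrank]
    -- the family `(1, coordinates of x)`
    let a : Option (Fin m₁ ⊕ Fin m₂) → K := fun o => Option.elim o 1 (fun j => b.repr x j)
    obtain ⟨t, c, ht, hc, j₀, hj₀⟩ := exists_normalise (O := O) a ⟨none, one_ne_zero⟩
    have hcn : algebraMap O K (c none) = t := by simpa [a] using hc none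
    have hcs : ∀ j, algebraMap O K (c (some j)) = t * b.repr x j := fun j => by
      simpa [a] using hc (some j)
    have hsum : ∑ j, algebraMap O E (c (some j)) * v j = algebraMap O E (c none) * x := by
      have h1 : ∑ j, algebraMap O E (c (some j)) * v j = t • ∑ j, b.repr x j • b j := by
        rw [Finset.smul_sum]
        refine Finset.sum_congr rfl fun j _ => ?_
        rw [← hmapE, hcs j, smul_smul, Algebra.smul_def, hbv]
      rw [h1, b.sum_repr, ← hmapE, hcn, Algebra.smul_def]
    have hu : c none ∉ maximalIdeal O := by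
      intro hm
      have hall := hR (fun j => c (some j))
        (by
          rw [hsum, mul_comm]
          exact mul_mem_nonunits V₁ hx₁
            (algebraMap_mem_nonunits h.irreducible V₁ h.le₁ h.inv_notMem₁ hm))
        (by
          rw [hsum, mul_comm]
          exact mul_mem_nonunits V₂ hx₂
            (algebraMap_mem_nonunits h.irreducible V₂ h.le₂ h.inv_notMem₂ hm))
      cases j₀ with
      | none => exact hj₀ hm
      | some j => exact hj₀ (hall j)
    have hunit : IsUnit (c none) := by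
      by_contra hnu
      exact hu ((IsLocalRing.mem_maximalIdeal _).2 hnu)
    obtain ⟨u, hu'⟩ := hunit
    intro j
    refine ⟨c (some j) * ((u⁻¹ : Oˣ) : O), ?_⟩
    have ht' : t = algebraMap O K (u : O) := by rw [hu', hcn]
    have hinv : algebraMap O K (u : O) * algebraMap O K ((u⁻¹ : Oˣ) : O) = 1 := by
      rw [← map_mul, Units.mul_inv, map_one]
    rw [map_mul, hcs j, ht']
    calc algebraMap O K (u : O) * b.repr x j * algebraMap O K ((u⁻¹ : Oˣ) : O)
        = (algebraMap O K (u : O) * algebraMap O K ((u⁻¹ : Oˣ) : O)) * b.repr x j := by ring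
      _ = b.repr x j := by rw [hinv, one_mul]

end Abstract

end Fermat.Agent.S35.AdBasis
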