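import Mathlib
import Fermat.Agent.S35.AdBasis
import Fermat.Agent.S34.ResField

/-!
# S35 (wave 7), package (Ga) input: the adapted basis at level `M * ℓ`

`FF L (M * ℓ)` over `FF L M` (through `α`) has a basis of `ℓ + 1` functions, Gauss-integral at
both Gauss valuations (`O₁`: integral `q`-expansion; `O₂ = w⁻¹ O₁`), with reductions
`(1, 0)` for the first and `(0, j̄ ^ k)` for the others, such that the coordinates of every
element of `O₁ ∩ O₂` are Gauss-integral of level `M`. Raw `S18` currency.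
-/

set_option autoImplicit false

namespace Fermat.Agent.S35.AdBasisInst

open ModularCurve AlgebraicCurve Fermat.Agent.S18 Fermat.Agent.S18.Gauss Fermat.Agent.S24
  Fermat.Agent.S34 Fermat.Agent.S34.ResField

variable {L : Type*} [Field L] [Algebra ℚ L] (W : ValuationSubring L) [IsDiscreteValuationRing W]

/-- Two functions congruent modulo the non-units of the Gauss valuation ring have the same
reduction. -/
theorem red_eq_of_sub_mem_nonunits {N : ℕ} {x y : FF L N}
    (hy : (y : LaurentSeries L) ∈ contentRing W) (h : x - y ∈ (gaussVS W N).nonunits) :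
    ∃ hx : (x : LaurentSeries L) ∈ contentRing W, red W ⟨x, hx⟩ = red W ⟨y, hy⟩ := by
  have hsub : ((x - y : FF L N) : LaurentSeries L) ∈ contentRing W :=
    ValuationSubring.nonunits_subset h
  have hx : (x : LaurentSeries L) ∈ contentRing W := by
    have h1 : x - y ∈ gaussVS W N := hsub
    have h2 : y ∈ gaussVS W N := hy
    have h3 : x - y + y ∈ gaussVS W N := (gaussVS W N).add_mem _ _ h1 h2
    rw [sub_add_cancel] at h3
    exact h3
  refine ⟨hx, ?_⟩
  have hred := (mem_nonunits_gaussVS W hsub).1 h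
  have e : (⟨_, hsub⟩ : contentRing W) =
      ⟨(x : LaurentSeries L), hx⟩ - ⟨(y : LaurentSeries L), hy⟩ := rfl
  rw [e, map_sub, sub_eq_zero] at hred
  exact hred

/-- A non-unit of the Gauss valuation ring has zero reduction. -/
theorem red_eq_zero_of_mem_nonunits {N : ℕ} {x : FF L N} (h : x ∈ (gaussVS W N).nonunits) :
    ∃ hx : (x : LaurentSeries L) ∈ contentRing W, red W ⟨x, hx⟩ = 0 :=
  ⟨ValuationSubring.nonunits_subset h,
    (mem_nonunits_gaussVS W (ValuationSubring.nonunits_subset h)).1 h⟩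

variable (M ℓ : ℕ) [NeZero M] [NeZero ℓ]

/-- **The adapted basis at level `M * ℓ`**, raw currency. -/
theorem exists_adapted_basis_level (ι₀ : L →+* ℂ) [hℓ : Fact ℓ.Prime] (hℓM : ¬ ℓ ∣ M)
    [CharP (IsLocalRing.ResidueField W) ℓ]
    (w : FF L (M * ℓ) ≃ₐ[L] FF L (M * ℓ))
    (hwα : ∀ y : FF L M, w (heckeAlphaBar L M ℓ y) = heckeBetaBar L M ℓ y)
    (hwβ : ∀ y : FF L M, w (heckeBetaBar L M ℓ y) = heckeAlphaBar L M ℓ y) :
    letI := algebraAlong (heckeAlphaBar L M ℓ)
    ∃ b : Module.Basis (Fin 1 ⊕ Fin ℓ) (FF L M) (FF L (M * ℓ)),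
      (∃ h : ((b (Sum.inl 0) : FF L (M * ℓ)) : LaurentSeries L) ∈ contentRing W,
        red W ⟨_, h⟩ = 1) ∧
      (∃ h : ((w (b (Sum.inl 0)) : FF L (M * ℓ)) : LaurentSeries L) ∈ contentRing W,
        red W ⟨_, h⟩ = 0) ∧
      (∀ k : Fin ℓ, ∃ h : ((b (Sum.inr k) : FF L (M * ℓ)) : LaurentSeries L) ∈ contentRing W,
        red W ⟨_, h⟩ = 0) ∧
      (∀ k : Fin ℓ, ∃ h : ((w (b (Sum.inr k)) : FF L (M * ℓ)) : LaurentSeries L) ∈
          contentRing W,
        red W ⟨_, h⟩ = jqModC (IsLocalRing.ResidueField W) ^ (k : ℕ)) ∧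
      ∀ x : FF L (M * ℓ), (x : LaurentSeries L) ∈ contentRing W →
        ((w x : FF L (M * ℓ)) : LaurentSeries L) ∈ contentRing W →
        ∀ j, ((b.repr x j : FF L M) : LaurentSeries L) ∈ contentRing W := by
  obtain ⟨ϖ, hϖ⟩ := IsDiscreteValuationRing.exists_irreducible W
  have H := hyp_level W M ℓ ι₀ hℓM hϖ w hwα hwβ
  letI := algebraAlong (heckeAlphaBar L M ℓ)
  letI : Algebra (gaussVS W M) (FF L (M * ℓ)) :=
    ((algebraMap (FF L M) (FF L (M * ℓ))).comp (algebraMap (gaussVS W M) (FF L M))).toAlgebra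
  haveI : IsScalarTower (gaussVS W M) (FF L M) (FF L (M * ℓ)) :=
    IsScalarTower.of_algebraMap_eq (fun _ => rfl)
  haveI : FiniteDimensional (FF L M) (FF L (M * ℓ)) :=
    (Fermat.Agent.S34.DegreeL.finrank_alpha_level L ι₀ M ℓ hℓ.out hℓM).1
  haveI : CharZero L := charZero_of_injective_algebraMap (algebraMap ℚ L).injective
  haveI : CharZero (FF L M) := charZero_of_injective_algebraMap (algebraMap L (FF L M)).injective
  haveI : Algebra.IsSeparable (FF L M) (FF L (M * ℓ)) := inferInstance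
  obtain ⟨b, -, h1, h2, hrep⟩ := Fermat.Agent.S35.AdBasis.exists_adapted_basis H
  have hcomap : ∀ x : FF L (M * ℓ),
      x ∈ ((gaussVS W (M * ℓ)).comap
        (w : FF L (M * ℓ) →ₐ[L] FF L (M * ℓ)).toRingHom).nonunits →
      w x ∈ (gaussVS W (M * ℓ)).nonunits := fun x hx =>
    (mem_nonunits_comap (gaussVS W (M * ℓ)) _ x).1 hx
  refine ⟨b, ?_, ?_, ?_, ?_, ?_⟩
  · -- red (b (inl 0)) = 1
    have hone : (((1 : FF L (M * ℓ)) : FF L (M * ℓ)) : LaurentSeries L) ∈ contentRing W :=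
      (gaussVS W (M * ℓ)).one_mem
    obtain ⟨hx, hred⟩ := red_eq_of_sub_mem_nonunits W hone (h1 0).1
    refine ⟨hx, ?_⟩
    rw [hred]
    have : (⟨_, hone⟩ : contentRing W) = 1 := rfl
    rw [this, map_one]
  · -- red (w (b (inl 0))) = 0
    exact red_eq_zero_of_mem_nonunits W (hcomap _ (h1 0).2)
  · -- red (b (inr k)) = 0
    intro k
    exact red_eq_zero_of_mem_nonunits W (h2 k).1
  · -- red (w (b (inr k))) = j̄ ^ k
    intro k
    have hk := hcomap _ (h2 k).2
    have hw : w (b (Sum.inr k) - heckeBetaBar L M ℓ (jBC L M) ^ (k : ℕ)) =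
        w (b (Sum.inr k)) - heckeAlphaBar L M ℓ (jBC L M) ^ (k : ℕ) := by
      rw [map_sub, map_pow, hwβ]
    rw [hw] at hk
    have hcoe : ((heckeAlphaBar L M ℓ (jBC L M) ^ (k : ℕ) : FF L (M * ℓ)) : LaurentSeries L) =
        jqModC L ^ (k : ℕ) := by
      show ((heckeAlphaBar L M ℓ (jBC L M) : FF L (M * ℓ)) : LaurentSeries L) ^ (k : ℕ) = _
      rw [coe_heckeAlphaBar, coe_jBC_eq L M]
    have hy : ((heckeAlphaBar L M ℓ (jBC L M) ^ (k : ℕ) : FF L (M * ℓ)) : LaurentSeries L) ∈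
        contentRing W := by
      rw [hcoe]; exact pow_mem (jq_mem_contentRing W) _
    obtain ⟨hx, hred⟩ := red_eq_of_sub_mem_nonunits W hy hk
    refine ⟨hx, ?_⟩
    have e : (⟨_, hy⟩ : contentRing W) = ⟨jqModC L, jq_mem_contentRing W⟩ ^ (k : ℕ) :=
      Subtype.ext hcoe
    rw [hred, ← red_jq W, e, map_pow]
  · -- coordinates
    intro x hx hwx j
    obtain ⟨c, hc⟩ := hrep x hx hwx j
    rw [← hc]
    exact c.2

end Fermat.Agent.S35.AdBasisInst
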