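import Mathlib

/-!
# S35, package (C2): the nodes of the special fibre and the two degeneracy maps (abstract)

`B` is the chart ring of level `M q`, `B₀` the chart ring of level `M`, `E` the special fibre of
`B₀`; `r₁ r₂ : B → E` are the reductions along the two components of the special fibre of `B`,
`ρ : B₀ → E` the reduction of `B₀`, `α β : B₀ → B` the two degeneracy maps, `ψ` the (inverse)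
Frobenius twist of `E`, `σ` the coefficient action of a Frobenius lift on `B` and `w` the
Atkin–Lehner involution.  The inputs are the four congruences

* `r₁ ∘ α = ρ`, `r₂ ∘ β = ρ`, `r₁ (β c) = ψ (ρ c) ^ q`, `r₂ (α c) = ψ (ρ c) ^ q`,

and `ψ ∘ r_i ∘ σ = r_i`, `r₁ ∘ w = r₂`, `r₂ ∘ w = r₁`.

A *node* is a prime `𝔫 ⊇ ker r₁ + ker r₂`.  For a node `𝔫`, with `𝔫₀ := σ⁻¹ 𝔫` (`𝔫.comap σ`):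

* `sigma_symm_mem_iff`, `sigma_sigma_mem_iff` : `σ 𝔫 = σ⁻¹ 𝔫`, `σ² 𝔫 = 𝔫`;
* `ker_le_comap_sigma₁/₂` : `𝔫₀` is again a node;
* `comap_w_eq` : `w⁻¹ 𝔫 = 𝔫₀`;
* `comap_beta_comap_sigma`, `comap_alpha_comap_sigma` : `β⁻¹ 𝔫₀ = α⁻¹ 𝔫`, `α⁻¹ 𝔫₀ = β⁻¹ 𝔫`;
* `eq_of_comap_beta_eq`, `eq_of_comap_alpha_eq` : `𝔫₀` is the ONLY prime `𝔫'` of the special
  fibre with `β⁻¹ 𝔫' = α⁻¹ 𝔫`, resp. with `α⁻¹ 𝔫' = β⁻¹ 𝔫`.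
-/

set_option autoImplicit false
set_option linter.unusedSectionVars false
set_option linter.unusedVariables false
set_option linter.style.haveILetI false

namespace Fermat.Agent.S35.NodePts

variable {B E B₀ : Type*} [CommRing B] [CommRing E] [CommRing B₀]

/-- membership in an ideal containing the kernel is read off on the image -/
theorem mem_map_iff (r : B →+* E) (hr : Function.Surjective r) (I : Ideal B)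
    (hk : RingHom.ker r ≤ I) (b : B) : r b ∈ I.map r ↔ b ∈ I := by
  constructor
  · intro h
    obtain ⟨b', hb', hbb'⟩ := (Ideal.mem_map_iff_of_surjective r hr).mp h
    have h1 : b - b' ∈ RingHom.ker r := by
      rw [RingHom.mem_ker, map_sub, hbb', sub_self]
    have h2 : b = (b - b') + b' := by ring
    rw [h2]
    exact I.add_mem (hk h1) hb'
  · exact fun h => Ideal.mem_map_of_mem r h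

/-- two elements with the same image are simultaneously in an ideal containing the kernel -/
theorem mem_iff_of_eq (r : B →+* E) (I : Ideal B) (hk : RingHom.ker r ≤ I) {b b' : B}
    (h : r b = r b') : b ∈ I ↔ b' ∈ I := by
  have h1 : b - b' ∈ RingHom.ker r := by
    rw [RingHom.mem_ker, map_sub, h, sub_self]
  constructor
  · intro hb
    have h2 : b' = b - (b - b') := by ring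
    rw [h2]
    exact I.sub_mem hb (hk h1)
  · intro hb'
    have h2 : b = (b - b') + b' := by ring
    rw [h2]
    exact I.add_mem (hk h1) hb'

section Half

/-! ### One half of the statements (the other half is obtained by exchanging the roles of
`(r₁, α)` and `(r₂, β)`) -/

variable (r₁ r₂ : B →+* E) (ρ : B₀ →+* E) (α β : B₀ →+* B) (ψ : E →+* E) (q : ℕ)
  (hr₁ : Function.Surjective r₁) (hr₂ : Function.Surjective r₂) (hρ : Function.Surjective ρ)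
  (hq : q ≠ 0)
  (h11 : ∀ c, r₁ (α c) = ρ c) (h21 : ∀ c, r₂ (α c) = ψ (ρ c) ^ q)
  (𝔫 : Ideal B) [𝔫.IsPrime] (hk₁ : RingHom.ker r₁ ≤ 𝔫) (hk₂ : RingHom.ker r₂ ≤ 𝔫)

include hr₁ hr₂ hρ hq h11 h21 hk₁ hk₂ in
/-- the two branches of a node: `𝔪₁ = ψ⁻¹ 𝔪₂` -/
theorem mem_map_iff_psi (e : E) : e ∈ 𝔫.map r₁ ↔ ψ e ∈ 𝔫.map r₂ := by
  have hp : (𝔫.map r₂).IsPrime := Ideal.map_isPrime_of_surjective hr₂ hk₂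
  obtain ⟨c, rfl⟩ := hρ e
  have h1 : ρ c ∈ 𝔫.map r₁ ↔ α c ∈ 𝔫 := by rw [← h11 c, mem_map_iff r₁ hr₁ 𝔫 hk₁]
  have h2 : α c ∈ 𝔫 ↔ ψ (ρ c) ^ q ∈ 𝔫.map r₂ := by rw [← h21 c, mem_map_iff r₂ hr₂ 𝔫 hk₂]
  exact h1.trans (h2.trans (hp.pow_mem_iff_mem q (Nat.pos_of_ne_zero hq)))

end Half

section Node

variable (r₁ r₂ : B →+* E) (ρ : B₀ →+* E) (α β : B₀ →+* B) (ψ : E →+* E) (q : ℕ)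
  (σ : B ≃+* B) (w : B →+* B)
  (hr₁ : Function.Surjective r₁) (hr₂ : Function.Surjective r₂) (hρ : Function.Surjective ρ)
  (hψ : Function.Surjective ψ) (hq : q ≠ 0)
  (h11 : ∀ c, r₁ (α c) = ρ c) (h22 : ∀ c, r₂ (β c) = ρ c)
  (h12 : ∀ c, r₁ (β c) = ψ (ρ c) ^ q) (h21 : ∀ c, r₂ (α c) = ψ (ρ c) ^ q)
  (hσ₁ : ∀ b, ψ (r₁ (σ b)) = r₁ b) (hσ₂ : ∀ b, ψ (r₂ (σ b)) = r₂ b)
  (hw₁ : ∀ b, r₁ (w b) = r₂ b)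
  (𝔫 : Ideal B) [𝔫.IsPrime] (hk₁ : RingHom.ker r₁ ≤ 𝔫) (hk₂ : RingHom.ker r₂ ≤ 𝔫)

include hr₁ hr₂ hρ hq h11 h21 hσ₁ hk₁ hk₂ in
/-- `σ b ∈ 𝔫 ↔ r₁ b ∈ 𝔪₂` -/
theorem sigma_mem_iff₁ (b : B) : σ b ∈ 𝔫 ↔ r₁ b ∈ 𝔫.map r₂ := by
  rw [← mem_map_iff r₁ hr₁ 𝔫 hk₁, mem_map_iff_psi r₁ r₂ ρ α ψ q hr₁ hr₂ hρ hq h11 h21 𝔫 hk₁ hk₂,
    hσ₁]

include hr₁ hr₂ hρ hq h22 h12 hσ₂ hk₁ hk₂ in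
/-- `σ b ∈ 𝔫 ↔ r₂ b ∈ 𝔪₁` -/
theorem sigma_mem_iff₂ (b : B) : σ b ∈ 𝔫 ↔ r₂ b ∈ 𝔫.map r₁ := by
  rw [← mem_map_iff r₂ hr₂ 𝔫 hk₂, mem_map_iff_psi r₂ r₁ ρ β ψ q hr₂ hr₁ hρ hq h22 h12 𝔫 hk₂ hk₁,
    hσ₂]

include hr₁ hr₂ hρ hq h11 h22 h12 h21 hσ₁ hk₁ hk₂ in
/-- **`σ 𝔫 = σ⁻¹ 𝔫` at a node.** -/
theorem sigma_symm_mem_iff (b : B) : σ.symm b ∈ 𝔫 ↔ σ b ∈ 𝔫 := by
  rw [sigma_mem_iff₁ r₁ r₂ ρ α ψ q σ hr₁ hr₂ hρ hq h11 h21 hσ₁ 𝔫 hk₁ hk₂ b,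
    ← mem_map_iff r₁ hr₁ 𝔫 hk₁ (σ.symm b), ← hσ₁ (σ.symm b), RingEquiv.apply_symm_apply,
    ← mem_map_iff_psi r₂ r₁ ρ β ψ q hr₂ hr₁ hρ hq h22 h12 𝔫 hk₂ hk₁]

include hr₁ hr₂ hρ hq h11 h22 h12 h21 hσ₁ hk₁ hk₂ in
/-- **`σ² 𝔫 = 𝔫` at a node.** -/
theorem sigma_sigma_mem_iff (b : B) : σ (σ b) ∈ 𝔫 ↔ b ∈ 𝔫 := by
  rw [← sigma_symm_mem_iff r₁ r₂ ρ α β ψ q σ hr₁ hr₂ hρ hq h11 h22 h12 h21 hσ₁ 𝔫 hk₁ hk₂ (σ b),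
    RingEquiv.symm_apply_apply]

include hr₁ hr₂ hρ hq h11 h22 h12 h21 hσ₁ hk₁ hk₂ in
theorem comap_sigma_symm_eq :
    𝔫.comap (σ.symm : B →+* B) = 𝔫.comap (σ : B →+* B) :=
  Ideal.ext fun b =>
    sigma_symm_mem_iff r₁ r₂ ρ α β ψ q σ hr₁ hr₂ hρ hq h11 h22 h12 h21 hσ₁ 𝔫 hk₁ hk₂ b

include hr₁ hr₂ hρ hq h11 h21 hσ₁ hk₁ hk₂ in
/-- `σ⁻¹ 𝔫` contains the first component -/
theorem ker_le_comap_sigma₁ : RingHom.ker r₁ ≤ 𝔫.comap (σ : B →+* B) := by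
  intro b hb
  rw [Ideal.mem_comap]
  show σ b ∈ 𝔫
  rw [sigma_mem_iff₁ r₁ r₂ ρ α ψ q σ hr₁ hr₂ hρ hq h11 h21 hσ₁ 𝔫 hk₁ hk₂ b,
    RingHom.mem_ker.mp hb]
  exact zero_mem _

include hr₁ hr₂ hρ hq h22 h12 hσ₂ hk₁ hk₂ in
/-- `σ⁻¹ 𝔫` contains the second component -/
theorem ker_le_comap_sigma₂ : RingHom.ker r₂ ≤ 𝔫.comap (σ : B →+* B) := by
  intro b hb
  rw [Ideal.mem_comap]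
  show σ b ∈ 𝔫
  rw [sigma_mem_iff₂ r₁ r₂ ρ β ψ q σ hr₁ hr₂ hρ hq h22 h12 hσ₂ 𝔫 hk₁ hk₂ b,
    RingHom.mem_ker.mp hb]
  exact zero_mem _

include hr₁ hr₂ hρ hq h22 h12 hσ₂ hw₁ hk₁ hk₂ in
/-- **`w 𝔫 = σ 𝔫` at a node.** -/
theorem w_mem_iff (b : B) : w b ∈ 𝔫 ↔ σ b ∈ 𝔫 := by
  rw [sigma_mem_iff₂ r₁ r₂ ρ β ψ q σ hr₁ hr₂ hρ hq h22 h12 hσ₂ 𝔫 hk₁ hk₂ b,
    ← mem_map_iff r₁ hr₁ 𝔫 hk₁ (w b), hw₁]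

include hr₁ hr₂ hρ hq h22 h12 hσ₂ hw₁ hk₁ hk₂ in
theorem comap_w_eq : 𝔫.comap w = 𝔫.comap (σ : B →+* B) :=
  Ideal.ext fun b => w_mem_iff r₁ r₂ ρ β ψ q σ w hr₁ hr₂ hρ hq h22 h12 hσ₂ hw₁ 𝔫 hk₁ hk₂ b

include hr₁ hr₂ hρ hq h11 h22 h12 hσ₂ hk₁ hk₂ in
/-- **`β⁻¹ (σ⁻¹ 𝔫) = α⁻¹ 𝔫`.** -/
theorem comap_beta_comap_sigma :
    (𝔫.comap (σ : B →+* B)).comap β = 𝔫.comap α := by
  ext c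
  rw [Ideal.mem_comap, Ideal.mem_comap, Ideal.mem_comap]
  show σ (β c) ∈ 𝔫 ↔ α c ∈ 𝔫
  rw [sigma_mem_iff₂ r₁ r₂ ρ β ψ q σ hr₁ hr₂ hρ hq h22 h12 hσ₂ 𝔫 hk₁ hk₂, h22, ← h11,
    mem_map_iff r₁ hr₁ 𝔫 hk₁]

include hr₁ hr₂ hρ hq h11 h22 h21 hσ₁ hk₁ hk₂ in
/-- **`α⁻¹ (σ⁻¹ 𝔫) = β⁻¹ 𝔫`.** -/
theorem comap_alpha_comap_sigma :
    (𝔫.comap (σ : B →+* B)).comap α = 𝔫.comap β := by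
  ext c
  rw [Ideal.mem_comap, Ideal.mem_comap, Ideal.mem_comap]
  show σ (α c) ∈ 𝔫 ↔ β c ∈ 𝔫
  rw [sigma_mem_iff₁ r₁ r₂ ρ α ψ q σ hr₁ hr₂ hρ hq h11 h21 hσ₁ 𝔫 hk₁ hk₂, h11, ← h22,
    mem_map_iff r₂ hr₂ 𝔫 hk₂]

include hr₁ hr₂ hρ hψ hq h11 h22 h12 h21 hσ₁ hσ₂ hk₁ hk₂ in
/-- **The fibre of `β` over `α⁻¹ 𝔫`**: a prime `𝔫'` of the special fibre with
`β⁻¹ 𝔫' = α⁻¹ 𝔫` is `σ⁻¹ 𝔫`. -/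
theorem eq_of_comap_beta_eq (𝔫' : Ideal B) [𝔫'.IsPrime]
    (hk' : RingHom.ker r₁ ≤ 𝔫' ∨ RingHom.ker r₂ ≤ 𝔫')
    (h : 𝔫'.comap β = 𝔫.comap α) : 𝔫' = 𝔫.comap (σ : B →+* B) := by
  have hmem : ∀ c, β c ∈ 𝔫' ↔ α c ∈ 𝔫 := fun c => by
    rw [← Ideal.mem_comap, ← Ideal.mem_comap, h]
  ext b
  rw [Ideal.mem_comap]
  show b ∈ 𝔫' ↔ σ b ∈ 𝔫
  rcases hk' with hk' | hk'
  · -- `𝔫'` on the first component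
    obtain ⟨e, he⟩ := hψ (r₁ b)
    obtain ⟨c, rfl⟩ := hρ e
    have h1 : r₁ (b ^ q) = r₁ (β c) := by rw [map_pow, h12, he]
    rw [sigma_mem_iff₁ r₁ r₂ ρ α ψ q σ hr₁ hr₂ hρ hq h11 h21 hσ₁ 𝔫 hk₁ hk₂ b, ← he,
      ← mem_map_iff_psi r₁ r₂ ρ α ψ q hr₁ hr₂ hρ hq h11 h21 𝔫 hk₁ hk₂, ← h11,
      mem_map_iff r₁ hr₁ 𝔫 hk₁, ← hmem c, ← mem_iff_of_eq r₁ 𝔫' hk' h1]
    exact ((inferInstance : 𝔫'.IsPrime).pow_mem_iff_mem q (Nat.pos_of_ne_zero hq)).symm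
  · -- `𝔫'` on the second component
    obtain ⟨c, hc⟩ := hρ (r₂ b)
    have h1 : r₂ b = r₂ (β c) := by rw [h22, hc]
    rw [sigma_mem_iff₂ r₁ r₂ ρ β ψ q σ hr₁ hr₂ hρ hq h22 h12 hσ₂ 𝔫 hk₁ hk₂ b, ← hc, ← h11,
      mem_map_iff r₁ hr₁ 𝔫 hk₁, ← hmem c]
    exact mem_iff_of_eq r₂ 𝔫' hk' h1

include hr₁ hr₂ hρ hψ hq h11 h22 h12 h21 hσ₁ hσ₂ hk₁ hk₂ in
/-- **The fibre of `α` over `β⁻¹ 𝔫`**: a prime `𝔫'` of the special fibre with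
`α⁻¹ 𝔫' = β⁻¹ 𝔫` is `σ⁻¹ 𝔫`. -/
theorem eq_of_comap_alpha_eq (𝔫' : Ideal B) [𝔫'.IsPrime]
    (hk' : RingHom.ker r₁ ≤ 𝔫' ∨ RingHom.ker r₂ ≤ 𝔫')
    (h : 𝔫'.comap α = 𝔫.comap β) : 𝔫' = 𝔫.comap (σ : B →+* B) :=
  eq_of_comap_beta_eq r₂ r₁ ρ β α ψ q σ hr₂ hr₁ hρ hψ hq h22 h11 h21 h12 hσ₂ hσ₁ 𝔫 hk₂ hk₁ 𝔫'
    hk'.symm h

end Node

/-! ### The packaged statement -/

/-- **(C2), abstract.**  All the statements on a node `𝔫`, `𝔫₀ := σ⁻¹ 𝔫`. -/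
theorem node_pts (r₁ r₂ : B →+* E) (ρ : B₀ →+* E) (α β : B₀ →+* B) (ψ : E →+* E) (q : ℕ)
    (σ : B ≃+* B) (w : B →+* B)
    (hr₁ : Function.Surjective r₁) (hr₂ : Function.Surjective r₂) (hρ : Function.Surjective ρ)
    (hψ : Function.Surjective ψ) (hq : q ≠ 0)
    (h11 : ∀ c, r₁ (α c) = ρ c) (h22 : ∀ c, r₂ (β c) = ρ c)
    (h12 : ∀ c, r₁ (β c) = ψ (ρ c) ^ q) (h21 : ∀ c, r₂ (α c) = ψ (ρ c) ^ q)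
    (hσ₁ : ∀ b, ψ (r₁ (σ b)) = r₁ b) (hσ₂ : ∀ b, ψ (r₂ (σ b)) = r₂ b)
    (hw₁ : ∀ b, r₁ (w b) = r₂ b)
    (𝔫 : Ideal B) [𝔫.IsPrime] (hk₁ : RingHom.ker r₁ ≤ 𝔫) (hk₂ : RingHom.ker r₂ ≤ 𝔫) :
    (∀ b, σ.symm b ∈ 𝔫 ↔ σ b ∈ 𝔫) ∧ (∀ b, σ (σ b) ∈ 𝔫 ↔ b ∈ 𝔫) ∧
    (∀ b, w b ∈ 𝔫 ↔ σ b ∈ 𝔫) ∧
    RingHom.ker r₁ ≤ 𝔫.comap (σ : B →+* B) ∧ RingHom.ker r₂ ≤ 𝔫.comap (σ : B →+* B) ∧
    (𝔫.comap (σ : B →+* B)).comap β = 𝔫.comap α ∧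
    (𝔫.comap (σ : B →+* B)).comap α = 𝔫.comap β ∧
    (∀ 𝔫' : Ideal B, 𝔫'.IsPrime → (RingHom.ker r₁ ≤ 𝔫' ∨ RingHom.ker r₂ ≤ 𝔫') →
      𝔫'.comap β = 𝔫.comap α → 𝔫' = 𝔫.comap (σ : B →+* B)) ∧
    (∀ 𝔫' : Ideal B, 𝔫'.IsPrime → (RingHom.ker r₁ ≤ 𝔫' ∨ RingHom.ker r₂ ≤ 𝔫') →
      𝔫'.comap α = 𝔫.comap β → 𝔫' = 𝔫.comap (σ : B →+* B)) :=
  ⟨sigma_symm_mem_iff r₁ r₂ ρ α β ψ q σ hr₁ hr₂ hρ hq h11 h22 h12 h21 hσ₁ 𝔫 hk₁ hk₂,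
    sigma_sigma_mem_iff r₁ r₂ ρ α β ψ q σ hr₁ hr₂ hρ hq h11 h22 h12 h21 hσ₁ 𝔫 hk₁ hk₂,
    w_mem_iff r₁ r₂ ρ β ψ q σ w hr₁ hr₂ hρ hq h22 h12 hσ₂ hw₁ 𝔫 hk₁ hk₂,
    ker_le_comap_sigma₁ r₁ r₂ ρ α ψ q σ hr₁ hr₂ hρ hq h11 h21 hσ₁ 𝔫 hk₁ hk₂,
    ker_le_comap_sigma₂ r₁ r₂ ρ β ψ q σ hr₁ hr₂ hρ hq h22 h12 hσ₂ 𝔫 hk₁ hk₂,
    comap_beta_comap_sigma r₁ r₂ ρ α β ψ q σ hr₁ hr₂ hρ hq h11 h22 h12 hσ₂ 𝔫 hk₁ hk₂,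
    comap_alpha_comap_sigma r₁ r₂ ρ α β ψ q σ hr₁ hr₂ hρ hq h11 h22 h21 hσ₁ 𝔫 hk₁ hk₂,
    fun 𝔫' h𝔫' hk' h => by
      haveI := h𝔫'
      exact eq_of_comap_beta_eq r₁ r₂ ρ α β ψ q σ hr₁ hr₂ hρ hψ hq h11 h22 h12 h21 hσ₁ hσ₂ 𝔫
        hk₁ hk₂ 𝔫' hk' h,
    fun 𝔫' h𝔫' hk' h => by
      haveI := h𝔫'
      exact eq_of_comap_alpha_eq r₁ r₂ ρ α β ψ q σ hr₁ hr₂ hρ hψ hq h11 h22 h12 h21 hσ₁ hσ₂ 𝔫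
        hk₁ hk₂ 𝔫' hk' h⟩

end Fermat.Agent.S35.NodePts
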