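import Mathlib
import Fermat.Agent.S35.NodePts
import Fermat.Agent.S34.CompLevel
import Fermat.Agent.S34.ChartAct

/-!
# S35, package (C2), instance: the nodes of the finite chart of level `M q`

`A` a valuation subring of `ℚ̄` over `q`, `(L, ι)` a level, `W = A.comap ι` a discrete valuation
ring with algebraically closed residue field of characteristic `q ∤ M`; `σ₀` a Frobenius lift at
`A`, `s` its restriction to `L`; `w` an Atkin–Lehner automorphism of `F = S24.FF L (M * q)`.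

`B` is any carrier of the finite chart of level `M q`, `BM` any carrier of the finite chart of
level `M`; `αB βB : BM → B` the two degeneracy maps, `σB : B ≃ B` the coefficient action of
`s`, `wB : B → B` the Atkin–Lehner involution (any maps with the stated compatibilities with
`algebraMap B F`).

`node_pts_fin`: at every maximal ideal `𝔫 ∋ ϖ` of `B`, EITHER the maximal ideal of `B_𝔫` is
`(ϖ, u)` (smooth point), OR `𝔫` is a node and, with `𝔫₀ := σB⁻¹ 𝔫`:
`σB 𝔫 = σB⁻¹ 𝔫`, `σB² 𝔫 = 𝔫`, `wB⁻¹ 𝔫 = 𝔫₀`, `βB⁻¹ 𝔫₀ = αB⁻¹ 𝔫`, `αB⁻¹ 𝔫₀ = βB⁻¹ 𝔫`, and `𝔫₀` is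
the only prime `𝔫'` of `B` with `βB⁻¹ 𝔫' = αB⁻¹ 𝔫`, resp. with `αB⁻¹ 𝔫' = βB⁻¹ 𝔫`.

`alphaFin`, `betaFin`, `atkinFin` are canonical choices of `αB`, `βB`, `wB`
(`σB := ChartAct.actFin`).
-/

set_option autoImplicit false
set_option linter.unusedSectionVars false
set_option linter.unusedVariables false
set_option linter.style.haveILetI false

noncomputable section

namespace Fermat.Agent.S35.NodePtsInst

open Polynomial ModularCurve Fermat.Agent.S18 Fermat.Agent.S18.Gauss Fermat.Agent.S37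
  Fermat.Agent.S34 Fermat.Agent.S34.CoeffAut IsLocalRing

local notation "Qb" => AlgebraicClosure ℚ

section Main

variable (A : ValuationSubring Qb) {L : Type} [Field L] [Algebra ℚ L] (ι : L →+* Qb)
  (M q : ℕ) [NeZero M] [NeZero q]
  [IsDiscreteValuationRing ↥(A.comap ι)]
  [IsAlgClosed (IsLocalRing.ResidueField ↥(A.comap ι))]
  [CharP (IsLocalRing.ResidueField ↥(A.comap ι)) q]

set_option maxHeartbeats 1600000 in
/-- **(C2) on the finite chart of level `M q`.** -/
theorem node_pts_fin (hq : q.Prime) (hqM : ¬ q ∣ M)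
    (hroots : ∀ x : Qb, (∃ n : ℕ, ¬ q ∣ n ∧ x ^ n = 1) → ∃ b : L, ι b = x)
    (π : ↥(A.comap ι)) (hπ : Irreducible π)
    {σ₀ : Qb ≃ₐ[ℚ] Qb} (hσ₀ : A.IsFrobeniusAt σ₀ q) (s : L ≃+* L)
    (hs : ∀ c : L, ι (s c) = σ₀ (ι c))
    (w : Fermat.Agent.S24.FF L (M * q) ≃ₐ[L] Fermat.Agent.S24.FF L (M * q))
    (hwα : (w : Fermat.Agent.S24.FF L (M * q) →ₐ[L] Fermat.Agent.S24.FF L (M * q)).comp
      (heckeAlphaBar L M q) = heckeBetaBar L M q)
    (hwβ : (w : Fermat.Agent.S24.FF L (M * q) →ₐ[L] Fermat.Agent.S24.FF L (M * q)).comp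
      (heckeBetaBar L M q) = heckeAlphaBar L M q)
    [Algebra (↥(A.comap ι))[X] (Fermat.Agent.S24.FF L M)]
    (halgM : algebraMap (↥(A.comap ι))[X] (Fermat.Agent.S24.FF L M) = evF (A.comap ι) M)
    (BM : Type) [CommRing BM] [Algebra (↥(A.comap ι))[X] BM]
    [Algebra BM (Fermat.Agent.S24.FF L M)]
    [IsScalarTower (↥(A.comap ι))[X] BM (Fermat.Agent.S24.FF L M)]
    [IsIntegralClosure BM (↥(A.comap ι))[X] (Fermat.Agent.S24.FF L M)]
    [Algebra (↥(A.comap ι))[X] (Fermat.Agent.S24.FF L (M * q))]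
    (halg : algebraMap (↥(A.comap ι))[X] (Fermat.Agent.S24.FF L (M * q)) =
      evF (A.comap ι) (M * q))
    (B : Type*) [CommRing B] [Algebra (↥(A.comap ι))[X] B]
    [Algebra B (Fermat.Agent.S24.FF L (M * q))]
    [IsScalarTower (↥(A.comap ι))[X] B (Fermat.Agent.S24.FF L (M * q))]
    [IsIntegralClosure B (↥(A.comap ι))[X] (Fermat.Agent.S24.FF L (M * q))]
    (αB βB : BM →+* B)
    (hαB : ∀ c, algebraMap B (Fermat.Agent.S24.FF L (M * q)) (αB c) =
      heckeAlphaBar L M q (algebraMap BM (Fermat.Agent.S24.FF L M) c))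
    (hβB : ∀ c, algebraMap B (Fermat.Agent.S24.FF L (M * q)) (βB c) =
      heckeBetaBar L M q (algebraMap BM (Fermat.Agent.S24.FF L M) c))
    (σB : B ≃+* B)
    (hσB : ∀ b, algebraMap B (Fermat.Agent.S24.FF L (M * q)) (σB b) =
      act (M * q) s (algebraMap B (Fermat.Agent.S24.FF L (M * q)) b))
    (wB : B →+* B)
    (hwB : ∀ b, algebraMap B (Fermat.Agent.S24.FF L (M * q)) (wB b) =
      w (algebraMap B (Fermat.Agent.S24.FF L (M * q)) b))
    (𝔫 : Ideal B) [𝔫.IsMaximal] (hπ𝔫 : algebraMap (↥(A.comap ι))[X] B (C π) ∈ 𝔫)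
    (R : Type*) [CommRing R] [Algebra B R] [IsLocalization.AtPrime R 𝔫] [IsLocalRing R] :
    (∃ u ∈ 𝔫, maximalIdeal R =
        Ideal.span {algebraMap B R (algebraMap (↥(A.comap ι))[X] B (C π)), algebraMap B R u}) ∨
    ((∀ b, σB.symm b ∈ 𝔫 ↔ σB b ∈ 𝔫) ∧ (∀ b, σB (σB b) ∈ 𝔫 ↔ b ∈ 𝔫) ∧
      (∀ b, wB b ∈ 𝔫 ↔ σB b ∈ 𝔫) ∧
      (𝔫.comap (σB : B →+* B)).comap βB = 𝔫.comap αB ∧
      (𝔫.comap (σB : B →+* B)).comap αB = 𝔫.comap βB ∧
      (∀ 𝔫' : Ideal B, 𝔫'.IsPrime → 𝔫'.comap βB = 𝔫.comap αB →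
        𝔫' = 𝔫.comap (σB : B →+* B)) ∧
      (∀ 𝔫' : Ideal B, 𝔫'.IsPrime → 𝔫'.comap αB = 𝔫.comap βB →
        𝔫' = 𝔫.comap (σB : B →+* B))) := by
  classical
  haveI : Fact q.Prime := ⟨hq⟩
  -- abbreviations
  have hBinj : Function.Injective (algebraMap B (Fermat.Agent.S24.FF L (M * q))) :=
    IsIntegralClosure.algebraMap_injective B (↥(A.comap ι))[X] (Fermat.Agent.S24.FF L (M * q))
  haveI : IsDomain B := hBinj.isDomain _
  have hBint := CompInst.isIntegralElem_algebraMap (A.comap ι) (M * q) halg B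
  have hBMint := CompInst.isIntegralElem_algebraMap (A.comap ι) M halgM BM
  have hInt : ∀ x : Fermat.Agent.S24.FF L (M * q), (evF (A.comap ι) (M * q)).IsIntegralElem x →
      (x : LaurentSeries L) ∈ contentRing (A.comap ι) := fun x hx =>
    FrobPartner.mem_contentRing_of_int (A.comap ι) (M * q) hx
  have hwInt : ∀ x : Fermat.Agent.S24.FF L (M * q), (evF (A.comap ι) (M * q)).IsIntegralElem x →
      (evF (A.comap ι) (M * q)).IsIntegralElem (w x) := fun x hx =>
    CompInst.isIntegralElem_atkin (A.comap ι) M q hq w hwα hx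
  have hwα' : ∀ y, w (heckeAlphaBar L M q y) = heckeBetaBar L M q y := fun y =>
    congrArg (fun f => f y) hwα
  have hwβ' : ∀ y, w (heckeBetaBar L M q y) = heckeAlphaBar L M q y := fun y =>
    congrArg (fun f => f y) hwβ
  -- the two reduction maps of `B`
  have hmem₁ : ∀ b : B, ((algebraMap (Fermat.Agent.S24.FF L (M * q)) (LaurentSeries L)).comp
      (algebraMap B (Fermat.Agent.S24.FF L (M * q)))) b ∈ contentRing (A.comap ι) := fun b =>
    hInt _ (hBint b)
  have hmem₂ : ∀ b : B, ((algebraMap (Fermat.Agent.S24.FF L (M * q)) (LaurentSeries L)).comp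
      ((w : Fermat.Agent.S24.FF L (M * q) →ₐ[L] Fermat.Agent.S24.FF L (M * q)).toRingHom.comp
      (algebraMap B (Fermat.Agent.S24.FF L (M * q))))) b ∈ contentRing (A.comap ι) := fun b =>
    hInt _ (hwInt _ (hBint b))
  let r₁ : B →+* LaurentSeries (IsLocalRing.ResidueField ↥(A.comap ι)) :=
    (red (A.comap ι)).comp (((algebraMap (Fermat.Agent.S24.FF L (M * q)) (LaurentSeries L)).comp
      (algebraMap B (Fermat.Agent.S24.FF L (M * q)))).codRestrict (contentRing (A.comap ι)) hmem₁)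
  let r₂ : B →+* LaurentSeries (IsLocalRing.ResidueField ↥(A.comap ι)) :=
    (red (A.comap ι)).comp (((algebraMap (Fermat.Agent.S24.FF L (M * q)) (LaurentSeries L)).comp
      ((w : Fermat.Agent.S24.FF L (M * q) →ₐ[L] Fermat.Agent.S24.FF L (M * q)).toRingHom.comp
      (algebraMap B (Fermat.Agent.S24.FF L (M * q))))).codRestrict (contentRing (A.comap ι)) hmem₂)
  have hr₁def : ∀ (b : B) (h : ((algebraMap B (Fermat.Agent.S24.FF L (M * q)) b :
      Fermat.Agent.S24.FF L (M * q)) : LaurentSeries L) ∈ contentRing (A.comap ι)),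
      r₁ b = red (A.comap ι) ⟨_, h⟩ := fun b h => rfl
  have hr₂def : ∀ (b : B) (h : ((w (algebraMap B (Fermat.Agent.S24.FF L (M * q)) b) :
      Fermat.Agent.S24.FF L (M * q)) : LaurentSeries L) ∈ contentRing (A.comap ι)),
      r₂ b = red (A.comap ι) ⟨_, h⟩ := fun b h => rfl
  -- the special fibre of the finite chart of level `M`
  haveI : IsDedekindDomain (BM ⧸ Ideal.span {algebraMap (↥(A.comap ι))[X] BM (C π)}) :=
    ChartInstSplit.finite_chart_dedekind M hq hqM ι (A.comap ι) hroots π hπ halgM BM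
  have hmemM : ∀ c : BM, ((algebraMap BM (Fermat.Agent.S24.FF L M) c :
      Fermat.Agent.S24.FF L M) : LaurentSeries L) ∈ contentRing (A.comap ι) := fun c =>
    GaussRed.mem_contentRing_fin (A.comap ι) M q BM hqM halgM c
  let ρM : BM →+* LaurentSeries (IsLocalRing.ResidueField ↥(A.comap ι)) :=
    (red (A.comap ι)).comp (((algebraMap (Fermat.Agent.S24.FF L M) (LaurentSeries L)).comp
      (algebraMap BM (Fermat.Agent.S24.FF L M))).codRestrict (contentRing (A.comap ι)) hmemM)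
  have hρπ : ∀ c : BM, ρM c = 0 ↔ algebraMap (↥(A.comap ι))[X] BM (C π) ∣ c :=
    fun c => (GaussRed.dvd_iff_red_fin (A.comap ι) M q BM hqM hπ halgM c).symm
  let ε : (BM ⧸ Ideal.span {algebraMap (↥(A.comap ι))[X] BM (C π)}) →+*
      LaurentSeries (IsLocalRing.ResidueField ↥(A.comap ι)) :=
    Ideal.Quotient.lift _ ρM (fun c hc => (hρπ c).mpr (Ideal.mem_span_singleton.mp hc))
  have hε : Function.Injective ε := by
    rw [injective_iff_map_eq_zero]
    intro c hc
    obtain ⟨c, rfl⟩ := Ideal.Quotient.mk_surjective c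
    rw [Ideal.Quotient.lift_mk] at hc
    exact Ideal.Quotient.eq_zero_iff_mem.mpr (Ideal.mem_span_singleton.mpr ((hρπ c).mp hc))
  have hεmk : ∀ (c : BM) (h : ((algebraMap BM (Fermat.Agent.S24.FF L M) c :
      Fermat.Agent.S24.FF L M) : LaurentSeries L) ∈ contentRing (A.comap ι)),
      ε (Ideal.Quotient.mk _ c) = red (A.comap ι) ⟨_, h⟩ := fun c h => rfl
  -- every reduction of an integral element of level `M q` comes from level `M`
  have hlift : ∀ (x : Fermat.Agent.S24.FF L (M * q))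
      (hx : (evF (A.comap ι) (M * q)).IsIntegralElem x)
      (h : (x : LaurentSeries L) ∈ contentRing (A.comap ι)),
      ∃ e, red (A.comap ι) ⟨_, h⟩ = ε e := by
    intro x hx h
    have hint := CompInst.redJ_isIntegralElem (A.comap ι) (M * q) hx h
    have hF1 := ResFieldG.red_mem_fullC_level (A.comap ι) M q
      (w : Fermat.Agent.S24.FF L (M * q) →ₐ[L] Fermat.Agent.S24.FF L (M * q)) hqM hwα hwβ x h
    obtain ⟨x', hx'I, hx'W, hx'⟩ :=
      BaseLift.exists_int_of_mem_fullC M ι (A.comap ι) hq hqM hroots hF1 hint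
    obtain ⟨c, rfl⟩ := CompInst.exists_algebraMap_eq (A.comap ι) M halgM BM hx'I
    exact ⟨Ideal.Quotient.mk _ c, by rw [hεmk c hx'W, hx']⟩
  have red_congr : ∀ (f g : LaurentSeries L) (hf : f ∈ contentRing (A.comap ι))
      (hg : g ∈ contentRing (A.comap ι)),
      f = g → red (A.comap ι) ⟨f, hf⟩ = red (A.comap ι) ⟨g, hg⟩ := by
    intro f g hf hg h
    subst h
    rfl
  have hr₁ : ∀ b, ∃ e, r₁ b = ε e := fun b => hlift _ (hBint b) (hmem₁ b)
  have hr₂ : ∀ b, ∃ e, r₂ b = ε e := fun b => hlift _ (hwInt _ (hBint b)) (hmem₂ b)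
  have hπF : algebraMap B (Fermat.Agent.S24.FF L (M * q))
      (algebraMap (↥(A.comap ι))[X] B (C π)) =
      algebraMap L (Fermat.Agent.S24.FF L (M * q)) ((π : ↥(A.comap ι)) : L) := by
    rw [← IsScalarTower.algebraMap_apply, halg, evF_C]
  have hπFM : algebraMap BM (Fermat.Agent.S24.FF L M)
      (algebraMap (↥(A.comap ι))[X] BM (C π)) =
      algebraMap L (Fermat.Agent.S24.FF L M) ((π : ↥(A.comap ι)) : L) := by
    rw [← IsScalarTower.algebraMap_apply, halgM, evF_C]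
  have hπ0 : algebraMap (↥(A.comap ι))[X] B (C π) ≠ 0 := by
    intro h0
    have h1 : algebraMap B (Fermat.Agent.S24.FF L (M * q))
        (algebraMap (↥(A.comap ι))[X] B (C π)) = 0 := by
      rw [h0, map_zero]
    rw [hπF] at h1
    exact GaussPrime.unif_ne_zero (N := M * q) hπ h1
  have hπ₁ : r₁ (algebraMap (↥(A.comap ι))[X] B (C π)) = 0 := by
    rw [hr₁def _ (hmem₁ _), ← red_C_unif (A.comap ι) hπ]
    apply red_congr
    rw [hπF]
    exact GaussPrime.coe_unif π
  have hπ₂ : r₂ (algebraMap (↥(A.comap ι))[X] B (C π)) = 0 := by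
    rw [hr₂def _ (hmem₂ _), ← red_C_unif (A.comap ι) hπ]
    apply red_congr
    rw [hπF, AlgEquiv.commutes]
    exact GaussPrime.coe_unif π
  have hS1' : ∀ b, r₁ b = 0 → r₂ b = 0 → algebraMap (↥(A.comap ι))[X] B (C π) ∣ b := by
    intro b h1 h2
    have hV3a : ∀ z : Fermat.Agent.S24.FF L (M * q),
        (z : LaurentSeries L) ∈ contentRing (A.comap ι) →
        (w z : LaurentSeries L) ∈ contentRing (A.comap ι) →
        ∃ S : (↥(A.comap ι))[X], S.map (IsLocalRing.residue ↥(A.comap ι)) ≠ 0 ∧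
          (evF (A.comap ι) (M * q)).IsIntegralElem (evF (A.comap ι) (M * q) S * z) := by
      intro z hz1 hz2
      obtain ⟨S, hS, hSz⟩ := TwoGauss.exists_isIntegralElem_of_mem_both (A.comap ι) M q
        (w : Fermat.Agent.S24.FF L (M * q) →ₐ[L] Fermat.Agent.S24.FF L (M * q)) hqM hwα hwβ z
        hz1 hz2
      rw [CompLevel.pgglue_evF_eq] at hSz
      exact ⟨S, hS, hSz⟩
    obtain ⟨y, hyI, hy⟩ := CompS1.s1_fin M q hπ w hV3a
      (algebraMap B (Fermat.Agent.S24.FF L (M * q)) b) (hBint b) (hmem₁ b) h1 (hmem₂ b) h2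
    obtain ⟨c, rfl⟩ := CompInst.exists_algebraMap_eq (A.comap ι) (M * q) halg B hyI
    refine ⟨c, hBinj ?_⟩
    rw [map_mul, hπF, hy]
  -- the two surjections onto the special fibre of level `M`
  set s₁ := CompPts.factor r₁ ε hε hr₁ with hs₁
  set s₂ := CompPts.factor r₂ ε hε hr₂ with hs₂
  have hs₁ε : ∀ b, ε (s₁ b) = r₁ b := fun b => CompPts.factor_spec r₁ ε hε hr₁ b
  have hs₂ε : ∀ b, ε (s₂ b) = r₂ b := fun b => CompPts.factor_spec r₂ ε hε hr₂ b
  -- the inverse Frobenius twist of the special fibre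
  have hWs : ∀ c : L, c ∈ A.comap ι ↔ (s.symm : L →+* L) c ∈ A.comap ι :=
    CoeffAut.symm_mem_comap_iff A ι s hs hσ₀.mem_decompositionSubgroup
  have hW : ∀ c : L, c ∈ A.comap ι ↔ (s : L →+* L) c ∈ A.comap ι :=
    GalLevel.mem_comap_iff_of_mem_decomposition A ι s hs hσ₀.mem_decompositionSubgroup
  let Ψ : LaurentSeries (IsLocalRing.ResidueField ↥(A.comap ι)) →+*
      LaurentSeries (IsLocalRing.ResidueField ↥(A.comap ι)) :=
    coeffMap (LevelChange.resMap (s.symm : L →+* L) (A.comap ι) (A.comap ι) hWs)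
  have hΨ : ∀ (N : ℕ) (x : Fermat.Agent.S24.FF L N)
      (hx : (x : LaurentSeries L) ∈ contentRing (A.comap ι))
      (hx' : ((act N s.symm x : Fermat.Agent.S24.FF L N) : LaurentSeries L) ∈
        contentRing (A.comap ι)),
      Ψ (red (A.comap ι) ⟨_, hx⟩) = red (A.comap ι) ⟨_, hx'⟩ := fun N x hx hx' =>
    (CoeffAut.red_act (A.comap ι) N s.symm hWs hx).symm
  have hact : ∀ (N : ℕ) (x : Fermat.Agent.S24.FF L N), act N s.symm (act N s x) = x := by
    intro N x
    rw [← CoeffAut.act_symm_apply, RingEquiv.symm_apply_apply]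
  have hΨ' : ∀ (N : ℕ) (x : Fermat.Agent.S24.FF L N)
      (hx : (x : LaurentSeries L) ∈ contentRing (A.comap ι))
      (hx' : ((act N s x : Fermat.Agent.S24.FF L N) : LaurentSeries L) ∈
        contentRing (A.comap ι)),
      Ψ (red (A.comap ι) ⟨_, hx'⟩) = red (A.comap ι) ⟨_, hx⟩ := by
    intro N x hx hx'
    have hx'' : ((act N s.symm (act N s x) : Fermat.Agent.S24.FF L N) : LaurentSeries L) ∈
        contentRing (A.comap ι) := by rw [hact]; exact hx
    rw [hΨ N (act N s x) hx' hx'']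
    apply red_congr
    rw [hact]
  have hψex : ∀ e : BM ⧸ Ideal.span {algebraMap (↥(A.comap ι))[X] BM (C π)},
      ∃ e', (Ψ.comp ε) e = ε e' := by
    intro e
    obtain ⟨c, rfl⟩ := Ideal.Quotient.mk_surjective e
    have hy'I : (evF (A.comap ι) M).IsIntegralElem
        (act M s.symm (algebraMap BM (Fermat.Agent.S24.FF L M) c)) :=
      CoeffAut.isIntegralElem_evF_act (A.comap ι) M s.symm hWs (hBMint c)
    obtain ⟨c', hc'⟩ := CompInst.exists_algebraMap_eq (A.comap ι) M halgM BM hy'I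
    refine ⟨Ideal.Quotient.mk _ c', ?_⟩
    have hm : ((act M s.symm (algebraMap BM (Fermat.Agent.S24.FF L M) c) :
        Fermat.Agent.S24.FF L M) : LaurentSeries L) ∈ contentRing (A.comap ι) := by
      rw [← hc']; exact hmemM c'
    rw [RingHom.comp_apply, hεmk c (hmemM c), hεmk c' (hmemM c'), hΨ M _ (hmemM c) hm]
    apply red_congr
    rw [hc']
  set ψ := CompPts.factor (Ψ.comp ε) ε hε hψex with hψdef
  have hψε : ∀ e, ε (ψ e) = Ψ (ε e) := fun e => CompPts.factor_spec (Ψ.comp ε) ε hε hψex e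
  have hψsurj : Function.Surjective ψ := by
    intro e
    obtain ⟨c, rfl⟩ := Ideal.Quotient.mk_surjective e
    have hy'I : (evF (A.comap ι) M).IsIntegralElem
        (act M s (algebraMap BM (Fermat.Agent.S24.FF L M) c)) :=
      CoeffAut.isIntegralElem_evF_act (A.comap ι) M s hW (hBMint c)
    obtain ⟨c', hc'⟩ := CompInst.exists_algebraMap_eq (A.comap ι) M halgM BM hy'I
    refine ⟨Ideal.Quotient.mk _ c', hε ?_⟩
    have hm : ((act M s (algebraMap BM (Fermat.Agent.S24.FF L M) c) :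
        Fermat.Agent.S24.FF L M) : LaurentSeries L) ∈ contentRing (A.comap ι) := by
      rw [← hc']; exact hmemM c'
    rw [hψε, hεmk c' (hmemM c'), hεmk c (hmemM c), ← hΨ' M _ (hmemM c) hm]
    congr 1
    apply red_congr
    rw [hc']
  -- the four congruences
  have h11 : ∀ c, s₁ (αB c) = Ideal.Quotient.mk _ c := by
    intro c
    rw [hs₁, CompPts.factor_eq_iff, hr₁def _ (hmem₁ _), hεmk c (hmemM c)]
    apply red_congr
    rw [hαB, coe_heckeAlphaBar]
  have h22 : ∀ c, s₂ (βB c) = Ideal.Quotient.mk _ c := by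
    intro c
    rw [hs₂, CompPts.factor_eq_iff, hr₂def _ (hmem₂ _), hεmk c (hmemM c)]
    apply red_congr
    rw [hβB, hwβ', coe_heckeAlphaBar]
  have hbeta : ∀ (c : BM) (h1 : ((heckeBetaBar L M q (algebraMap BM (Fermat.Agent.S24.FF L M) c) :
      Fermat.Agent.S24.FF L (M * q)) : LaurentSeries L) ∈ contentRing (A.comap ι)),
      red (A.comap ι) ⟨_, h1⟩ = ε (ψ (Ideal.Quotient.mk _ c)) ^ q := by
    intro c h1
    have h2 : ((FrobPartner.frobHom s M (algebraMap BM (Fermat.Agent.S24.FF L M) c) :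
        Fermat.Agent.S24.FF L M) : LaurentSeries L) ∈ contentRing (A.comap ι) :=
      CoeffAut.mem_contentRing_act (A.comap ι) M s.symm hWs (hmemM c)
    rw [FrobPartner.red_beta_eq_frobHom_pow A ι s hs q M hσ₀ (hmemM c) h1 h2, hψε,
      hεmk c (hmemM c), hΨ M _ (hmemM c) h2]
    rfl
  have h12 : ∀ c, s₁ (βB c) = ψ (Ideal.Quotient.mk _ c) ^ q := by
    intro c
    apply hε
    have h1 : ((heckeBetaBar L M q (algebraMap BM (Fermat.Agent.S24.FF L M) c) :
        Fermat.Agent.S24.FF L (M * q)) : LaurentSeries L) ∈ contentRing (A.comap ι) := by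
      rw [← hβB]; exact hmem₁ _
    rw [hs₁ε, map_pow, ← hbeta c h1, hr₁def _ (hmem₁ _)]
    apply red_congr
    rw [hβB]
  have h21 : ∀ c, s₂ (αB c) = ψ (Ideal.Quotient.mk _ c) ^ q := by
    intro c
    apply hε
    have h1 : ((heckeBetaBar L M q (algebraMap BM (Fermat.Agent.S24.FF L M) c) :
        Fermat.Agent.S24.FF L (M * q)) : LaurentSeries L) ∈ contentRing (A.comap ι) := by
      rw [← hβB]; exact hmem₁ _
    rw [hs₂ε, map_pow, ← hbeta c h1, hr₂def _ (hmem₂ _)]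
    apply red_congr
    rw [hαB, hwα']
  -- the Frobenius and the Atkin–Lehner involution
  have hσ₁ : ∀ b, ψ (s₁ (σB b)) = s₁ b := by
    intro b
    apply hε
    have hm : ((act (M * q) s (algebraMap B (Fermat.Agent.S24.FF L (M * q)) b) :
        Fermat.Agent.S24.FF L (M * q)) : LaurentSeries L) ∈ contentRing (A.comap ι) := by
      rw [← hσB]; exact hmem₁ _
    rw [hψε, hs₁ε, hs₁ε, hr₁def _ (hmem₁ _), hr₁def _ (hmem₁ _),
      ← hΨ' (M * q) _ (hmem₁ b) hm]
    congr 1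
    apply red_congr
    rw [hσB]
  have hσ₂ : ∀ b, ψ (s₂ (σB b)) = s₂ b := by
    intro b
    apply hε
    have hcomm : w (act (M * q) s (algebraMap B (Fermat.Agent.S24.FF L (M * q)) b)) =
        act (M * q) s (w (algebraMap B (Fermat.Agent.S24.FF L (M * q)) b)) :=
      (CoeffAut.act_atkinLehner M q hq s w hwα hwβ _).symm
    have hm : ((act (M * q) s (w (algebraMap B (Fermat.Agent.S24.FF L (M * q)) b)) :
        Fermat.Agent.S24.FF L (M * q)) : LaurentSeries L) ∈ contentRing (A.comap ι) := by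
      rw [← hcomm, ← hσB]; exact hmem₂ _
    have hm0 : ((w (algebraMap B (Fermat.Agent.S24.FF L (M * q)) b) :
        Fermat.Agent.S24.FF L (M * q)) : LaurentSeries L) ∈ contentRing (A.comap ι) := hmem₂ b
    rw [hψε, hs₂ε, hs₂ε, hr₂def _ (hmem₂ _), hr₂def _ (hmem₂ _),
      ← hΨ' (M * q) (w (algebraMap B (Fermat.Agent.S24.FF L (M * q)) b)) hm0 hm]
    congr 1
    apply red_congr
    exact congrArg (fun x : Fermat.Agent.S24.FF L (M * q) => (x : LaurentSeries L))
      ((congrArg w (hσB b)).trans hcomm)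
  have hw₁ : ∀ b, s₁ (wB b) = s₂ b := by
    intro b
    apply hε
    rw [hs₁ε, hs₂ε, hr₁def _ (hmem₁ _), hr₂def _ (hmem₂ _)]
    apply red_congr
    rw [hwB]
  have hρsurj : Function.Surjective
      (Ideal.Quotient.mk (Ideal.span {algebraMap (↥(A.comap ι))[X] BM (C π)})) :=
    Ideal.Quotient.mk_surjective
  have hsurj₁ : Function.Surjective s₁ := fun e => by
    obtain ⟨c, rfl⟩ := hρsurj e
    exact ⟨αB c, h11 c⟩
  have hsurj₂ : Function.Surjective s₂ := fun e => by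
    obtain ⟨c, rfl⟩ := hρsurj e
    exact ⟨βB c, h22 c⟩
  have hπspan : Ideal.span {algebraMap (↥(A.comap ι))[X] B (C π)} =
      RingHom.ker s₁ ⊓ RingHom.ker s₂ := by
    apply le_antisymm
    · rw [Ideal.span_le]
      intro x hx
      rw [Set.mem_singleton_iff.mp hx]
      exact Ideal.mem_inf.mpr ⟨(CompPts.factor_eq_zero_iff r₁ ε hε hr₁ _).mpr hπ₁,
        (CompPts.factor_eq_zero_iff r₂ ε hε hr₂ _).mpr hπ₂⟩
    · intro x hx
      obtain ⟨hx1, hx2⟩ := Ideal.mem_inf.mp hx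
      exact Ideal.mem_span_singleton.mpr (hS1' x
        ((CompPts.factor_eq_zero_iff r₁ ε hε hr₁ x).mp hx1)
        ((CompPts.factor_eq_zero_iff r₂ ε hε hr₂ x).mp hx2))
  -- the uniformiser under the degeneracy maps
  have hαπ : αB (algebraMap (↥(A.comap ι))[X] BM (C π)) =
      algebraMap (↥(A.comap ι))[X] B (C π) := by
    apply hBinj
    rw [hαB, hπFM, hπF, AlgHom.commutes]
  have hβπ : βB (algebraMap (↥(A.comap ι))[X] BM (C π)) =
      algebraMap (↥(A.comap ι))[X] B (C π) := by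
    apply hBinj
    rw [hβB, hπFM, hπF, AlgHom.commutes]
  -- the case distinction
  by_cases hk₁ : RingHom.ker s₁ ≤ 𝔫
  · by_cases hk₂ : RingHom.ker s₂ ≤ 𝔫
    · right
      obtain ⟨ha, ha2, hb, -, -, hc1, hc2, hc3, hc4⟩ := NodePts.node_pts s₁ s₂
        (Ideal.Quotient.mk (Ideal.span {algebraMap (↥(A.comap ι))[X] BM (C π)})) αB βB ψ q σB wB
        hsurj₁ hsurj₂ hρsurj hψsurj hq.ne_zero h11 h22 h12 h21 hσ₁ hσ₂ hw₁ 𝔫 hk₁ hk₂
      refine ⟨ha, ha2, hb, hc1, hc2, ?_, ?_⟩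
      · intro 𝔫' h𝔫' h
        haveI := h𝔫'
        have hπ𝔫' : algebraMap (↥(A.comap ι))[X] B (C π) ∈ 𝔫' := by
          rw [← hβπ, ← Ideal.mem_comap, h, Ideal.mem_comap, hαπ]
          exact hπ𝔫
        exact hc3 𝔫' h𝔫' (Comp.ker_le_or_ker_le s₁ s₂ _ hπspan 𝔫' hπ𝔫') h
      · intro 𝔫' h𝔫' h
        haveI := h𝔫'
        have hπ𝔫' : algebraMap (↥(A.comap ι))[X] B (C π) ∈ 𝔫' := by
          rw [← hαπ, ← Ideal.mem_comap, h, Ideal.mem_comap, hβπ]
          exact hπ𝔫
        exact hc4 𝔫' h𝔫' (Comp.ker_le_or_ker_le s₁ s₂ _ hπspan 𝔫' hπ𝔫') h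
    · left
      obtain ⟨g, hg, hg𝔫⟩ := SetLike.not_le_iff_exists.mp hk₂
      exact CompPts.one_branch s₁ s₂ 𝔫 R hsurj₁ _ hπ0 hπspan hπ𝔫 hk₁ g hg hg𝔫
  · left
    have hk₂ : RingHom.ker s₂ ≤ 𝔫 :=
      (Comp.ker_le_or_ker_le s₁ s₂ _ hπspan 𝔫 hπ𝔫).resolve_left hk₁
    obtain ⟨g, hg, hg𝔫⟩ := SetLike.not_le_iff_exists.mp hk₁
    exact CompPts.one_branch s₂ s₁ 𝔫 R hsurj₂ _ hπ0 (by rw [hπspan, inf_comm]) hπ𝔫 hk₂ g hg hg𝔫

end Main

/-! ### Canonical degeneracy maps and Atkin–Lehner involution on the carriers -/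

section Canonical

variable {L : Type} [Field L] [Algebra ℚ L] (W : ValuationSubring L) (M q : ℕ) [NeZero M]
  [NeZero q]
  [Algebra (↥W)[X] (Fermat.Agent.S24.FF L M)]
  (halgM : algebraMap (↥W)[X] (Fermat.Agent.S24.FF L M) = evF W M)
  (BM : Type*) [CommRing BM] [Algebra (↥W)[X] BM] [Algebra BM (Fermat.Agent.S24.FF L M)]
  [IsScalarTower (↥W)[X] BM (Fermat.Agent.S24.FF L M)]
  [IsIntegralClosure BM (↥W)[X] (Fermat.Agent.S24.FF L M)]
  [Algebra (↥W)[X] (Fermat.Agent.S24.FF L (M * q))]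
  (halg : algebraMap (↥W)[X] (Fermat.Agent.S24.FF L (M * q)) = evF W (M * q))
  (B : Type*) [CommRing B] [Algebra (↥W)[X] B] [Algebra B (Fermat.Agent.S24.FF L (M * q))]
  [IsScalarTower (↥W)[X] B (Fermat.Agent.S24.FF L (M * q))]
  [IsIntegralClosure B (↥W)[X] (Fermat.Agent.S24.FF L (M * q))]

include halgM halg in
theorem exists_alpha (c : BM) :
    ∃ b : B, ((heckeAlphaBar L M q).toRingHom.comp (algebraMap BM (Fermat.Agent.S24.FF L M))) c =
      algebraMap B (Fermat.Agent.S24.FF L (M * q)) b := by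
  obtain ⟨b, hb⟩ := CompInst.exists_algebraMap_eq W (M * q) halg B
    (BetaInt.isIntegralElem_alpha W M q (CompInst.isIntegralElem_algebraMap W M halgM BM c))
  exact ⟨b, hb.symm⟩

include halgM halg in
theorem exists_beta (hq : q.Prime) (c : BM) :
    ∃ b : B, ((heckeBetaBar L M q).toRingHom.comp (algebraMap BM (Fermat.Agent.S24.FF L M))) c =
      algebraMap B (Fermat.Agent.S24.FF L (M * q)) b := by
  obtain ⟨b, hb⟩ := CompInst.exists_algebraMap_eq W (M * q) halg B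
    (BetaInt.isIntegralElem_beta W M q hq (CompInst.isIntegralElem_algebraMap W M halgM BM c))
  exact ⟨b, hb.symm⟩

include halg in
theorem exists_atkin (hq : q.Prime)
    (w : Fermat.Agent.S24.FF L (M * q) ≃ₐ[L] Fermat.Agent.S24.FF L (M * q))
    (hwα : (w : Fermat.Agent.S24.FF L (M * q) →ₐ[L] Fermat.Agent.S24.FF L (M * q)).comp
      (heckeAlphaBar L M q) = heckeBetaBar L M q) (b : B) :
    ∃ b' : B, ((w : Fermat.Agent.S24.FF L (M * q) →ₐ[L]
        Fermat.Agent.S24.FF L (M * q)).toRingHom.comp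
        (algebraMap B (Fermat.Agent.S24.FF L (M * q)))) b =
      algebraMap B (Fermat.Agent.S24.FF L (M * q)) b' := by
  obtain ⟨b', hb'⟩ := CompInst.exists_algebraMap_eq W (M * q) halg B
    (CompInst.isIntegralElem_atkin W M q hq w hwα
      (CompInst.isIntegralElem_algebraMap W (M * q) halg B b))
  exact ⟨b', hb'.symm⟩

/-- the degeneracy map `α` on the carriers of the finite charts -/
def alphaFin : BM →+* B :=
  CompPts.factor ((heckeAlphaBar L M q).toRingHom.comp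
      (algebraMap BM (Fermat.Agent.S24.FF L M)))
    (algebraMap B (Fermat.Agent.S24.FF L (M * q)))
    (IsIntegralClosure.algebraMap_injective B (↥W)[X] (Fermat.Agent.S24.FF L (M * q)))
    (exists_alpha W M q halgM BM halg B)

theorem algebraMap_alphaFin (c : BM) :
    algebraMap B (Fermat.Agent.S24.FF L (M * q)) (alphaFin W M q halgM BM halg B c) =
      heckeAlphaBar L M q (algebraMap BM (Fermat.Agent.S24.FF L M) c) :=
  CompPts.factor_spec _ _ _ (exists_alpha W M q halgM BM halg B) c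

/-- the degeneracy map `β` on the carriers of the finite charts -/
def betaFin (hq : q.Prime) : BM →+* B :=
  CompPts.factor ((heckeBetaBar L M q).toRingHom.comp
      (algebraMap BM (Fermat.Agent.S24.FF L M)))
    (algebraMap B (Fermat.Agent.S24.FF L (M * q)))
    (IsIntegralClosure.algebraMap_injective B (↥W)[X] (Fermat.Agent.S24.FF L (M * q)))
    (exists_beta W M q halgM BM halg B hq)

theorem algebraMap_betaFin (hq : q.Prime) (c : BM) :
    algebraMap B (Fermat.Agent.S24.FF L (M * q)) (betaFin W M q halgM BM halg B hq c) =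
      heckeBetaBar L M q (algebraMap BM (Fermat.Agent.S24.FF L M) c) :=
  CompPts.factor_spec _ _ _ (exists_beta W M q halgM BM halg B hq) c

/-- an Atkin–Lehner automorphism on the carrier of the finite chart of level `M q` -/
def atkinFin (hq : q.Prime)
    (w : Fermat.Agent.S24.FF L (M * q) ≃ₐ[L] Fermat.Agent.S24.FF L (M * q))
    (hwα : (w : Fermat.Agent.S24.FF L (M * q) →ₐ[L] Fermat.Agent.S24.FF L (M * q)).comp
      (heckeAlphaBar L M q) = heckeBetaBar L M q) : B →+* B :=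
  CompPts.factor ((w : Fermat.Agent.S24.FF L (M * q) →ₐ[L]
      Fermat.Agent.S24.FF L (M * q)).toRingHom.comp
      (algebraMap B (Fermat.Agent.S24.FF L (M * q))))
    (algebraMap B (Fermat.Agent.S24.FF L (M * q)))
    (IsIntegralClosure.algebraMap_injective B (↥W)[X] (Fermat.Agent.S24.FF L (M * q)))
    (exists_atkin W M q halg B hq w hwα)

theorem algebraMap_atkinFin (hq : q.Prime)
    (w : Fermat.Agent.S24.FF L (M * q) ≃ₐ[L] Fermat.Agent.S24.FF L (M * q))
    (hwα : (w : Fermat.Agent.S24.FF L (M * q) →ₐ[L] Fermat.Agent.S24.FF L (M * q)).comp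
      (heckeAlphaBar L M q) = heckeBetaBar L M q) (b : B) :
    algebraMap B (Fermat.Agent.S24.FF L (M * q)) (atkinFin W M q halg B hq w hwα b) =
      w (algebraMap B (Fermat.Agent.S24.FF L (M * q)) b) :=
  CompPts.factor_spec _ _ _ (exists_atkin W M q halg B hq w hwα) b

end Canonical

section Canon

variable (A : ValuationSubring Qb) {L : Type} [Field L] [Algebra ℚ L] (ι : L →+* Qb)
  (M q : ℕ) [NeZero M] [NeZero q]
  [IsDiscreteValuationRing ↥(A.comap ι)]
  [IsAlgClosed (IsLocalRing.ResidueField ↥(A.comap ι))]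
  [CharP (IsLocalRing.ResidueField ↥(A.comap ι)) q]

/-- **(C2) on the finite chart of level `M q`, canonical maps**: `σB := ChartAct.actFin`,
`αB := alphaFin`, `βB := betaFin`, `wB := atkinFin`. -/
theorem node_pts_fin_canon (hq : q.Prime) (hqM : ¬ q ∣ M)
    (hroots : ∀ x : Qb, (∃ n : ℕ, ¬ q ∣ n ∧ x ^ n = 1) → ∃ b : L, ι b = x)
    (π : ↥(A.comap ι)) (hπ : Irreducible π)
    {σ₀ : Qb ≃ₐ[ℚ] Qb} (hσ₀ : A.IsFrobeniusAt σ₀ q) (s : L ≃+* L)
    (hs : ∀ c : L, ι (s c) = σ₀ (ι c))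
    (hW : ∀ c : L, c ∈ A.comap ι ↔ (s : L →+* L) c ∈ A.comap ι)
    (w : Fermat.Agent.S24.FF L (M * q) ≃ₐ[L] Fermat.Agent.S24.FF L (M * q))
    (hwα : (w : Fermat.Agent.S24.FF L (M * q) →ₐ[L] Fermat.Agent.S24.FF L (M * q)).comp
      (heckeAlphaBar L M q) = heckeBetaBar L M q)
    (hwβ : (w : Fermat.Agent.S24.FF L (M * q) →ₐ[L] Fermat.Agent.S24.FF L (M * q)).comp
      (heckeBetaBar L M q) = heckeAlphaBar L M q)
    [Algebra (↥(A.comap ι))[X] (Fermat.Agent.S24.FF L M)]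
    (halgM : algebraMap (↥(A.comap ι))[X] (Fermat.Agent.S24.FF L M) = evF (A.comap ι) M)
    (BM : Type) [CommRing BM] [Algebra (↥(A.comap ι))[X] BM]
    [Algebra BM (Fermat.Agent.S24.FF L M)]
    [IsScalarTower (↥(A.comap ι))[X] BM (Fermat.Agent.S24.FF L M)]
    [IsIntegralClosure BM (↥(A.comap ι))[X] (Fermat.Agent.S24.FF L M)]
    [Algebra (↥(A.comap ι))[X] (Fermat.Agent.S24.FF L (M * q))]
    (halg : algebraMap (↥(A.comap ι))[X] (Fermat.Agent.S24.FF L (M * q)) =
      evF (A.comap ι) (M * q))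
    (B : Type*) [CommRing B] [Algebra (↥(A.comap ι))[X] B]
    [Algebra B (Fermat.Agent.S24.FF L (M * q))]
    [IsScalarTower (↥(A.comap ι))[X] B (Fermat.Agent.S24.FF L (M * q))]
    [IsIntegralClosure B (↥(A.comap ι))[X] (Fermat.Agent.S24.FF L (M * q))]
    (𝔫 : Ideal B) [𝔫.IsMaximal] (hπ𝔫 : algebraMap (↥(A.comap ι))[X] B (C π) ∈ 𝔫)
    (R : Type*) [CommRing R] [Algebra B R] [IsLocalization.AtPrime R 𝔫] [IsLocalRing R] :
    (∃ u ∈ 𝔫, maximalIdeal R =
        Ideal.span {algebraMap B R (algebraMap (↥(A.comap ι))[X] B (C π)), algebraMap B R u}) ∨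
    ((∀ b, (ChartAct.actFin (A.comap ι) (M * q) s hW halg B).symm b ∈ 𝔫 ↔
        ChartAct.actFin (A.comap ι) (M * q) s hW halg B b ∈ 𝔫) ∧
      (∀ b, ChartAct.actFin (A.comap ι) (M * q) s hW halg B
        (ChartAct.actFin (A.comap ι) (M * q) s hW halg B b) ∈ 𝔫 ↔ b ∈ 𝔫) ∧
      (∀ b, atkinFin (A.comap ι) M q halg B hq w hwα b ∈ 𝔫 ↔
        ChartAct.actFin (A.comap ι) (M * q) s hW halg B b ∈ 𝔫) ∧
      (𝔫.comap (ChartAct.actFin (A.comap ι) (M * q) s hW halg B : B →+* B)).comap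
        (betaFin (A.comap ι) M q halgM BM halg B hq) =
        𝔫.comap (alphaFin (A.comap ι) M q halgM BM halg B) ∧
      (𝔫.comap (ChartAct.actFin (A.comap ι) (M * q) s hW halg B : B →+* B)).comap
        (alphaFin (A.comap ι) M q halgM BM halg B) =
        𝔫.comap (betaFin (A.comap ι) M q halgM BM halg B hq) ∧
      (∀ 𝔫' : Ideal B, 𝔫'.IsPrime →
        𝔫'.comap (betaFin (A.comap ι) M q halgM BM halg B hq) =
          𝔫.comap (alphaFin (A.comap ι) M q halgM BM halg B) →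
        𝔫' = 𝔫.comap (ChartAct.actFin (A.comap ι) (M * q) s hW halg B : B →+* B)) ∧
      (∀ 𝔫' : Ideal B, 𝔫'.IsPrime →
        𝔫'.comap (alphaFin (A.comap ι) M q halgM BM halg B) =
          𝔫.comap (betaFin (A.comap ι) M q halgM BM halg B hq) →
        𝔫' = 𝔫.comap (ChartAct.actFin (A.comap ι) (M * q) s hW halg B : B →+* B))) :=
  node_pts_fin A ι M q hq hqM hroots π hπ hσ₀ s hs w hwα hwβ halgM BM halg B
    (alphaFin (A.comap ι) M q halgM BM halg B) (betaFin (A.comap ι) M q halgM BM halg B hq)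
    (algebraMap_alphaFin (A.comap ι) M q halgM BM halg B)
    (algebraMap_betaFin (A.comap ι) M q halgM BM halg B hq)
    (ChartAct.actFin (A.comap ι) (M * q) s hW halg B)
    (ChartAct.algebraMap_actFin (A.comap ι) (M * q) s hW halg B)
    (atkinFin (A.comap ι) M q halg B hq w hwα)
    (algebraMap_atkinFin (A.comap ι) M q halg B hq w hwα) 𝔫 hπ𝔫 R

end Canon

end Fermat.Agent.S35.NodePtsInst
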