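import Mathlib
import Fermat.Agent.S35.NodePtsInst

/-!
# S35, package (C2), complements: integrality of the degeneracy maps on the carriers and the
node data in the shape of `EsFibre` / `EsNode`

* `alpha_isIntegral`, `beta_isIntegral` : for carriers `BM` (level `M`), `B` (level `M q`) of
  the finite charts and ring maps `αB βB : BM → B` lifting `heckeAlphaBar`, `heckeBetaBar`,
  the maps `αB`, `βB` are integral;
* `unif_dvd_map` : a ring automorphism `s` of the level preserving the discrete valuation ring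
  `W` maps a uniformiser to a multiple of it;
* `unif_mem_comap` : `ϖ ∈ σB⁻¹ 𝔫` for every ideal `𝔫 ∋ ϖ`;
* `node_data_fin` : at every maximal ideal `𝔫 ∋ ϖ` of `B`, EITHER the smooth alternative, OR
  the node data in the binder shapes of `EsFibre.ord_esBar_eq_zero_of_through` and
  `EsNode.es_node` (`𝔫₀ := 𝔫.comap σB` maximal, `∋ ϖ`, `σB²`-stable, `ha₁ ha₂ hb hc₁ hc₂`).
-/

set_option autoImplicit false
set_option linter.unusedSectionVars false
set_option linter.unusedVariables false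
set_option linter.style.haveILetI false

noncomputable section

namespace Fermat.Agent.S35.DegInt

open Polynomial ModularCurve Fermat.Agent.S18 Fermat.Agent.S18.Gauss Fermat.Agent.S37
  Fermat.Agent.S34 Fermat.Agent.S34.CoeffAut IsLocalRing

local notation "Qb" => AlgebraicClosure ℚ

section Integral

variable {L : Type} [Field L] [Algebra ℚ L] (W : ValuationSubring L) (M q : ℕ) [NeZero M]
  [NeZero q]
  [Algebra (↥W)[X] (Fermat.Agent.S24.FF L M)]
  (halgM : algebraMap (↥W)[X] (Fermat.Agent.S24.FF L M) = evF W M)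
  (BM : Type*) [CommRing BM] [Algebra (↥W)[X] BM] [Algebra BM (Fermat.Agent.S24.FF L M)]
  [IsScalarTower (↥W)[X] BM (Fermat.Agent.S24.FF L M)]
  [IsIntegralClosure BM (↥W)[X] (Fermat.Agent.S24.FF L M)]
  [Algebra (↥W)[X] (Fermat.Agent.S24.FF L (M * q))]
  (halg : algebraMap (↥W)[X] (Fermat.Agent.S24.FF L (M * q)) = evF W (M * q))
  (B : Type*) [CommRing B] [Algebra (↥W)[X] B] [Algebra B (Fermat.Agent.S24.FF L (M * q))]
  [IsScalarTower (↥W)[X] B (Fermat.Agent.S24.FF L (M * q))]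
  [IsIntegralClosure B (↥W)[X] (Fermat.Agent.S24.FF L (M * q))]

include halgM halg in
/-- **`αB` is integral.** -/
theorem alpha_isIntegral (αB : BM →+* B)
    (hαB : ∀ c, algebraMap B (Fermat.Agent.S24.FF L (M * q)) (αB c) =
      heckeAlphaBar L M q (algebraMap BM (Fermat.Agent.S24.FF L M) c)) : αB.IsIntegral := by
  have hBinj : Function.Injective (algebraMap B (Fermat.Agent.S24.FF L (M * q))) :=
    IsIntegralClosure.algebraMap_injective B (↥W)[X] (Fermat.Agent.S24.FF L (M * q))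
  have hcomp : αB.comp (algebraMap (↥W)[X] BM) = algebraMap (↥W)[X] B := by
    apply RingHom.ext
    intro p
    apply hBinj
    rw [RingHom.comp_apply, hαB, ← IsScalarTower.algebraMap_apply,
      ← IsScalarTower.algebraMap_apply, halgM, halg, ← BetaInt.alpha_comp_evF]
    rfl
  have hint : (algebraMap (↥W)[X] B).IsIntegral := fun b =>
    IsIntegralClosure.isIntegral (↥W)[X] (Fermat.Agent.S24.FF L (M * q)) b
  rw [← hcomp] at hint
  exact RingHom.IsIntegral.tower_top _ _ hint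

include halgM halg in
/-- **`βB` is integral** (through the Atkin–Lehner automorphism). -/
theorem beta_isIntegral (hq : q.Prime)
    (w : Fermat.Agent.S24.FF L (M * q) ≃ₐ[L] Fermat.Agent.S24.FF L (M * q))
    (hwα : (w : Fermat.Agent.S24.FF L (M * q) →ₐ[L] Fermat.Agent.S24.FF L (M * q)).comp
      (heckeAlphaBar L M q) = heckeBetaBar L M q)
    (hwβ : (w : Fermat.Agent.S24.FF L (M * q) →ₐ[L] Fermat.Agent.S24.FF L (M * q)).comp
      (heckeBetaBar L M q) = heckeAlphaBar L M q)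
    (βB : BM →+* B)
    (hβB : ∀ c, algebraMap B (Fermat.Agent.S24.FF L (M * q)) (βB c) =
      heckeBetaBar L M q (algebraMap BM (Fermat.Agent.S24.FF L M) c)) : βB.IsIntegral := by
  have hBinj : Function.Injective (algebraMap B (Fermat.Agent.S24.FF L (M * q))) :=
    IsIntegralClosure.algebraMap_injective B (↥W)[X] (Fermat.Agent.S24.FF L (M * q))
  have hwα' : ∀ y, w (heckeAlphaBar L M q y) = heckeBetaBar L M q y := fun y =>
    congrArg (fun f => f y) hwα
  have hwβ' : ∀ y, w (heckeBetaBar L M q y) = heckeAlphaBar L M q y := fun y =>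
    congrArg (fun f => f y) hwβ
  -- `w⁻¹` is an Atkin–Lehner automorphism as well
  have hsα : (w.symm : Fermat.Agent.S24.FF L (M * q) →ₐ[L] Fermat.Agent.S24.FF L (M * q)).comp
      (heckeAlphaBar L M q) = heckeBetaBar L M q := by
    apply AlgHom.ext
    intro y
    show w.symm (heckeAlphaBar L M q y) = heckeBetaBar L M q y
    rw [← hwβ' y, AlgEquiv.symm_apply_apply]
  -- the composite `W[X] → BM → B → F` is `w ∘ evF`
  have hcomp : ∀ p : (↥W)[X], algebraMap B (Fermat.Agent.S24.FF L (M * q))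
      (βB (algebraMap (↥W)[X] BM p)) = w (evF W (M * q) p) := by
    intro p
    rw [hβB, ← IsScalarTower.algebraMap_apply, halgM, ← hwα', ← BetaInt.alpha_comp_evF]
    rfl
  intro b
  have hbI : (evF W (M * q)).IsIntegralElem
      (w.symm (algebraMap B (Fermat.Agent.S24.FF L (M * q)) b)) :=
    CompInst.isIntegralElem_atkin W M q hq w.symm hsα
      (CompInst.isIntegralElem_algebraMap W (M * q) halg B b)
  obtain ⟨P, hP, hroot⟩ := hbI
  refine ⟨P.map (algebraMap (↥W)[X] BM), hP.map _, hBinj ?_⟩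
  rw [Polynomial.eval₂_map, Polynomial.hom_eval₂, map_zero]
  have h1 : (algebraMap B (Fermat.Agent.S24.FF L (M * q))).comp
      (βB.comp (algebraMap (↥W)[X] BM)) =
      ((w : Fermat.Agent.S24.FF L (M * q) →ₐ[L]
        Fermat.Agent.S24.FF L (M * q)) : Fermat.Agent.S24.FF L (M * q) →+*
        Fermat.Agent.S24.FF L (M * q)).comp (evF W (M * q)) :=
    RingHom.ext fun p => hcomp p
  have h2 : algebraMap B (Fermat.Agent.S24.FF L (M * q)) b =
      ((w : Fermat.Agent.S24.FF L (M * q) →ₐ[L]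
        Fermat.Agent.S24.FF L (M * q)) : Fermat.Agent.S24.FF L (M * q) →+*
        Fermat.Agent.S24.FF L (M * q))
        (w.symm (algebraMap B (Fermat.Agent.S24.FF L (M * q)) b)) :=
    (AlgEquiv.apply_symm_apply w _).symm
  rw [h1, h2, ← Polynomial.hom_eval₂, hroot, map_zero]

include halgM halg in
theorem alphaFin_isIntegral :
    (NodePtsInst.alphaFin W M q halgM BM halg B).IsIntegral :=
  alpha_isIntegral W M q halgM BM halg B _ (NodePtsInst.algebraMap_alphaFin W M q halgM BM halg B)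

include halgM halg in
theorem betaFin_isIntegral (hq : q.Prime)
    (w : Fermat.Agent.S24.FF L (M * q) ≃ₐ[L] Fermat.Agent.S24.FF L (M * q))
    (hwα : (w : Fermat.Agent.S24.FF L (M * q) →ₐ[L] Fermat.Agent.S24.FF L (M * q)).comp
      (heckeAlphaBar L M q) = heckeBetaBar L M q)
    (hwβ : (w : Fermat.Agent.S24.FF L (M * q) →ₐ[L] Fermat.Agent.S24.FF L (M * q)).comp
      (heckeBetaBar L M q) = heckeAlphaBar L M q) :
    (NodePtsInst.betaFin W M q halgM BM halg B hq).IsIntegral :=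
  beta_isIntegral W M q halgM BM halg B hq w hwα hwβ _
    (NodePtsInst.algebraMap_betaFin W M q halgM BM halg B hq)

end Integral

/-! ### The uniformiser under the coefficient action -/

section Unif

variable {L : Type} [Field L] (W : ValuationSubring L) [IsDiscreteValuationRing ↥W]
  (s : L ≃+* L) (hW : ∀ c : L, c ∈ W ↔ (s : L →+* L) c ∈ W)

include hW in
/-- an automorphism of the level preserving `W` maps a uniformiser to a multiple of it -/
theorem unif_dvd_map (π : ↥W) (hπ : Irreducible π) :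
    π ∣ (⟨s (π : L), (hW (π : L)).mp π.2⟩ : ↥W) := by
  by_contra hnd
  have hmax : maximalIdeal ↥W = Ideal.span {π} := hπ.maximalIdeal_eq
  have hunit : IsUnit (⟨s (π : L), (hW (π : L)).mp π.2⟩ : ↥W) := by
    rw [← IsLocalRing.notMem_maximalIdeal, hmax, Ideal.mem_span_singleton]
    exact hnd
  obtain ⟨v, hv⟩ := isUnit_iff_exists_inv.mp hunit
  have hv' : s (π : L) * (v : L) = 1 := congrArg Subtype.val hv
  have hvmem : s.symm (v : L) ∈ W := by
    rw [hW]
    show s (s.symm (v : L)) ∈ W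
    rw [RingEquiv.apply_symm_apply]
    exact v.2
  have h1 : π * (⟨s.symm (v : L), hvmem⟩ : ↥W) = 1 := by
    apply Subtype.ext
    show (π : L) * s.symm (v : L) = 1
    have h2 : s ((π : L) * s.symm (v : L)) = s 1 := by
      rw [map_mul, RingEquiv.apply_symm_apply, hv', map_one]
    exact s.injective h2
  exact hπ.not_isUnit (isUnit_iff_exists_inv.mpr ⟨_, h1⟩)

end Unif

section Node

variable (A : ValuationSubring Qb) {L : Type} [Field L] [Algebra ℚ L] (ι : L →+* Qb)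
  (M q : ℕ) [NeZero M] [NeZero q]
  [IsDiscreteValuationRing ↥(A.comap ι)]
  [IsAlgClosed (IsLocalRing.ResidueField ↥(A.comap ι))]
  [CharP (IsLocalRing.ResidueField ↥(A.comap ι)) q]

omit [IsAlgClosed (IsLocalRing.ResidueField ↥(A.comap ι))]
  [CharP (IsLocalRing.ResidueField ↥(A.comap ι)) q] [NeZero M] in
/-- `ϖ ∈ σB⁻¹ 𝔫` for every ideal `𝔫 ∋ ϖ` of a carrier of the finite chart. -/
theorem unif_mem_comap (N : ℕ) [NeZero N] (π : ↥(A.comap ι)) (hπ : Irreducible π) (s : L ≃+* L)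
    (hW : ∀ c : L, c ∈ A.comap ι ↔ (s : L →+* L) c ∈ A.comap ι)
    [Algebra (↥(A.comap ι))[X] (Fermat.Agent.S24.FF L N)]
    (halg : algebraMap (↥(A.comap ι))[X] (Fermat.Agent.S24.FF L N) = evF (A.comap ι) N)
    (B : Type*) [CommRing B] [Algebra (↥(A.comap ι))[X] B]
    [Algebra B (Fermat.Agent.S24.FF L N)]
    [IsScalarTower (↥(A.comap ι))[X] B (Fermat.Agent.S24.FF L N)]
    [IsIntegralClosure B (↥(A.comap ι))[X] (Fermat.Agent.S24.FF L N)]
    (σB : B ≃+* B)
    (hσB : ∀ b, algebraMap B (Fermat.Agent.S24.FF L N) (σB b) =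
      act N s (algebraMap B (Fermat.Agent.S24.FF L N) b))
    (𝔫 : Ideal B) (hπ𝔫 : algebraMap (↥(A.comap ι))[X] B (C π) ∈ 𝔫) :
    algebraMap (↥(A.comap ι))[X] B (C π) ∈ 𝔫.comap (σB : B →+* B) := by
  have hBinj : Function.Injective (algebraMap B (Fermat.Agent.S24.FF L N)) :=
    IsIntegralClosure.algebraMap_injective B (↥(A.comap ι))[X] (Fermat.Agent.S24.FF L N)
  obtain ⟨u, hu⟩ := unif_dvd_map (A.comap ι) s hW π hπ
  have h1 : σB (algebraMap (↥(A.comap ι))[X] B (C π)) =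
      algebraMap (↥(A.comap ι))[X] B (C π) * algebraMap (↥(A.comap ι))[X] B (C u) := by
    apply hBinj
    rw [hσB, map_mul, ← IsScalarTower.algebraMap_apply, ← IsScalarTower.algebraMap_apply,
      halg, evF_C, evF_C, act_algebraMap, ← map_mul]
    congr 1
    exact congrArg Subtype.val hu
  rw [Ideal.mem_comap]
  show σB (algebraMap (↥(A.comap ι))[X] B (C π)) ∈ 𝔫
  rw [h1]
  exact 𝔫.mul_mem_right _ hπ𝔫

/-- **(C2) on the finite chart of level `M q`, in the binder shapes of `EsFibre` and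
`EsNode`**: at every maximal ideal `𝔫 ∋ ϖ`, either the smooth alternative, or `𝔫₀ := 𝔫.comap σB`
is a maximal ideal containing `ϖ`, stable under `σB²`, with `σB 𝔫 ⊆ 𝔫₀`, `σB⁻¹ 𝔫 ⊆ 𝔫₀`,
`wB⁻¹ 𝔫 ⊆ 𝔫₀`, and `𝔫₀` is the only maximal ideal in the two correspondence fibres of `𝔫`. -/
theorem node_data_fin (hq : q.Prime) (hqM : ¬ q ∣ M)
    (hroots : ∀ x : Qb, (∃ n : ℕ, ¬ q ∣ n ∧ x ^ n = 1) → ∃ b : L, ι b = x)
    (π : ↥(A.comap ι)) (hπ : Irreducible π)
    {σ₀ : Qb ≃ₐ[ℚ] Qb} (hσ₀ : A.IsFrobeniusAt σ₀ q) (s : L ≃+* L)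
    (hs : ∀ c : L, ι (s c) = σ₀ (ι c))
    (w : Fermat.Agent.S24.FF L (M * q) ≃ₐ[L] Fermat.Agent.S24.FF L (M * q))
    (hwα : (w : Fermat.Agent.S24.FF L (M * q) →ₐ[L] Fermat.Agent.S24.FF L (M * q)).comp
      (heckeAlphaBar L M q) = heckeBetaBar L M q)
    (hwβ : (w : Fermat.Agent.S24.FF L (M * q) →ₐ[L] Fermat.Agent.S24.FF L (M * q)).comp
      (heckeBetaBar L M q) = heckeAlphaBar L M q)
    [Algebra (↥(A.comap ι))[X] (Fermat.Agent.S24.FF L M)]
    (halgM : algebraMap (↥(A.comap ι))[X] (Fermat.Agent.S24.FF L M) = evF (A.comap ι) M)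
    (BM : Type) [CommRing BM] [Algebra (↥(A.comap ι))[X] BM]
    [Algebra BM (Fermat.Agent.S24.FF L M)]
    [IsScalarTower (↥(A.comap ι))[X] BM (Fermat.Agent.S24.FF L M)]
    [IsIntegralClosure BM (↥(A.comap ι))[X] (Fermat.Agent.S24.FF L M)]
    [Algebra (↥(A.comap ι))[X] (Fermat.Agent.S24.FF L (M * q))]
    (halg : algebraMap (↥(A.comap ι))[X] (Fermat.Agent.S24.FF L (M * q)) =
      evF (A.comap ι) (M * q))
    (B : Type*) [CommRing B] [Algebra (↥(A.comap ι))[X] B]
    [Algebra B (Fermat.Agent.S24.FF L (M * q))]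
    [IsScalarTower (↥(A.comap ι))[X] B (Fermat.Agent.S24.FF L (M * q))]
    [IsIntegralClosure B (↥(A.comap ι))[X] (Fermat.Agent.S24.FF L (M * q))]
    (αB βB : BM →+* B)
    (hαB : ∀ c, algebraMap B (Fermat.Agent.S24.FF L (M * q)) (αB c) =
      heckeAlphaBar L M q (algebraMap BM (Fermat.Agent.S24.FF L M) c))
    (hβB : ∀ c, algebraMap B (Fermat.Agent.S24.FF L (M * q)) (βB c) =
      heckeBetaBar L M q (algebraMap BM (Fermat.Agent.S24.FF L M) c))
    (σB : B ≃+* B)
    (hσB : ∀ b, algebraMap B (Fermat.Agent.S24.FF L (M * q)) (σB b) =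
      act (M * q) s (algebraMap B (Fermat.Agent.S24.FF L (M * q)) b))
    (wB : B →+* B)
    (hwB : ∀ b, algebraMap B (Fermat.Agent.S24.FF L (M * q)) (wB b) =
      w (algebraMap B (Fermat.Agent.S24.FF L (M * q)) b))
    (𝔫 : Ideal B) [𝔫.IsMaximal] (hπ𝔫 : algebraMap (↥(A.comap ι))[X] B (C π) ∈ 𝔫)
    (R : Type*) [CommRing R] [Algebra B R] [IsLocalization.AtPrime R 𝔫] [IsLocalRing R] :
    (∃ u ∈ 𝔫, maximalIdeal R =
        Ideal.span {algebraMap B R (algebraMap (↥(A.comap ι))[X] B (C π)), algebraMap B R u}) ∨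
    ((𝔫.comap (σB : B →+* B)).IsMaximal ∧
      algebraMap (↥(A.comap ι))[X] B (C π) ∈ 𝔫.comap (σB : B →+* B) ∧
      (∀ y : B, σB (σB y) ∈ 𝔫.comap (σB : B →+* B) ↔ y ∈ 𝔫.comap (σB : B →+* B)) ∧
      (∀ y ∈ 𝔫, σB y ∈ 𝔫.comap (σB : B →+* B)) ∧
      (∀ y ∈ 𝔫, σB.symm y ∈ 𝔫.comap (σB : B →+* B)) ∧
      (∀ y : B, wB y ∈ 𝔫 → y ∈ 𝔫.comap (σB : B →+* B)) ∧
      (∀ 𝔫' : Ideal B, 𝔫'.IsMaximal → 𝔫'.comap βB = 𝔫.comap αB →
        𝔫' = 𝔫.comap (σB : B →+* B)) ∧
      (∀ 𝔫' : Ideal B, 𝔫'.IsMaximal → 𝔫'.comap αB = 𝔫.comap βB →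
        𝔫' = 𝔫.comap (σB : B →+* B))) := by
  have hW : ∀ c : L, c ∈ A.comap ι ↔ (s : L →+* L) c ∈ A.comap ι :=
    GalLevel.mem_comap_iff_of_mem_decomposition A ι s hs hσ₀.mem_decompositionSubgroup
  rcases NodePtsInst.node_pts_fin A ι M q hq hqM hroots π hπ hσ₀ s hs w hwα hwβ halgM BM halg B
    αB βB hαB hβB σB hσB wB hwB 𝔫 hπ𝔫 R with h | ⟨ha, ha2, hb, -, -, hc1, hc2⟩
  · exact Or.inl h
  · right
    refine ⟨Ideal.comap_isMaximal_of_equiv σB,
      unif_mem_comap A ι (M * q) π hπ s hW halg B σB hσB 𝔫 hπ𝔫, ?_, ?_, ?_, ?_, ?_, ?_⟩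
    · intro y
      rw [Ideal.mem_comap, Ideal.mem_comap]
      exact ha2 (σB y)
    · intro y hy
      rw [Ideal.mem_comap]
      exact (ha2 y).mpr hy
    · intro y hy
      rw [Ideal.mem_comap]
      show σB (σB.symm y) ∈ 𝔫
      rw [RingEquiv.apply_symm_apply]
      exact hy
    · intro y hy
      rw [Ideal.mem_comap]
      exact (hb y).mp hy
    · intro 𝔫' h𝔫' h
      exact hc1 𝔫' h𝔫'.isPrime h
    · intro 𝔫' h𝔫' h
      exact hc2 𝔫' h𝔫'.isPrime h

end Node

end Fermat.Agent.S35.DegInt
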