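import Mathlib

/-!
# S35 (Route C, smooth points): the degree lemma

Pure ring theory (Mathlib only).  `R` a commutative ring, `ϖ : R` with `span {ϖ}` prime, `u : R`
whose image in the domain `R / ϖ` is a nonzero non-unit, `ε` a unit.  If

  `ε * ∏ (u - c i) ^ a i - ∏ (u - c' k) ^ b k ∈ span {ϖ}`   with   `c i, c' k ∈ span {ϖ}`,

then `∑ a i = ∑ b k`: reducing modulo `ϖ` gives `ε̄ * ū ^ A = ū ^ B` in a domain.

* `pow_eq_of_unit_mul` : the statement in a domain;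
* `sum_eq_of_mem_span` : two families, natural exponents;
* `sum_eq_zero_of_mem_span` : one family, integer exponents (positive and negative parts);
* `sum_eq_of_mem_span_local`, `sum_eq_zero_of_mem_span_local` : the wrappers for a local ring
  and `u` in the maximal ideal.
-/

set_option autoImplicit false

namespace Fermat.Agent.S35.DegreeLemma

/-- In a domain, `ε * x ^ A = x ^ B` with `ε` a unit and `x` a nonzero non-unit forces
`A = B`. -/
theorem pow_eq_of_unit_mul {D : Type*} [CommRing D] [IsDomain D] {x ε : D} (hx0 : x ≠ 0)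
    (hxu : ¬ IsUnit x) (hε : IsUnit ε) {A B : ℕ} (h : ε * x ^ A = x ^ B) : A = B := by
  rcases lt_trichotomy A B with hlt | heq | hgt
  · exfalso
    obtain ⟨k, rfl⟩ := Nat.exists_eq_add_of_lt hlt
    have h1 : x ^ A * ε = x ^ A * x ^ (k + 1) := by
      rw [mul_comm, h, ← pow_add, Nat.add_assoc]
    have h2 : ε = x ^ (k + 1) := mul_left_cancel₀ (pow_ne_zero A hx0) h1
    rw [h2] at hε
    exact hxu (isUnit_of_dvd_unit (dvd_pow_self x (Nat.succ_ne_zero k)) hε)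
  · exact heq
  · exfalso
    obtain ⟨k, rfl⟩ := Nat.exists_eq_add_of_lt hgt
    have e : x ^ (B + k + 1) = x ^ B * x ^ (k + 1) := by rw [← pow_add, Nat.add_assoc]
    rw [e] at h
    have h1 : x ^ B * (ε * x ^ (k + 1)) = x ^ B * 1 := by
      linear_combination h
    have h2 : ε * x ^ (k + 1) = 1 := mul_left_cancel₀ (pow_ne_zero B hx0) h1
    have h3 : IsUnit (x ^ (k + 1)) := IsUnit.of_mul_eq_one ε (by rw [mul_comm]; exact h2)
    exact hxu (isUnit_of_dvd_unit (dvd_pow_self x (Nat.succ_ne_zero k)) h3)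

section

variable {R : Type*} [CommRing R]

/-- the reduction of `∏ (u - c i) ^ a i` modulo an ideal containing the `c i` -/
theorem mk_prod_sub_pow (I : Ideal R) (u : R) {ι : Type*} (s : Finset ι) (c : ι → R)
    (hc : ∀ i ∈ s, c i ∈ I) (a : ι → ℕ) :
    Ideal.Quotient.mk I (∏ i ∈ s, (u - c i) ^ a i) =
      Ideal.Quotient.mk I u ^ ∑ i ∈ s, a i := by
  rw [map_prod, ← Finset.prod_pow_eq_pow_sum]
  refine Finset.prod_congr rfl fun i hi => ?_
  rw [map_pow, map_sub, Ideal.Quotient.eq_zero_iff_mem.mpr (hc i hi), sub_zero]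

/-- **The degree lemma**, two families with natural exponents. -/
theorem sum_eq_of_mem_span (ϖ u ε : R) (hϖ : (Ideal.span {ϖ}).IsPrime)
    (hu0 : u ∉ Ideal.span {ϖ})
    (hu : ¬ IsUnit (Ideal.Quotient.mk (Ideal.span {ϖ}) u)) (hε : IsUnit ε)
    {ι κ : Type*} (s : Finset ι) (t : Finset κ) (c : ι → R) (c' : κ → R)
    (hc : ∀ i ∈ s, c i ∈ Ideal.span {ϖ}) (hc' : ∀ k ∈ t, c' k ∈ Ideal.span {ϖ})
    (a : ι → ℕ) (b : κ → ℕ)
    (h : ε * ∏ i ∈ s, (u - c i) ^ a i - ∏ k ∈ t, (u - c' k) ^ b k ∈ Ideal.span {ϖ}) :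
    ∑ i ∈ s, a i = ∑ k ∈ t, b k := by
  have : IsDomain (R ⧸ Ideal.span {ϖ}) := Ideal.Quotient.isDomain _
  have h1 := Ideal.Quotient.eq_zero_iff_mem.mpr h
  rw [map_sub, map_mul, mk_prod_sub_pow _ u s c hc a, mk_prod_sub_pow _ u t c' hc' b,
    sub_eq_zero] at h1
  refine pow_eq_of_unit_mul (x := Ideal.Quotient.mk (Ideal.span {ϖ}) u) ?_ hu
    (hε.map (Ideal.Quotient.mk (Ideal.span {ϖ}))) h1
  intro h0
  exact hu0 (Ideal.Quotient.eq_zero_iff_mem.mp h0)

/-- **The degree lemma**, one family with integer exponents: the total degree vanishes. -/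
theorem sum_eq_zero_of_mem_span (ϖ u ε : R) (hϖ : (Ideal.span {ϖ}).IsPrime)
    (hu0 : u ∉ Ideal.span {ϖ})
    (hu : ¬ IsUnit (Ideal.Quotient.mk (Ideal.span {ϖ}) u)) (hε : IsUnit ε)
    {ι : Type*} (s : Finset ι) (c : ι → R) (hc : ∀ i ∈ s, c i ∈ Ideal.span {ϖ}) (e : ι → ℤ)
    (h : ε * ∏ i ∈ s, (u - c i) ^ (e i).toNat - ∏ i ∈ s, (u - c i) ^ (-e i).toNat ∈
      Ideal.span {ϖ}) :
    ∑ i ∈ s, e i = 0 := by
  have h1 := sum_eq_of_mem_span ϖ u ε hϖ hu0 hu hε s s c c hc hc (fun i => (e i).toNat)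
    (fun i => (-e i).toNat) h
  have h2 : ∑ i ∈ s, e i = ∑ i ∈ s, (((e i).toNat : ℤ) - ((-e i).toNat : ℤ)) :=
    Finset.sum_congr rfl fun i _ => by omega
  rw [h2, Finset.sum_sub_distrib, ← Nat.cast_sum, ← Nat.cast_sum, h1, sub_self]

/-- the image of an element of the maximal ideal in a nonzero quotient of a local ring is not a
unit -/
theorem not_isUnit_mk_of_mem_maximalIdeal [IsLocalRing R] (I : Ideal R) (hI : I ≠ ⊤) {u : R}
    (hu : u ∈ IsLocalRing.maximalIdeal R) : ¬ IsUnit (Ideal.Quotient.mk I u) := by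
  intro h
  obtain ⟨v, hv⟩ := h.exists_right_inv
  obtain ⟨v, rfl⟩ := Ideal.Quotient.mk_surjective v
  rw [← map_mul, ← map_one (Ideal.Quotient.mk I), Ideal.Quotient.eq] at hv
  have hI' : I ≤ IsLocalRing.maximalIdeal R := IsLocalRing.le_maximalIdeal hI
  have h1 : u * v - 1 ∈ IsLocalRing.maximalIdeal R := hI' hv
  have h2 : u * v ∈ IsLocalRing.maximalIdeal R := Ideal.mul_mem_right v _ hu
  have h3 : (1 : R) ∈ IsLocalRing.maximalIdeal R := by
    have h4 := Ideal.sub_mem _ h2 h1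
    rwa [sub_sub_cancel] at h4
  exact (Ideal.ne_top_iff_one _).mp (IsLocalRing.maximalIdeal.isMaximal R).ne_top h3

/-- **The degree lemma in a local ring**, two families. -/
theorem sum_eq_of_mem_span_local [IsLocalRing R] (ϖ u ε : R)
    (hϖ : (Ideal.span {ϖ}).IsPrime) (hu0 : u ∉ Ideal.span {ϖ})
    (hu : u ∈ IsLocalRing.maximalIdeal R) (hε : IsUnit ε)
    {ι κ : Type*} (s : Finset ι) (t : Finset κ) (c : ι → R) (c' : κ → R)
    (hc : ∀ i ∈ s, c i ∈ Ideal.span {ϖ}) (hc' : ∀ k ∈ t, c' k ∈ Ideal.span {ϖ})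
    (a : ι → ℕ) (b : κ → ℕ)
    (h : ε * ∏ i ∈ s, (u - c i) ^ a i - ∏ k ∈ t, (u - c' k) ^ b k ∈ Ideal.span {ϖ}) :
    ∑ i ∈ s, a i = ∑ k ∈ t, b k :=
  sum_eq_of_mem_span ϖ u ε hϖ hu0
    (not_isUnit_mk_of_mem_maximalIdeal _ hϖ.ne_top hu) hε s t c c' hc hc' a b h

/-- **The degree lemma in a local ring**, integer exponents. -/
theorem sum_eq_zero_of_mem_span_local [IsLocalRing R] (ϖ u ε : R)
    (hϖ : (Ideal.span {ϖ}).IsPrime) (hu0 : u ∉ Ideal.span {ϖ})
    (hu : u ∈ IsLocalRing.maximalIdeal R) (hε : IsUnit ε)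
    {ι : Type*} (s : Finset ι) (c : ι → R) (hc : ∀ i ∈ s, c i ∈ Ideal.span {ϖ}) (e : ι → ℤ)
    (h : ε * ∏ i ∈ s, (u - c i) ^ (e i).toNat - ∏ i ∈ s, (u - c i) ^ (-e i).toNat ∈
      Ideal.span {ϖ}) :
    ∑ i ∈ s, e i = 0 :=
  sum_eq_zero_of_mem_span ϖ u ε hϖ hu0
    (not_isUnit_mk_of_mem_maximalIdeal _ hϖ.ne_top hu) hε s c hc e h

end

end Fermat.Agent.S35.DegreeLemma
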