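/-
S35 (route C): bridges between the level currency and the place currency over `ℚ̄`.

* `inv_semi_smul`  : `(CoeffAut.semi N s)⁻¹ • x = CoeffAut.act N s.symm x`;
* `esL_eq_esBar`   : the level operator `EsNorm.esL M q s w` IS `EsOrd.esBar` at the level
  (`K := L`, `g := CoeffAut.semi (M * q) s`, `α β := heckeAlphaBar/heckeBetaBar L M q`);
* `bc_esBar_level` : `bc ι (esBar_L y) = esBar_ℚ̄ (bc ι y)` in the `esBar`–`esBar` form
  (`EsNorm.bc_esL` is the `esL`–`esBar` form);
* `bc_dd`          : `bc ι (DDGauss.dd N (s.trans s) y) = EsTop.ddf (g * g) (bc ι y)`;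
* `bc_esL_dd`      : the two combined, for `w₀ = esL (dd fL)`.
-/
import Mathlib
import Fermat.Agent.S35.EsNorm
import Fermat.Agent.S35.EsTop

set_option autoImplicit false
set_option linter.unusedSectionVars false

noncomputable section

namespace Fermat.Agent.S35.EsBridge

open ModularCurve AlgebraicCurve Fermat.Agent.S24 Fermat.Agent.S34.CoeffAut
  Fermat.Agent.S35.NormDef Fermat.Agent.S35.EsNorm

local notation "Qb" => AlgebraicClosure ℚ

/-- abstract form of `bc_dd`: a ring hom intertwining `τ` with a semilinear automorphism `g`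
sends the double difference to `EsTop.ddf g` -/
theorem map_dd_abstract {K F₁ F₂ : Type*} [Field K] [Field F₁] [Field F₂] [Algebra K F₂]
    (b : F₁ →+* F₂) (τ : F₁ ≃+* F₁) (g : SemilinearAut K F₂) (hτ : ∀ z, b (τ z) = g • b z)
    (y : F₁) : b (τ (τ y) * y / (τ y) ^ 2) = EsTop.ddf g (b y) := by
  rw [EsTop.ddf, map_div₀, map_mul, map_pow, hτ, hτ]

section Level

variable {L : Type*} [Field L] [Algebra ℚ L]

/-- the inverse of the semilinear action of `s` is the action of `s⁻¹` -/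
theorem inv_semi_smul (N : ℕ) (s : L ≃+* L) (x : FF L N) :
    (semi N s)⁻¹ • x = act N s.symm x := by
  rw [inv_smul_eq_iff, semi_smul, ← act_symm_apply, RingEquiv.apply_symm_apply]

/-- **The level operator is `EsOrd.esBar` at the level.** -/
theorem esL_eq_esBar (M q : ℕ) [NeZero M] [NeZero q] (s : L ≃+* L)
    (w : FF L (M * q) ≃ₐ[L] FF L (M * q)) (y : FF L (M * q)) :
    esL M q s w y =
      EsOrd.esBar (semi (M * q) s) w (heckeAlphaBar L M q) (heckeBetaBar L M q) q y := by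
  rw [esL_def, EsOrd.esBar, semi_smul, inv_semi_smul]
  rfl

end Level

section Bridge

variable {L : Type} [Field L] [Algebra ℚ L] (ι : L →+* Qb)

/-- `bc ι (esBar_L y) = esBar_ℚ̄ (bc ι y)`. -/
theorem bc_esBar_level (M q : ℕ) [NeZero M] [NeZero q] (hq : q.Prime) (hMq : ¬ q ∣ M)
    (ζ : Lˣ) (hζ : IsPrimitiveRoot ζ q) (σ : Qb ≃ₐ[ℚ] Qb) (s : L ≃+* L)
    (hs : ∀ c : L, ι (s c) = σ (ι c)) (w : FF L (M * q) ≃ₐ[L] FF L (M * q))
    (hwα : (w : FF L (M * q) →ₐ[L] FF L (M * q)).comp (heckeAlphaBar L M q) = heckeBetaBar L M q)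
    (hwβ : (w : FF L (M * q) →ₐ[L] FF L (M * q)).comp (heckeBetaBar L M q) = heckeAlphaBar L M q)
    (w' : FF Qb (M * q) ≃ₐ[Qb] FF Qb (M * q))
    (hwα' : (w' : FF Qb (M * q) →ₐ[Qb] FF Qb (M * q)).comp (heckeAlphaBar Qb M q) =
      heckeBetaBar Qb M q)
    (hwβ' : (w' : FF Qb (M * q) →ₐ[Qb] FF Qb (M * q)).comp (heckeBetaBar Qb M q) =
      heckeAlphaBar Qb M q)
    (y : FF L (M * q)) :
    CoeffBC.bc ι (modularFunctionFieldFull (M * q))
        (EsOrd.esBar (semi (M * q) s) w (heckeAlphaBar L M q) (heckeBetaBar L M q) q y) =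
      EsOrd.esBar (arithmeticGalois (modularFunctionFieldFull (M * q)) σ) w'
        (heckeAlphaBar Qb M q) (heckeBetaBar Qb M q) q
        (CoeffBC.bc ι (modularFunctionFieldFull (M * q)) y) := by
  rw [← esL_eq_esBar]
  exact bc_esL ι M q hq hMq ζ hζ σ s hs w hwα hwβ w' hwα' hwβ' y

/-- the double difference for `σ²` commutes with the change of level -/
theorem bc_dd (N : ℕ) [NeZero N] (σ : Qb ≃ₐ[ℚ] Qb) (s : L ≃+* L)
    (hs : ∀ c : L, ι (s c) = σ (ι c)) (y : FF L N) :
    CoeffBC.bc ι (modularFunctionFieldFull N)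
        (Fermat.Agent.S34.DDGauss.dd N (s.trans s) y) =
      EsTop.ddf (arithmeticGalois (modularFunctionFieldFull N) σ *
          arithmeticGalois (modularFunctionFieldFull N) σ)
        (CoeffBC.bc ι (modularFunctionFieldFull N) y) := by
  have hs2 : ∀ c : L, ι ((s.trans s : L ≃+* L) c) = (σ * σ) (ι c) := by
    intro c
    show ι (s (s c)) = σ (σ (ι c))
    rw [hs, hs]
  have h1 : ∀ z : FF L N, CoeffBC.bc ι (modularFunctionFieldFull N) (act N (s.trans s) z) =
      (arithmeticGalois (modularFunctionFieldFull N) σ *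
          arithmeticGalois (modularFunctionFieldFull N) σ) •
        CoeffBC.bc ι (modularFunctionFieldFull N) z := by
    intro z
    have e : arithmeticGalois (modularFunctionFieldFull N) σ *
        arithmeticGalois (modularFunctionFieldFull N) σ =
          arithmeticGalois (modularFunctionFieldFull N) (σ * σ) :=
      (map_mul (arithmeticGalois (modularFunctionFieldFull N)) σ σ).symm
    rw [e]
    exact Fermat.Agent.S34.GRat.bc_bc_eq_smul N ι (σ * σ) ((s.trans s : L ≃+* L) : L →+* L) hs2 z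
  exact map_dd_abstract (CoeffBC.bc ι (modularFunctionFieldFull N)) (act N (s.trans s)) _ h1 y

/-- the bridge for `w₀ = esL (dd fL)`: over `ℚ̄` it is `esBar (ddf (bc fL))`. -/
theorem bc_esL_dd (M q : ℕ) [NeZero M] [NeZero q] (hq : q.Prime) (hMq : ¬ q ∣ M)
    (ζ : Lˣ) (hζ : IsPrimitiveRoot ζ q) (σ : Qb ≃ₐ[ℚ] Qb) (s : L ≃+* L)
    (hs : ∀ c : L, ι (s c) = σ (ι c)) (w : FF L (M * q) ≃ₐ[L] FF L (M * q))
    (hwα : (w : FF L (M * q) →ₐ[L] FF L (M * q)).comp (heckeAlphaBar L M q) = heckeBetaBar L M q)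
    (hwβ : (w : FF L (M * q) →ₐ[L] FF L (M * q)).comp (heckeBetaBar L M q) = heckeAlphaBar L M q)
    (w' : FF Qb (M * q) ≃ₐ[Qb] FF Qb (M * q))
    (hwα' : (w' : FF Qb (M * q) →ₐ[Qb] FF Qb (M * q)).comp (heckeAlphaBar Qb M q) =
      heckeBetaBar Qb M q)
    (hwβ' : (w' : FF Qb (M * q) →ₐ[Qb] FF Qb (M * q)).comp (heckeBetaBar Qb M q) =
      heckeAlphaBar Qb M q)
    (fL : FF L (M * q)) :
    CoeffBC.bc ι (modularFunctionFieldFull (M * q))
        (esL M q s w (Fermat.Agent.S34.DDGauss.dd (M * q) (s.trans s) fL)) =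
      EsOrd.esBar (arithmeticGalois (modularFunctionFieldFull (M * q)) σ) w'
        (heckeAlphaBar Qb M q) (heckeBetaBar Qb M q) q
        (EsTop.ddf (arithmeticGalois (modularFunctionFieldFull (M * q)) σ *
            arithmeticGalois (modularFunctionFieldFull (M * q)) σ)
          (CoeffBC.bc ι (modularFunctionFieldFull (M * q)) fL)) := by
  rw [bc_esL ι M q hq hMq ζ hζ σ s hs w hwα hwβ w' hwα' hwβ', bc_dd ι (M * q) σ s hs fL]

end Bridge

end Fermat.Agent.S35.EsBridge
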