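import Mathlib
import Fermat.Agent.S35.EsLoc2
import Fermat.Agent.S35.EsSmoothRaw
import Fermat.Agent.S35.CuspGen
import Fermat.Agent.S34.KLocCusp
import Fermat.Agent.S34.TwoGauss
import Fermat.Agent.S34.GAsm

/-!
# S35 (Route C), package (C4), cusp chart: the smooth-point local datum at the cusps of level `M q`
-/

set_option autoImplicit false
set_option linter.unusedSectionVars false
set_option linter.style.haveILetI false

noncomputable section

namespace Fermat.Agent.S35.EsCuspInst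

open Polynomial ModularCurve AlgebraicCurve Fermat.Agent.S18 Fermat.Agent.S18.Gauss
  Fermat.Agent.S24 Fermat.Agent.S34.GDescent Fermat.Agent.S37
open Fermat.Agent.S34 Fermat.Agent.S34.KummerStep

local notation "Qb" => AlgebraicClosure ℚ

section Main

variable (A : ValuationSubring Qb) {L : Type} [Field L] [Algebra ℚ L] (ι : L →+* Qb)
  (M q : ℕ) [NeZero M] [NeZero q]

set_option maxHeartbeats 1600000 in
theorem es_cusp (hq : q.Prime) (hqM : ¬ q ∣ M) (S : Finset Qb)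
    (hlev : LevelChange.IsLevel A q S ι)
    (ϖ : ↥(A.comap ι)) (hϖ : Irreducible ϖ)
    [Algebra (↥(A.comap ι))[X] (FF L (M * q))]
    (halg : algebraMap (↥(A.comap ι))[X] (FF L (M * q)) = evFinf (A.comap ι) (M * q))
    (B : Type*) [CommRing B] [Algebra (↥(A.comap ι))[X] B] [Algebra B (FF L (M * q))]
    [IsScalarTower (↥(A.comap ι))[X] B (FF L (M * q))]
    [IsIntegralClosure B (↥(A.comap ι))[X] (FF L (M * q))]
    (𝔪 : Ideal B) [𝔪.IsMaximal] (hϖ𝔪 : algebraMap (↥(A.comap ι))[X] B (C ϖ) ∈ 𝔪)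
    (hX𝔪 : algebraMap (↥(A.comap ι))[X] B X ∈ 𝔪)
    (p n : ℕ) (w₀ : FF L (M * q)) (hw₀ : GaussOne ϖ (jBC L (M * q)) w₀)
    (hdvd : ∀ Q : Place Qb (modularFunctionFieldBar (M * q)),
      ((p : ℤ) ^ n) ∣ Q.ord (S24.CoeffBC.bc ι (modularFunctionFieldFull (M * q)) w₀))
    (hrat : ∀ Q : Place Qb (modularFunctionFieldBar (M * q)),
      Q.ord (S24.CoeffBC.bc ι (modularFunctionFieldFull (M * q)) w₀) ≠ 0 →
      RatAtLevel (M * q) ι Q) :
    ∃ g : FF L (M * q), GaussOne ϖ (jBC L (M * q)) g ∧ ∃ d : B, d ∉ 𝔪 ∧ ∃ t : B,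
      algebraMap B (FF L (M * q)) t = algebraMap B (FF L (M * q)) d * (w₀ * g ^ (p ^ n)) := by
  classical
  obtain ⟨-, hroots, hdvr, halgc, -, hchar, -, -⟩ := hlev
  haveI := hdvr
  haveI := halgc
  haveI := hchar
  haveI : Fact q.Prime := ⟨hq⟩
  obtain ⟨w, hwα, hwβ⟩ := FrobPartner.exists_atkinLehner_level ι M q hq hqM
  letI : Algebra ↥(A.comap ι) B := ((algebraMap (↥(A.comap ι))[X] B).comp C).toAlgebra
  haveI : IsDomain B := KLocCusp.isDomain_inf (A.comap ι) (M * q) B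
  haveI : IsNoetherianRing B := KLocCusp.isNoetherianRing_inf (A.comap ι) (M * q) halg B
  haveI : IsIntegrallyClosed B := KLocCusp.isIntegrallyClosed_inf (A.comap ι) (M * q) halg B
  have hinj : Function.Injective (algebraMap B (FF L (M * q))) :=
    IsIntegralClosure.algebraMap_injective B (↥(A.comap ι))[X] (FF L (M * q))
  have hint : ∀ y : B, (evFinf (A.comap ι) (M * q)).IsIntegralElem
      (algebraMap B (FF L (M * q)) y) := fun y =>
    (ChartAct.exists_algebraMap_eq_iff_inf (A.comap ι) (M * q) halg B _).mp ⟨y, rfl⟩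
  have hsurj : ∀ x : FF L (M * q), (evFinf (A.comap ι) (M * q)).IsIntegralElem x →
      ∃ b : B, algebraMap B (FF L (M * q)) b = x := fun x hx =>
    (ChartAct.exists_algebraMap_eq_iff_inf (A.comap ι) (M * q) halg B x).mpr hx
  have hB₁ : ∀ y : B, ((algebraMap B (FF L (M * q)) y : FF L (M * q)) : LaurentSeries L) ∈
      contentRing (A.comap ι) := fun y =>
    CuspRes.mem_contentRing_of_int_inf (A.comap ι) (M * q) (hint y)
  have hB₂ : ∀ y : B, ((w (algebraMap B (FF L (M * q)) y) : FF L (M * q)) : LaurentSeries L) ∈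
      contentRing (A.comap ι) := fun y =>
    CuspRes.mem_contentRing_w_of_int_inf (A.comap ι) M q w hwα (hint y)
  have hφW : ∀ c : ↥(A.comap ι), algebraMap B (FF L (M * q)) (algebraMap ↥(A.comap ι) B c) =
      algebraMap L (FF L (M * q)) (c : L) := by
    intro c
    show algebraMap B (FF L (M * q)) (algebraMap (↥(A.comap ι))[X] B (C c)) = _
    rw [← IsScalarTower.algebraMap_apply, halg, evFinf_C]
  have hXF : algebraMap B (FF L (M * q)) (algebraMap (↥(A.comap ι))[X] B X) =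
      (jBC L (M * q))⁻¹ := by
    rw [← IsScalarTower.algebraMap_apply, halg, evFinf_X]
  have hS1 : ∀ y : B, red (A.comap ι) ⟨_, hB₁ y⟩ = 0 → red (A.comap ι) ⟨_, hB₂ y⟩ = 0 →
      ∃ y' : B, algebraMap B (FF L (M * q)) y =
        algebraMap L (FF L (M * q)) ((ϖ : ↥(A.comap ι)) : L) * algebraMap B (FF L (M * q)) y' := by
    intro y hr1 hr2
    obtain ⟨y0, hy0, -, -, hxy⟩ :=
      FinDich.s1_inf_level ι (A.comap ι) M q hqM hϖ w hwα hwβ _ (hint y) (hB₁ y) (hB₂ y) hr1 hr2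
    obtain ⟨y', rfl⟩ := hsurj y0 hy0
    exact ⟨y', hxy⟩
  -- the normalised generator
  obtain ⟨u, hu𝔪, hu, hu₁, hu₂⟩ := CuspGen.cusp_generator ι (A.comap ι) M q w
    (algebraMap B (FF L (M * q))) hqM hϖ hroots hwα hwβ hinj hint hsurj hB₁ hB₂
    (algebraMap (↥(A.comap ι))[X] B (C ϖ)) (hφW ϖ) 𝔪 hϖ𝔪
    (algebraMap (↥(A.comap ι))[X] B X) hXF hX𝔪
  have hu' : IsLocalRing.maximalIdeal (Localization.AtPrime 𝔪) =
      Ideal.span {algebraMap ↥(A.comap ι) (Localization.AtPrime 𝔪) ϖ,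
        algebraMap B (Localization.AtPrime 𝔪) u} := by
    have e : algebraMap ↥(A.comap ι) (Localization.AtPrime 𝔪) ϖ =
        algebraMap B (Localization.AtPrime 𝔪) (algebraMap (↥(A.comap ι))[X] B (C ϖ)) :=
      IsScalarTower.algebraMap_apply ↥(A.comap ι) B (Localization.AtPrime 𝔪) ϖ
    rw [e]
    exact hu
  -- the two-valuation dictionary
  haveI : IsFractionRing B (FF L (M * q)) :=
    KLocCusp.isFractionRing_inf (A.comap ι) (M * q) halg B
  haveI hst : IsScalarTower ↥(A.comap ι) L (FF L (M * q)) :=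
    GAsm.isScalarTower_W (A.comap ι) (M * q)
  have hπF : algebraMap ↥(A.comap ι) (FF L (M * q)) ϖ =
      algebraMap L (FF L (M * q)) ((ϖ : ↥(A.comap ι)) : L) := rfl
  have hπ0 : algebraMap ↥(A.comap ι) (FF L (M * q)) ϖ ≠ 0 := by
    rw [hπF]
    exact (_root_.map_ne_zero _).mpr (fun h => hϖ.ne_zero (Subtype.ext h))
  obtain ⟨c, hc, hwc⟩ := GaussOne.inC hπ0 hw₀
  obtain ⟨hc₁, hc₂⟩ := TwoGauss.mem_both_of_inC (A.comap ι) M q
    (w : FF L (M * q) →ₐ[L] FF L (M * q)) hwα hϖ c hc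
  have hw₀' : w₀ = 1 + algebraMap L (FF L (M * q)) ((ϖ : ↥(A.comap ι)) : L) * c := by
    rw [← hπF, ← hwc]
    ring
  obtain ⟨g, ⟨m, hm₁, hm₂, hg⟩, d, hd, t, ht⟩ := EsSmoothRaw.smooth_chart (M * q) A ι hϖ w B
    hφW hB₁ hB₂ hS1 𝔪 hϖ𝔪 u hu' hu₁ hu₂ p n w₀ ⟨c, hc₁, hc₂, hw₀'⟩ hdvd hrat
  refine ⟨g, gaussOne_of_inC ⟨m, TwoGauss.inC_of_mem_both (A.comap ι) M q
    (w : FF L (M * q) →ₐ[L] FF L (M * q)) hqM hwα hwβ hϖ.not_isUnit m hm₁ hm₂, ?_⟩,
    d, hd, t, ht⟩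
  rw [hg, hπF]
  ring

end Main

/-- **The smooth-point lemma at the cusps** (`EsLoc2.CuspSmooth`, with `S₀ = ∅`). -/
theorem cuspSmooth (M q p : ℕ) [NeZero M] [NeZero q] (hq : q.Prime) (hqM : ¬ q ∣ M)
    (A : ValuationSubring Qb) : EsLoc2.CuspSmooth M q p A :=
  ⟨∅, fun L _ _ ι hlev _ ϖ hϖ n w₀ hw₀ hdvd hrat _ halg B _ _ _ _ _ 𝔪 h𝔪 hC hX => by
    haveI := h𝔪
    exact es_cusp A ι M q hq hqM ∅ hlev ϖ hϖ halg B 𝔪 hC hX p n w₀ hw₀ hdvd hrat⟩

end Fermat.Agent.S35.EsCuspInst
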