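import Mathlib
import Fermat.Agent.S34.SectionsLoc
import Fermat.Agent.S34.ValCrit
import Fermat.Agent.S35.EsOrd

/-!
# S35 (Route C, package (C3b)): the places of the correspondence fibres at a node

Chart currency (`S34.SectionsLoc.Through`): `ψ : B →+* F` a chart of the function field of level
`M' q` over `K = ℚ̄`, `ψ' : B' →+* F'` a chart of level `M'`, `αB βB : B' →+* B` the two
degeneracy maps on the charts (`ψ ∘ αB = α ∘ ψ'`, `ψ ∘ βB = β ∘ ψ'`), `B` integral over both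
images.  `𝔫`, `𝔫₀` are two points of `B`.

* `through_restrict` : the restriction along `α` of a place through `𝔫` passes through
  `𝔫.comap αB`;
* `through_of_fibre` : if `𝔫₀` is the only closed point `𝔫'` with `βB⁻¹ 𝔫' = αB⁻¹ 𝔫`, then
  every place `P` with `P ∘ β = Q ∘ α`, `Q` through `𝔫`, passes through `𝔫₀` (going-up; no
  rationality of `P` is needed);
* `through_smul`, `through_inv_smul`, `through_algEquiv_inv` : transport of the places through a
  point by a semilinear automorphism / an automorphism acting on the chart and moving the point;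
* `ord_esBar_eq_zero_of_through` : the five class hypotheses of `EsOrd.ord_esBar_eq_zero`
  discharged at a node: if `y` has no horizontal divisor through `𝔫₀`, then `esBar y` has none
  through `𝔫`.
-/

set_option autoImplicit false

noncomputable section

namespace Fermat.Agent.S35.EsFibre

open AlgebraicCurve Fermat.Agent.S34.SectionsLoc Fermat.Agent.S37.GaloisValue

/-! ### Restriction of places along a map of function fields -/

section Restrict

variable {K F F' : Type*} [Field K] [Field F] [Field F'] [Algebra K F] [Algebra K F']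

theorem mem_restrictAlong_iff (φ : F' →ₐ[K] F) (hφ : φ.toRingHom.IsIntegral) (P : Place K F)
    (x : F') : x ∈ (P.restrictAlong φ hφ).toValuationSubring ↔ φ x ∈ P.toValuationSubring :=
  Iff.rfl

theorem mem_nonunits_restrictAlong_iff (φ : F' →ₐ[K] F) (hφ : φ.toRingHom.IsIntegral)
    (P : Place K F) (x : F') :
    x ∈ (P.restrictAlong φ hφ).toValuationSubring.nonunits ↔
      φ x ∈ P.toValuationSubring.nonunits := by
  rw [mem_nonunits_iff_inv_notMem, mem_nonunits_iff_inv_notMem, mem_restrictAlong_iff,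
    map_inv₀, map_eq_zero]

end Restrict

/-! ### Transport of the places through a point -/

section Transport

variable {K F : Type*} [Field K] [Field F] [Algebra K F]
  {B : Type*} [CommRing B] {ψ : B →+* F}

/-- Transport by a semilinear automorphism acting on the chart and carrying `𝔫` into `𝔫'`. -/
theorem through_smul (g : SemilinearAut K F) (τB : B ≃+* B)
    (hτψ : ∀ y : B, ψ (τB y) = g • ψ y) {𝔫 𝔫' : Ideal B} (h : ∀ y ∈ 𝔫, τB y ∈ 𝔫')
    {Q : Place K F} (hQ : Through ψ 𝔫 Q) : Through ψ 𝔫' (g • Q) := by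
  have key : ∀ y : B, ψ y = g • ψ (τB.symm y) := by
    intro y
    rw [← hτψ, RingEquiv.apply_symm_apply]
  refine ⟨fun y => ?_, fun y hy => ?_⟩
  · rw [key y, smul_mem_smul_place_iff]
    exact hQ.1 _
  · rw [key y, smul_mem_nonunits_smul_place_iff] at hy
    have := h _ (hQ.2 _ hy)
    rwa [RingEquiv.apply_symm_apply] at this

/-- Transport by the inverse of a semilinear automorphism. -/
theorem through_inv_smul (g : SemilinearAut K F) (τB : B ≃+* B)
    (hτψ : ∀ y : B, ψ (τB y) = g • ψ y) {𝔫 𝔫' : Ideal B} (h : ∀ y ∈ 𝔫, τB.symm y ∈ 𝔫')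
    {Q : Place K F} (hQ : Through ψ 𝔫 Q) : Through ψ 𝔫' (g⁻¹ • Q) := by
  have hτψ' : ∀ y : B, ψ (τB.symm y) = g⁻¹ • ψ y := by
    intro y
    have h1 := hτψ (τB.symm y)
    rw [RingEquiv.apply_symm_apply] at h1
    rw [h1, inv_smul_smul]
  exact through_smul g⁻¹ τB.symm hτψ' h hQ

theorem mem_algEquiv_inv_smul_iff (w : F ≃ₐ[K] F) (Q : Place K F) (x : F) :
    x ∈ (w⁻¹ • Q).toValuationSubring ↔ w x ∈ Q.toValuationSubring := by
  rw [Place.smul_toValuationSubring, ValuationSubring.mem_pointwise_smul_iff_inv_smul_mem,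
    inv_inv, AlgEquiv.smul_def]

theorem mem_nonunits_algEquiv_inv_smul_iff (w : F ≃ₐ[K] F) (Q : Place K F) (x : F) :
    x ∈ (w⁻¹ • Q).toValuationSubring.nonunits ↔ w x ∈ Q.toValuationSubring.nonunits := by
  rw [mem_nonunits_iff_inv_notMem, mem_nonunits_iff_inv_notMem, mem_algEquiv_inv_smul_iff,
    map_inv₀, map_eq_zero]

/-- Transport by the inverse of an automorphism of `F / K` acting on the chart: if
`wB⁻¹ 𝔫 ⊆ 𝔫'`, the places `w⁻¹ • Q`, `Q` through `𝔫`, pass through `𝔫'`. -/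
theorem through_algEquiv_inv (w : F ≃ₐ[K] F) (wB : B →+* B)
    (hwψ : ∀ y : B, ψ (wB y) = w (ψ y)) {𝔫 𝔫' : Ideal B} (h : ∀ y : B, wB y ∈ 𝔫 → y ∈ 𝔫')
    {Q : Place K F} (hQ : Through ψ 𝔫 Q) : Through ψ 𝔫' (w⁻¹ • Q) := by
  refine ⟨fun y => ?_, fun y hy => ?_⟩
  · rw [mem_algEquiv_inv_smul_iff, ← hwψ]
    exact hQ.1 _
  · rw [mem_nonunits_algEquiv_inv_smul_iff, ← hwψ] at hy
    exact h y (hQ.2 _ hy)

end Transport

/-! ### The correspondence fibres -/

section Fibre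

variable {K F F' : Type*} [Field K] [Field F] [Field F'] [Algebra K F] [Algebra K F']
  {B B' : Type*} [CommRing B] [CommRing B']
  (α β : F' →ₐ[K] F) (hα : α.toRingHom.IsIntegral) (hβ : β.toRingHom.IsIntegral)
  (ψ : B →+* F) (ψ' : B' →+* F') (αB βB : B' →+* B)

/-- The restriction along `α` of a place through `𝔫` passes through `αB⁻¹ 𝔫`. -/
theorem through_restrict (hαψ : ∀ b : B', ψ (αB b) = α (ψ' b)) {𝔫 : Ideal B} {Q : Place K F}
    (hQ : Through ψ 𝔫 Q) : Through ψ' (𝔫.comap αB) (Q.restrictAlong α hα) := by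
  refine ⟨fun b => ?_, fun b hb => ?_⟩
  · rw [mem_restrictAlong_iff, ← hαψ]
    exact hQ.1 _
  · rw [mem_nonunits_restrictAlong_iff, ← hαψ] at hb
    exact Ideal.mem_comap.mpr (hQ.2 _ hb)

/-- **The fibre of the correspondence at a point.**  If `𝔫₀` is the only closed point `𝔫'` of
the chart with `βB⁻¹ 𝔫' = αB⁻¹ 𝔫`, then every place `P` with `P ∘ β = Q ∘ α`, `Q` through `𝔫`,
passes through `𝔫₀`. -/
theorem through_of_fibre (hαψ : ∀ b : B', ψ (αB b) = α (ψ' b))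
    (hβψ : ∀ b : B', ψ (βB b) = β (ψ' b)) (hαint : αB.IsIntegral) (hβint : βB.IsIntegral)
    (𝔫 𝔫₀ : Ideal B) [h𝔫 : 𝔫.IsMaximal]
    (hc : ∀ 𝔫' : Ideal B, 𝔫'.IsMaximal → 𝔫'.comap βB = 𝔫.comap αB → 𝔫' = 𝔫₀)
    {Q P : Place K F} (hQ : Through ψ 𝔫 Q)
    (hPQ : P.restrictAlong β hβ = Q.restrictAlong α hα) : Through ψ 𝔫₀ P := by
  have hQ' := through_restrict α hα ψ ψ' αB hαψ hQ
  rw [← hPQ] at hQ'
  -- the chart functions are regular at `P`
  have h1 : ∀ b' : B', (ψ.comp βB) b' ∈ P.toValuationSubring := fun b' => by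
    rw [RingHom.comp_apply, hβψ]
    exact (mem_restrictAlong_iff β hβ P _).mp (hQ'.1 b')
  have h2 : ∀ b : B, ψ b ∈ P.toValuationSubring := by
    intro b
    refine Fermat.Agent.S34.ValCrit.mem_of_isIntegralElem P.toValuationSubring (ψ.comp βB) h1 ?_
    obtain ⟨p, hp, hroot⟩ := hβint b
    refine ⟨p, hp, ?_⟩
    rw [← Polynomial.hom_eval₂, hroot, map_zero]
  -- the centre of `P` on the chart
  let ψP : B →+* P.toValuationSubring := ψ.codRestrict P.toValuationSubring h2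
  let 𝔮 : Ideal B := (IsLocalRing.maximalIdeal P.toValuationSubring).comap ψP
  have h𝔮 : ∀ b : B, b ∈ 𝔮 ↔ ψ b ∈ P.toValuationSubring.nonunits := by
    intro b
    rw [ValuationSubring.mem_nonunits_iff_exists_mem_maximalIdeal]
    constructor
    · intro hb
      exact ⟨h2 b, hb⟩
    · rintro ⟨_, hb⟩
      exact hb
  have h5 : 𝔮.comap βB ≤ 𝔫.comap αB := by
    intro b' hb'
    have h6 : ψ (βB b') ∈ P.toValuationSubring.nonunits := (h𝔮 _).mp (Ideal.mem_comap.mp hb')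
    rw [hβψ] at h6
    exact hQ'.2 b' ((mem_nonunits_restrictAlong_iff β hβ P _).mpr h6)
  have hmax : (𝔫.comap αB).IsMaximal :=
    Ideal.isMaximal_comap_of_isIntegral_of_isMaximal' αB hαint 𝔫
  obtain ⟨𝔫', h𝔫'ge, h𝔫'prime, h𝔫'comap⟩ :
      ∃ 𝔫' ≥ 𝔮, 𝔫'.IsPrime ∧ 𝔫'.comap βB = 𝔫.comap αB := by
    letI : Algebra B' B := βB.toAlgebra
    haveI : Algebra.IsIntegral B' B := ⟨hβint⟩
    exact Ideal.exists_ideal_over_prime_of_isIntegral (𝔫.comap αB) 𝔮 h5
  have h𝔫'max : 𝔫'.IsMaximal :=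
    Ideal.isMaximal_of_isIntegral_of_isMaximal_comap' βB hβint 𝔫' (h𝔫'comap ▸ hmax)
  have he : 𝔫' = 𝔫₀ := hc 𝔫' h𝔫'max h𝔫'comap
  exact ⟨h2, fun b hb => he ▸ h𝔫'ge ((h𝔮 b).mpr hb)⟩

end Fibre

/-! ### The Eichler–Shimura operator at a node -/

section Node

variable {K F F' : Type*} [Field K] [Field F] [Field F'] [Algebra K F] [Algebra K F']
  [HasPrincipalDivisors K F]
  {B B' : Type*} [CommRing B] [CommRing B']
  (g : SemilinearAut K F) (w : F ≃ₐ[K] F) (α β : F' →ₐ[K] F) (q : ℕ)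
  (hα : α.toRingHom.IsIntegral) (hβ : β.toRingHom.IsIntegral)
  (ψ : B →+* F) (ψ' : B' →+* F') (αB βB : B' →+* B)

/-- **No horizontal divisor of `esBar y` through a node `𝔫`** if `y` has none through
`𝔫₀ = σ⁻¹ 𝔫 = σ 𝔫 = w 𝔫`.  Hypotheses on the points: `σB`, `σB⁻¹` and `wB⁻¹` carry `𝔫` into
`𝔫₀` (`ha₁`, `ha₂`, `hb`), and `𝔫₀` is the only closed point in the two correspondence fibres
of `𝔫` (`hc₁`, `hc₂`). -/
theorem ord_esBar_eq_zero_of_through
    (hNα : EsOrd.NormOrd α hα) (hNβ : EsOrd.NormOrd β hβ)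
    (hαψ : ∀ b : B', ψ (αB b) = α (ψ' b)) (hβψ : ∀ b : B', ψ (βB b) = β (ψ' b))
    (hαint : αB.IsIntegral) (hβint : βB.IsIntegral)
    (σB : B ≃+* B) (hσψ : ∀ y : B, ψ (σB y) = g • ψ y)
    (wB : B →+* B) (hwψ : ∀ y : B, ψ (wB y) = w (ψ y))
    (𝔫 𝔫₀ : Ideal B) [h𝔫 : 𝔫.IsMaximal]
    (ha₁ : ∀ y ∈ 𝔫, σB y ∈ 𝔫₀) (ha₂ : ∀ y ∈ 𝔫, σB.symm y ∈ 𝔫₀)
    (hb : ∀ y : B, wB y ∈ 𝔫 → y ∈ 𝔫₀)
    (hc₁ : ∀ 𝔫' : Ideal B, 𝔫'.IsMaximal → 𝔫'.comap βB = 𝔫.comap αB → 𝔫' = 𝔫₀)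
    (hc₂ : ∀ 𝔫' : Ideal B, 𝔫'.IsMaximal → 𝔫'.comap αB = 𝔫.comap βB → 𝔫' = 𝔫₀)
    {Q : Place K F} (hQ : Through ψ 𝔫 Q) {y : F} (hy : y ≠ 0)
    (hy₀ : ∀ P : Place K F, Through ψ 𝔫₀ P → P.ord y = 0) :
    Q.ord (EsOrd.esBar g w α β q y) = 0 :=
  EsOrd.ord_esBar_eq_zero g w α β q hα hβ hNα hNβ (Through ψ 𝔫₀) Q
    (through_inv_smul g σB hσψ ha₂ hQ) (through_smul g σB hσψ ha₁ hQ)
    (through_algEquiv_inv w wB hwψ hb hQ)
    (fun _ hP => through_of_fibre α β hα hβ ψ ψ' αB βB hαψ hβψ hαint hβint 𝔫 𝔫₀ hc₁ hQ hP)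
    (fun _ hP => through_of_fibre β α hβ hα ψ ψ' βB αB hβψ hαψ hβint hαint 𝔫 𝔫₀ hc₂ hQ hP)
    hy hy₀

end Node

end Fermat.Agent.S35.EsFibre
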