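import Mathlib
import Fermat.Agent.S35.EsCoreT
import Fermat.Agent.S35.EsRat
import Fermat.Agent.S35.DegInt
import Fermat.Agent.S34.GLoc
import Fermat.Agent.S34.KLocFin
import Fermat.Agent.S35.EsGaussInst

/-!
# S35 (Route C): the local contract of the Eichler–Shimura descent on the finite chart

`esLocT₁_of_closure`: `EsCoreT.EsLocT₁` from the local datum on the carriers of the finite chart
in the `IsIntegralClosure B W[X] F` shape (`algebraMap W[X] F = evF W (M q)`).
-/

set_option autoImplicit false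
set_option linter.unusedSectionVars false
set_option linter.unusedVariables false
set_option linter.style.haveILetI false

noncomputable section

namespace Fermat.Agent.S35.EsLoc1

open Polynomial ModularCurve AlgebraicCurve Fermat.Agent.S18 Fermat.Agent.S18.Endgame
  Fermat.Agent.S37
open Fermat.Agent.S34 Fermat.Agent.S34.KummerStep Fermat.Agent.S34.GDescent
open Fermat.Agent.S35.EsCore Fermat.Agent.S35.EsCoreT

local notation "Qb" => AlgebraicClosure ℚ

section Reduction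

variable (M q p : ℕ) [NeZero M] [NeZero q]

set_option maxHeartbeats 800000 in
/-- **`EsCoreT.EsLocT₁` from the local datum on the carriers of the finite chart** in the
`IsIntegralClosure` shape; the hypothesis is used at the canonical carrier
`integralClosure W[X] F`. -/
theorem esLocT₁_of_closure (E : LevelOp (M * q)) (A : ValuationSubring Qb) (σ : Qb ≃ₐ[ℚ] Qb)
    (hK : ∀ (n : ℕ) (D : Divisor Qb (modularFunctionFieldBar (M * q)))
      (f : modularFunctionFieldBar (M * q)), f ≠ 0 →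
      (∀ P : Place Qb (modularFunctionFieldBar (M * q)), P.ord f = (p : ℤ) ^ n * D P) →
      ∃ (S₀ : Finset Qb) (T : Finset (Place Qb (modularFunctionFieldBar (M * q)))),
        ∀ (L : Type) [Field L] [Algebra ℚ L] (ι : L →+* Qb),
        LevelChange.IsLevel A q S₀ ι → GalLevel.IsStable ι →
        ∀ fL : S24.FF L (M * q),
          S24.CoeffBC.bc ι (modularFunctionFieldFull (M * q)) fL = f →
        (∀ P ∈ T, RatAtLevel (M * q) ι P) →
        ∀ ϖ : ↥(A.comap ι), Irreducible ϖ →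
        ∀ s : L ≃+* L, (∀ c : L, ι (s c) = σ (ι c)) →
        ∀ w : S24.FF L (M * q) ≃ₐ[L] S24.FF L (M * q),
          (w : S24.FF L (M * q) →ₐ[L] S24.FF L (M * q)).comp (heckeAlphaBar L M q) =
            heckeBetaBar L M q →
          (w : S24.FF L (M * q) →ₐ[L] S24.FF L (M * q)).comp (heckeBetaBar L M q) =
            heckeAlphaBar L M q →
        ∀ [Algebra (↥(A.comap ι))[X] (S24.FF L (M * q))],
          algebraMap (↥(A.comap ι))[X] (S24.FF L (M * q)) = Gauss.evF (A.comap ι) (M * q) →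
        ∀ (B : Type) [CommRing B] [Algebra (↥(A.comap ι))[X] B] [Algebra B (S24.FF L (M * q))]
          [IsScalarTower (↥(A.comap ι))[X] B (S24.FF L (M * q))]
          [IsIntegralClosure B (↥(A.comap ι))[X] (S24.FF L (M * q))]
          (𝔪 : Ideal B), 𝔪.IsMaximal → algebraMap (↥(A.comap ι))[X] B (C ϖ) ∈ 𝔪 →
          ∃ g : S24.FF L (M * q), GaussOne ϖ (S24.jBC L (M * q)) g ∧ ∃ d : B, d ∉ 𝔪 ∧
            ∃ t : B, algebraMap B (S24.FF L (M * q)) t =
              algebraMap B (S24.FF L (M * q)) d *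
                (E L s w (DDGauss.dd (M * q) (s.trans s) fL) * g ^ (p ^ n))) :
    EsLocT₁ M q p E A σ := by
  intro n D f hf hD
  obtain ⟨S₀, T, hS₀⟩ := hK n D f hf hD
  refine ⟨S₀, T, ?_⟩
  intro L _ _ ι hlev hst fL hfL hrat ϖ hϖ s hs w hwα hwβ
  letI : Algebra (↥(A.comap ι))[X] (S24.FF L (M * q)) :=
    (Gauss.evF (A.comap ι) (M * q)).toAlgebra
  exact GLoc.hloc_fin_of_closure (A.comap ι) (M * q) rfl
    ↥(integralClosure (↥(A.comap ι))[X] (S24.FF L (M * q))) ϖ
    (fun g => GaussOne ϖ (S24.jBC L (M * q)) g)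
    (fun g => E L s w (DDGauss.dd (M * q) (s.trans s) fL) * g ^ (p ^ n))
    (fun 𝔪 h𝔪 hC => hS₀ L ι hlev hst fL hfL hrat ϖ hϖ s hs w hwα hwβ rfl
      ↥(integralClosure (↥(A.comap ι))[X] (S24.FF L (M * q))) 𝔪 h𝔪 hC)

end Reduction

section Cases

variable (M q p : ℕ) [NeZero M] [NeZero q]

/-- **The four facts about `w₀ = ES ((σ² - 1)² fL)`** at all large levels (contract shape):
nonzero, `≡ 1` on the Gauss ring, divisor over `ℚ̄` supported at rational places and divisible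
by `p ^ n`. -/
def W0Facts (A : ValuationSubring Qb) (σ : Qb ≃ₐ[ℚ] Qb) : Prop :=
  ∀ (n : ℕ) (D : Divisor Qb (modularFunctionFieldBar (M * q)))
    (f : modularFunctionFieldBar (M * q)), f ≠ 0 →
    (∀ P : Place Qb (modularFunctionFieldBar (M * q)), P.ord f = (p : ℤ) ^ n * D P) →
    ∃ S₀ : Finset Qb, ∀ (L : Type) [Field L] [Algebra ℚ L] (ι : L →+* Qb),
      LevelChange.IsLevel A q S₀ ι →
      ∀ fL : S24.FF L (M * q),
        S24.CoeffBC.bc ι (modularFunctionFieldFull (M * q)) fL = f →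
      ∀ ϖ : ↥(A.comap ι), Irreducible ϖ →
      ∀ s : L ≃+* L, (∀ c : L, ι (s c) = σ (ι c)) →
      ∀ w : S24.FF L (M * q) ≃ₐ[L] S24.FF L (M * q),
        (w : S24.FF L (M * q) →ₐ[L] S24.FF L (M * q)).comp (heckeAlphaBar L M q) =
          heckeBetaBar L M q →
        (w : S24.FF L (M * q) →ₐ[L] S24.FF L (M * q)).comp (heckeBetaBar L M q) =
          heckeAlphaBar L M q →
      EsOp.esL M q s w (DDGauss.dd (M * q) (s.trans s) fL) ≠ 0 ∧
      GaussOne ϖ (S24.jBC L (M * q)) (EsOp.esL M q s w (DDGauss.dd (M * q) (s.trans s) fL)) ∧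
      (∀ Q : Place Qb (modularFunctionFieldBar (M * q)),
        Q.ord (S24.CoeffBC.bc ι (modularFunctionFieldFull (M * q))
          (EsOp.esL M q s w (DDGauss.dd (M * q) (s.trans s) fL))) ≠ 0 →
        RatAtLevel (M * q) ι Q) ∧
      (∀ Q : Place Qb (modularFunctionFieldBar (M * q)),
        ((p : ℤ) ^ n) ∣ Q.ord (S24.CoeffBC.bc ι (modularFunctionFieldFull (M * q))
          (EsOp.esL M q s w (DDGauss.dd (M * q) (s.trans s) fL))))

/-- **The smooth-point lemma on the finite chart** (package (C4)), contract shape: for an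
arbitrary `w₀ ≡ 1` on the Gauss ring whose divisor over `ℚ̄` is divisible by `p ^ n` and
supported at places rational at the level, at a maximal ideal `𝔪 ∋ π` of a carrier whose local
ring has maximal ideal `(π, u)`. -/
def FinSmooth (A : ValuationSubring Qb) : Prop :=
  ∀ (L : Type) [Field L] [Algebra ℚ L] (ι : L →+* Qb) (S₀ : Finset Qb),
    LevelChange.IsLevel A q S₀ ι → GalLevel.IsStable ι →
    ∀ ϖ : ↥(A.comap ι), Irreducible ϖ →
    ∀ w : S24.FF L (M * q) ≃ₐ[L] S24.FF L (M * q),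
      (w : S24.FF L (M * q) →ₐ[L] S24.FF L (M * q)).comp (heckeAlphaBar L M q) =
        heckeBetaBar L M q →
      (w : S24.FF L (M * q) →ₐ[L] S24.FF L (M * q)).comp (heckeBetaBar L M q) =
        heckeAlphaBar L M q →
    ∀ [Algebra (↥(A.comap ι))[X] (S24.FF L (M * q))],
      algebraMap (↥(A.comap ι))[X] (S24.FF L (M * q)) = Gauss.evF (A.comap ι) (M * q) →
    ∀ (B : Type) [CommRing B] [Algebra (↥(A.comap ι))[X] B] [Algebra B (S24.FF L (M * q))]
      [IsScalarTower (↥(A.comap ι))[X] B (S24.FF L (M * q))]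
      [IsIntegralClosure B (↥(A.comap ι))[X] (S24.FF L (M * q))]
      (𝔪 : Ideal B) [𝔪.IsMaximal], algebraMap (↥(A.comap ι))[X] B (C ϖ) ∈ 𝔪 →
      (∃ u ∈ 𝔪, IsLocalRing.maximalIdeal (Localization.AtPrime 𝔪) =
        Ideal.span {algebraMap B (Localization.AtPrime 𝔪)
          (algebraMap (↥(A.comap ι))[X] B (C ϖ)), algebraMap B (Localization.AtPrime 𝔪) u}) →
    ∀ (n : ℕ) (w₀ : S24.FF L (M * q)), w₀ ≠ 0 → GaussOne ϖ (S24.jBC L (M * q)) w₀ →
      (∀ Q : Place Qb (modularFunctionFieldBar (M * q)),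
        Q.ord (S24.CoeffBC.bc ι (modularFunctionFieldFull (M * q)) w₀) ≠ 0 →
        RatAtLevel (M * q) ι Q) →
      (∀ Q : Place Qb (modularFunctionFieldBar (M * q)),
        ((p : ℤ) ^ n) ∣ Q.ord (S24.CoeffBC.bc ι (modularFunctionFieldFull (M * q)) w₀)) →
      ∃ g : S24.FF L (M * q), GaussOne ϖ (S24.jBC L (M * q)) g ∧ ∃ d : B, d ∉ 𝔪 ∧
        ∃ t : B, algebraMap B (S24.FF L (M * q)) t =
          algebraMap B (S24.FF L (M * q)) d * (w₀ * g ^ (p ^ n))

/-- **The node clause on the finite chart** (package (C3)), contract shape: at every maximal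
ideal `𝔪 ∋ π` of a carrier, either the smooth alternative holds or the local datum of
`ES ((σ² - 1)² fL)` exists. -/
def NodeOrSmooth (A : ValuationSubring Qb) (σ : Qb ≃ₐ[ℚ] Qb) : Prop :=
  ∀ (n : ℕ) (D : Divisor Qb (modularFunctionFieldBar (M * q)))
    (f : modularFunctionFieldBar (M * q)), f ≠ 0 →
    (∀ P : Place Qb (modularFunctionFieldBar (M * q)), P.ord f = (p : ℤ) ^ n * D P) →
    ∃ S₀ : Finset Qb, ∀ (L : Type) [Field L] [Algebra ℚ L] (ι : L →+* Qb),
      LevelChange.IsLevel A q S₀ ι → GalLevel.IsStable ι →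
      ∀ fL : S24.FF L (M * q),
        S24.CoeffBC.bc ι (modularFunctionFieldFull (M * q)) fL = f →
      (∀ P : Place Qb (modularFunctionFieldBar (M * q)), D P ≠ 0 → RatAtLevel (M * q) ι P) →
      ∀ ϖ : ↥(A.comap ι), Irreducible ϖ →
      ∀ s : L ≃+* L, (∀ c : L, ι (s c) = σ (ι c)) →
      ∀ w : S24.FF L (M * q) ≃ₐ[L] S24.FF L (M * q),
        (w : S24.FF L (M * q) →ₐ[L] S24.FF L (M * q)).comp (heckeAlphaBar L M q) =
          heckeBetaBar L M q →
        (w : S24.FF L (M * q) →ₐ[L] S24.FF L (M * q)).comp (heckeBetaBar L M q) =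
          heckeAlphaBar L M q →
      ∀ [Algebra (↥(A.comap ι))[X] (S24.FF L (M * q))],
        algebraMap (↥(A.comap ι))[X] (S24.FF L (M * q)) = Gauss.evF (A.comap ι) (M * q) →
      ∀ (B : Type) [CommRing B] [Algebra (↥(A.comap ι))[X] B] [Algebra B (S24.FF L (M * q))]
        [IsScalarTower (↥(A.comap ι))[X] B (S24.FF L (M * q))]
        [IsIntegralClosure B (↥(A.comap ι))[X] (S24.FF L (M * q))]
        (𝔪 : Ideal B) [𝔪.IsMaximal], algebraMap (↥(A.comap ι))[X] B (C ϖ) ∈ 𝔪 →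
        (∃ u ∈ 𝔪, IsLocalRing.maximalIdeal (Localization.AtPrime 𝔪) =
          Ideal.span {algebraMap B (Localization.AtPrime 𝔪)
            (algebraMap (↥(A.comap ι))[X] B (C ϖ)), algebraMap B (Localization.AtPrime 𝔪) u}) ∨
        ∃ g : S24.FF L (M * q), GaussOne ϖ (S24.jBC L (M * q)) g ∧ ∃ d : B, d ∉ 𝔪 ∧
          ∃ t : B, algebraMap B (S24.FF L (M * q)) t =
            algebraMap B (S24.FF L (M * q)) d *
              (EsOp.esL M q s w (DDGauss.dd (M * q) (s.trans s) fL) * g ^ (p ^ n))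

set_option maxHeartbeats 800000 in
/-- **(EsLoc₁) from the node clause, the smooth-point lemma and the facts about `w₀`.** -/
theorem esLocT₁_of_cases (A : ValuationSubring Qb) (σ : Qb ≃ₐ[ℚ] Qb)
    (hW0 : W0Facts M q p A σ) (hSM : FinSmooth M q p A) (hND : NodeOrSmooth M q p A σ) :
    EsLocT₁ M q p (EsGaussInst.esOp M q) A σ := by
  classical
  refine esLocT₁_of_closure M q p (EsGaussInst.esOp M q) A σ ?_
  intro n D f hf hD
  obtain ⟨S₁, hS₁⟩ := hW0 n D f hf hD
  obtain ⟨S₂, hS₂⟩ := hND n D f hf hD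
  refine ⟨S₁ ∪ S₂, D.support, ?_⟩
  intro L _ _ ι hlev hst fL hfL hrat ϖ hϖ s hs w hwα hwβ _ halg B _ _ _ _ _ 𝔪 h𝔪 hC
  have hl₁ : LevelChange.IsLevel A q S₁ ι := GalLevel.isLevel_mono hlev Finset.subset_union_left
  have hl₂ : LevelChange.IsLevel A q S₂ ι := GalLevel.isLevel_mono hlev Finset.subset_union_right
  haveI := h𝔪
  obtain ⟨hw0, hG, hratw, hdvd⟩ := hS₁ L ι hl₁ fL hfL ϖ hϖ s hs w hwα hwβ
  rcases hS₂ L ι hl₂ hst fL hfL (fun P hP => hrat P (Finsupp.mem_support_iff.mpr hP)) ϖ hϖ s hs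
    w hwα hwβ halg B 𝔪 hC with hsm | hnode
  · exact hSM L ι (S₁ ∪ S₂) hlev hst ϖ hϖ w hwα hwβ halg B 𝔪 hC hsm n _ hw0 hG hratw hdvd
  · exact hnode

end Cases

end Fermat.Agent.S35.EsLoc1
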