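import Mathlib
import Fermat.Agent.S34.KLoc

/-!
# S35 (Route C, package (C3c)): the local datum of the Kummer step at a node, chart-generic

Setting of `S34.KLoc`: a chart `B` of the level function field `FL` (`φ : B →+* FL`,
`bcF : FL →+* F` the coefficient extension to `ℚ̄`), two points `𝔫₀`, `𝔫` of its special fibre.
`τL` is an automorphism of the level (the square of a Frobenius lift) whose chart action fixes
`𝔫₀`, and `E : FL → FL` is a multiplicative operator (the Eichler–Shimura operator `ES_L`) such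
that

* (`hEord`) `E y` has no horizontal divisor through `𝔫` as soon as `y` has none through `𝔫₀`
  (`EsOrd.ord_esBar_eq_zero` + the fibre statements at the node `𝔫`, `𝔫₀ = σ⁻¹ 𝔫`);
* (`hE₁`, `hE₂`) `E y` is regular at the two vertical primes (Claim R).

`es_node`: for `div f = p ^ n • D` with rational support there is `h ≠ 0` in `FL` such that, with
`dd x = τL (τL x) * x / (τL x) ^ 2`, the function `E (dd f) * (E (dd h))⁻¹ ^ (p ^ n)` is regular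
at `𝔫`: `d * (E (dd f) * (E (dd h))⁻¹ ^ (p ^ n)) ∈ B` for some `d ∉ 𝔫`.  This is the `hloc`
clause of `KummerIndCusp.kummer_descent_cusp` for `w := E (dd f)`, `g := (E (dd h))⁻¹`.

Proof: `KLoc.kloc_ord` at `𝔫₀` (the local equation of the double difference; it needs only the
`τ`-stable class of `𝔫₀`), then `hEord`, then local Hartogs at `𝔫`.
-/

set_option autoImplicit false
set_option linter.unusedSectionVars false
set_option linter.unusedVariables false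

noncomputable section

namespace Fermat.Agent.S35.EsNode

open AlgebraicCurve Fermat.Agent.S37.GaloisValue Fermat.Agent.S37.WChart
open Fermat.Agent.S34 Fermat.Agent.S34.Sections Fermat.Agent.S34.SectionsLoc

variable {FL : Type*} [Field FL]

/-- the double difference -/
def dd (τL : FL ≃+* FL) (x : FL) : FL := τL (τL x) * x / (τL x) ^ 2

theorem dd_ne_zero (τL : FL ≃+* FL) {x : FL} (hx : x ≠ 0) : dd τL x ≠ 0 :=
  div_ne_zero (mul_ne_zero ((map_ne_zero τL).mpr ((map_ne_zero τL).mpr hx)) hx)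
    (pow_ne_zero 2 ((map_ne_zero τL).mpr hx))

/-- the double difference of `f / h ^ m` -/
theorem dd_div_pow (τL : FL ≃+* FL) (f h : FL) (hf : f ≠ 0) (hh : h ≠ 0) (m : ℕ) :
    dd τL (f / h ^ m) = dd τL f / dd τL h ^ m := by
  have h1 := KLoc.dd_div_pow τL f h hf hh m
  have h2 : dd τL h ^ m ≠ 0 := pow_ne_zero m (dd_ne_zero τL hh)
  rw [eq_div_iff h2]
  exact h1

section Main

variable {K F L : Type*} [Field K] [Field F] [Algebra K F] [Field L]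
  [Algebra L FL]
  (A : ValuationSubring K) (ι : L →+* K) (W : ValuationSubring L) (bcF : FL →+* F)
  {B : Type*} [CommRing B] [IsDomain B] [IsNoetherianRing B] [IsIntegrallyClosed B]
  [Algebra W B] (φ : B →+* FL)

/-- **The local datum at a node for a multiplicative operator `E`**, chart-generic. -/
theorem es_node
    (hWA : ∀ x : L, x ∈ W ↔ ι x ∈ A)
    (hφ : Function.Injective φ)
    (hφW : ∀ w : W, bcF (φ (algebraMap W B w)) = algebraMap K F (ι w))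
    (hfrac : ∀ x : FL, ∃ y₁ y₂ : B, y₂ ≠ 0 ∧ x * φ y₂ = φ y₁)
    (ϖ : W) (hϖ0 : ϖ ≠ 0) (hW : ∀ w : W, IsUnit w ∨ ϖ ∣ w)
    (hsep : ∀ w : W, w ≠ 0 → ∃ n : ℕ, ¬ ϖ ^ n ∣ w)
    (hext : ∀ 𝔮 : Ideal B, 𝔮.IsPrime → 𝔮 ≠ ⊥ → algebraMap W B ϖ ∉ 𝔮 →
      ∃ P : Place K F, ∀ y : B, bcF (φ y) ∈ P.toValuationSubring ∧
        (y ∈ 𝔮 ↔ IsValueAt P (bcF (φ y)) 0))
    -- the automorphism (the square of the Frobenius lift) and the point `𝔫₀` it fixes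
    (g : SemilinearAut K F) (τL : FL ≃+* FL) (hτ : ∀ x : FL, bcF (τL x) = g • bcF x)
    (τB : B ≃+* B) (hτB : ∀ y : B, φ (τB y) = τL (φ y))
    (𝔫₀ : Ideal B) [h𝔫₀max : 𝔫₀.IsMaximal] (hϖ𝔫₀ : algebraMap W B ϖ ∈ 𝔫₀)
    (hτ𝔫₀ : ∀ y : B, τB y ∈ 𝔫₀ ↔ y ∈ 𝔫₀)
    (hstruct : (∃ u : Localization.AtPrime 𝔫₀,
        IsLocalRing.maximalIdeal (Localization.AtPrime 𝔫₀) =
          Ideal.span {algebraMap W (Localization.AtPrime 𝔫₀) ϖ, u}) ∨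
      ∃ X Y : Localization.AtPrime 𝔫₀,
        IsLocalRing.maximalIdeal (Localization.AtPrime 𝔫₀) =
          Ideal.span {algebraMap W (Localization.AtPrime 𝔫₀) ϖ, X, Y} ∧
        algebraMap W (Localization.AtPrime 𝔫₀) ϖ ∣ X * Y)
    (D : Divisor K F)
    (hrat : ∀ P : Place K F, D P ≠ 0 → RatAt ι bcF P)
    (hratg : ∀ P : Place K F, RatAt ι bcF P → RatAt ι bcF (g • P))
    (p n : ℕ) (f : FL) (hf0 : f ≠ 0)
    (hf : ∀ P : Place K F, P.ord (bcF f) = (p : ℤ) ^ n * D P)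
    -- the operator
    (E : FL → FL) (hE0 : ∀ y : FL, y ≠ 0 → E y ≠ 0)
    (hEdiv : ∀ x γ : FL, γ ≠ 0 → ∀ m : ℕ, E (x / γ ^ m) = E x * (E γ)⁻¹ ^ m)
    -- the point `𝔫`
    (𝔫 : Ideal B) [h𝔫max : 𝔫.IsMaximal]
    (hEord : ∀ y : FL, y ≠ 0 →
      (∀ P : Place K F, Through (bcF.comp φ) 𝔫₀ P → P.ord (bcF y) = 0) →
      ∀ Q : Place K F, Through (bcF.comp φ) 𝔫 Q → Q.ord (bcF (E y)) = 0)
    -- the vertical primes
    (𝔭₁ 𝔭₂ : Ideal B) [h𝔭₁ : 𝔭₁.IsPrime] [h𝔭₂ : 𝔭₂.IsPrime]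
    (hϖ₁ : algebraMap W B ϖ ∈ 𝔭₁) (hϖ₂ : algebraMap W B ϖ ∈ 𝔭₂)
    (hS1 : 𝔭₁ ⊓ 𝔭₂ ≤ Ideal.span {algebraMap W B ϖ})
    (O₁ M₁ O₂ M₂ : Set FL)
    (hMO₁ : ∀ m ∈ M₁, ∀ o ∈ O₁, m * o ∈ M₁) (hM₁ : ∀ y : B, φ y ∈ M₁ ↔ y ∈ 𝔭₁)
    (hMO₂ : ∀ m ∈ M₂, ∀ o ∈ O₂, m * o ∈ M₂) (hM₂ : ∀ y : B, φ y ∈ M₂ ↔ y ∈ 𝔭₂)
    (hE₁ : ∀ y : FL, y ≠ 0 → E y ∈ O₁) (hE₂ : ∀ y : FL, y ≠ 0 → E y ∈ O₂) :
    ∃ h : FL, h ≠ 0 ∧ ∃ d : B, d ∉ 𝔫 ∧ ∃ t : B,
      φ t = φ d * (E (dd τL f) * (E (dd τL h))⁻¹ ^ (p ^ n)) := by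
  classical
  set ψ : B →+* F := bcF.comp φ with hψdef
  have hψ : Function.Injective ψ := bcF.injective.comp hφ
  have hϖB0 : algebraMap W B ϖ ≠ 0 := by
    intro h0
    have h1 : bcF (φ (algebraMap W B ϖ)) = 0 := by rw [h0, map_zero, map_zero]
    rw [hφW] at h1
    have h2 : ι (ϖ : L) = 0 := (map_eq_zero (algebraMap K F)).mp h1
    exact hϖ0 (Subtype.ext ((map_eq_zero ι).mp h2))
  -- the local equation at `𝔫₀`
  obtain ⟨h, hh0, hord⟩ := KLoc.kloc_ord A ι W bcF φ hWA hφ hφW hfrac ϖ hϖ0 hW hsep g τL hτ τB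
    hτB 𝔫₀ hϖ𝔫₀ hτ𝔫₀ hstruct D hrat hratg p n f hf0 hf
  refine ⟨h, hh0, ?_⟩
  set y : FL := dd τL (f / h ^ (p ^ n)) with hy
  have hy0 : y ≠ 0 := dd_ne_zero τL (div_ne_zero hf0 (pow_ne_zero _ hh0))
  have hyeq : E y = E (dd τL f) * (E (dd τL h))⁻¹ ^ (p ^ n) := by
    rw [hy, dd_div_pow τL f h hf0 hh0, hEdiv _ _ (dd_ne_zero τL hh0)]
  rw [← hyeq]
  set x : FL := E y with hx
  have hx0 : x ≠ 0 := hE0 y hy0
  -- no horizontal divisor through `𝔫`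
  have hordx : ∀ Q : Place K F, Through ψ 𝔫 Q → Q.ord (bcF x) = 0 :=
    hEord y hy0 (fun P hP => hord P hP)
  obtain ⟨a, b, hb, hab⟩ := hfrac x
  have hφb : φ b ≠ 0 := fun h0 => hb (hφ (by rw [h0, map_zero]))
  have ha : a ≠ 0 := by
    rintro rfl
    rw [map_zero] at hab
    exact mul_ne_zero hx0 hφb hab
  have hhor : ∀ Q : Place K F, Through ψ 𝔫 Q → Q.ord (ψ b) ≤ Q.ord (ψ a) := by
    intro Q hQ
    have h1 : ψ a = bcF x * ψ b := by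
      show bcF (φ a) = bcF x * bcF (φ b)
      rw [← map_mul, hab]
    have hψb : ψ b ≠ 0 := (map_ne_zero bcF).mpr hφb
    rw [h1, Q.ord_mul ((map_ne_zero bcF).mpr hx0) hψb, hordx Q hQ, zero_add]
  have hvert : ∀ 𝔭 ∈ (Ideal.span {b} : Ideal B).minimalPrimes, algebraMap W B ϖ ∈ 𝔭 → 𝔭 ≤ 𝔫 →
      ∃ s : B, s ∉ 𝔭 ∧ b ∣ s * a := by
    intro 𝔭 h𝔭 hϖ𝔭 _
    exact KLoc.exists_notMem_dvd_of_two_sets φ hφ (algebraMap W B ϖ) hϖB0 𝔭₁ 𝔭₂ hϖ₁ hϖ₂ hS1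
      O₁ M₁ O₂ M₂ hMO₁ hM₁ hMO₂ hM₂ x (hE₁ y hy0) (hE₂ y hy0) a b hb hab 𝔭 h𝔭 hϖ𝔭
  obtain ⟨d, hd, t, ht⟩ := exists_integral_multiple W ψ hψ ϖ hext 𝔫 a b ha hb hvert hhor
  refine ⟨d, hd, t, ?_⟩
  apply mul_right_cancel₀ hφb
  calc φ t * φ b = φ (b * t) := by rw [map_mul]; ring
    _ = φ (d * a) := by rw [ht]
    _ = φ d * (x * φ b) := by rw [map_mul, hab]
    _ = φ d * x * φ b := by ring

end Main

end Fermat.Agent.S35.EsNode
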