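import Mathlib
import Fermat.Agent.S35.EsNode
import Fermat.Agent.S35.EsFibre
import Fermat.Agent.S35.EsOrdInst
import Fermat.Agent.S35.NormLevel
import Fermat.Agent.S35.DegInt
import Fermat.Agent.S35.EsNorm
import Fermat.Agent.S34.GLoc
import Fermat.Agent.S34.KLocVert
import Fermat.Agent.S34.CompLevel
import Fermat.Agent.S34.FinDich
import Fermat.Agent.S34.GRat
import Fermat.Agent.S34.CuspRes
import Fermat.Agent.S34.GalLevel
import Fermat.Agent.S34.FrobPartner
import Fermat.Agent.S34.ContentVal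
import Fermat.Agent.S34.DDMem
import Fermat.Agent.S34.GAsm
import Fermat.Agent.S34.TwoGauss
import Fermat.Agent.S34.DDGauss
import Fermat.Agent.S34.ChartAct
import Fermat.Agent.S37.ChartFrac
import Fermat.Agent.S37.GaussNoeth
import Fermat.Agent.S37.ExtPlace

/-!
# S35 (Route C, package (C3), instance): the node clause of `EsCore.EsLoc₁`

`A` a valuation subring of `ℚ̄` over `q`, `σ` a Frobenius lift at `A`, `(L, ι)` a Galois-stable
level with `W = A.comap ι`, `s` the restriction of `σ`, `w` an Atkin–Lehner automorphism of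
`F = S24.FF L (M * q)`; `B` any carrier of the finite chart of level `M q`, `BM` any carrier of
the finite chart of level `M`, with the chart maps `αB βB : BM → B`, `σB : B ≃ B`, `wB : B → B`.

At a maximal ideal `𝔫 ∋ ϖ` of `B` which is a NODE — the second alternative of
`DegInt.node_data_fin`: `𝔫₀ := σB⁻¹ 𝔫` is a closed point fixed by `σB²`, containing `σB 𝔫`,
`σB⁻¹ 𝔫`, `wB⁻¹ 𝔫`, and it is the only closed point in the two correspondence fibres of `𝔫` —
and for `div (bc fL) = p ^ n • D` with support rational at the level: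

* `es_node_fin` : for a multiplicative operator `E` on `F` with the bridge
  `bc (E y) = EsOrd.esBar σ w' α β q (bc y)` and values integral at both Gauss valuations there
  is `h ≠ 0` with `d * (E (dd fL) * (E (dd h))⁻¹ ^ (p ^ n)) ∈ B`, `d ∉ 𝔫`, where
  `dd = DDGauss.dd (M * q) (s.trans s)` is the double difference for `σ²`
  (`EsNode.es_node` + `EsFibre.ord_esBar_eq_zero_of_through` + the chart inputs of `S34.LocFin`);
* `es_node_fin_gauss` : the same with Claim R (`GaussOne ϖ j (E y)` for all `y ≠ 0`) as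
  hypothesis, conclusion in the `hloc` shape `∃ g, GaussOne ϖ j g ∧ ∃ d ∉ 𝔫, ∃ t, …`;
* `esL_node_fin` : the instance `E = EsNorm.esL M q s w` (needs a primitive `q`-th root of unity
  `ζ` in the level; Claim R and the bridge are `EsNorm.gaussOne_esL_level`, `EsNorm.bc_esL`);
* `esL_fin_smooth_or` : with the canonical chart maps, at EVERY closed point `𝔫 ∋ ϖ`: the smooth
  alternative of `NodePtsInst.node_pts_fin`, or the local datum.
-/

set_option autoImplicit false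
set_option linter.style.haveILetI false
set_option linter.unusedSectionVars false
set_option linter.unusedVariables false

noncomputable section

namespace Fermat.Agent.S35.EsNodeInst

open Polynomial ModularCurve AlgebraicCurve Fermat.Agent.S18 Fermat.Agent.S37
open Fermat.Agent.S34 Fermat.Agent.S34.GDescent Fermat.Agent.S34.KummerStep

local notation "Qb" => AlgebraicClosure ℚ

section Raw

variable {L : Type} [Field L] [Algebra ℚ L] (W : ValuationSubring L) [IsDiscreteValuationRing W]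
  (M q : ℕ) [NeZero M] [NeZero q]

/-- A function `≡ 1` on the Gauss ring is integral at both Gauss valuations. -/
theorem raw_of_gaussOne {ϖ : W} (hϖ : Irreducible ϖ)
    (w : S24.FF L (M * q) ≃ₐ[L] S24.FF L (M * q))
    (hwα : (w : S24.FF L (M * q) →ₐ[L] S24.FF L (M * q)).comp (heckeAlphaBar L M q) =
      heckeBetaBar L M q)
    {x : S24.FF L (M * q)} (hx : GaussOne ϖ (S24.jBC L (M * q)) x) :
    (x : LaurentSeries L) ∈ Gauss.contentRing W ∧
      ((w x : S24.FF L (M * q)) : LaurentSeries L) ∈ Gauss.contentRing W := by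
  have hϖ0 : (ϖ : L) ≠ 0 := fun h => hϖ.ne_zero (Subtype.ext h)
  have hπF : algebraMap ↥W (S24.FF L (M * q)) ϖ ≠ 0 := by
    rw [GLoc.algebraMap_W_eq]
    exact (_root_.map_ne_zero _).mpr hϖ0
  obtain ⟨c, hc, hxc⟩ := hx.inC hπF
  obtain ⟨h1, h2⟩ := ContentVal.mem_both_of_inC W M q hϖ w hwα c hc
  have hx' : x = 1 + algebraMap L (S24.FF L (M * q)) (ϖ : L) * c := by
    rw [← GLoc.algebraMap_W_eq, ← hxc]
    ring
  refine ⟨?_, ?_⟩
  · rw [hx']
    exact DDMem.coe_one_add_mul W ϖ (M * q) c h1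
  · have hwx : w x = 1 + algebraMap L (S24.FF L (M * q)) (ϖ : L) * w c := by
      rw [hx', map_add, map_one, map_mul, w.commutes]
    rw [hwx]
    exact DDMem.coe_one_add_mul W ϖ (M * q) (w c) h2

end Raw

set_option maxHeartbeats 1600000 in
/-- **The local datum of the Eichler–Shimura operator at a node of the finite chart of level
`M q`, at a stable level**, on any carrier of the chart. -/
theorem es_node_fin (M q p : ℕ) [NeZero M] [NeZero q] (hq : q.Prime) (hqM : ¬ q ∣ M)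
    (A : ValuationSubring Qb) (hA : A.LiesOverPrime q) (σ : Qb ≃ₐ[ℚ] Qb)
    (hσ : A.IsFrobeniusAt σ q)
    {L : Type} [Field L] [Algebra ℚ L] (ι : L →+* Qb) (S₀ : Finset Qb)
    (hlev : LevelChange.IsLevel A q S₀ ι) (hst : GalLevel.IsStable ι)
    (n : ℕ) (D : Divisor Qb (modularFunctionFieldBar (M * q)))
    (fL : S24.FF L (M * q)) (hfL0 : fL ≠ 0)
    (hD : ∀ P : Place Qb (modularFunctionFieldBar (M * q)),
      P.ord (S24.CoeffBC.bc ι (modularFunctionFieldFull (M * q)) fL) = (p : ℤ) ^ n * D P)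
    (hrat : ∀ P : Place Qb (modularFunctionFieldBar (M * q)), D P ≠ 0 →
      RatAtLevel (M * q) ι P)
    (ϖ : ↥(A.comap ι)) (hϖ : Irreducible ϖ) (s : L ≃+* L) (hs : ∀ c : L, ι (s c) = σ (ι c))
    (w : S24.FF L (M * q) ≃ₐ[L] S24.FF L (M * q))
    (hwα : (w : S24.FF L (M * q) →ₐ[L] S24.FF L (M * q)).comp (heckeAlphaBar L M q) =
      heckeBetaBar L M q)
    (hwβ : (w : S24.FF L (M * q) →ₐ[L] S24.FF L (M * q)).comp (heckeBetaBar L M q) =
      heckeAlphaBar L M q)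
    -- the operator
    (E : S24.FF L (M * q) → S24.FF L (M * q))
    (hE0 : ∀ y : S24.FF L (M * q), y ≠ 0 → E y ≠ 0)
    (hEdiv : ∀ x γ : S24.FF L (M * q), γ ≠ 0 → ∀ m : ℕ, E (x / γ ^ m) = E x * (E γ)⁻¹ ^ m)
    (w' : modularFunctionFieldBar (M * q) ≃ₐ[Qb] modularFunctionFieldBar (M * q))
    (hwα' : (w' : modularFunctionFieldBar (M * q) →ₐ[Qb] modularFunctionFieldBar (M * q)).comp
      (heckeAlphaBar Qb M q) = heckeBetaBar Qb M q)
    (hwβ' : (w' : modularFunctionFieldBar (M * q) →ₐ[Qb] modularFunctionFieldBar (M * q)).comp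
      (heckeBetaBar Qb M q) = heckeAlphaBar Qb M q)
    (hEbc : ∀ y : S24.FF L (M * q),
      S24.CoeffBC.bc ι (modularFunctionFieldFull (M * q)) (E y) =
        EsOrd.esBar (arithmeticGalois (modularFunctionFieldFull (M * q)) σ) w'
          (heckeAlphaBar Qb M q) (heckeBetaBar Qb M q) q
          (S24.CoeffBC.bc ι (modularFunctionFieldFull (M * q)) y))
    (hE₁ : ∀ y : S24.FF L (M * q), y ≠ 0 →
      ((E y : S24.FF L (M * q)) : LaurentSeries L) ∈ Gauss.contentRing (A.comap ι))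
    (hE₂ : ∀ y : S24.FF L (M * q), y ≠ 0 →
      ((w (E y) : S24.FF L (M * q)) : LaurentSeries L) ∈ Gauss.contentRing (A.comap ι))
    -- the carriers
    [Algebra (↥(A.comap ι))[X] (S24.FF L M)]
    (halgM : algebraMap (↥(A.comap ι))[X] (S24.FF L M) = Gauss.evF (A.comap ι) M)
    (BM : Type) [CommRing BM] [Algebra (↥(A.comap ι))[X] BM] [Algebra BM (S24.FF L M)]
    [IsScalarTower (↥(A.comap ι))[X] BM (S24.FF L M)]
    [IsIntegralClosure BM (↥(A.comap ι))[X] (S24.FF L M)]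
    [Algebra (↥(A.comap ι))[X] (S24.FF L (M * q))]
    (halg : algebraMap (↥(A.comap ι))[X] (S24.FF L (M * q)) = Gauss.evF (A.comap ι) (M * q))
    (B : Type) [CommRing B] [Algebra (↥(A.comap ι))[X] B] [Algebra B (S24.FF L (M * q))]
    [IsScalarTower (↥(A.comap ι))[X] B (S24.FF L (M * q))]
    [IsIntegralClosure B (↥(A.comap ι))[X] (S24.FF L (M * q))]
    (αB βB : BM →+* B)
    (hαB : ∀ c, algebraMap B (S24.FF L (M * q)) (αB c) =
      heckeAlphaBar L M q (algebraMap BM (S24.FF L M) c))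
    (hβB : ∀ c, algebraMap B (S24.FF L (M * q)) (βB c) =
      heckeBetaBar L M q (algebraMap BM (S24.FF L M) c))
    (σB : B ≃+* B)
    (hσB : ∀ b, algebraMap B (S24.FF L (M * q)) (σB b) =
      CoeffAut.act (M * q) s (algebraMap B (S24.FF L (M * q)) b))
    (wB : B →+* B)
    (hwB : ∀ b, algebraMap B (S24.FF L (M * q)) (wB b) =
      w (algebraMap B (S24.FF L (M * q)) b))
    (𝔫 : Ideal B) (h𝔫 : 𝔫.IsMaximal) (hC : algebraMap (↥(A.comap ι))[X] B (C ϖ) ∈ 𝔫)
    (hnode : (𝔫.comap (σB : B →+* B)).IsMaximal ∧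
      algebraMap (↥(A.comap ι))[X] B (C ϖ) ∈ 𝔫.comap (σB : B →+* B) ∧
      (∀ y : B, σB (σB y) ∈ 𝔫.comap (σB : B →+* B) ↔ y ∈ 𝔫.comap (σB : B →+* B)) ∧
      (∀ y ∈ 𝔫, σB y ∈ 𝔫.comap (σB : B →+* B)) ∧
      (∀ y ∈ 𝔫, σB.symm y ∈ 𝔫.comap (σB : B →+* B)) ∧
      (∀ y : B, wB y ∈ 𝔫 → y ∈ 𝔫.comap (σB : B →+* B)) ∧
      (∀ 𝔫' : Ideal B, 𝔫'.IsMaximal → 𝔫'.comap βB = 𝔫.comap αB →
        𝔫' = 𝔫.comap (σB : B →+* B)) ∧
      (∀ 𝔫' : Ideal B, 𝔫'.IsMaximal → 𝔫'.comap αB = 𝔫.comap βB →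
        𝔫' = 𝔫.comap (σB : B →+* B))) :
    ∃ h : S24.FF L (M * q), h ≠ 0 ∧ ∃ d : B, d ∉ 𝔫 ∧ ∃ t : B,
      algebraMap B (S24.FF L (M * q)) t = algebraMap B (S24.FF L (M * q)) d *
        (E (DDGauss.dd (M * q) (s.trans s) fL) *
          (E (DDGauss.dd (M * q) (s.trans s) h))⁻¹ ^ (p ^ n)) := by
  classical
  obtain ⟨-, hroots, hdvr, hclosed, -, hchar, -, -⟩ := hlev
  haveI := hdvr
  haveI := hclosed
  haveI := hchar
  haveI : Fact q.Prime := ⟨hq⟩
  haveI := h𝔫
  -- the carrier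
  have hinj : Function.Injective (algebraMap B (S24.FF L (M * q))) :=
    IsIntegralClosure.algebraMap_injective B (↥(A.comap ι))[X] (S24.FF L (M * q))
  haveI : IsDomain B := hinj.isDomain _
  haveI : IsNoetherianRing B := (GaussNoeth.noeth_fin (A.comap ι) (M * q) halg B).1
  haveI hfr : IsFractionRing B (S24.FF L (M * q)) :=
    ChartFrac.isFractionRing_fin (A.comap ι) (M * q) halg B
  haveI : Algebra.IsIntegral (↥(A.comap ι))[X] B :=
    IsIntegralClosure.isIntegral_algebra (↥(A.comap ι))[X] (S24.FF L (M * q))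
  haveI : IsIntegrallyClosed B := by
    rw [isIntegrallyClosed_iff (S24.FF L (M * q))]
    intro x hx
    exact IsIntegralClosure.isIntegral_iff.mp (isIntegral_trans (R := (↥(A.comap ι))[X]) x hx)
  have hrange : ∀ x : S24.FF L (M * q), (∃ b : B, algebraMap B (S24.FF L (M * q)) b = x) ↔
      (Gauss.evF (A.comap ι) (M * q)).IsIntegralElem x := by
    intro x
    rw [← halg]
    exact (IsIntegralClosure.isIntegral_iff (A := B) (R := (↥(A.comap ι))[X])
      (B := S24.FF L (M * q))).symm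
  letI : Algebra ↥(A.comap ι) B := ((algebraMap (↥(A.comap ι))[X] B).comp C).toAlgebra
  haveI : IsScalarTower ↥(A.comap ι) (↥(A.comap ι))[X] B :=
    IsScalarTower.of_algebraMap_eq (fun _ => rfl)
  have hφW : ∀ c : ↥(A.comap ι), algebraMap B (S24.FF L (M * q)) (algebraMap ↥(A.comap ι) B c) =
      algebraMap L (S24.FF L (M * q)) (c : L) := by
    intro c
    show algebraMap B (S24.FF L (M * q)) (algebraMap (↥(A.comap ι))[X] B (C c)) = _
    rw [← IsScalarTower.algebraMap_apply, halg, Gauss.evF_C]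
  have hint : ∀ y : B, (Gauss.evF (A.comap ι) (M * q)).IsIntegralElem
      (algebraMap B (S24.FF L (M * q)) y) := fun y => (hrange _).mp ⟨y, rfl⟩
  have hc₁ : ∀ x : S24.FF L (M * q), (Gauss.evF (A.comap ι) (M * q)).IsIntegralElem x →
      (x : LaurentSeries L) ∈ Gauss.contentRing (A.comap ι) :=
    fun x hx => FrobPartner.mem_contentRing_of_int (A.comap ι) (M * q) hx
  have hc₂ : ∀ x : S24.FF L (M * q), (Gauss.evF (A.comap ι) (M * q)).IsIntegralElem x →
      ((w x : S24.FF L (M * q)) : LaurentSeries L) ∈ Gauss.contentRing (A.comap ι) :=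
    fun x hx => CuspRes.mem_contentRing_w_of_int_fin (A.comap ι) M q w hwα hx
  have hS1raw : ∀ x : S24.FF L (M * q), (Gauss.evF (A.comap ι) (M * q)).IsIntegralElem x →
      ∀ (h1 : (x : LaurentSeries L) ∈ Gauss.contentRing (A.comap ι))
        (h2 : ((w x : S24.FF L (M * q)) : LaurentSeries L) ∈ Gauss.contentRing (A.comap ι)),
        Gauss.red (A.comap ι) ⟨_, h1⟩ = 0 → Gauss.red (A.comap ι) ⟨_, h2⟩ = 0 →
        ∃ y, (Gauss.evF (A.comap ι) (M * q)).IsIntegralElem y ∧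
          x = algebraMap L (S24.FF L (M * q)) ((ϖ : ↥(A.comap ι)) : L) * y :=
    fun x hx h1 h2 hr1 hr2 =>
      FinDich.s1_fin_level ι (A.comap ι) M q hqM hϖ w hwα hwβ x hx h1 h2 hr1 hr2
  have hϖ𝔫 : algebraMap ↥(A.comap ι) B ϖ ∈ 𝔫 := hC
  -- `σ²` on the carrier
  set τB : B ≃+* B := σB.trans σB with hτBdef
  have hτB : ∀ y : B, algebraMap B (S24.FF L (M * q)) (τB y) =
      CoeffAut.act (M * q) (s.trans s) (algebraMap B (S24.FF L (M * q)) y) := by
    intro y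
    rw [← CoeffAut.act_mul]
    show algebraMap B (S24.FF L (M * q)) (σB (σB y)) = _
    rw [hσB, hσB]
  have hs2 : ∀ c : L, ι ((s.trans s) c) = (σ * σ) (ι c) := by
    intro c
    show ι (s (s c)) = σ (σ (ι c))
    rw [hs, hs]
  -- the point `𝔫₀`
  obtain ⟨h𝔫₀max, hC₀, hτ𝔫₀, ha₁, ha₂, hb, hcα, hcβ⟩ := hnode
  haveI := h𝔫₀max
  have hϖ𝔫₀ : algebraMap ↥(A.comap ι) B ϖ ∈ 𝔫.comap (σB : B →+* B) := hC₀
  -- the maps to `ℚ̄`
  have hσψ : ∀ y : B, ((S24.CoeffBC.bc ι (modularFunctionFieldFull (M * q))).comp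
      (algebraMap B (S24.FF L (M * q)))) (σB y) =
      arithmeticGalois (modularFunctionFieldFull (M * q)) σ •
        ((S24.CoeffBC.bc ι (modularFunctionFieldFull (M * q))).comp
          (algebraMap B (S24.FF L (M * q)))) y := by
    intro y
    show S24.CoeffBC.bc ι (modularFunctionFieldFull (M * q))
      (algebraMap B (S24.FF L (M * q)) (σB y)) = _
    rw [hσB, CoeffAut.act_eq_bc]
    exact GRat.bc_bc_eq_smul (M * q) ι σ (s : L →+* L) hs _
  have hwψ : ∀ y : B, ((S24.CoeffBC.bc ι (modularFunctionFieldFull (M * q))).comp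
      (algebraMap B (S24.FF L (M * q)))) (wB y) =
      w' (((S24.CoeffBC.bc ι (modularFunctionFieldFull (M * q))).comp
          (algebraMap B (S24.FF L (M * q)))) y) := by
    intro y
    show S24.CoeffBC.bc ι (modularFunctionFieldFull (M * q))
      (algebraMap B (S24.FF L (M * q)) (wB y)) = _
    rw [hwB]
    exact NormLevel.bc_atkinLehner ι M q hq w hwα hwβ w' hwα' hwβ' _
  have hαψ : ∀ b : BM, ((S24.CoeffBC.bc ι (modularFunctionFieldFull (M * q))).comp
      (algebraMap B (S24.FF L (M * q)))) (αB b) =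
      heckeAlphaBar Qb M q (((S24.CoeffBC.bc ι (modularFunctionFieldFull M)).comp
        (algebraMap BM (S24.FF L M))) b) := by
    intro b
    show S24.CoeffBC.bc ι (modularFunctionFieldFull (M * q))
      (algebraMap B (S24.FF L (M * q)) (αB b)) = _
    rw [hαB]
    exact NormLevel.bc_alpha ι M q _
  have hβψ : ∀ b : BM, ((S24.CoeffBC.bc ι (modularFunctionFieldFull (M * q))).comp
      (algebraMap B (S24.FF L (M * q)))) (βB b) =
      heckeBetaBar Qb M q (((S24.CoeffBC.bc ι (modularFunctionFieldFull M)).comp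
        (algebraMap BM (S24.FF L M))) b) := by
    intro b
    show S24.CoeffBC.bc ι (modularFunctionFieldFull (M * q))
      (algebraMap B (S24.FF L (M * q)) (βB b)) = _
    rw [hβB]
    exact NormLevel.bc_beta ι M q _
  have hαint : αB.IsIntegral :=
    DegInt.alpha_isIntegral (A.comap ι) M q halgM BM halg B αB hαB
  have hβint : βB.IsIntegral :=
    DegInt.beta_isIntegral (A.comap ι) M q halgM BM halg B hq w hwα hwβ βB hβB
  -- no horizontal divisor of `E y` through `𝔫`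
  have hEord : ∀ y : S24.FF L (M * q), y ≠ 0 →
      (∀ P : Place Qb (modularFunctionFieldBar (M * q)),
        SectionsLoc.Through ((S24.CoeffBC.bc ι (modularFunctionFieldFull (M * q))).comp
          (algebraMap B (S24.FF L (M * q)))) (𝔫.comap (σB : B →+* B)) P →
        P.ord (S24.CoeffBC.bc ι (modularFunctionFieldFull (M * q)) y) = 0) →
      ∀ Q : Place Qb (modularFunctionFieldBar (M * q)),
        SectionsLoc.Through ((S24.CoeffBC.bc ι (modularFunctionFieldFull (M * q))).comp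
          (algebraMap B (S24.FF L (M * q)))) 𝔫 Q →
        Q.ord (S24.CoeffBC.bc ι (modularFunctionFieldFull (M * q)) (E y)) = 0 := by
    intro y hy hy₀ Q hQ
    rw [hEbc]
    exact EsFibre.ord_esBar_eq_zero_of_through
      (arithmeticGalois (modularFunctionFieldFull (M * q)) σ) w'
      (heckeAlphaBar Qb M q) (heckeBetaBar Qb M q) q
      (HeckeInputs.alphaIntegral M q) (HeckeInputs.betaIntegral M q)
      ((S24.CoeffBC.bc ι (modularFunctionFieldFull (M * q))).comp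
        (algebraMap B (S24.FF L (M * q))))
      ((S24.CoeffBC.bc ι (modularFunctionFieldFull M)).comp (algebraMap BM (S24.FF L M)))
      αB βB (EsOrdInst.normOrd_alpha M q) (EsOrdInst.normOrd_beta M q) hαψ hβψ hαint hβint
      σB hσψ wB hwψ 𝔫 (𝔫.comap (σB : B →+* B)) ha₁ ha₂ hb hcα hcβ hQ
      ((map_ne_zero (S24.CoeffBC.bc ι (modularFunctionFieldFull (M * q)))).mpr hy) hy₀
  -- the application
  have key := EsNode.es_node A ι (A.comap ι)
    (S24.CoeffBC.bc ι (modularFunctionFieldFull (M * q))) (algebraMap B (S24.FF L (M * q)))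
    (fun x => Iff.rfl) hinj
    (fun c => by
      rw [hφW]
      exact S24.CoeffBC.bc_algebraMap ι (modularFunctionFieldFull (M * q)) c)
    (fun x => ChartFrac.frac_fin (A.comap ι) (M * q) halg B x) ϖ hϖ.ne_zero
    (KLocVert.isUnit_or_dvd hϖ) (KLocVert.exists_not_pow_dvd hϖ) ?_
    (arithmeticGalois (modularFunctionFieldFull (M * q)) (σ * σ))
    (CoeffAut.act (M * q) (s.trans s))
    (fun x => by
      rw [CoeffAut.act_eq_bc]
      exact GRat.bc_bc_eq_smul (M * q) ι (σ * σ) ((s.trans s : L ≃+* L) : L →+* L) hs2 x)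
    τB hτB (𝔫.comap (σB : B →+* B)) hϖ𝔫₀ (fun y => hτ𝔫₀ y)
    (CompLevel.dich_fin_struct_level A ι M q hq hqM hA hst hroots ϖ hϖ halg B
      (𝔫.comap (σB : B →+* B)) hϖ𝔫₀ (Localization.AtPrime (𝔫.comap (σB : B →+* B))))
    D (fun P hP => hrat P hP)
    (fun P hP => GRat.ratAtLevel_smul (M * q) ι (σ * σ) (s.trans s) hs2 hP)
    p n fL hfL0 hD E hE0 hEdiv 𝔫 hEord
    (KLocVert.P1 (A.comap ι) (M * q) (algebraMap B (S24.FF L (M * q)))
      (fun y => hc₁ _ (hint y)))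
    (KLocVert.P2 (A.comap ι) (M * q) (algebraMap B (S24.FF L (M * q))) w
      (fun y => hc₂ _ (hint y)))
    (KLocVert.unif_mem_P1 (A.comap ι) (M * q) (algebraMap B (S24.FF L (M * q))) hϖ hφW _)
    (KLocVert.unif_mem_P2 (A.comap ι) (M * q) (algebraMap B (S24.FF L (M * q))) w hϖ hφW _)
    (KLocVert.inf_le_span (A.comap ι) (M * q) (algebraMap B (S24.FF L (M * q))) w ϖ _ _ ?_)
    (KLocVert.O1 (A.comap ι) (M * q)) (KLocVert.M1 (A.comap ι) (M * q))
    (KLocVert.O2 (A.comap ι) (M * q) w) (KLocVert.M2 (A.comap ι) (M * q) w)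
    (fun m hm o ho => KLocVert.mul_mem_M1 (A.comap ι) (M * q) hm ho)
    (KLocVert.mem_M1_iff (A.comap ι) (M * q) (algebraMap B (S24.FF L (M * q))) _)
    (fun m hm o ho => KLocVert.mul_mem_M2 (A.comap ι) (M * q)
      ((w : S24.FF L (M * q) ≃+* S24.FF L (M * q)) : S24.FF L (M * q) →+* S24.FF L (M * q))
      hm ho)
    (KLocVert.mem_M2_iff (A.comap ι) (M * q) (algebraMap B (S24.FF L (M * q))) w _)
    (fun y hy => hE₁ y hy) (fun y hy => hE₂ y hy)
  · exact key
  · -- hext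
    intro 𝔮 h𝔮 h0 hπ𝔮
    haveI := h𝔮
    refine ExtPlace.exists_place_of_prime_chart (M * q) ι (A.comap ι) hϖ
      (algebraMap B (S24.FF L (M * q))) hinj (fun c => ⟨algebraMap ↥(A.comap ι) B c, hφW c⟩)
      𝔮 h0 ?_
    intro b hb hmem
    have : b = algebraMap ↥(A.comap ι) B ϖ := hinj (by rw [hb, hφW])
    exact hπ𝔮 (this ▸ hmem)
  · -- hS1
    intro y hr1 hr2
    obtain ⟨y0, hy0, hxy⟩ := hS1raw _ (hint y) _ _ hr1 hr2
    obtain ⟨y', rfl⟩ := (hrange y0).mpr hy0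
    exact ⟨y', hinj (by rw [map_mul, hφW, hxy])⟩

set_option maxHeartbeats 1600000 in
/-- **The node clause of `EsCore.EsLoc₁` on a carrier**, for a multiplicative operator `E` with
Claim R (`hG`) and the bridge to `EsOrd.esBar` (`hEbc`): the local datum in the `hloc` shape of
`KummerIndCusp.kummer_descent_cusp` (`g := (E (dd h))⁻¹ = E (dd h)⁻¹`). -/
theorem es_node_fin_gauss (M q p : ℕ) [NeZero M] [NeZero q] (hq : q.Prime) (hqM : ¬ q ∣ M)
    (A : ValuationSubring Qb) (hA : A.LiesOverPrime q) (σ : Qb ≃ₐ[ℚ] Qb)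
    (hσ : A.IsFrobeniusAt σ q)
    {L : Type} [Field L] [Algebra ℚ L] (ι : L →+* Qb) (S₀ : Finset Qb)
    (hlev : LevelChange.IsLevel A q S₀ ι) (hst : GalLevel.IsStable ι)
    (n : ℕ) (D : Divisor Qb (modularFunctionFieldBar (M * q)))
    (fL : S24.FF L (M * q)) (hfL0 : fL ≠ 0)
    (hD : ∀ P : Place Qb (modularFunctionFieldBar (M * q)),
      P.ord (S24.CoeffBC.bc ι (modularFunctionFieldFull (M * q)) fL) = (p : ℤ) ^ n * D P)
    (hrat : ∀ P : Place Qb (modularFunctionFieldBar (M * q)), D P ≠ 0 →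
      RatAtLevel (M * q) ι P)
    (ϖ : ↥(A.comap ι)) (hϖ : Irreducible ϖ) (s : L ≃+* L) (hs : ∀ c : L, ι (s c) = σ (ι c))
    (w : S24.FF L (M * q) ≃ₐ[L] S24.FF L (M * q))
    (hwα : (w : S24.FF L (M * q) →ₐ[L] S24.FF L (M * q)).comp (heckeAlphaBar L M q) =
      heckeBetaBar L M q)
    (hwβ : (w : S24.FF L (M * q) →ₐ[L] S24.FF L (M * q)).comp (heckeBetaBar L M q) =
      heckeAlphaBar L M q)
    -- the operator
    (E : S24.FF L (M * q) → S24.FF L (M * q))
    (hE0 : ∀ y : S24.FF L (M * q), y ≠ 0 → E y ≠ 0)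
    (hEdiv : ∀ x γ : S24.FF L (M * q), γ ≠ 0 → ∀ m : ℕ, E (x / γ ^ m) = E x * (E γ)⁻¹ ^ m)
    (w' : modularFunctionFieldBar (M * q) ≃ₐ[Qb] modularFunctionFieldBar (M * q))
    (hwα' : (w' : modularFunctionFieldBar (M * q) →ₐ[Qb] modularFunctionFieldBar (M * q)).comp
      (heckeAlphaBar Qb M q) = heckeBetaBar Qb M q)
    (hwβ' : (w' : modularFunctionFieldBar (M * q) →ₐ[Qb] modularFunctionFieldBar (M * q)).comp
      (heckeBetaBar Qb M q) = heckeAlphaBar Qb M q)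
    (hEbc : ∀ y : S24.FF L (M * q),
      S24.CoeffBC.bc ι (modularFunctionFieldFull (M * q)) (E y) =
        EsOrd.esBar (arithmeticGalois (modularFunctionFieldFull (M * q)) σ) w'
          (heckeAlphaBar Qb M q) (heckeBetaBar Qb M q) q
          (S24.CoeffBC.bc ι (modularFunctionFieldFull (M * q)) y))
    (hG : ∀ y : S24.FF L (M * q), y ≠ 0 → GaussOne ϖ (S24.jBC L (M * q)) (E y))
    -- the carriers
    [Algebra (↥(A.comap ι))[X] (S24.FF L M)]
    (halgM : algebraMap (↥(A.comap ι))[X] (S24.FF L M) = Gauss.evF (A.comap ι) M)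
    (BM : Type) [CommRing BM] [Algebra (↥(A.comap ι))[X] BM] [Algebra BM (S24.FF L M)]
    [IsScalarTower (↥(A.comap ι))[X] BM (S24.FF L M)]
    [IsIntegralClosure BM (↥(A.comap ι))[X] (S24.FF L M)]
    [Algebra (↥(A.comap ι))[X] (S24.FF L (M * q))]
    (halg : algebraMap (↥(A.comap ι))[X] (S24.FF L (M * q)) = Gauss.evF (A.comap ι) (M * q))
    (B : Type) [CommRing B] [Algebra (↥(A.comap ι))[X] B] [Algebra B (S24.FF L (M * q))]
    [IsScalarTower (↥(A.comap ι))[X] B (S24.FF L (M * q))]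
    [IsIntegralClosure B (↥(A.comap ι))[X] (S24.FF L (M * q))]
    (αB βB : BM →+* B)
    (hαB : ∀ c, algebraMap B (S24.FF L (M * q)) (αB c) =
      heckeAlphaBar L M q (algebraMap BM (S24.FF L M) c))
    (hβB : ∀ c, algebraMap B (S24.FF L (M * q)) (βB c) =
      heckeBetaBar L M q (algebraMap BM (S24.FF L M) c))
    (σB : B ≃+* B)
    (hσB : ∀ b, algebraMap B (S24.FF L (M * q)) (σB b) =
      CoeffAut.act (M * q) s (algebraMap B (S24.FF L (M * q)) b))
    (wB : B →+* B)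
    (hwB : ∀ b, algebraMap B (S24.FF L (M * q)) (wB b) =
      w (algebraMap B (S24.FF L (M * q)) b))
    (𝔫 : Ideal B) (h𝔫 : 𝔫.IsMaximal) (hC : algebraMap (↥(A.comap ι))[X] B (C ϖ) ∈ 𝔫)
    (hnode : (𝔫.comap (σB : B →+* B)).IsMaximal ∧
      algebraMap (↥(A.comap ι))[X] B (C ϖ) ∈ 𝔫.comap (σB : B →+* B) ∧
      (∀ y : B, σB (σB y) ∈ 𝔫.comap (σB : B →+* B) ↔ y ∈ 𝔫.comap (σB : B →+* B)) ∧
      (∀ y ∈ 𝔫, σB y ∈ 𝔫.comap (σB : B →+* B)) ∧
      (∀ y ∈ 𝔫, σB.symm y ∈ 𝔫.comap (σB : B →+* B)) ∧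
      (∀ y : B, wB y ∈ 𝔫 → y ∈ 𝔫.comap (σB : B →+* B)) ∧
      (∀ 𝔫' : Ideal B, 𝔫'.IsMaximal → 𝔫'.comap βB = 𝔫.comap αB →
        𝔫' = 𝔫.comap (σB : B →+* B)) ∧
      (∀ 𝔫' : Ideal B, 𝔫'.IsMaximal → 𝔫'.comap αB = 𝔫.comap βB →
        𝔫' = 𝔫.comap (σB : B →+* B))) :
    ∃ g : S24.FF L (M * q), GaussOne ϖ (S24.jBC L (M * q)) g ∧ ∃ d : B, d ∉ 𝔫 ∧ ∃ t : B,
      algebraMap B (S24.FF L (M * q)) t = algebraMap B (S24.FF L (M * q)) d *
        (E (DDGauss.dd (M * q) (s.trans s) fL) * g ^ (p ^ n)) := by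
  haveI : IsDiscreteValuationRing ↥(A.comap ι) := hlev.2.2.1
  obtain ⟨h, hh, d, hd, t, ht⟩ := es_node_fin M q p hq hqM A hA σ hσ ι S₀ hlev hst n D fL hfL0
    hD hrat ϖ hϖ s hs w hwα hwβ E hE0 hEdiv w' hwα' hwβ' hEbc
    (fun y hy => (raw_of_gaussOne (A.comap ι) M q hϖ w hwα (hG y hy)).1)
    (fun y hy => (raw_of_gaussOne (A.comap ι) M q hϖ w hwα (hG y hy)).2)
    halgM BM halg B αB βB hαB hβB σB hσB wB hwB 𝔫 h𝔫 hC hnode
  have hdd0 : DDGauss.dd (M * q) (s.trans s) h ≠ 0 := DDGauss.dd_ne_zero (M * q) (s.trans s) hh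
  have hE1 : E 1 = 1 := by
    have h1 := hEdiv 1 1 one_ne_zero 1
    rw [pow_one, div_one, pow_one, mul_inv_cancel₀ (hE0 1 one_ne_zero)] at h1
    exact h1
  have hEinv : E (DDGauss.dd (M * q) (s.trans s) h)⁻¹ =
      (E (DDGauss.dd (M * q) (s.trans s) h))⁻¹ := by
    have h1 := hEdiv 1 (DDGauss.dd (M * q) (s.trans s) h) hdd0 1
    rw [pow_one, pow_one, one_div, hE1, one_mul] at h1
    exact h1
  refine ⟨(E (DDGauss.dd (M * q) (s.trans s) h))⁻¹, ?_, d, hd, t, ht⟩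
  rw [← hEinv]
  exact hG _ (inv_ne_zero hdd0)

set_option maxHeartbeats 1600000 in
/-- **The node clause of `EsCore.EsLoc₁` on a carrier, for the Eichler–Shimura operator
`EsNorm.esL`** (`ζ` a primitive `q`-th root of unity of the level). -/
theorem esL_node_fin (M q p : ℕ) [NeZero M] [NeZero q] (hq : q.Prime) (hqM : ¬ q ∣ M)
    (A : ValuationSubring Qb) (hA : A.LiesOverPrime q) (σ : Qb ≃ₐ[ℚ] Qb)
    (hσ : A.IsFrobeniusAt σ q)
    {L : Type} [Field L] [Algebra ℚ L] (ι : L →+* Qb) (S₀ : Finset Qb)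
    (hlev : LevelChange.IsLevel A q S₀ ι) (hst : GalLevel.IsStable ι)
    (n : ℕ) (D : Divisor Qb (modularFunctionFieldBar (M * q)))
    (fL : S24.FF L (M * q)) (hfL0 : fL ≠ 0)
    (hD : ∀ P : Place Qb (modularFunctionFieldBar (M * q)),
      P.ord (S24.CoeffBC.bc ι (modularFunctionFieldFull (M * q)) fL) = (p : ℤ) ^ n * D P)
    (hrat : ∀ P : Place Qb (modularFunctionFieldBar (M * q)), D P ≠ 0 →
      RatAtLevel (M * q) ι P)
    (ϖ : ↥(A.comap ι)) (hϖ : Irreducible ϖ) (s : L ≃+* L) (hs : ∀ c : L, ι (s c) = σ (ι c))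
    (w : S24.FF L (M * q) ≃ₐ[L] S24.FF L (M * q))
    (hwα : (w : S24.FF L (M * q) →ₐ[L] S24.FF L (M * q)).comp (heckeAlphaBar L M q) =
      heckeBetaBar L M q)
    (hwβ : (w : S24.FF L (M * q) →ₐ[L] S24.FF L (M * q)).comp (heckeBetaBar L M q) =
      heckeAlphaBar L M q)
    (ζ : Lˣ) (hζ : IsPrimitiveRoot ζ q)
    -- the carriers
    [Algebra (↥(A.comap ι))[X] (S24.FF L M)]
    (halgM : algebraMap (↥(A.comap ι))[X] (S24.FF L M) = Gauss.evF (A.comap ι) M)
    (BM : Type) [CommRing BM] [Algebra (↥(A.comap ι))[X] BM] [Algebra BM (S24.FF L M)]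
    [IsScalarTower (↥(A.comap ι))[X] BM (S24.FF L M)]
    [IsIntegralClosure BM (↥(A.comap ι))[X] (S24.FF L M)]
    [Algebra (↥(A.comap ι))[X] (S24.FF L (M * q))]
    (halg : algebraMap (↥(A.comap ι))[X] (S24.FF L (M * q)) = Gauss.evF (A.comap ι) (M * q))
    (B : Type) [CommRing B] [Algebra (↥(A.comap ι))[X] B] [Algebra B (S24.FF L (M * q))]
    [IsScalarTower (↥(A.comap ι))[X] B (S24.FF L (M * q))]
    [IsIntegralClosure B (↥(A.comap ι))[X] (S24.FF L (M * q))]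
    (αB βB : BM →+* B)
    (hαB : ∀ c, algebraMap B (S24.FF L (M * q)) (αB c) =
      heckeAlphaBar L M q (algebraMap BM (S24.FF L M) c))
    (hβB : ∀ c, algebraMap B (S24.FF L (M * q)) (βB c) =
      heckeBetaBar L M q (algebraMap BM (S24.FF L M) c))
    (σB : B ≃+* B)
    (hσB : ∀ b, algebraMap B (S24.FF L (M * q)) (σB b) =
      CoeffAut.act (M * q) s (algebraMap B (S24.FF L (M * q)) b))
    (wB : B →+* B)
    (hwB : ∀ b, algebraMap B (S24.FF L (M * q)) (wB b) =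
      w (algebraMap B (S24.FF L (M * q)) b))
    (𝔫 : Ideal B) (h𝔫 : 𝔫.IsMaximal) (hC : algebraMap (↥(A.comap ι))[X] B (C ϖ) ∈ 𝔫)
    (hnode : (𝔫.comap (σB : B →+* B)).IsMaximal ∧
      algebraMap (↥(A.comap ι))[X] B (C ϖ) ∈ 𝔫.comap (σB : B →+* B) ∧
      (∀ y : B, σB (σB y) ∈ 𝔫.comap (σB : B →+* B) ↔ y ∈ 𝔫.comap (σB : B →+* B)) ∧
      (∀ y ∈ 𝔫, σB y ∈ 𝔫.comap (σB : B →+* B)) ∧
      (∀ y ∈ 𝔫, σB.symm y ∈ 𝔫.comap (σB : B →+* B)) ∧
      (∀ y : B, wB y ∈ 𝔫 → y ∈ 𝔫.comap (σB : B →+* B)) ∧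
      (∀ 𝔫' : Ideal B, 𝔫'.IsMaximal → 𝔫'.comap βB = 𝔫.comap αB →
        𝔫' = 𝔫.comap (σB : B →+* B)) ∧
      (∀ 𝔫' : Ideal B, 𝔫'.IsMaximal → 𝔫'.comap αB = 𝔫.comap βB →
        𝔫' = 𝔫.comap (σB : B →+* B))) :
    ∃ g : S24.FF L (M * q), GaussOne ϖ (S24.jBC L (M * q)) g ∧ ∃ d : B, d ∉ 𝔫 ∧ ∃ t : B,
      algebraMap B (S24.FF L (M * q)) t = algebraMap B (S24.FF L (M * q)) d *
        (EsNorm.esL M q s w (DDGauss.dd (M * q) (s.trans s) fL) * g ^ (p ^ n)) := by
  haveI : IsDiscreteValuationRing ↥(A.comap ι) := hlev.2.2.1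
  haveI : CharP (IsLocalRing.ResidueField ↥(A.comap ι)) q := hlev.2.2.2.2.2.1
  haveI : Fact q.Prime := ⟨hq⟩
  haveI : IsScalarTower ↥(A.comap ι) L (S24.FF L (M * q)) := GAsm.isScalarTower_W _ _
  obtain ⟨w', hwα', hwβ'⟩ := FrobPartner.exists_atkinLehner_level (RingHom.id Qb) M q hq hqM
  exact es_node_fin_gauss M q p hq hqM A hA σ hσ ι S₀ hlev hst n D fL hfL0 hD hrat ϖ hϖ s hs
    w hwα hwβ (EsNorm.esL M q s w) (fun y hy => EsNorm.esL_ne_zero M q s w hy)
    (fun x γ _ m => EsNorm.esL_div_pow M q s w x γ m) w' hwα' hwβ'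
    (fun y => EsNorm.bc_esL ι M q hq hqM ζ hζ σ s hs w hwα hwβ w' hwα' hwβ' y)
    (fun y hy => EsNorm.gaussOne_esL_level A ι s hs M q hqM hσ hϖ ζ hζ w hwα hwβ
      (S24.jBC L (M * q))
      (fun x hx₁ hx₂ => TwoGauss.inC_of_mem_both (A.comap ι) M q
        (w : S24.FF L (M * q) →ₐ[L] S24.FF L (M * q)) hqM hwα hwβ hϖ.not_isUnit x hx₁ hx₂) hy)
    halgM BM halg B αB βB hαB hβB σB hσB wB hwB 𝔫 h𝔫 hC hnode

set_option maxHeartbeats 1600000 in
/-- **The finite chart of level `M q` at a stable level: at every closed point of the special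
fibre, either the smooth alternative of `NodePtsInst.node_pts_fin` holds, or the local datum of
`EsNorm.esL ((σ² - 1)² fL)` exists** (`BM` any carrier of the finite chart of level `M`). -/
theorem esL_fin_smooth_or (M q p : ℕ) [NeZero M] [NeZero q] (hq : q.Prime) (hqM : ¬ q ∣ M)
    (A : ValuationSubring Qb) (hA : A.LiesOverPrime q) (σ : Qb ≃ₐ[ℚ] Qb)
    (hσ : A.IsFrobeniusAt σ q)
    {L : Type} [Field L] [Algebra ℚ L] (ι : L →+* Qb) (S₀ : Finset Qb)
    (hlev : LevelChange.IsLevel A q S₀ ι) (hst : GalLevel.IsStable ι)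
    (n : ℕ) (D : Divisor Qb (modularFunctionFieldBar (M * q)))
    (fL : S24.FF L (M * q)) (hfL0 : fL ≠ 0)
    (hD : ∀ P : Place Qb (modularFunctionFieldBar (M * q)),
      P.ord (S24.CoeffBC.bc ι (modularFunctionFieldFull (M * q)) fL) = (p : ℤ) ^ n * D P)
    (hrat : ∀ P : Place Qb (modularFunctionFieldBar (M * q)), D P ≠ 0 →
      RatAtLevel (M * q) ι P)
    (ϖ : ↥(A.comap ι)) (hϖ : Irreducible ϖ) (s : L ≃+* L) (hs : ∀ c : L, ι (s c) = σ (ι c))
    (w : S24.FF L (M * q) ≃ₐ[L] S24.FF L (M * q))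
    (hwα : (w : S24.FF L (M * q) →ₐ[L] S24.FF L (M * q)).comp (heckeAlphaBar L M q) =
      heckeBetaBar L M q)
    (hwβ : (w : S24.FF L (M * q) →ₐ[L] S24.FF L (M * q)).comp (heckeBetaBar L M q) =
      heckeAlphaBar L M q)
    (ζ : Lˣ) (hζ : IsPrimitiveRoot ζ q)
    -- the carriers
    [Algebra (↥(A.comap ι))[X] (S24.FF L M)]
    (halgM : algebraMap (↥(A.comap ι))[X] (S24.FF L M) = Gauss.evF (A.comap ι) M)
    (BM : Type) [CommRing BM] [Algebra (↥(A.comap ι))[X] BM] [Algebra BM (S24.FF L M)]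
    [IsScalarTower (↥(A.comap ι))[X] BM (S24.FF L M)]
    [IsIntegralClosure BM (↥(A.comap ι))[X] (S24.FF L M)]
    [Algebra (↥(A.comap ι))[X] (S24.FF L (M * q))]
    (halg : algebraMap (↥(A.comap ι))[X] (S24.FF L (M * q)) = Gauss.evF (A.comap ι) (M * q))
    (B : Type) [CommRing B] [Algebra (↥(A.comap ι))[X] B] [Algebra B (S24.FF L (M * q))]
    [IsScalarTower (↥(A.comap ι))[X] B (S24.FF L (M * q))]
    [IsIntegralClosure B (↥(A.comap ι))[X] (S24.FF L (M * q))]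
    (𝔫 : Ideal B) (h𝔫 : 𝔫.IsMaximal) (hC : algebraMap (↥(A.comap ι))[X] B (C ϖ) ∈ 𝔫) :
    (∃ u ∈ 𝔫, IsLocalRing.maximalIdeal (Localization.AtPrime 𝔫) =
        Ideal.span {algebraMap B (Localization.AtPrime 𝔫)
          (algebraMap (↥(A.comap ι))[X] B (C ϖ)), algebraMap B (Localization.AtPrime 𝔫) u}) ∨
    ∃ g : S24.FF L (M * q), GaussOne ϖ (S24.jBC L (M * q)) g ∧ ∃ d : B, d ∉ 𝔫 ∧ ∃ t : B,
      algebraMap B (S24.FF L (M * q)) t = algebraMap B (S24.FF L (M * q)) d *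
        (EsNorm.esL M q s w (DDGauss.dd (M * q) (s.trans s) fL) * g ^ (p ^ n)) := by
  obtain ⟨-, hroots, hdvr, hclosed, -, hchar, -, -⟩ := id hlev
  haveI := hdvr
  haveI := hclosed
  haveI := hchar
  haveI := h𝔫
  have hW : ∀ c : L, c ∈ A.comap ι ↔ (s : L →+* L) c ∈ A.comap ι :=
    GalLevel.mem_comap_iff_of_mem_decomposition A ι s hs hσ.mem_decompositionSubgroup
  rcases DegInt.node_data_fin A ι M q hq hqM hroots ϖ hϖ hσ s hs w hwα hwβ halgM BM halg B
      (NodePtsInst.alphaFin (A.comap ι) M q halgM BM halg B)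
      (NodePtsInst.betaFin (A.comap ι) M q halgM BM halg B hq)
      (NodePtsInst.algebraMap_alphaFin (A.comap ι) M q halgM BM halg B)
      (NodePtsInst.algebraMap_betaFin (A.comap ι) M q halgM BM halg B hq)
      (ChartAct.actFin (A.comap ι) (M * q) s hW halg B)
      (ChartAct.algebraMap_actFin (A.comap ι) (M * q) s hW halg B)
      (NodePtsInst.atkinFin (A.comap ι) M q halg B hq w hwα)
      (NodePtsInst.algebraMap_atkinFin (A.comap ι) M q halg B hq w hwα) 𝔫 hC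
      (Localization.AtPrime 𝔫) with hsm | hnode
  · exact Or.inl hsm
  · exact Or.inr (esL_node_fin M q p hq hqM A hA σ hσ ι S₀ hlev hst n D fL hfL0 hD hrat ϖ hϖ s
      hs w hwα hwβ ζ hζ halgM BM halg B
      (NodePtsInst.alphaFin (A.comap ι) M q halgM BM halg B)
      (NodePtsInst.betaFin (A.comap ι) M q halgM BM halg B hq)
      (NodePtsInst.algebraMap_alphaFin (A.comap ι) M q halgM BM halg B)
      (NodePtsInst.algebraMap_betaFin (A.comap ι) M q halgM BM halg B hq)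
      (ChartAct.actFin (A.comap ι) (M * q) s hW halg B)
      (ChartAct.algebraMap_actFin (A.comap ι) (M * q) s hW halg B)
      (NodePtsInst.atkinFin (A.comap ι) M q halg B hq w hwα)
      (NodePtsInst.algebraMap_atkinFin (A.comap ι) M q halg B hq w hwα) 𝔫 h𝔫 hC hnode)

end Fermat.Agent.S35.EsNodeInst
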