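/-
S35 (wave 7, Route C): the shared level input of the two local contracts `EsLocT₁` / `EsLocT₂`.

For `div f = p ^ n • D` over `ℚ̄` there is a finite `S₀ ⊆ ℚ̄` such that at every level `(L, ι)`
containing `S₀`, for every descent `fL` of `f`, the restriction `s` of a Frobenius lift `σ` at
`q` and every Atkin–Lehner automorphism `w`, the function

  `w₀ := EsOp.esL M q s w (DDGauss.dd (M * q) (s.trans s) fL)`

satisfies: `w₀ ≠ 0`, `GaussOne ϖ j w₀` (Claim R), every place in the divisor of `bc ι w₀` is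
rational at the level, and `p ^ n` divides every order of `bc ι w₀`.

These are the hypotheses on `w₀` of the smooth-point local datum (`EsSmooth.smooth_hloc`) on the
finite chart and at the cusps.
-/
import Mathlib
import Fermat.Agent.S35.EsOp
import Fermat.Agent.S35.EsNorm
import Fermat.Agent.S35.EsRat
import Fermat.Agent.S34.GAsm
import Fermat.Agent.S34.TwoGaussInst
import Fermat.Agent.S34.FrobPartner
import Fermat.Agent.S34.GEnd

set_option autoImplicit false
set_option linter.style.haveILetI false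

noncomputable section

namespace Fermat.Agent.S35.EsW0

open ModularCurve AlgebraicCurve Fermat.Agent.S18 Fermat.Agent.S18.Gauss Fermat.Agent.S24
  Fermat.Agent.S37 Fermat.Agent.S34 Fermat.Agent.S34.KummerStep Fermat.Agent.S34.GDescent
  Fermat.Agent.S34.CoeffAut

local notation "Qb" => AlgebraicClosure ℚ

/-- the two definitions of the level operator agree -/
theorem esNorm_eq_esOp {L : Type*} [Field L] [Algebra ℚ L] (M q : ℕ) [NeZero M] [NeZero q]
    (s : L ≃+* L) (w : FF L (M * q) ≃ₐ[L] FF L (M * q)) (y : FF L (M * q)) :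
    EsNorm.esL M q s w y = EsOp.esL M q s w y :=
  (EsNorm.esL_eq_esQ M q s w y).trans (EsOp.esL_eq_esQ M q s w y).symm

/-- a primitive `q`-th root of unity of `ℚ̄` -/
theorem exists_primitiveRoot_Qb (q : ℕ) [NeZero q] : ∃ ζ : Qb, IsPrimitiveRoot ζ q :=
  HasEnoughRootsOfUnity.exists_primitiveRoot Qb q

/-- a level containing a primitive `q`-th root of unity of `ℚ̄` has one -/
theorem exists_primitiveRoot_level {L : Type*} [Field L] (ι : L →+* Qb) (q : ℕ) (hq : q ≠ 0)
    {ζ : Qb} (hζ : IsPrimitiveRoot ζ q) (h : ∃ b : L, ι b = ζ) :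
    ∃ z : Lˣ, IsPrimitiveRoot z q := by
  obtain ⟨b, hb⟩ := h
  have h1 : IsPrimitiveRoot b q :=
    IsPrimitiveRoot.of_map_of_injective (f := ι) (by rw [hb]; exact hζ) ι.injective
  have hb0 : b ≠ 0 := h1.ne_zero hq
  exact ⟨Units.mk0 b hb0, IsPrimitiveRoot.coe_units_iff.mp h1⟩

section Main

variable (M q p : ℕ) [NeZero M] [NeZero q]

set_option maxHeartbeats 1600000 in
-- the instance `Algebra ↥W (FF L N)` is found slowly
/-- **The level facts about `w₀ = ES ((σ² - 1)² fL)`.** -/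
theorem exists_level_w0 (hq : q.Prime) (hqM : ¬ q ∣ M) (A : ValuationSubring Qb)
    (σ : Qb ≃ₐ[ℚ] Qb) (hσ : A.IsFrobeniusAt σ q) (n : ℕ)
    (f : modularFunctionFieldBar (M * q)) (hf : f ≠ 0)
    (hdvd : ∀ P : Place Qb (modularFunctionFieldBar (M * q)), ((p : ℤ) ^ n) ∣ P.ord f) :
    ∃ S₀ : Finset Qb, ∀ (L : Type) [Field L] [Algebra ℚ L] (ι : L →+* Qb),
      LevelChange.IsLevel A q S₀ ι →
      ∀ fL : FF L (M * q), CoeffBC.bc ι (modularFunctionFieldFull (M * q)) fL = f →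
      ∀ ϖ : ↥(A.comap ι), Irreducible ϖ →
      ∀ s : L ≃+* L, (∀ c : L, ι (s c) = σ (ι c)) →
      ∀ w : FF L (M * q) ≃ₐ[L] FF L (M * q),
        (w : FF L (M * q) →ₐ[L] FF L (M * q)).comp (heckeAlphaBar L M q) =
          heckeBetaBar L M q →
        (w : FF L (M * q) →ₐ[L] FF L (M * q)).comp (heckeBetaBar L M q) =
          heckeAlphaBar L M q →
        EsOp.esL M q s w (DDGauss.dd (M * q) (s.trans s) fL) ≠ 0 ∧
        GaussOne ϖ (jBC L (M * q)) (EsOp.esL M q s w (DDGauss.dd (M * q) (s.trans s) fL)) ∧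
        (∀ Q : Place Qb (modularFunctionFieldBar (M * q)),
          Q.ord (CoeffBC.bc ι (modularFunctionFieldFull (M * q))
            (EsOp.esL M q s w (DDGauss.dd (M * q) (s.trans s) fL))) ≠ 0 →
          RatAtLevel (M * q) ι Q) ∧
        (∀ Q : Place Qb (modularFunctionFieldBar (M * q)),
          ((p : ℤ) ^ n) ∣ Q.ord (CoeffBC.bc ι (modularFunctionFieldFull (M * q))
            (EsOp.esL M q s w (DDGauss.dd (M * q) (s.trans s) fL)))) := by
  classical
  obtain ⟨ζ₀, hζ₀⟩ := exists_primitiveRoot_Qb q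
  obtain ⟨w', hwα', hwβ'⟩ := FrobPartner.exists_atkinLehner_level (RingHom.id Qb) M q hq hqM
  set g₁ : SemilinearAut Qb (modularFunctionFieldBar (M * q)) :=
    arithmeticGalois (modularFunctionFieldFull (M * q)) σ with hg₁
  set g : SemilinearAut Qb (modularFunctionFieldBar (M * q)) :=
    arithmeticGalois (modularFunctionFieldFull (M * q)) (σ * σ) with hg
  obtain ⟨hdv, S₁, hS₁⟩ := EsRat.exists_level_es M q g₁ g w' q ((p : ℤ) ^ n) hf hdvd
  refine ⟨insert ζ₀ S₁, ?_⟩
  intro L _ _ ι hlev fL hfL ϖ hϖ s hs w hwα hwβ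
  obtain ⟨hS, -, hdvr, -, -, hchar, -, -⟩ := hlev
  haveI := hdvr
  haveI := hchar
  haveI : Fact q.Prime := ⟨hq⟩
  haveI := GAsm.isScalarTower_W (A.comap ι) (M * q)
  obtain ⟨ζ, hζ⟩ := exists_primitiveRoot_level ι q hq.ne_zero hζ₀
    (hS ζ₀ (Finset.mem_insert_self _ _))
  have hfL0 : fL ≠ 0 := by
    rintro rfl
    rw [map_zero] at hfL
    exact hf hfL.symm
  have hdd0 : DDGauss.dd (M * q) (s.trans s) fL ≠ 0 := DDGauss.dd_ne_zero (M * q) _ hfL0
  -- the bridge to `ℚ̄`
  have hs2 : ∀ c : L, ι ((s.trans s) c) = (σ * σ) (ι c) := by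
    intro c
    show ι (s (s c)) = σ (σ (ι c))
    rw [hs, hs]
  have hbdd : CoeffBC.bc ι (modularFunctionFieldFull (M * q))
      (DDGauss.dd (M * q) (s.trans s) fL) = g • g • f * f / (g • f) ^ 2 := by
    have e := GEnd.bc_ddf (M * q) ι (σ * σ) (s.trans s) hs2 fL
    rw [hfL] at e
    exact e
  have hbes : CoeffBC.bc ι (modularFunctionFieldFull (M * q))
      (EsOp.esL M q s w (DDGauss.dd (M * q) (s.trans s) fL)) =
        EsOrd.esBar g₁ w' (heckeAlphaBar Qb M q) (heckeBetaBar Qb M q) q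
          (g • g • f * f / (g • f) ^ 2) := by
    rw [← esNorm_eq_esOp, EsNorm.bc_esL ι M q hq hqM ζ hζ σ s hs w hwα hwβ w' hwα' hwβ', hbdd]
  refine ⟨EsOp.esL_ne_zero M q s w hdd0, ?_, ?_, ?_⟩
  · exact EsOp.gaussOne_esL_level A ι s hs M q hqM hσ hϖ ζ hζ w hwα hwβ (jBC L (M * q))
      (fun x hx₁ hx₂ => TwoGauss.inC_of_mem_both (A.comap ι) M q
        (w : FF L (M * q) →ₐ[L] FF L (M * q)) hqM hwα hwβ hϖ.not_isUnit x hx₁ hx₂) hdd0
  · intro Q hQ
    rw [hbes] at hQ
    exact hS₁ L ι (fun a ha => hS a (Finset.mem_insert_of_mem ha)) Q hQ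
  · intro Q
    rw [hbes]
    exact hdv Q

/-- The same with the divisor hypothesis `div f = p ^ n • D` of the contracts `EsLocT₁`,
`EsLocT₂`. -/
theorem exists_level_w0_of_div (hq : q.Prime) (hqM : ¬ q ∣ M) (A : ValuationSubring Qb)
    (σ : Qb ≃ₐ[ℚ] Qb) (hσ : A.IsFrobeniusAt σ q) (n : ℕ)
    (D : Divisor Qb (modularFunctionFieldBar (M * q)))
    (f : modularFunctionFieldBar (M * q)) (hf : f ≠ 0)
    (hD : ∀ P : Place Qb (modularFunctionFieldBar (M * q)), P.ord f = (p : ℤ) ^ n * D P) :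
    ∃ S₀ : Finset Qb, ∀ (L : Type) [Field L] [Algebra ℚ L] (ι : L →+* Qb),
      LevelChange.IsLevel A q S₀ ι →
      ∀ fL : FF L (M * q), CoeffBC.bc ι (modularFunctionFieldFull (M * q)) fL = f →
      ∀ ϖ : ↥(A.comap ι), Irreducible ϖ →
      ∀ s : L ≃+* L, (∀ c : L, ι (s c) = σ (ι c)) →
      ∀ w : FF L (M * q) ≃ₐ[L] FF L (M * q),
        (w : FF L (M * q) →ₐ[L] FF L (M * q)).comp (heckeAlphaBar L M q) =
          heckeBetaBar L M q →
        (w : FF L (M * q) →ₐ[L] FF L (M * q)).comp (heckeBetaBar L M q) =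
          heckeAlphaBar L M q →
        EsOp.esL M q s w (DDGauss.dd (M * q) (s.trans s) fL) ≠ 0 ∧
        GaussOne ϖ (jBC L (M * q)) (EsOp.esL M q s w (DDGauss.dd (M * q) (s.trans s) fL)) ∧
        (∀ Q : Place Qb (modularFunctionFieldBar (M * q)),
          Q.ord (CoeffBC.bc ι (modularFunctionFieldFull (M * q))
            (EsOp.esL M q s w (DDGauss.dd (M * q) (s.trans s) fL))) ≠ 0 →
          RatAtLevel (M * q) ι Q) ∧
        (∀ Q : Place Qb (modularFunctionFieldBar (M * q)),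
          ((p : ℤ) ^ n) ∣ Q.ord (CoeffBC.bc ι (modularFunctionFieldFull (M * q))
            (EsOp.esL M q s w (DDGauss.dd (M * q) (s.trans s) fL)))) :=
  exists_level_w0 M q p hq hqM A σ hσ n f hf (fun P => ⟨D P, hD P⟩)

end Main

end Fermat.Agent.S35.EsW0
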