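import Mathlib
import Fermat.Agent.S35.EsLoc1
import Fermat.Agent.S35.EsW0
import Fermat.Agent.S35.EsNodeInst
import Fermat.Agent.S35.EsSmoothFin

/-!
# S35 (Route C): the contracts of `EsLoc1.esLocT₁_of_cases` on the finite chart

* `w0Facts` : the four facts about `w₀ = ES ((σ² - 1)² fL)` (`EsW0.exists_level_w0_of_div`);
* `nodeOrSmooth` : the node clause (`EsNodeInst.esL_fin_smooth_or` at the canonical carrier of
  level `M`, with a primitive `q`-th root of unity put into `S₀`);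
* `finSmooth` : the smooth-point lemma on the finite chart (`EsSmoothFin.es_smooth_fin'`);
* `esLoc₁` : **the contract `EsCoreT.EsLocT₁` for the Eichler–Shimura operator**, no hypothesis
  left.
-/

set_option autoImplicit false
set_option linter.unusedSectionVars false
set_option linter.unusedVariables false
set_option linter.style.haveILetI false

noncomputable section

namespace Fermat.Agent.S35.EsLoc1Inst

open Polynomial ModularCurve AlgebraicCurve Fermat.Agent.S18 Fermat.Agent.S18.Endgame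
  Fermat.Agent.S37
open Fermat.Agent.S34 Fermat.Agent.S34.KummerStep Fermat.Agent.S34.GDescent
open Fermat.Agent.S35.EsCore Fermat.Agent.S35.EsCoreT

local notation "Qb" => AlgebraicClosure ℚ

variable (M q p : ℕ) [NeZero M] [NeZero q]

/-- **The facts about `w₀`.** -/
theorem w0Facts (hq : q.Prime) (hqM : ¬ q ∣ M) (A : ValuationSubring Qb) (σ : Qb ≃ₐ[ℚ] Qb)
    (hσ : A.IsFrobeniusAt σ q) : EsLoc1.W0Facts M q p A σ :=
  fun n D f hf hD => EsW0.exists_level_w0_of_div M q p hq hqM A σ hσ n D f hf hD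

set_option maxHeartbeats 1600000 in
/-- **The node clause on the finite chart.** -/
theorem nodeOrSmooth (hq : q.Prime) (hqM : ¬ q ∣ M) (A : ValuationSubring Qb)
    (hA : A.LiesOverPrime q) (σ : Qb ≃ₐ[ℚ] Qb) (hσ : A.IsFrobeniusAt σ q) :
    EsLoc1.NodeOrSmooth M q p A σ := by
  classical
  intro n D f hf hD
  obtain ⟨ζ₀, hζ₀⟩ := HasEnoughRootsOfUnity.exists_primitiveRoot Qb q
  refine ⟨{ζ₀}, ?_⟩
  intro L _ _ ι hlev hst fL hfL hrat ϖ hϖ s hs w hwα hwβ _ halg B _ _ _ _ _ 𝔪 h𝔪 hC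
  obtain ⟨ζ, hζ⟩ := EsGaussInst.exists_primitiveRoot_of_mem ι q hζ₀
    (hlev.1 ζ₀ (Finset.mem_singleton_self _))
  have hfL0 : fL ≠ 0 := by
    rintro rfl
    exact hf (by rw [← hfL, map_zero])
  letI algM : Algebra (↥(A.comap ι))[X] (S24.FF L M) := (Gauss.evF (A.comap ι) M).toAlgebra
  have h := EsNodeInst.esL_fin_smooth_or M q p hq hqM A hA σ hσ ι {ζ₀} hlev hst n D fL hfL0
    (fun P => by rw [hfL]; exact hD P) hrat ϖ hϖ s hs w hwα hwβ ζ hζ rfl
    ↥(integralClosure (↥(A.comap ι))[X] (S24.FF L M)) halg B 𝔪 h𝔪 hC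
  rw [← EsGaussInst.esL_eq_esNorm] at h
  exact h

/-- **The smooth-point lemma on the finite chart.** -/
theorem finSmooth (hq : q.Prime) (hqM : ¬ q ∣ M) (A : ValuationSubring Qb) :
    EsLoc1.FinSmooth M q p A := by
  intro L _ _ ι S₀ hlev hst ϖ hϖ w hwα hwβ _ halg B _ _ _ _ _ 𝔪 _ hC hsm n w₀ hw0 hG hrat hdvd
  obtain ⟨-, -, hdvr, -, -, hchar, -, -⟩ := hlev
  haveI := hdvr
  haveI := hchar
  exact EsSmoothFin.es_smooth_fin' M q A ι hq hqM ϖ hϖ w hwα hwβ halg B 𝔪 hC hsm p n w₀ hG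
    hdvd hrat

/-- **Contract (EsLoc₁): the local datum of the Eichler–Shimura descent at every closed point
of the finite chart**, for `σ` a Frobenius element at `q`. -/
theorem esLoc₁ (hq : q.Prime) (hqM : ¬ q ∣ M) (hp : p.Prime) (hpq : p ≠ q)
    (A : ValuationSubring Qb) (hA : A.LiesOverPrime q) (σ : Qb ≃ₐ[ℚ] Qb)
    (hσ : A.IsFrobeniusAt σ q) : EsLocT₁ M q p (EsGaussInst.esOp M q) A σ :=
  EsLoc1.esLocT₁_of_cases M q p A σ (w0Facts M q p hq hqM A σ hσ) (finSmooth M q p hq hqM A)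
    (nodeOrSmooth M q p hq hqM A hA σ hσ)

end Fermat.Agent.S35.EsLoc1Inst
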