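/-
S35 (route C): the bridges of `S35.EsBridge`, stated VERBATIM for the team's level operator
`EsOp.esL` (= `EsOrd.esBar` at the level, by `rfl`).

* `esL_eq`     : `EsOp.esL M q s w y = EsNorm.esL M q s w y` (the two landed definitions agree);
* `bc_esL`     : `bc ι (EsOp.esL M q s w y) = esBar_ℚ̄ (bc ι y)`;
* `bc_esL_dd`  : `bc ι (EsOp.esL M q s w (DDGauss.dd (M * q) (s.trans s) fL))
                   = esBar_ℚ̄ (EsTop.ddf (g * g) (bc ι fL))`.
-/
import Mathlib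
import Fermat.Agent.S35.EsBridge
import Fermat.Agent.S35.EsOp

set_option autoImplicit false
set_option linter.unusedSectionVars false

noncomputable section

namespace Fermat.Agent.S35.EsOpBridge

open ModularCurve AlgebraicCurve Fermat.Agent.S24 Fermat.Agent.S34.CoeffAut

local notation "Qb" => AlgebraicClosure ℚ

/-- the two landed definitions of the level operator agree -/
theorem esL_eq {L : Type*} [Field L] [Algebra ℚ L] (M q : ℕ) [NeZero M] [NeZero q]
    (s : L ≃+* L) (w : FF L (M * q) ≃ₐ[L] FF L (M * q)) (y : FF L (M * q)) :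
    EsOp.esL M q s w y = EsNorm.esL M q s w y :=
  (EsBridge.esL_eq_esBar M q s w y).symm

variable {L : Type} [Field L] [Algebra ℚ L] (ι : L →+* Qb)

/-- **After the change of level to `ℚ̄`, `EsOp.esL` is `EsOrd.esBar`.** -/
theorem bc_esL (M q : ℕ) [NeZero M] [NeZero q] (hq : q.Prime) (hMq : ¬ q ∣ M)
    (ζ : Lˣ) (hζ : IsPrimitiveRoot ζ q) (σ : Qb ≃ₐ[ℚ] Qb) (s : L ≃+* L)
    (hs : ∀ c : L, ι (s c) = σ (ι c)) (w : FF L (M * q) ≃ₐ[L] FF L (M * q))
    (hwα : (w : FF L (M * q) →ₐ[L] FF L (M * q)).comp (heckeAlphaBar L M q) = heckeBetaBar L M q)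
    (hwβ : (w : FF L (M * q) →ₐ[L] FF L (M * q)).comp (heckeBetaBar L M q) = heckeAlphaBar L M q)
    (w' : FF Qb (M * q) ≃ₐ[Qb] FF Qb (M * q))
    (hwα' : (w' : FF Qb (M * q) →ₐ[Qb] FF Qb (M * q)).comp (heckeAlphaBar Qb M q) =
      heckeBetaBar Qb M q)
    (hwβ' : (w' : FF Qb (M * q) →ₐ[Qb] FF Qb (M * q)).comp (heckeBetaBar Qb M q) =
      heckeAlphaBar Qb M q)
    (y : FF L (M * q)) :
    CoeffBC.bc ι (modularFunctionFieldFull (M * q)) (EsOp.esL M q s w y) =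
      EsOrd.esBar (arithmeticGalois (modularFunctionFieldFull (M * q)) σ) w'
        (heckeAlphaBar Qb M q) (heckeBetaBar Qb M q) q
        (CoeffBC.bc ι (modularFunctionFieldFull (M * q)) y) := by
  rw [esL_eq]
  exact EsNorm.bc_esL ι M q hq hMq ζ hζ σ s hs w hwα hwβ w' hwα' hwβ' y

/-- the bridge for `w₀ = EsOp.esL (dd fL)`: over `ℚ̄` it is `esBar (ddf (bc fL))`. -/
theorem bc_esL_dd (M q : ℕ) [NeZero M] [NeZero q] (hq : q.Prime) (hMq : ¬ q ∣ M)
    (ζ : Lˣ) (hζ : IsPrimitiveRoot ζ q) (σ : Qb ≃ₐ[ℚ] Qb) (s : L ≃+* L)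
    (hs : ∀ c : L, ι (s c) = σ (ι c)) (w : FF L (M * q) ≃ₐ[L] FF L (M * q))
    (hwα : (w : FF L (M * q) →ₐ[L] FF L (M * q)).comp (heckeAlphaBar L M q) = heckeBetaBar L M q)
    (hwβ : (w : FF L (M * q) →ₐ[L] FF L (M * q)).comp (heckeBetaBar L M q) = heckeAlphaBar L M q)
    (w' : FF Qb (M * q) ≃ₐ[Qb] FF Qb (M * q))
    (hwα' : (w' : FF Qb (M * q) →ₐ[Qb] FF Qb (M * q)).comp (heckeAlphaBar Qb M q) =
      heckeBetaBar Qb M q)
    (hwβ' : (w' : FF Qb (M * q) →ₐ[Qb] FF Qb (M * q)).comp (heckeBetaBar Qb M q) =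
      heckeAlphaBar Qb M q)
    (fL : FF L (M * q)) :
    CoeffBC.bc ι (modularFunctionFieldFull (M * q))
        (EsOp.esL M q s w (Fermat.Agent.S34.DDGauss.dd (M * q) (s.trans s) fL)) =
      EsOrd.esBar (arithmeticGalois (modularFunctionFieldFull (M * q)) σ) w'
        (heckeAlphaBar Qb M q) (heckeBetaBar Qb M q) q
        (EsTop.ddf (arithmeticGalois (modularFunctionFieldFull (M * q)) σ *
            arithmeticGalois (modularFunctionFieldFull (M * q)) σ)
          (CoeffBC.bc ι (modularFunctionFieldFull (M * q)) fL)) := by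
  rw [esL_eq]
  exact EsBridge.bc_esL_dd ι M q hq hMq ζ hζ σ s hs w hwα hwβ w' hwα' hwβ' fL

end Fermat.Agent.S35.EsOpBridge
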