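/-
S35 (wave 7), Route C, package (C6b), the link between the level and `ℚ̄`:
the Eichler–Shimura identity (ES-q) over `ℚ̄` (`EsFinal.EsQ`) from the level core
(`EsCoreT.EsCorePropT`, the output of the Kummer descent at all places `A` over `q` and all
Frobenius lifts `σ`).

* `bc_dd` : the change of level of the double difference `DDGauss.dd N (s.trans s)` is the double
  difference `EsTop.ddf (g * g)` over `ℚ̄`, `g = arithmeticGalois σ`, `s` the restriction of `σ`.
* `esQ_of_core_gen` : generic in the level operator `E`, given its bridge to `EsOrd.esBar`.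
* `esQ_of_core`, `esQ_of_core'` : the instances `E = EsOp.esL`, `E = EsNorm.esL`.
* `frobRel_of_core`, `frobRel_of_contracts` : composition with `EsFinal.frobRel_of_esQ` and
  `EsCoreT.esCoreT_of_contracts`.
-/
import Mathlib
import Fermat.Agent.S35.EsFinal
import Fermat.Agent.S35.EsCoreT
import Fermat.Agent.S35.EsOp
import Fermat.Agent.S35.EsNorm
import Fermat.Agent.S34.GDescent
import Fermat.Agent.S34.GalLevel
import Fermat.Agent.S34.FrobPartner
import Fermat.Agent.S34.GRat

set_option autoImplicit false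
set_option linter.style.haveILetI false
set_option linter.unusedVariables false
set_option linter.unusedSectionVars false

noncomputable section

namespace Fermat.Agent.S35.EsQCore

open Polynomial
open ModularCurve AlgebraicCurve Fermat.Agent.S18 Fermat.Agent.S24 Fermat.Agent.S37
open Fermat.Agent.S34 Fermat.Agent.S34.GDescent
open Fermat.Agent.S35.EsTop

local notation "Qb" => AlgebraicClosure ℚ
local notation "GQ" => (AlgebraicClosure ℚ) ≃ₐ[ℚ] (AlgebraicClosure ℚ)

/-! ### the double difference under the change of level -/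

section BC

variable {L : Type} [Field L] [Algebra ℚ L] (ι : L →+* Qb)

/-- the change of level of the coefficient action of `s ∘ s` is the action of `g * g` -/
theorem bc_act_trans (N : ℕ) [NeZero N] (σ : GQ) (s : L ≃+* L)
    (hs : ∀ c : L, ι (s c) = σ (ι c)) (x : FF L N) :
    CoeffBC.bc ι (modularFunctionFieldFull N) (CoeffAut.act N (s.trans s) x) =
      (arithmeticGalois (modularFunctionFieldFull N) σ *
        arithmeticGalois (modularFunctionFieldFull N) σ) •
          CoeffBC.bc ι (modularFunctionFieldFull N) x := by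
  have hs2 : ∀ c : L, ι (((s.trans s : L ≃+* L) : L →+* L) c) = (σ * σ) (ι c) := by
    intro c
    show ι (s (s c)) = σ (σ (ι c))
    rw [hs, hs]
  have h := Fermat.Agent.S34.GRat.bc_bc_eq_smul N ι (σ * σ) ((s.trans s : L ≃+* L) : L →+* L)
    hs2 x
  rw [map_mul] at h
  exact h

/-- **The double difference commutes with the change of level.** -/
theorem bc_dd (N : ℕ) [NeZero N] (σ : GQ) (s : L ≃+* L)
    (hs : ∀ c : L, ι (s c) = σ (ι c)) (x : FF L N) :
    CoeffBC.bc ι (modularFunctionFieldFull N) (DDGauss.dd N (s.trans s) x) =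
      ddf (arithmeticGalois (modularFunctionFieldFull N) σ *
        arithmeticGalois (modularFunctionFieldFull N) σ)
          (CoeffBC.bc ι (modularFunctionFieldFull N) x) := by
  rw [DDGauss.dd_def, map_div₀, map_mul, map_pow, bc_act_trans ι N σ s hs,
    bc_act_trans ι N σ s hs]
  rfl

end BC

/-! ### (ES-q) over `ℚ̄` from the level core -/

section Main

variable {N q p : ℕ} [NeZero N] [NeZero q]

set_option maxHeartbeats 1000000 in
/-- **(ES-q) over `ℚ̄` from the level core**, generic in the level operator `E`: it is enough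
that, at every level containing a finite set `SE`, the change of level of `E` is `EsOrd.esBar`. -/
theorem esQ_of_core_gen (hq : q.Prime) (hqN : ¬ q ∣ N) (E : EsCore.LevelOp (N * q))
    (SE : Finset Qb)
    (hbridge : ∀ (L : Type) [Field L] [Algebra ℚ L] (ι : L →+* Qb),
      (∀ a ∈ SE, ∃ b : L, ι b = a) →
      ∀ (σ : GQ) (s : L ≃+* L), (∀ c : L, ι (s c) = σ (ι c)) →
      ∀ w : FF L (N * q) ≃ₐ[L] FF L (N * q),
        (w : FF L (N * q) →ₐ[L] FF L (N * q)).comp (heckeAlphaBar L N q) =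
          heckeBetaBar L N q →
        (w : FF L (N * q) →ₐ[L] FF L (N * q)).comp (heckeBetaBar L N q) =
          heckeAlphaBar L N q →
      ∀ w' : modularFunctionFieldBar (N * q) ≃ₐ[Qb] modularFunctionFieldBar (N * q),
        (w' : modularFunctionFieldBar (N * q) →ₐ[Qb] modularFunctionFieldBar (N * q)).comp
          (heckeAlphaBar Qb N q) = heckeBetaBar Qb N q →
        (w' : modularFunctionFieldBar (N * q) →ₐ[Qb] modularFunctionFieldBar (N * q)).comp
          (heckeBetaBar Qb N q) = heckeAlphaBar Qb N q →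
      ∀ y : FF L (N * q),
        CoeffBC.bc ι (modularFunctionFieldFull (N * q)) (E L s w y) =
          EsOrd.esBar (arithmeticGalois (modularFunctionFieldFull (N * q)) σ) w'
            (heckeAlphaBar Qb N q) (heckeBetaBar Qb N q) q
            (CoeffBC.bc ι (modularFunctionFieldFull (N * q)) y))
    (h : ∀ A : ValuationSubring Qb, A.LiesOverPrime q → ∀ σ : GQ, A.IsFrobeniusAt σ q →
      EsCoreT.EsCorePropT N q p E A σ) :
    EsFinal.EsQ N q p := by
  classical
  intro A hA σ hσ w' hwα' hwβ' n D f hf hfD hdeg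
  obtain ⟨S₀, T, hS₀⟩ := h A hA σ hσ n D f hf hfD
  obtain ⟨S₁, hS₁⟩ := LevelDesc.eventually_exists_bc (N * q) f
  obtain ⟨S₂, hS₂⟩ := RatPlace.exists_rational_level_finset (N * q) T
  obtain ⟨L, _, _, ι, hL, hst⟩ := GalLevel.exists_stable_level A hq hA (S₀ ∪ S₁ ∪ (S₂ ∪ SE))
  have h0 : S₀ ⊆ S₀ ∪ S₁ ∪ (S₂ ∪ SE) := fun a ha =>
    Finset.mem_union_left _ (Finset.mem_union_left _ ha)
  have h1 : ∀ a ∈ S₁, ∃ b : L, ι b = a := fun a ha =>
    hL.1 a (Finset.mem_union_left _ (Finset.mem_union_right _ ha))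
  have h2 : ∀ a ∈ S₂, ∃ b : L, ι b = a := fun a ha =>
    hL.1 a (Finset.mem_union_right _ (Finset.mem_union_left _ ha))
  have h3 : ∀ a ∈ SE, ∃ b : L, ι b = a := fun a ha =>
    hL.1 a (Finset.mem_union_right _ (Finset.mem_union_right _ ha))
  obtain ⟨fL, hfL⟩ := hS₁ L ι h1
  obtain ⟨s, hs⟩ := hst σ
  obtain ⟨w, hwα, hwβ⟩ := FrobPartner.exists_atkinLehner_level ι N q hq hqN
  obtain ⟨a, H, ha, hE⟩ := hS₀ L ι (GalLevel.isLevel_mono hL h0) hst fL hfL
    (fun P hP => hS₂ L ι h2 P hP) s hs w hwα hwβ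
  refine ⟨ι a, CoeffBC.bc ι (modularFunctionFieldFull (N * q)) H, (map_ne_zero ι).mpr ha, ?_⟩
  have hbc := congrArg (CoeffBC.bc ι (modularFunctionFieldFull (N * q))) hE
  rw [hbridge L ι h3 σ s hs w hwα hwβ w' hwα' hwβ', bc_dd ι (N * q) σ s hs, hfL, map_mul,
    map_pow, CoeffBC.bc_algebraMap] at hbc
  exact hbc

/-- `EsOp.esL` and `EsNorm.esL` are the same operator. -/
theorem esL_eq_esL {L : Type} [Field L] [Algebra ℚ L] (M ℓ : ℕ) [NeZero M] [NeZero ℓ]
    (s : L ≃+* L) (w : FF L (M * ℓ) ≃ₐ[L] FF L (M * ℓ)) (y : FF L (M * ℓ)) :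
    EsOp.esL M ℓ s w y = EsNorm.esL M ℓ s w y :=
  (EsOp.esL_eq_esQ M ℓ s w y).trans (EsNorm.esL_eq_esQ M ℓ s w y).symm

/-- a primitive `q`-th root of unity of `ℚ̄` -/
theorem exists_primitiveRoot_Qb (hq : q.Prime) : ∃ ζ : Qb, IsPrimitiveRoot ζ q := by
  haveI : NeZero (q : Qb) := ⟨Nat.cast_ne_zero.mpr hq.ne_zero⟩
  exact HasEnoughRootsOfUnity.exists_primitiveRoot Qb q

/-- a primitive `q`-th root of unity in `ℚ̄` that lies in `L` gives one in `Lˣ` -/
theorem exists_primitiveRoot_level {L : Type} [Field L] (ι : L →+* Qb) (hq : q.Prime)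
    {ζ : Qb} (hζ : IsPrimitiveRoot ζ q) (h : ∃ b : L, ι b = ζ) :
    ∃ ζL : Lˣ, IsPrimitiveRoot ζL q := by
  obtain ⟨b, hb⟩ := h
  have hb' : IsPrimitiveRoot b q := by
    have : IsPrimitiveRoot (ι b) q := by rw [hb]; exact hζ
    exact IsPrimitiveRoot.of_map_of_injective this ι.injective
  have hb0 : b ≠ 0 := hb'.ne_zero hq.ne_zero
  refine ⟨Units.mk0 b hb0, ?_⟩
  exact IsPrimitiveRoot.coe_units_iff.mp (by simpa using hb')

set_option maxHeartbeats 1000000 in
/-- **(ES-q) over `ℚ̄` from the level core for `EsNorm.esL`.** -/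
theorem esQ_of_core' (hq : q.Prime) (hqN : ¬ q ∣ N)
    (h : ∀ A : ValuationSubring Qb, A.LiesOverPrime q → ∀ σ : GQ, A.IsFrobeniusAt σ q →
      EsCoreT.EsCorePropT N q p (fun L _ _ s w => EsNorm.esL N q s w) A σ) :
    EsFinal.EsQ N q p := by
  classical
  obtain ⟨ζ, hζ⟩ := exists_primitiveRoot_Qb (q := q) hq
  refine esQ_of_core_gen hq hqN (fun L _ _ s w => EsNorm.esL N q s w) {ζ} ?_ h
  intro L _ _ ι hSE σ s hs w hwα hwβ w' hwα' hwβ' y
  obtain ⟨ζL, hζL⟩ := exists_primitiveRoot_level ι hq hζ (hSE ζ (Finset.mem_singleton_self ζ))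
  exact EsNorm.bc_esL ι N q hq hqN ζL hζL σ s hs w hwα hwβ w' hwα' hwβ' y

/-- **(ES-q) over `ℚ̄` from the level core for `EsOp.esL`.** -/
theorem esQ_of_core (hq : q.Prime) (hqN : ¬ q ∣ N)
    (h : ∀ A : ValuationSubring Qb, A.LiesOverPrime q → ∀ σ : GQ, A.IsFrobeniusAt σ q →
      EsCoreT.EsCorePropT N q p (fun L _ _ s w => EsOp.esL N q s w) A σ) :
    EsFinal.EsQ N q p := by
  refine esQ_of_core' hq hqN fun A hA σ hσ => ?_
  intro n D f hf hfD
  obtain ⟨S₀, T, hS₀⟩ := h A hA σ hσ n D f hf hfD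
  refine ⟨S₀, T, ?_⟩
  intro L _ _ ι hlev hst fL hfL hrat s hs w hwα hwβ
  obtain ⟨a, H, ha, hE⟩ := hS₀ L ι hlev hst fL hfL hrat s hs w hwα hwβ
  refine ⟨a, H, ha, ?_⟩
  rw [← hE]
  exact (esL_eq_esL N q s w _).symm

/-- **The bad-prime Eichler–Shimura relation from the level core** (`E = EsOp.esL`). -/
theorem frobRel_of_core (hp : p ≠ 0) (hq : q.Prime) (hqN : ¬ q ∣ N)
    (h : ∀ A : ValuationSubring Qb, A.LiesOverPrime q → ∀ σ : GQ, A.IsFrobeniusAt σ q →
      EsCoreT.EsCorePropT N q p (fun L _ _ s w => EsOp.esL N q s w) A σ) :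
    Push.FrobRel N q p ((Polynomial.X ^ 2 - 1) ^ 3 * (Polynomial.X ^ 2 - C ((q : ℤ) ^ 2))) :=
  EsFinal.frobRel_of_esQ hp hq hqN (esQ_of_core hq hqN h)

/-- **The bad-prime Eichler–Shimura relation from the three level contracts**
(`E = EsOp.esL`): Claim R, the local datum on the finite chart, the local datum at the cusps. -/
theorem frobRel_of_contracts (hp : p.Prime) (hq : q.Prime) (hqN : ¬ q ∣ N) (hpq : p ≠ q)
    (hG : ∀ A : ValuationSubring Qb, A.LiesOverPrime q → ∀ σ : GQ, A.IsFrobeniusAt σ q →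
      EsCore.GaussContract N q (fun L _ _ s w => EsOp.esL N q s w) A σ)
    (h₁ : ∀ A : ValuationSubring Qb, A.LiesOverPrime q → ∀ σ : GQ, A.IsFrobeniusAt σ q →
      EsCoreT.EsLocT₁ N q p (fun L _ _ s w => EsOp.esL N q s w) A σ)
    (h₂ : ∀ A : ValuationSubring Qb, A.LiesOverPrime q → ∀ σ : GQ, A.IsFrobeniusAt σ q →
      EsCoreT.EsLocT₂ N q p (fun L _ _ s w => EsOp.esL N q s w) A σ) :
    Push.FrobRel N q p ((Polynomial.X ^ 2 - 1) ^ 3 * (Polynomial.X ^ 2 - C ((q : ℤ) ^ 2))) :=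
  frobRel_of_core hp.ne_zero hq hqN fun A hA σ hσ =>
    EsCoreT.esCoreT_of_contracts N q p (fun L _ _ s w => EsOp.esL N q s w) hq hp hpq A σ
      (hG A hA σ hσ) (h₁ A hA σ hσ) (h₂ A hA σ hσ)

end Main

end Fermat.Agent.S35.EsQCore
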