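import Mathlib
import Fermat.Agent.S35.EsSmooth
import Fermat.Agent.S34.KLocVert
import Fermat.Agent.S34.KLocRaw
import Fermat.Agent.S34.TwoGauss
import Fermat.Agent.S34.KummerStep
import Fermat.Agent.S37.HeckeInputs
import Fermat.Agent.S37.ExtPlace

/-!
# S35 (Route C), package (C4), chart currency: the local datum at a smooth point of a chart

Twin of `S34.KLocVert.kloc_raw` / `S34.KLocRaw.kloc_chart` for `S35.EsSmooth.smooth_hloc`.

* `BothOne W N w x` : `x ≡ 1` at both Gauss valuations of `F = FF L N` (`x` and `w x` have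
  `q`-expansion in the content ring with reduction `1`); closed under products and inverses.
* `smooth_hloc_raw` : `EsSmooth.smooth_hloc` with `O_i`, `M_i`, `𝔭_i` the two Gauss packages of
  `KLocVert` and `G1 := BothOne`.
* `bothOne_of_gaussOne`, `gaussOne_of_bothOne` : at level `M q`, `BothOne ⇔ GaussOne π j`
  (`TwoGauss`, (V3a) and (V3b)).
* `smooth_hloc_chart` : the chart form, binders of `KLocRaw.kloc_chart`, `GaussOne` in and out.
-/

set_option autoImplicit false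
set_option linter.unusedSectionVars false
set_option linter.unusedVariables false

noncomputable section

namespace Fermat.Agent.S35.EsSmoothChart

open ModularCurve AlgebraicCurve Fermat.Agent.S18 Fermat.Agent.S18.Gauss Fermat.Agent.S24
  Fermat.Agent.S37.GaloisValue Fermat.Agent.S37.WChart Fermat.Agent.S34
  Fermat.Agent.S34.KLocVert

local notation "Qb" => AlgebraicClosure ℚ

section One

variable {L : Type*} [Field L] [Algebra ℚ L] (W : ValuationSubring L) (N : ℕ)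

/-- `x ≡ 1` at the first Gauss valuation: the `q`-expansion lies in the content ring and has
reduction `1` -/
def One1 (x : FF L N) : Prop :=
  (x : LaurentSeries L) ∈ contentRing W ∧ TwoGauss.rd W (x : LaurentSeries L) = 1

theorem mem_M1_iff_rd {x : FF L N} :
    x ∈ M1 W N ↔ (x : LaurentSeries L) ∈ contentRing W ∧
      TwoGauss.rd W (x : LaurentSeries L) = 0 := by
  constructor
  · rintro ⟨h, hr⟩
    exact ⟨h, by rw [TwoGauss.rd_of_mem W h]; exact hr⟩
  · rintro ⟨h, hr⟩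
    exact ⟨h, by rw [TwoGauss.rd_of_mem W h] at hr; exact hr⟩

theorem one1_one : One1 W N (1 : FF L N) :=
  ⟨Subring.one_mem _, TwoGauss.rd_one W⟩

theorem One1.mul {x y : FF L N} (hx : One1 W N x) (hy : One1 W N y) : One1 W N (x * y) := by
  refine ⟨Subring.mul_mem _ hx.1 hy.1, ?_⟩
  show TwoGauss.rd W ((x : LaurentSeries L) * (y : LaurentSeries L)) = 1
  rw [TwoGauss.rd_mul W hx.1 hy.1, hx.2, hy.2, one_mul]

theorem coe_inv' (x : FF L N) : ((x⁻¹ : FF L N) : LaurentSeries L) = (x : LaurentSeries L)⁻¹ :=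
  rfl

theorem One1.inv {x : FF L N} (hx : One1 W N x) : One1 W N x⁻¹ := by
  have h1 : TwoGauss.rd W (x : LaurentSeries L) ≠ 0 := by rw [hx.2]; exact one_ne_zero
  have hinv : (x : LaurentSeries L)⁻¹ ∈ contentRing W := TwoGauss.inv_mem_of_rd_ne_zero W hx.1 h1
  have hx0 : (x : LaurentSeries L) ≠ 0 := by
    intro h0
    rw [h0, TwoGauss.rd_zero] at h1
    exact h1 rfl
  refine ⟨hinv, ?_⟩
  show TwoGauss.rd W (x : LaurentSeries L)⁻¹ = 1
  have h2 := TwoGauss.rd_mul W hx.1 hinv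
  rw [mul_inv_cancel₀ hx0, TwoGauss.rd_one, hx.2, one_mul] at h2
  exact h2.symm

theorem One1.sub_one_mem {x : FF L N} (hx : One1 W N x) : x - 1 ∈ M1 W N := by
  rw [mem_M1_iff_rd]
  refine ⟨Subring.sub_mem _ hx.1 (Subring.one_mem _), ?_⟩
  show TwoGauss.rd W ((x : LaurentSeries L) - 1) = 0
  rw [TwoGauss.rd_sub W hx.1 (Subring.one_mem _), hx.2, TwoGauss.rd_one, sub_self]

theorem one1_of_sub_one_mem {x : FF L N} (hx : x - 1 ∈ M1 W N) : One1 W N x := by
  rw [mem_M1_iff_rd] at hx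
  have h1 : (x : LaurentSeries L) = ((x - 1 : FF L N) : LaurentSeries L) + 1 := by
    show (x : LaurentSeries L) = ((x : LaurentSeries L) - 1) + 1
    ring
  refine ⟨?_, ?_⟩
  · rw [h1]
    exact Subring.add_mem _ hx.1 (Subring.one_mem _)
  · rw [h1, TwoGauss.rd_add W hx.1 (Subring.one_mem _), hx.2, TwoGauss.rd_one, zero_add]

/-- `x ≡ 1` at both Gauss valuations (`w` the Atkin–Lehner automorphism) -/
def BothOne (w : FF L N ≃ₐ[L] FF L N) (x : FF L N) : Prop :=
  One1 W N x ∧ One1 W N (w x)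

variable (w : FF L N ≃ₐ[L] FF L N)

theorem bothOne_one : BothOne W N w 1 :=
  ⟨one1_one W N, by rw [map_one]; exact one1_one W N⟩

theorem BothOne.mul {x y : FF L N} (hx : BothOne W N w x) (hy : BothOne W N w y) :
    BothOne W N w (x * y) :=
  ⟨hx.1.mul W N hy.1, by rw [map_mul]; exact hx.2.mul W N hy.2⟩

theorem BothOne.inv {x : FF L N} (hx : BothOne W N w x) : BothOne W N w x⁻¹ :=
  ⟨hx.1.inv W N, by rw [map_inv₀]; exact hx.2.inv W N⟩

theorem BothOne.pow {x : FF L N} (hx : BothOne W N w x) (k : ℕ) : BothOne W N w (x ^ k) := by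
  induction k with
  | zero => rw [pow_zero]; exact bothOne_one W N w
  | succ k ih => rw [pow_succ]; exact ih.mul W N w hx

theorem BothOne.mem_O1 {x : FF L N} (hx : BothOne W N w x) : x ∈ O1 W N := hx.1.1

theorem BothOne.mem_O2 {x : FF L N} (hx : BothOne W N w x) : x ∈ O2 W N w := hx.2.1

theorem BothOne.sub_one_mem_M1 {x : FF L N} (hx : BothOne W N w x) : x - 1 ∈ M1 W N :=
  hx.1.sub_one_mem W N

theorem BothOne.sub_one_mem_M2 {x : FF L N} (hx : BothOne W N w x) : x - 1 ∈ M2 W N w := by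
  show w (x - 1) ∈ M1 W N
  rw [map_sub, map_one]
  exact hx.2.sub_one_mem W N

theorem bothOne_of_sub_one_mem {x : FF L N} (h₁ : x - 1 ∈ M1 W N) (h₂ : x - 1 ∈ M2 W N w) :
    BothOne W N w x := by
  refine ⟨one1_of_sub_one_mem W N h₁, one1_of_sub_one_mem W N ?_⟩
  have h3 : w (x - 1) ∈ M1 W N := h₂
  rwa [map_sub, map_one] at h3

end One

section Unif

variable {L : Type*} [Field L] [Algebra ℚ L] (W : ValuationSubring L) (N : ℕ) [NeZero N]
  [IsDiscreteValuationRing W] (w : FF L N ≃ₐ[L] FF L N)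

omit [NeZero N] [IsDiscreteValuationRing W] in
theorem coe_algebraMap_base (c : L) :
    ((algebraMap L (FF L N) c : FF L N) : LaurentSeries L) = HahnSeries.C c := by
  show algebraMap L (LaurentSeries L) c = HahnSeries.C c
  rw [algebraMap_laurentSeries_eq_single]
  rfl

theorem one1_one_sub {ϖ : W} (hϖ : Irreducible ϖ) (c : W) {v : FF L N}
    (hv : (v : LaurentSeries L) ∈ contentRing W) :
    One1 W N (1 - algebraMap L (FF L N) ((ϖ * c : W) : L) * v) := by
  have hres : IsLocalRing.residue W (ϖ * c) = 0 := by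
    rw [IsLocalRing.residue_eq_zero_iff]
    exact Ideal.mul_mem_right _ _ ((IsLocalRing.mem_maximalIdeal ϖ).mpr hϖ.not_isUnit)
  have hC : (HahnSeries.C ((ϖ * c : W) : L) : LaurentSeries L) ∈ contentRing W :=
    C_mem_contentRing W (ϖ * c)
  have hcoe : ((1 - algebraMap L (FF L N) ((ϖ * c : W) : L) * v : FF L N) : LaurentSeries L) =
      1 - HahnSeries.C ((ϖ * c : W) : L) * (v : LaurentSeries L) := by
    show (1 : LaurentSeries L) -
      ((algebraMap L (FF L N) ((ϖ * c : W) : L) : FF L N) : LaurentSeries L) *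
        (v : LaurentSeries L) = _
    rw [coe_algebraMap_base]
  refine ⟨?_, ?_⟩
  · rw [hcoe]
    exact Subring.sub_mem _ (Subring.one_mem _) (Subring.mul_mem _ hC hv)
  · rw [hcoe, TwoGauss.rd_sub W (Subring.one_mem _) (Subring.mul_mem _ hC hv),
      TwoGauss.rd_mul W hC hv, TwoGauss.rd_C, hres, map_zero, zero_mul, sub_zero,
      TwoGauss.rd_one]

theorem bothOne_one_sub {ϖ : W} (hϖ : Irreducible ϖ) (c : W) {v : FF L N}
    (hv₁ : (v : LaurentSeries L) ∈ contentRing W)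
    (hv₂ : ((w v : FF L N) : LaurentSeries L) ∈ contentRing W) :
    BothOne W N w (1 - algebraMap L (FF L N) ((ϖ * c : W) : L) * v) := by
  refine ⟨one1_one_sub W N hϖ c hv₁, ?_⟩
  rw [map_sub, map_one, map_mul, w.commutes]
  exact one1_one_sub W N hϖ c hv₂

end Unif

/-! ### `EsSmooth.smooth_hloc` with the vertical hypotheses discharged -/

section Main

variable {L : Type*} [Field L] [Algebra ℚ L] (W : ValuationSubring L) (N : ℕ) [NeZero N]
  [IsDiscreteValuationRing W]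
  {K F : Type*} [Field K] [Field F] [Algebra K F]
  (A : ValuationSubring K) (ι : L →+* K) (bcF : FF L N →+* F)
  {B : Type*} [CommRing B] [IsDomain B] [IsNoetherianRing B] [IsIntegrallyClosed B]
  [Algebra W B] (φ : B →+* FF L N)

/-- **The local datum at a smooth point of a chart, raw currency.**  `EsSmooth.smooth_hloc` for
the level function field `FF L N`, with the two Gauss packages of `KLocVert` and
`G1 := BothOne W N w`. -/
theorem smooth_hloc_raw [HasPrincipalDivisors K F]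
    (hWA : ∀ x : L, x ∈ W ↔ ι x ∈ A)
    (hφ : Function.Injective φ)
    (hφW : ∀ c : W, φ (algebraMap W B c) = algebraMap L (FF L N) (c : L))
    (hbcW : ∀ c : L, bcF (algebraMap L (FF L N) c) = algebraMap K F (ι c))
    (hfrac : ∀ x : FF L N, ∃ y₁ y₂ : B, y₂ ≠ 0 ∧ x * φ y₂ = φ y₁)
    (ϖ : W) (hϖ : Irreducible ϖ)
    (hext : ∀ 𝔮 : Ideal B, 𝔮.IsPrime → 𝔮 ≠ ⊥ → algebraMap W B ϖ ∉ 𝔮 →
      ∃ P : Place K F, ∀ y : B, bcF (φ y) ∈ P.toValuationSubring ∧
        (y ∈ 𝔮 ↔ IsValueAt P (bcF (φ y)) 0))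
    (𝔫 : Ideal B) [h𝔫max : 𝔫.IsMaximal] (hϖ𝔫 : algebraMap W B ϖ ∈ 𝔫)
    (u : B) (hu0 : u ≠ 0)
    (hu : IsLocalRing.maximalIdeal (Localization.AtPrime 𝔫) =
      Ideal.span {algebraMap W (Localization.AtPrime 𝔫) ϖ,
        algebraMap B (Localization.AtPrime 𝔫) u})
    (w : FF L N ≃ₐ[L] FF L N)
    (hB₁ : ∀ y : B, ((φ y : FF L N) : LaurentSeries L) ∈ contentRing W)
    (hB₂ : ∀ y : B, ((w (φ y) : FF L N) : LaurentSeries L) ∈ contentRing W)
    (hS1 : ∀ y : B, red W ⟨_, hB₁ y⟩ = 0 → red W ⟨_, hB₂ y⟩ = 0 →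
      ∃ y' : B, y = algebraMap W B ϖ * y')
    (hu₁ : (((φ u)⁻¹ : FF L N) : LaurentSeries L) ∈ contentRing W)
    (hu₂ : ((w (φ u)⁻¹ : FF L N) : LaurentSeries L) ∈ contentRing W)
    (w₀ : FF L N) (hw₀ : BothOne W N w w₀) (p n : ℕ)
    (hdvd : ∀ Q : Place K F, SectionsLoc.Through (bcF.comp φ) 𝔫 Q →
      ((p : ℤ) ^ n) ∣ Q.ord (bcF w₀))
    (hrat : ∀ Q : Place K F, SectionsLoc.Through (bcF.comp φ) 𝔫 Q → Q.ord (bcF w₀) ≠ 0 →
      RatAt ι bcF Q) :
    ∃ g : FF L N, BothOne W N w g ∧ ∃ d : B, d ∉ 𝔫 ∧ ∃ t : B,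
      φ t = φ d * (w₀ * g ^ (p ^ n)) :=
  EsSmooth.smooth_hloc A ι W bcF φ hWA hφ (fun c => by rw [hφW, hbcW]) hfrac ϖ hϖ.ne_zero
    (isUnit_or_dvd hϖ) (exists_not_pow_dvd hϖ) hext 𝔫 hϖ𝔫 u hu0 hu
    (P1 W N φ hB₁) (P2 W N φ w hB₂)
    (unif_mem_P1 W N φ hϖ hφW hB₁) (unif_mem_P2 W N φ w hϖ hφW hB₂)
    (inf_le_span W N φ w ϖ hB₁ hB₂ hS1)
    (O1 W N) (M1 W N) (O2 W N w) (M2 W N w)
    (fun m hm o ho => mul_mem_M1 W N hm ho) (mem_M1_iff W N φ hB₁)
    (fun m hm o ho => mul_mem_M2 W N ((w : FF L N ≃+* FF L N) : FF L N →+* FF L N) hm ho)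
    (mem_M2_iff W N φ w hB₂)
    (fun a ha b hb => Subring.mul_mem (contentRing W) ha hb)
    (fun a ha b hb => by
      show ((w (a * b) : FF L N) : LaurentSeries L) ∈ contentRing W
      rw [map_mul]
      exact Subring.mul_mem (contentRing W) ha hb)
    hB₁ hB₂ hu₁ hu₂
    (BothOne W N w) (bothOne_one W N w) (fun a b ha hb => ha.mul W N w hb)
    (fun a ha => ha.inv W N w)
    (fun a ha => ha.mem_O1 W N w) (fun a ha => ha.mem_O2 W N w)
    (fun a ha => ha.sub_one_mem_M1 W N w) (fun a ha => ha.sub_one_mem_M2 W N w)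
    (fun c => by
      rw [hφW, div_eq_mul_inv]
      exact bothOne_one_sub W N w hϖ c hu₁ hu₂)
    w₀ hw₀ p n hdvd hrat

end Main

/-! ### `BothOne ⇔ GaussOne` at level `M q` -/

section Gauss

variable {L : Type*} [Field L] [Algebra ℚ L] (W : ValuationSubring L) [IsDiscreteValuationRing W]
  (M q : ℕ) [NeZero M] [NeZero q]
  (w : FF L (M * q) ≃ₐ[L] FF L (M * q))
  [Algebra ↥W (FF L (M * q))] [IsScalarTower ↥W L (FF L (M * q))]

omit [NeZero M] [NeZero q] [Algebra ↥W (FF L (M * q))] [IsScalarTower ↥W L (FF L (M * q))] in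
theorem unif_mul_mem_M1 (N : ℕ) {π : ↥W} (hπ : Irreducible π) {v : FF L N}
    (hv : (v : LaurentSeries L) ∈ contentRing W) :
    algebraMap L (FF L N) (π : L) * v ∈ M1 W N := by
  rw [mem_M1_iff_rd]
  have hres : IsLocalRing.residue W π = 0 := by
    rw [IsLocalRing.residue_eq_zero_iff]
    exact (IsLocalRing.mem_maximalIdeal π).mpr hπ.not_isUnit
  have hC : (HahnSeries.C ((π : W) : L) : LaurentSeries L) ∈ contentRing W :=
    C_mem_contentRing W π
  have hcoe : ((algebraMap L (FF L N) (π : L) * v : FF L N) : LaurentSeries L) =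
      HahnSeries.C ((π : W) : L) * (v : LaurentSeries L) := by
    show ((algebraMap L (FF L N) (π : L) : FF L N) : LaurentSeries L) * (v : LaurentSeries L) = _
    rw [coe_algebraMap_base]
  refine ⟨?_, ?_⟩
  · rw [hcoe]
    exact Subring.mul_mem _ hC hv
  · rw [hcoe, TwoGauss.rd_mul W hC hv, TwoGauss.rd_C, hres, map_zero, zero_mul]

/-- (V3b): a function `≡ 1` modulo `π` on the Gauss ring is `≡ 1` at both Gauss valuations -/
theorem bothOne_of_gaussOne
    (hwα : (w : FF L (M * q) →ₐ[L] FF L (M * q)).comp (heckeAlphaBar L M q) =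
      heckeBetaBar L M q)
    {π : ↥W} (hπ : Irreducible π) {x : FF L (M * q)}
    (h : KummerStep.GaussOne π (jBC L (M * q)) x) : BothOne W (M * q) w x := by
  have hπF : algebraMap ↥W (FF L (M * q)) π = algebraMap L (FF L (M * q)) (π : L) := by
    rw [IsScalarTower.algebraMap_apply ↥W L (FF L (M * q))]
    rfl
  have hπL : (π : L) ≠ 0 := fun h0 => hπ.ne_zero (Subtype.ext h0)
  have hπ0 : algebraMap ↥W (FF L (M * q)) π ≠ 0 := by
    rw [hπF]
    exact (map_ne_zero (algebraMap L (FF L (M * q)))).mpr hπL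
  obtain ⟨c, hc, hxc⟩ := h.inC hπ0
  obtain ⟨hc₁, hc₂⟩ := TwoGauss.mem_both_of_inC W M q
    (w : FF L (M * q) →ₐ[L] FF L (M * q)) hwα hπ c hc
  refine bothOne_of_sub_one_mem W (M * q) w ?_ ?_
  · rw [hxc, hπF]
    exact unif_mul_mem_M1 W (M * q) hπ hc₁
  · show w (x - 1) ∈ M1 W (M * q)
    rw [hxc, hπF, map_mul, w.commutes]
    exact unif_mul_mem_M1 W (M * q) hπ hc₂

/-- (V3a): a function `≡ 1` at both Gauss valuations is `≡ 1` modulo `π` on the Gauss ring -/
theorem gaussOne_of_bothOne [Fact q.Prime] [CharP (IsLocalRing.ResidueField W) q]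
    (hqM : ¬ q ∣ M)
    (hwα : (w : FF L (M * q) →ₐ[L] FF L (M * q)).comp (heckeAlphaBar L M q) =
      heckeBetaBar L M q)
    (hwβ : (w : FF L (M * q) →ₐ[L] FF L (M * q)).comp (heckeBetaBar L M q) =
      heckeAlphaBar L M q)
    {π : ↥W} (hπ : Irreducible π) {x : FF L (M * q)}
    (h : BothOne W (M * q) w x) : KummerStep.GaussOne π (jBC L (M * q)) x := by
  obtain ⟨⟨hx₁, hr₁⟩, ⟨hx₂, hr₂⟩⟩ := h
  rw [TwoGauss.rd_of_mem W hx₁] at hr₁
  rw [TwoGauss.rd_of_mem W hx₂] at hr₂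
  exact KummerStep.gaussOne_of_inC
    (TwoGauss.exists_inC_sub_one_of_red W M q (w : FF L (M * q) →ₐ[L] FF L (M * q)) hqM hwα hwβ
      hπ x hx₁ hr₁ hx₂ hr₂)

end Gauss

/-! ### The chart form -/

section Chart

variable {L : Type} [Field L] [Algebra ℚ L]

/-- **The local datum at a smooth point of a chart of `FF L N`** (binders of
`S34.KLocRaw.kloc_chart`): `B` a chart ring all of whose elements `y` have `y`, `w y` with
`W`-integral `q`-expansion, satisfying (S1); `𝔫 ∋ π` a maximal ideal with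
`𝔫 B_𝔫 = (π, u)`, `u ∈ B` a unit at both Gauss valuations; `w₀ ≡ 1` at both Gauss valuations
whose divisor over `ℚ̄` is a `p ^ n`-th multiple supported on places rational at the level.
Then `d * (w₀ * g ^ (p ^ n)) ∈ B` for some `g ≡ 1` at both Gauss valuations and some `d ∉ 𝔫`. -/
theorem smooth_hloc_chart (N : ℕ) [NeZero N] (A : ValuationSubring Qb) (ι : L →+* Qb)
    [IsDiscreteValuationRing ↥(A.comap ι)]
    {π : ↥(A.comap ι)} (hπ : Irreducible π)
    (w : FF L N ≃ₐ[L] FF L N)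
    (B : Type*) [CommRing B] [IsDomain B] [IsNoetherianRing B] [IsIntegrallyClosed B]
    [Algebra ↥(A.comap ι) B] [Algebra B (FF L N)] [IsFractionRing B (FF L N)]
    (hBW : ∀ c : ↥(A.comap ι), algebraMap B (FF L N) (algebraMap ↥(A.comap ι) B c) =
      algebraMap L (FF L N) (c : L))
    (hB₁ : ∀ y : B,
      ((algebraMap B (FF L N) y : FF L N) : LaurentSeries L) ∈ contentRing (A.comap ι))
    (hB₂ : ∀ y : B,
      ((w (algebraMap B (FF L N) y) : FF L N) : LaurentSeries L) ∈ contentRing (A.comap ι))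
    (hS1 : ∀ y : B, red (A.comap ι) ⟨_, hB₁ y⟩ = 0 → red (A.comap ι) ⟨_, hB₂ y⟩ = 0 →
      ∃ y' : B, algebraMap B (FF L N) y =
        algebraMap L (FF L N) (π : L) * algebraMap B (FF L N) y')
    (𝔫 : Ideal B) [h𝔫max : 𝔫.IsMaximal] (hπ𝔫 : algebraMap ↥(A.comap ι) B π ∈ 𝔫)
    (u : B) (hu0 : u ≠ 0)
    (hu : IsLocalRing.maximalIdeal (Localization.AtPrime 𝔫) =
      Ideal.span {algebraMap B (Localization.AtPrime 𝔫) (algebraMap ↥(A.comap ι) B π),
        algebraMap B (Localization.AtPrime 𝔫) u})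
    (hu₁ : (((algebraMap B (FF L N) u)⁻¹ : FF L N) : LaurentSeries L) ∈
      contentRing (A.comap ι))
    (hu₂ : ((w (algebraMap B (FF L N) u)⁻¹ : FF L N) : LaurentSeries L) ∈
      contentRing (A.comap ι))
    (w₀ : FF L N) (hw₀ : BothOne (A.comap ι) N w w₀) (p n : ℕ)
    (hdvd : ∀ Q : Place Qb (modularFunctionFieldBar N),
      ((p : ℤ) ^ n) ∣ Q.ord (CoeffBC.bc ι (modularFunctionFieldFull N) w₀))
    (hrat : ∀ Q : Place Qb (modularFunctionFieldBar N),
      Q.ord (CoeffBC.bc ι (modularFunctionFieldFull N) w₀) ≠ 0 → GDescent.RatAtLevel N ι Q) :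
    ∃ g : FF L N, BothOne (A.comap ι) N w g ∧ ∃ d : B, d ∉ 𝔫 ∧ ∃ t : B,
      algebraMap B (FF L N) t = algebraMap B (FF L N) d * (w₀ * g ^ (p ^ n)) := by
  classical
  have hφ : Function.Injective (algebraMap B (FF L N)) := IsFractionRing.injective B (FF L N)
  have hfrac : ∀ x : FF L N, ∃ y₁ y₂ : B, y₂ ≠ 0 ∧
      x * algebraMap B (FF L N) y₂ = algebraMap B (FF L N) y₁ := by
    intro x
    obtain ⟨⟨y₁, y₂⟩, h⟩ := IsLocalization.surj (nonZeroDivisors B) x
    exact ⟨y₁, y₂, nonZeroDivisors.ne_zero y₂.2, h⟩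
  have hext : ∀ 𝔮 : Ideal B, 𝔮.IsPrime → 𝔮 ≠ ⊥ → algebraMap ↥(A.comap ι) B π ∉ 𝔮 →
      ∃ Q : Place Qb (modularFunctionFieldBar N), ∀ y : B,
        CoeffBC.bc ι (modularFunctionFieldFull N) (algebraMap B (FF L N) y) ∈
          Q.toValuationSubring ∧
        (y ∈ 𝔮 ↔ IsValueAt Q
          (CoeffBC.bc ι (modularFunctionFieldFull N) (algebraMap B (FF L N) y)) 0) := by
    intro 𝔮 h𝔮 h0 hπ𝔮
    have := h𝔮
    refine Fermat.Agent.S37.ExtPlace.exists_place_of_prime_chart N ι (A.comap ι) hπ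
      (algebraMap B (FF L N)) hφ (fun c => ⟨algebraMap ↥(A.comap ι) B c, hBW c⟩) 𝔮 h0 ?_
    intro b hb hmem
    have : b = algebraMap ↥(A.comap ι) B π := hφ (by rw [hb, hBW])
    exact hπ𝔮 (this ▸ hmem)
  have hu' : IsLocalRing.maximalIdeal (Localization.AtPrime 𝔫) =
      Ideal.span {algebraMap ↥(A.comap ι) (Localization.AtPrime 𝔫) π,
        algebraMap B (Localization.AtPrime 𝔫) u} := by
    rw [hu, IsScalarTower.algebraMap_apply ↥(A.comap ι) B (Localization.AtPrime 𝔫)]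
  exact smooth_hloc_raw (A.comap ι) N A ι (CoeffBC.bc ι (modularFunctionFieldFull N))
    (algebraMap B (FF L N)) (fun x => Iff.rfl) hφ hBW
    (fun c => CoeffBC.bc_algebraMap ι (modularFunctionFieldFull N) c) hfrac π hπ hext 𝔫 hπ𝔫 u hu0
    hu' w hB₁ hB₂
    (fun y h1 h2 => by
      obtain ⟨y', hy'⟩ := hS1 y h1 h2
      exact ⟨y', hφ (by rw [map_mul, hBW, hy'])⟩)
    hu₁ hu₂ w₀ hw₀ p n (fun Q _ => hdvd Q) (fun Q _ hQ => hrat Q hQ)

end Chart

/-! ### The chart form at level `M q`, `GaussOne` in and out -/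

section GaussChart

variable {L : Type} [Field L] [Algebra ℚ L]

/-- **The local datum at a smooth point of a chart of `FF L (M q)`, in the currency of the Kummer
step** (`GaussOne π j`): binders of `S34.KLocRaw.kloc_chart`; the generator `u ∈ B` of
`𝔫 B_𝔫 = (π, u)` is a unit at both Gauss valuations. -/
theorem smooth_hloc_gauss (M q : ℕ) [NeZero M] [NeZero q] (A : ValuationSubring Qb)
    (ι : L →+* Qb) [IsDiscreteValuationRing ↥(A.comap ι)]
    [CharP (IsLocalRing.ResidueField ↥(A.comap ι)) q]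
    (hq : q.Prime) (hqM : ¬ q ∣ M)
    {π : ↥(A.comap ι)} (hπ : Irreducible π)
    (w : FF L (M * q) ≃ₐ[L] FF L (M * q))
    (hwα : (w : FF L (M * q) →ₐ[L] FF L (M * q)).comp (heckeAlphaBar L M q) =
      heckeBetaBar L M q)
    (hwβ : (w : FF L (M * q) →ₐ[L] FF L (M * q)).comp (heckeBetaBar L M q) =
      heckeAlphaBar L M q)
    [Algebra ↥(A.comap ι) (FF L (M * q))] [IsScalarTower ↥(A.comap ι) L (FF L (M * q))]
    (B : Type*) [CommRing B] [IsDomain B] [IsNoetherianRing B] [IsIntegrallyClosed B]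
    [Algebra ↥(A.comap ι) B] [Algebra B (FF L (M * q))] [IsFractionRing B (FF L (M * q))]
    (hBW : ∀ c : ↥(A.comap ι), algebraMap B (FF L (M * q)) (algebraMap ↥(A.comap ι) B c) =
      algebraMap L (FF L (M * q)) (c : L))
    (hB₁ : ∀ y : B, ((algebraMap B (FF L (M * q)) y : FF L (M * q)) : LaurentSeries L) ∈
      contentRing (A.comap ι))
    (hB₂ : ∀ y : B, ((w (algebraMap B (FF L (M * q)) y) : FF L (M * q)) : LaurentSeries L) ∈
      contentRing (A.comap ι))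
    (hS1 : ∀ y : B, red (A.comap ι) ⟨_, hB₁ y⟩ = 0 → red (A.comap ι) ⟨_, hB₂ y⟩ = 0 →
      ∃ y' : B, algebraMap B (FF L (M * q)) y =
        algebraMap L (FF L (M * q)) (π : L) * algebraMap B (FF L (M * q)) y')
    (𝔫 : Ideal B) [h𝔫max : 𝔫.IsMaximal] (hπ𝔫 : algebraMap ↥(A.comap ι) B π ∈ 𝔫)
    (u : B) (hu0 : u ≠ 0)
    (hu : IsLocalRing.maximalIdeal (Localization.AtPrime 𝔫) =
      Ideal.span {algebraMap B (Localization.AtPrime 𝔫) (algebraMap ↥(A.comap ι) B π),
        algebraMap B (Localization.AtPrime 𝔫) u})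
    (hu₁ : (((algebraMap B (FF L (M * q)) u)⁻¹ : FF L (M * q)) : LaurentSeries L) ∈
      contentRing (A.comap ι))
    (hu₂ : ((w (algebraMap B (FF L (M * q)) u)⁻¹ : FF L (M * q)) : LaurentSeries L) ∈
      contentRing (A.comap ι))
    (w₀ : FF L (M * q)) (hw₀ : KummerStep.GaussOne π (jBC L (M * q)) w₀) (p n : ℕ)
    (hdvd : ∀ Q : Place Qb (modularFunctionFieldBar (M * q)),
      ((p : ℤ) ^ n) ∣ Q.ord (CoeffBC.bc ι (modularFunctionFieldFull (M * q)) w₀))
    (hrat : ∀ Q : Place Qb (modularFunctionFieldBar (M * q)),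
      Q.ord (CoeffBC.bc ι (modularFunctionFieldFull (M * q)) w₀) ≠ 0 →
        GDescent.RatAtLevel (M * q) ι Q) :
    ∃ g : FF L (M * q), KummerStep.GaussOne π (jBC L (M * q)) g ∧ ∃ d : B, d ∉ 𝔫 ∧ ∃ t : B,
      algebraMap B (FF L (M * q)) t = algebraMap B (FF L (M * q)) d * (w₀ * g ^ (p ^ n)) := by
  have : Fact q.Prime := ⟨hq⟩
  obtain ⟨g, hg, d, hd, t, ht⟩ := smooth_hloc_chart (M * q) A ι hπ w B hBW hB₁ hB₂ hS1 𝔫 hπ𝔫 u
    hu0 hu hu₁ hu₂ w₀ (bothOne_of_gaussOne (A.comap ι) M q w hwα hπ hw₀) p n hdvd hrat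
  exact ⟨g, gaussOne_of_bothOne (A.comap ι) M q w hqM hwα hwβ hπ hg, d, hd, t, ht⟩

/-- `smooth_hloc_gauss` with the normalisation of the generator in reduction form: the two
reductions of `u` are nonzero. -/
theorem smooth_hloc_gauss_red (M q : ℕ) [NeZero M] [NeZero q] (A : ValuationSubring Qb)
    (ι : L →+* Qb) [IsDiscreteValuationRing ↥(A.comap ι)]
    [CharP (IsLocalRing.ResidueField ↥(A.comap ι)) q]
    (hq : q.Prime) (hqM : ¬ q ∣ M)
    {π : ↥(A.comap ι)} (hπ : Irreducible π)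
    (w : FF L (M * q) ≃ₐ[L] FF L (M * q))
    (hwα : (w : FF L (M * q) →ₐ[L] FF L (M * q)).comp (heckeAlphaBar L M q) =
      heckeBetaBar L M q)
    (hwβ : (w : FF L (M * q) →ₐ[L] FF L (M * q)).comp (heckeBetaBar L M q) =
      heckeAlphaBar L M q)
    [Algebra ↥(A.comap ι) (FF L (M * q))] [IsScalarTower ↥(A.comap ι) L (FF L (M * q))]
    (B : Type*) [CommRing B] [IsDomain B] [IsNoetherianRing B] [IsIntegrallyClosed B]
    [Algebra ↥(A.comap ι) B] [Algebra B (FF L (M * q))] [IsFractionRing B (FF L (M * q))]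
    (hBW : ∀ c : ↥(A.comap ι), algebraMap B (FF L (M * q)) (algebraMap ↥(A.comap ι) B c) =
      algebraMap L (FF L (M * q)) (c : L))
    (hB₁ : ∀ y : B, ((algebraMap B (FF L (M * q)) y : FF L (M * q)) : LaurentSeries L) ∈
      contentRing (A.comap ι))
    (hB₂ : ∀ y : B, ((w (algebraMap B (FF L (M * q)) y) : FF L (M * q)) : LaurentSeries L) ∈
      contentRing (A.comap ι))
    (hS1 : ∀ y : B, red (A.comap ι) ⟨_, hB₁ y⟩ = 0 → red (A.comap ι) ⟨_, hB₂ y⟩ = 0 →
      ∃ y' : B, algebraMap B (FF L (M * q)) y =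
        algebraMap L (FF L (M * q)) (π : L) * algebraMap B (FF L (M * q)) y')
    (𝔫 : Ideal B) [h𝔫max : 𝔫.IsMaximal] (hπ𝔫 : algebraMap ↥(A.comap ι) B π ∈ 𝔫)
    (u : B)
    (hu : IsLocalRing.maximalIdeal (Localization.AtPrime 𝔫) =
      Ideal.span {algebraMap B (Localization.AtPrime 𝔫) (algebraMap ↥(A.comap ι) B π),
        algebraMap B (Localization.AtPrime 𝔫) u})
    (hu₁ : red (A.comap ι) ⟨_, hB₁ u⟩ ≠ 0) (hu₂ : red (A.comap ι) ⟨_, hB₂ u⟩ ≠ 0)
    (w₀ : FF L (M * q)) (hw₀ : KummerStep.GaussOne π (jBC L (M * q)) w₀) (p n : ℕ)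
    (hdvd : ∀ Q : Place Qb (modularFunctionFieldBar (M * q)),
      ((p : ℤ) ^ n) ∣ Q.ord (CoeffBC.bc ι (modularFunctionFieldFull (M * q)) w₀))
    (hrat : ∀ Q : Place Qb (modularFunctionFieldBar (M * q)),
      Q.ord (CoeffBC.bc ι (modularFunctionFieldFull (M * q)) w₀) ≠ 0 →
        GDescent.RatAtLevel (M * q) ι Q) :
    ∃ g : FF L (M * q), KummerStep.GaussOne π (jBC L (M * q)) g ∧ ∃ d : B, d ∉ 𝔫 ∧ ∃ t : B,
      algebraMap B (FF L (M * q)) t = algebraMap B (FF L (M * q)) d * (w₀ * g ^ (p ^ n)) := by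
  have hu0 : u ≠ 0 := by
    rintro rfl
    apply hu₁
    have h0 : (⟨((algebraMap B (FF L (M * q)) (0 : B) : FF L (M * q)) : LaurentSeries L),
        hB₁ 0⟩ : contentRing (A.comap ι)) = 0 := by
      apply Subtype.ext
      show ((algebraMap B (FF L (M * q)) (0 : B) : FF L (M * q)) : LaurentSeries L) = 0
      rw [map_zero]
      rfl
    rw [h0, map_zero]
  have hi₁ : (((algebraMap B (FF L (M * q)) u)⁻¹ : FF L (M * q)) : LaurentSeries L) ∈
      contentRing (A.comap ι) := inv_mem_contentRing (A.comap ι) (hB₁ u) hu₁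
  have hi₂ : ((w (algebraMap B (FF L (M * q)) u)⁻¹ : FF L (M * q)) : LaurentSeries L) ∈
      contentRing (A.comap ι) := by
    rw [map_inv₀]
    exact inv_mem_contentRing (A.comap ι) (hB₂ u) hu₂
  exact smooth_hloc_gauss M q A ι hq hqM hπ w hwα hwβ B hBW hB₁ hB₂ hS1 𝔫 hπ𝔫 u hu0 hu hi₁ hi₂
    w₀ hw₀ p n hdvd hrat

end GaussChart

end Fermat.Agent.S35.EsSmoothChart
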