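import Mathlib
import Fermat.Agent.S35.EsLoc1
import Fermat.Agent.S35.EsSmoothFin

/-!
# S35 (Route C), package (C4), finite chart: the contract `EsLoc1.FinSmooth`

`finSmooth : EsLoc1.FinSmooth M q p A` for `q` prime, `q ∤ M` — the smooth-point lemma on the
finite chart in the contract shape of `EsLoc1.esLocT₁_of_cases`.  It is
`EsSmoothFin.es_smooth_fin'` behind the level prefix (the discrete valuation ring and the residue
characteristic come from `LevelChange.IsLevel`).
-/

set_option autoImplicit false
set_option linter.unusedSectionVars false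
set_option linter.unusedVariables false
set_option linter.style.haveILetI false

noncomputable section

namespace Fermat.Agent.S35.EsSmoothFinInst

open Polynomial ModularCurve AlgebraicCurve Fermat.Agent.S18 Fermat.Agent.S37
open Fermat.Agent.S34 Fermat.Agent.S34.GDescent Fermat.Agent.S34.KummerStep

local notation "Qb" => AlgebraicClosure ℚ

set_option maxHeartbeats 1600000 in
/-- **The contract `EsLoc1.FinSmooth`**: the smooth-point lemma on the finite chart of level
`M q`, at every level. -/
theorem finSmooth (M q p : ℕ) [NeZero M] [NeZero q] (hq : q.Prime) (hqM : ¬ q ∣ M)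
    (A : ValuationSubring Qb) : EsLoc1.FinSmooth M q p A := by
  intro L _ _ ι S₀ hlev hst ϖ hϖ w hwα hwβ _ halg B _ _ _ _ _ 𝔪 _ hC hsm n w₀ h0 hG hrat hdvd
  obtain ⟨-, hroots, hdvr, hclosed, -, hchar, -, -⟩ := hlev
  haveI := hdvr
  haveI := hchar
  exact EsSmoothFin.es_smooth_fin' M q A ι hq hqM ϖ hϖ w hwα hwβ halg B 𝔪 hC hsm p n w₀ hG
    hdvd hrat

end Fermat.Agent.S35.EsSmoothFinInst
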