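/-
S35 (wave 7, Route C): **the contract `EsCore.GaussContract` for the Eichler–Shimura operator**.

For a prime `q ∤ M`, a valuation ring `A` of `ℚ̄` and a Frobenius lift `σ` at `q` for `A`, the
level operator `esL M q s w` (`EsOp.esL`, equivalently `EsNorm.esL`) satisfies Claim R at every
level containing a primitive `q`-th root of unity:

* `gaussContract` : `EsCore.GaussContract M q (esOp M q) A σ`,
  with `esOp M q := fun L _ _ s w => EsOp.esL M q s w`;
* `gaussContract_norm` : the same for `fun L _ _ s w => EsNorm.esL M q s w`.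

Inputs: `EsOp.gaussOne_esL_level` / `EsNorm.gaussOne_esL_level` (Claim R at a level) and the
direction (V3a) of the two-valuation theorem, `S34.TwoGauss.inC_of_mem_both`.
-/
import Mathlib
import Fermat.Agent.S35.EsCore
import Fermat.Agent.S35.EsOp
import Fermat.Agent.S35.EsNorm
import Fermat.Agent.S34.GAsm
import Fermat.Agent.S34.TwoGauss

set_option autoImplicit false
set_option linter.style.haveILetI false

noncomputable section

namespace Fermat.Agent.S35.GaussInst

open ModularCurve AlgebraicCurve Fermat.Agent.S18 Fermat.Agent.S37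
open Fermat.Agent.S34 Fermat.Agent.S34.KummerStep

local notation "Qb" => AlgebraicClosure ℚ

/-- The Eichler–Shimura operator as a level operator in the sense of `EsCore`. -/
def esOp (M q : ℕ) [NeZero M] [NeZero q] : EsCore.LevelOp (M * q) :=
  fun _ _ _ s w => EsOp.esL M q s w

theorem esOp_apply (M q : ℕ) [NeZero M] [NeZero q] (L : Type) [Field L] [Algebra ℚ L]
    (s : L ≃+* L) (w : S24.FF L (M * q) ≃ₐ[L] S24.FF L (M * q)) (y : S24.FF L (M * q)) :
    esOp M q L s w y = EsOp.esL M q s w y := rfl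

/-- a level containing a primitive `q`-th root of unity of `ℚ̄` has one -/
theorem exists_primitiveRoot_units {L : Type} [Field L] (ι : L →+* Qb) {q : ℕ} (hq0 : q ≠ 0)
    {ζ₀ : Qb} (hζ₀ : IsPrimitiveRoot ζ₀ q) (h : ∃ b : L, ι b = ζ₀) :
    ∃ ζ : Lˣ, IsPrimitiveRoot ζ q := by
  obtain ⟨b, hb⟩ := h
  have hbp : IsPrimitiveRoot b q := by
    rw [← hb] at hζ₀
    exact IsPrimitiveRoot.of_map_of_injective (f := ι) hζ₀ ι.injective
  have hb0 : b ≠ 0 := hbp.ne_zero hq0
  refine ⟨Units.mk0 b hb0, ?_⟩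
  exact IsPrimitiveRoot.of_map_of_injective (f := Units.coeHom L) (by simpa using hbp)
    Units.val_injective

/-- **Claim R as a contract**: `EsCore.GaussContract` for the Eichler–Shimura operator at a
prime `q ∤ M`, for a Frobenius lift `σ` at `q`. -/
theorem gaussContract (M q : ℕ) [NeZero M] [NeZero q] (hq : q.Prime) (hqM : ¬ q ∣ M)
    (A : ValuationSubring Qb) (σ : Qb ≃ₐ[ℚ] Qb) (hσ : A.IsFrobeniusAt σ q) :
    EsCore.GaussContract M q (esOp M q) A σ := by
  classical
  obtain ⟨ζ₀, hζ₀⟩ := HasEnoughRootsOfUnity.exists_primitiveRoot Qb q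
  refine ⟨{ζ₀}, ?_⟩
  intro L _ _ ι hlev _ ϖ hϖ s hs w hα hβ y hy
  obtain ⟨hS, -, hdvr, -, -, hchar, -, -⟩ := hlev
  haveI := hdvr
  haveI := hchar
  haveI : Fact q.Prime := ⟨hq⟩
  haveI := GAsm.isScalarTower_W (A.comap ι) (M * q)
  obtain ⟨ζ, hζ⟩ := exists_primitiveRoot_units ι hq.ne_zero hζ₀
    (hS ζ₀ (Finset.mem_singleton_self ζ₀))
  exact EsOp.gaussOne_esL_level A ι s hs M q hqM hσ hϖ ζ hζ w hα hβ (S24.jBC L (M * q))
    (fun x hx₁ hx₂ => TwoGauss.inC_of_mem_both (A.comap ι) M q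
      (w : S24.FF L (M * q) →ₐ[L] S24.FF L (M * q)) hqM hα hβ hϖ.not_isUnit x hx₁ hx₂) hy

/-- The Eichler–Shimura operator in the `EsNorm` form, as a level operator. -/
def esOpN (M q : ℕ) [NeZero M] [NeZero q] : EsCore.LevelOp (M * q) :=
  fun _ _ _ s w => EsNorm.esL M q s w

theorem esOpN_apply (M q : ℕ) [NeZero M] [NeZero q] (L : Type) [Field L] [Algebra ℚ L]
    (s : L ≃+* L) (w : S24.FF L (M * q) ≃ₐ[L] S24.FF L (M * q)) (y : S24.FF L (M * q)) :
    esOpN M q L s w y = EsNorm.esL M q s w y := rfl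

/-- the two forms of the operator agree -/
theorem esL_eq_esL (M q : ℕ) [NeZero M] [NeZero q] {L : Type*} [Field L] [Algebra ℚ L]
    (s : L ≃+* L) (w : S24.FF L (M * q) ≃ₐ[L] S24.FF L (M * q)) (y : S24.FF L (M * q)) :
    EsOp.esL M q s w y = EsNorm.esL M q s w y := by
  rw [EsOp.esL_eq_esQ, EsNorm.esL_eq_esQ]

/-- the two level operators agree -/
theorem esOp_eq_esOpN (M q : ℕ) [NeZero M] [NeZero q] : esOp M q = esOpN M q := by
  funext L _ _ s w y
  exact esL_eq_esL M q s w y

/-- **Claim R as a contract**, for the operator in the `EsNorm` form. -/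
theorem gaussContract_norm (M q : ℕ) [NeZero M] [NeZero q] (hq : q.Prime) (hqM : ¬ q ∣ M)
    (A : ValuationSubring Qb) (σ : Qb ≃ₐ[ℚ] Qb) (hσ : A.IsFrobeniusAt σ q) :
    EsCore.GaussContract M q (esOpN M q) A σ := by
  rw [← esOp_eq_esOpN]
  exact gaussContract M q hq hqM A σ hσ

end Fermat.Agent.S35.GaussInst
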