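import Mathlib
import Fermat.Agent.S34.KummerIndCusp

/-
S35 (route of findings 220, step 4): the Kummer descent when the function is only known to be
congruent to a constant `c₁` at the first Gauss valuation and to a constant `c₂` at the second.

Setting of `S34.KummerIndCusp.kummer_descent_cusp`.  The two "vertical primes" of the integral
closure `C` of the Gauss ring are given as sets `m₁ m₂ ⊆ F` (`IsVert`): closed under subtraction
and under multiplication by Gauss-integral elements, containing `π C`, not containing `1`, with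
`m₁ ∩ m₂ ⊆ π C` (`hS1`).

* `dvd_sub_of_liftable` : **connectedness** — if `y ∈ C` is locally liftable at every maximal ideal
  `𝔫 ∋ π` of both chart rings, `y - c₁ ∈ m₁` and `y - c₂ ∈ m₂` with `c₁, c₂ ∈ W`, then
  `π ∣ c₁ - c₂`.
* `isVert_of_valuationSubring` : `{z | v z < 1}` for a valuation ring containing `C` with
  `v π < 1`.
* `kummer_descent_const` : with the local data `(g, d)` of `kummer_descent_cusp` for `y`
  (`g ≡ 1`, `y * g ^ (s ^ n)` integral at `𝔫`), `π ∣ c₁ - c₂` and `y = a * h ^ (s ^ n)`, `a ∈ W`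
  nonzero.
-/

set_option autoImplicit false
set_option linter.unusedSectionVars false

namespace Fermat.Agent.S35.KummerConst

open Polynomial Fermat.Agent.S18 Fermat.Agent.S18.Endgame Fermat.Agent.S34.KummerStep
open Fermat.Agent.S34 Fermat.Agent.S34.KummerInd

section Vert

variable {W F : Type*} [CommRing W] [IsDomain W] [Field F] [Algebra W F]

/-- A "vertical prime" of the integral closure `C` of the Gauss ring `W[j]_(π)` in `F`, as a
subset of `F`: closed under subtraction and under multiplication by elements of `C`, containing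
`π C`, not containing `1`. -/
structure IsVert (π : W) (j : F) (m : Set F) : Prop where
  sub_mem : ∀ {z z' : F}, z ∈ m → z' ∈ m → z - z' ∈ m
  mul_mem : ∀ {z : F}, z ∈ m → ∀ c : F, InC π j c → c * z ∈ m
  pi_mem : ∀ c : F, InC π j c → algebraMap W F π * c ∈ m
  one_notMem : (1 : F) ∉ m

namespace IsVert

variable {π : W} {j : F} {m : Set F}

theorem zero_mem (hπ : Prime π) (h : IsVert π j m) : (0 : F) ∈ m := by
  have := h.pi_mem 0 (InC.zero hπ)
  rwa [mul_zero] at this

theorem neg_mem (hπ : Prime π) (h : IsVert π j m) {z : F} (hz : z ∈ m) : -z ∈ m := by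
  have := h.sub_mem (h.zero_mem hπ) hz
  rwa [zero_sub] at this

theorem add_mem (hπ : Prime π) (h : IsVert π j m) {z z' : F} (hz : z ∈ m) (hz' : z' ∈ m) :
    z + z' ∈ m := by
  have := h.sub_mem hz (h.neg_mem hπ hz')
  rwa [sub_neg_eq_add] at this

theorem mem_of_cong (hπ : Prime π) (h : IsVert π j m) {a b : F} (hab : Cong π j a b)
    (hb : b ∈ m) : a ∈ m := by
  obtain ⟨c, hc, habc⟩ := hab
  have h1 : a = algebraMap W F π * c + b := by linear_combination habc
  rw [h1]
  exact h.add_mem hπ (h.pi_mem c hc) hb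

end IsVert

/-- The elements of valuation `< 1` at a valuation ring containing the Gauss-integral elements, in
which `π` is a non-unit, form a vertical prime. -/
theorem isVert_of_valuationSubring {π : W} {j : F} (O : ValuationSubring F)
    (hO : ∀ z : F, InC π j z → z ∈ O) (hπO : O.valuation (algebraMap W F π) < 1) :
    IsVert π j {z | O.valuation z < 1} where
  sub_mem := fun {z z'} hz hz' => by
    show O.valuation (z - z') < 1
    exact Valuation.map_sub_lt _ hz hz'
  mul_mem := fun {z} hz c hc => by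
    show O.valuation (c * z) < 1
    rw [map_mul]
    calc O.valuation c * O.valuation z ≤ 1 * O.valuation z :=
          mul_le_mul_left ((O.valuation_le_one_iff c).mpr (hO c hc)) _
      _ = O.valuation z := one_mul _
      _ < 1 := hz
  pi_mem := fun c hc => by
    show O.valuation (algebraMap W F π * c) < 1
    rw [map_mul, mul_comm]
    calc O.valuation c * O.valuation (algebraMap W F π)
          ≤ 1 * O.valuation (algebraMap W F π) :=
          mul_le_mul_left ((O.valuation_le_one_iff c).mpr (hO c hc)) _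
      _ = O.valuation (algebraMap W F π) := one_mul _
      _ < 1 := hπO
  one_notMem := fun h => by
    have h1 : O.valuation (1 : F) < 1 := h
    rw [map_one] at h1
    exact lt_irrefl _ h1

end Vert

section Main

variable {W L F : Type*} [CommRing W] [IsDomain W] [IsDiscreteValuationRing W]
  [Field L] [Algebra W L] [IsFractionRing W L] [CharZero L]
  [Field F] [Algebra L F] [Algebra W F] [IsScalarTower W L F]

/-- **Connectedness with two residue constants.**  A Gauss-integral `y`, locally liftable at every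
maximal ideal `𝔫 ∋ π` of both chart rings, which is congruent to the constant `c₁` modulo the
first vertical prime and to the constant `c₂` modulo the second: then `c₁ ≡ c₂` modulo `π`. -/
theorem dvd_sub_of_liftable (π : W) (hπ : Irreducible π) (j : F) (hj : Transcendental L j)
    [FiniteDimensional (IntermediateField.adjoin L {j}) F]
    (hconst : ∀ c : F, IsAlgebraic L c → ∃ a : L, algebraMap L F a = c)
    (m₁ m₂ : Set F) (hm₁ : IsVert π j m₁) (hm₂ : IsVert π j m₂)
    (hS1 : ∀ z : F, z ∈ m₁ → z ∈ m₂ → ∃ d : F, InC π j d ∧ z = algebraMap W F π * d)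
    (y : F) (hyC : InC π j y) (c₁ c₂ : W)
    (hy₁ : y - algebraMap W F c₁ ∈ m₁) (hy₂ : y - algebraMap W F c₂ ∈ m₂)
    (hloc₁ : ∀ 𝔫 : Ideal (integralClosure (Algebra.adjoin W {j}) F), 𝔫.IsMaximal →
      (∀ r : integralClosure (Algebra.adjoin W {j}) F, (r : F) = algebraMap W F π → r ∈ 𝔫) →
      LiftAt π j 𝔫 y)
    (hloc₂ : ∀ 𝔫 : Ideal (integralClosure (Algebra.adjoin W {j⁻¹}) F), 𝔫.IsMaximal →
      (∀ r : integralClosure (Algebra.adjoin W {j⁻¹}) F, (r : F) = algebraMap W F π → r ∈ 𝔫) →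
      LiftAt π j⁻¹ 𝔫 y) :
    π ∣ c₁ - c₂ := by
  classical
  have hπp : Prime π := hπ.prime
  have hjW : Transcendental W j := transcendental_W hj
  have hj0 : j ≠ 0 := ne_zero_of_transcendental hjW
  by_contra hndvd
  obtain ⟨u, hu⟩ := (isUnit_of_not_dvd_dvr hπ _ hndvd).exists_right_inv
  have hU : algebraMap W F u * (algebraMap W F c₁ - algebraMap W F c₂) = 1 := by
    rw [← map_sub, ← map_mul, mul_comm, hu, map_one]
  obtain ⟨e, hedef⟩ : ∃ e : F, e = (y + algebraMap W F (-c₂)) * algebraMap W F u := ⟨_, rfl⟩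
  have he' : e = algebraMap W F u * (y - algebraMap W F c₂) := by
    rw [hedef, map_neg]; ring
  have heC : InC π j e := by
    rw [he']
    exact (InC.const hπp u).mul hπp (hyC.sub hπp (InC.const hπp c₂))
  have he2 : e ∈ m₂ := by
    rw [he']
    exact hm₂.mul_mem hy₂ _ (InC.const hπp u)
  have he1 : e - 1 ∈ m₁ := by
    have h1 : e - 1 = algebraMap W F u * (y - algebraMap W F c₁) := by
      rw [he']; linear_combination hU
    rw [h1]
    exact hm₁.mul_mem hy₁ _ (InC.const hπp u)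
  have hidem : Cong π j (e ^ 2) e := by
    have h1 : e ^ 2 - e ∈ m₁ := by
      have : e ^ 2 - e = e * (e - 1) := by ring
      rw [this]
      exact hm₁.mul_mem he1 e heC
    have h2 : e ^ 2 - e ∈ m₂ := by
      have : e ^ 2 - e = (e - 1) * e := by ring
      rw [this]
      exact hm₂.mul_mem he2 (e - 1) (heC.sub hπp (InC.one hπp))
    exact hS1 _ h1 h2
  obtain ⟨c, hcI, hcC⟩ := const_of_liftable π hπp j hj e heC hidem
    (fun 𝔫 h𝔫 hπ𝔫 => by
      rw [hedef]
      exact LiftAt.mul hπp h𝔫.isPrime (hyC.add hπp (InC.const hπp _)) (InC.const hπp u)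
        (LiftAt.add hπp h𝔫.isPrime (hloc₁ 𝔫 h𝔫 hπ𝔫) (LiftAt.const hπp h𝔫.ne_top _))
        (LiftAt.const hπp h𝔫.ne_top u))
    (fun 𝔫 h𝔫 hπ𝔫 => by
      rw [hedef]
      exact LiftAt.mul hπp h𝔫.isPrime ((hyC.add hπp (InC.const hπp _)).to_inv hj0)
        (InC.const hπp u)
        (LiftAt.add hπp h𝔫.isPrime (hloc₂ 𝔫 h𝔫 hπ𝔫) (LiftAt.const hπp h𝔫.ne_top _))
        (LiftAt.const hπp h𝔫.ne_top u))
  obtain ⟨c', rfl⟩ := exists_const hconst hcI
  -- `c - 1 ∈ m₁` and `c ∈ m₂`
  have hc1 : algebraMap W F c' - 1 ∈ m₁ := by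
    obtain ⟨d, hd, hcd⟩ := hcC
    have : algebraMap W F c' - 1 = algebraMap W F π * d + (e - 1) := by linear_combination hcd
    rw [this]
    exact hm₁.add_mem hπp (hm₁.pi_mem d hd) he1
  have hc2 : algebraMap W F c' ∈ m₂ := hm₂.mem_of_cong hπp hcC he2
  by_cases hc' : π ∣ c'
  · obtain ⟨t, rfl⟩ := hc'
    have h1 : algebraMap W F (π * t) ∈ m₁ := by
      rw [map_mul]; exact hm₁.pi_mem _ (InC.const hπp t)
    apply hm₁.one_notMem
    have := hm₁.sub_mem h1 hc1
    rwa [sub_sub_cancel] at this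
  · obtain ⟨v, hv⟩ := (isUnit_of_not_dvd_dvr hπ _ hc').exists_right_inv
    apply hm₂.one_notMem
    have h1 := hm₂.mul_mem hc2 _ (InC.const hπp (x := j) v)
    rwa [← map_mul, mul_comm, hv, map_one] at h1

variable [IsAlgClosed (IsLocalRing.ResidueField W)]

/-- **Kummer descent with two residue constants.**  `y` Gauss-integral, `y ≡ c₁` modulo the first
vertical prime and `y ≡ c₂` modulo the second (`c₁ ∈ W` a unit), and at every maximal ideal
`𝔫 ∋ π` of the first chart ring and every maximal ideal `𝔫 ∋ π, 1/j` of the second some `g ≡ 1`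
makes `y * g ^ (s ^ n)` integral at `𝔫`.  Then `c₁ ≡ c₂` modulo `π` and `y = a * h ^ (s ^ n)` with
`a ∈ W` nonzero. -/
theorem kummer_descent_const (π : W) (hπ : Irreducible π) (j : F) (hj : Transcendental L j)
    [FiniteDimensional (IntermediateField.adjoin L {j}) F]
    (s : ℕ) (hs : s.Prime) (hsW : IsUnit (s : W)) (ζ : W) (hζ : IsPrimitiveRoot ζ s)
    (hconst : ∀ c : F, IsAlgebraic L c → ∃ a : L, algebraMap L F a = c)
    (hram : ∀ (k : ℕ) (y : F), y ≠ 0 → InC π j (algebraMap W F π ^ k * y ^ s) →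
      InC π j (algebraMap W F π ^ k * y ^ s)⁻¹ → s ∣ k)
    (m₁ m₂ : Set F) (hm₁ : IsVert π j m₁) (hm₂ : IsVert π j m₂)
    (hS1 : ∀ z : F, z ∈ m₁ → z ∈ m₂ → ∃ d : F, InC π j d ∧ z = algebraMap W F π * d)
    (n : ℕ) (y : F) (hyC : InC π j y) (c₁ c₂ : W) (hc₁ : ¬ π ∣ c₁)
    (hy₁ : y - algebraMap W F c₁ ∈ m₁) (hy₂ : y - algebraMap W F c₂ ∈ m₂)
    (hloc₁ : ∀ 𝔫 : Ideal (integralClosure (Algebra.adjoin W {j}) F), 𝔫.IsMaximal →
      (∀ r : integralClosure (Algebra.adjoin W {j}) F, (r : F) = algebraMap W F π → r ∈ 𝔫) →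
      ∃ g : F, GaussOne π j g ∧ ∃ d : integralClosure (Algebra.adjoin W {j}) F, d ∉ 𝔫 ∧
        IsIntegral (Algebra.adjoin W {j}) ((d : F) * (y * g ^ (s ^ n))))
    (hloc₂ : ∀ 𝔫 : Ideal (integralClosure (Algebra.adjoin W {j⁻¹}) F), 𝔫.IsMaximal →
      (∀ r : integralClosure (Algebra.adjoin W {j⁻¹}) F, (r : F) = algebraMap W F π → r ∈ 𝔫) →
      (∀ r : integralClosure (Algebra.adjoin W {j⁻¹}) F, (r : F) = j⁻¹ → r ∈ 𝔫) →
      ∃ g : F, GaussOne π j g ∧ ∃ d : integralClosure (Algebra.adjoin W {j⁻¹}) F, d ∉ 𝔫 ∧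
        IsIntegral (Algebra.adjoin W {j⁻¹}) ((d : F) * (y * g ^ (s ^ n)))) :
    π ∣ c₁ - c₂ ∧ ∃ (a : W) (h : F), a ≠ 0 ∧ y = algebraMap W F a * h ^ (s ^ n) := by
  classical
  have hπp : Prime π := hπ.prime
  have hWF : Function.Injective (algebraMap W F) := algebraMap_injective_WF W L F
  have hπF : algebraMap W F π ≠ 0 := by
    rw [Ne, ← map_zero (algebraMap W F)]
    exact fun h => hπp.ne_zero (hWF h)
  have hjW : Transcendental W j := transcendental_W hj
  have hj0 : j ≠ 0 := ne_zero_of_transcendental hjW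
  -- local data at all points of the second chart
  have hloc₂' : ∀ 𝔫 : Ideal (integralClosure (Algebra.adjoin W {j⁻¹}) F), 𝔫.IsMaximal →
      (∀ r : integralClosure (Algebra.adjoin W {j⁻¹}) F, (r : F) = algebraMap W F π → r ∈ 𝔫) →
      ∃ g : F, GaussOne π j g ∧ ∃ d : integralClosure (Algebra.adjoin W {j⁻¹}) F, d ∉ 𝔫 ∧
        IsIntegral (Algebra.adjoin W {j⁻¹}) ((d : F) * (y * g ^ (s ^ n))) := by
    intro 𝔫 h𝔫 hπ𝔫
    by_cases hcusp : ∀ r : integralClosure (Algebra.adjoin W {j⁻¹}) F, (r : F) = j⁻¹ → r ∈ 𝔫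
    · exact hloc₂ 𝔫 h𝔫 hπ𝔫 hcusp
    · have hj𝔫 : ∀ r : integralClosure (Algebra.adjoin W {j⁻¹}) F, (r : F) = j⁻¹ → r ∉ 𝔫 := by
        intro r hr hmem
        apply hcusp
        intro r' hr'
        have : r' = r := Subtype.ext (hr'.trans hr.symm)
        rw [this]; exact hmem
      exact ChartTransfer.exists_of_chart₁ π hj0 (GaussOne π j) (fun g => y * g ^ (s ^ n))
        hloc₁ 𝔫 h𝔫 hπ𝔫 hj𝔫
  -- `y` is locally liftable
  have hcongg : ∀ g : F, GaussOne π j g → Cong π j y (y * g ^ (s ^ n)) := by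
    intro g hg
    have hgc : Cong π j g 1 := (gaussOne_iff_cong hπF).mp hg
    have h1 := Cong.pow hπp (Cong.inC_left hπp (InC.one hπp) hgc) hgc (s ^ n)
    rw [one_pow] at h1
    have h2 := Cong.mul_left hπp hyC h1.symm
    rwa [mul_one] at h2
  have hdvd : π ∣ c₁ - c₂ :=
    dvd_sub_of_liftable π hπ j hj hconst m₁ m₂ hm₁ hm₂ hS1 y hyC c₁ c₂ hy₁ hy₂
      (fun 𝔫 h𝔫 hπ𝔫 => by
        obtain ⟨g, hg, d, hd, hi⟩ := hloc₁ 𝔫 h𝔫 hπ𝔫
        exact ⟨y * g ^ (s ^ n), hcongg g hg, d, hd, hi⟩)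
      (fun 𝔫 h𝔫 hπ𝔫 => by
        obtain ⟨g, hg, d, hd, hi⟩ := hloc₂' 𝔫 h𝔫 hπ𝔫
        exact ⟨y * g ^ (s ^ n), (hcongg g hg).to_inv hj0, d, hd, hi⟩)
  refine ⟨hdvd, ?_⟩
  -- `y ≡ c₁` modulo `π C`
  obtain ⟨t, ht⟩ := hdvd
  have hy₂' : y - algebraMap W F c₁ ∈ m₂ := by
    have h1 : y - algebraMap W F c₁ =
        (y - algebraMap W F c₂) - algebraMap W F π * algebraMap W F t := by
      rw [← map_mul, ← ht, map_sub]; ring
    rw [h1]
    exact hm₂.sub_mem hy₂ (hm₂.pi_mem _ (InC.const hπp t))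
  have hyc : Cong π j y (algebraMap W F c₁) := hS1 _ hy₁ hy₂'
  obtain ⟨v, hv⟩ := (isUnit_of_not_dvd_dvr hπ _ hc₁).exists_right_inv
  have hCV : algebraMap W F c₁ * algebraMap W F v = 1 := by rw [← map_mul, hv, map_one]
  obtain ⟨w, hwdef⟩ : ∃ w : F, w = algebraMap W F v * y := ⟨_, rfl⟩
  have hwc : Cong π j w 1 := by
    have h1 := Cong.mul_left hπp (InC.const hπp (x := j) v) hyc
    rw [mul_comm (algebraMap W F v) (algebraMap W F c₁), hCV, ← hwdef] at h1
    exact h1
  have hw : GaussOne π j w := (gaussOne_iff_cong hπF).mpr hwc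
  have hkey : ∀ (x₀ : F) (d : integralClosure (Algebra.adjoin W {x₀}) F) (g : F),
      IsIntegral (Algebra.adjoin W {x₀}) ((d : F) * (y * g ^ (s ^ n))) →
      IsIntegral (Algebra.adjoin W {x₀}) ((d : F) * (w * g ^ (s ^ n))) := by
    intro x₀ d g hi
    have : (d : F) * (w * g ^ (s ^ n)) = algebraMap W F v * ((d : F) * (y * g ^ (s ^ n))) := by
      rw [hwdef]; ring
    rw [this]
    exact (isIntegral_adjoin_const x₀ _).mul hi
  obtain ⟨a, h, ha, hwa⟩ := kummer_descent π hπp j hj s hs hsW ζ hζ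
    (fun a ha => isUnit_of_not_dvd_dvr hπ a ha) hconst
    (fun a _ => hroot_of_isAlgClosed π hπ.maximalIdeal_eq s hs.pos a)
    hram n w hw
    (fun 𝔫 h𝔫 hπ𝔫 => by
      obtain ⟨g, hg, d, hd, hi⟩ := hloc₁ 𝔫 h𝔫 hπ𝔫
      exact ⟨g, hg, d, hd, hkey j d g hi⟩)
    (fun 𝔫 h𝔫 hπ𝔫 => by
      obtain ⟨g, hg, d, hd, hi⟩ := hloc₂' 𝔫 h𝔫 hπ𝔫
      exact ⟨g, hg, d, hd, hkey j⁻¹ d g hi⟩)
  have hc₁0 : c₁ ≠ 0 := fun h0 => hc₁ (h0 ▸ dvd_zero π)
  refine ⟨c₁ * a, h, mul_ne_zero hc₁0 ha, ?_⟩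
  have hy : y = algebraMap W F c₁ * w := by
    rw [hwdef]; linear_combination (-y) * hCV
  rw [hy, hwa, map_mul]; ring

end Main

end Fermat.Agent.S35.KummerConst
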