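import Mathlib
import Fermat.Agent.S35.KummerSurj
import Fermat.Agent.S30.ThetaFam
import Fermat.Agent.S30.GeomJac

/-!
# S35 (forms side): Kummer surjectivity in family form

* `KummerSurjFam.exists_family_surj` (FAM): the Kummer family `Θ m : peHoms N (ℤ/m) →+ J₀(N)(ℚ̄)`
  of `S30.ThetaFam.exists_family` (same three clauses, verbatim) can be chosen with
  `∀ m > 0, ∀ x, m • x = 0 → ∃ ψ, Θ m ψ = 12 • x`;
* `KummerSurjFam.exists_family_ks_of` : with a lifting constant `c₁` for `ℤ/m`-valued PE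
  characters (CLEM) this is the hypothesis `hΘ` of `S35.GeomJacE.exists_geomInput_ks_of`, with
  `c = c₁ * 12`.
-/

set_option autoImplicit false

open scoped MatrixGroups Manifold
open UpperHalfPlane ModularCurve AlgebraicCurve

namespace Fermat.Agent.S35.KummerSurjFam

open Fermat.Agent.S29 Fermat.Agent.S30

local notation "Qb" => AlgebraicClosure ℚ

/-- **(FAM)** the Kummer family, surjective onto `12 • J₀(N)[m]` at every level `m`. -/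
theorem exists_family_surj (N : ℕ) [NeZero N] :
    ∃ Θ : ∀ m : ℕ, S29.peHoms N (ZMod m) →+ ModularCurve.JZero N,
      (∀ m : ℕ, 0 < m → Function.Injective (Θ m)) ∧
      (∀ (m : ℕ), 0 < m → ∀ (ℓ : ℕ) [Fact ℓ.Prime] (hℓN : ¬ ℓ ∣ N)
        (χ χ' : S29.peHoms N (ZMod m)),
        (∀ γ : S22.Gam N, (χ' : Additive (S22.Gam N) →+ ZMod m) (Additive.ofMul γ) =
          ∑ x : OnePoint (ZMod ℓ),
            (χ : Additive (S22.Gam N) →+ ZMod m) (Additive.ofMul (S22.gamT hℓN γ x))) →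
        Θ m χ' = ModularCurve.heckeOperatorBar N ⟨ℓ, Fact.out⟩ (Θ m χ)) ∧
      (∀ (m d : ℕ), 0 < m → 0 < d → ∀ ψ : S29.peHoms N (ZMod (m * d)),
        Θ m (redPE N (Dvd.intro d rfl) ψ) = d • Θ (m * d) ψ) ∧
      ∀ (m : ℕ), 0 < m → ∀ x : ModularCurve.JZero N, m • x = 0 →
        ∃ ψ : S29.peHoms N (ZMod m), Θ m ψ = 12 • x := by
  obtain ⟨ι⟩ := ThetaFam.nonempty_ringHom
  choose Θ hΘ using ThetaFam.exists_theta_spec N ι
  refine ⟨Θ, fun m hm => (hΘ m hm).1, ?_, ?_, ?_⟩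
  · intro m hm ℓ _ hℓN χ χ' hχ
    exact (hΘ m hm).2.1 ℓ hℓN χ χ' hχ
  · intro m d hm hd ψ
    have hmd : 0 < m * d := Nat.mul_pos hm hd
    have : NeZero m := ⟨hm.ne'⟩
    have : NeZero (m * d) := ⟨hmd.ne'⟩
    have h1 := KummerTower.theta_redPE (Dvd.intro d rfl : m ∣ m * d)
      (KummerTower.kPieces N m ι) (Θ m) (Θ (m * d)) (hΘ m hm).2.2 (hΘ (m * d) hmd).2.2 ψ
    rw [Nat.mul_div_cancel_left d hm] at h1
    exact h1
  · intro m hm x hx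
    have : NeZero m := ⟨hm.ne'⟩
    have hx' : (m : ℤ) • x = 0 := by rw [natCast_zsmul]; exact hx
    obtain ⟨ψ, hψ⟩ := KummerSurj.exists_isClass_of_torsion N m ι x hx'
    exact ⟨ψ, (KummerTower.kPieces N m ι).isClass_unique ψ ((hΘ m hm).2.2 ψ) hψ⟩

/-- **(KS), family form, from a lifting constant**: the hypothesis `hΘ` of
`S35.GeomJacE.exists_geomInput_ks_of`, given a constant `c₁` such that `c₁ • ψ` lifts to an
integral PE character for every `ℤ/m`-valued PE character `ψ`. -/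
theorem exists_family_ks_of (N : ℕ) [NeZero N]
    (hlift : ∃ c₁ : ℕ, c₁ ≠ 0 ∧ ∀ (m : ℕ), 0 < m → ∀ ψ : S29.peHoms N (ZMod m),
      ∃ Ψ : S29.peHoms N ℤ, GeomJac.modPE N m Ψ = c₁ • ψ) :
    ∃ Θ : ∀ m : ℕ, S29.peHoms N (ZMod m) →+ ModularCurve.JZero N,
      (∀ m : ℕ, 0 < m → Function.Injective (Θ m)) ∧
      (∀ (m : ℕ), 0 < m → ∀ (ℓ : ℕ) [Fact ℓ.Prime] (hℓN : ¬ ℓ ∣ N)
        (χ χ' : S29.peHoms N (ZMod m)),
        (∀ γ : S22.Gam N, (χ' : Additive (S22.Gam N) →+ ZMod m) (Additive.ofMul γ) =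
          ∑ x : OnePoint (ZMod ℓ),
            (χ : Additive (S22.Gam N) →+ ZMod m) (Additive.ofMul (S22.gamT hℓN γ x))) →
        Θ m χ' = ModularCurve.heckeOperatorBar N ⟨ℓ, Fact.out⟩ (Θ m χ)) ∧
      (∀ (m d : ℕ), 0 < m → 0 < d → ∀ ψ : S29.peHoms N (ZMod (m * d)),
        Θ m (redPE N (Dvd.intro d rfl) ψ) = d • Θ (m * d) ψ) ∧
      ∃ c : ℕ, c ≠ 0 ∧ ∀ (m : ℕ), 0 < m → ∀ x : ModularCurve.JZero N, m • x = 0 →
        ∃ ψ : S29.peHoms N ℤ, Θ m (GeomJac.modPE N m ψ) = c • x := by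
  obtain ⟨Θ, h1, h2, h3, h4⟩ := exists_family_surj N
  obtain ⟨c₁, hc₁, hl⟩ := hlift
  refine ⟨Θ, h1, h2, h3, c₁ * 12, Nat.mul_ne_zero hc₁ (by norm_num), fun m hm x hx => ?_⟩
  obtain ⟨ψ, hψ⟩ := h4 m hm x hx
  obtain ⟨Ψ, hΨ⟩ := hl m hm ψ
  exact ⟨Ψ, by rw [hΨ, map_nsmul, hψ, mul_smul]⟩

end Fermat.Agent.S35.KummerSurjFam
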