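import Mathlib
import Fermat.Agent.S34.TwoExt

/-!
# S35, package (Ga): the norm-residue formula at a prime with two extensions `e = 1`,
`f = 1` and `f = q` purely inseparable

Abstract form.  `O` is a discrete valuation ring with fraction field `K`, `E / K` a finite
separable extension of degree `q + 1`, `V₁`, `V₂` the two valuation rings of `E` above `O`
(`TwoExt.Hyp` with the families `1` and `b₂`), with residue maps `ρ₁`, `ρ₂` into a field `Ω` of
characteristic `q` such that `ρ₁ = ρ'` and `ρ₂ = V ∘ ρ'` on `O`, and `ρ₂ (b₂ k) ^ q ∈ V (ρ' O)`.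
Then for every `u ∈ V₁ ∩ V₂` the norm `N_{E/K} u` lies in `O` and

  `V (ρ' (N u)) = V (ρ₁ u) * ρ₂ u ^ q`.
-/

set_option autoImplicit false

namespace Fermat.Agent.S35.NormRes

open Matrix

/-! ### The determinant computation -/

section Core

variable {O Ω : Type*} [CommRing O] [Field Ω]

/-- A row vector `r` with `r ᵥ* D = z • r` satisfies `r ᵥ* D ^ m = z ^ m • r`. -/
theorem vecMul_pow_of_eigen {n : Type*} [Fintype n] [DecidableEq n] (D : Matrix n n Ω)
    (r : n → Ω) (z : Ω) (h : r ᵥ* D = z • r) (m : ℕ) : r ᵥ* D ^ m = z ^ m • r := by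
  induction m with
  | zero => simp
  | succ m ih =>
    rw [pow_succ, ← Matrix.vecMul_vecMul, ih, Matrix.smul_vecMul, h, smul_smul, pow_succ]

/-- **Determinant core.** A square matrix `M₀` over `O` of size `1 + q` whose reduction has a
left eigenvector `r1` supported on the first index (eigenvalue `a`) and whose `V`-twisted
reduction has a left eigenvector `r2` supported on the last `q` indices (eigenvalue `z`), with
`V (ρ' O)`-linearly independent entries and `z ^ q ∈ V (ρ' O)`: then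
`V (ρ' (det M₀)) = V a * z ^ q`. -/
theorem det_core (q : ℕ) [hq : Fact q.Prime] [CharP Ω q]
    (ρ' : O →+* Ω) (V : Ω →+* Ω)
    (M₀ : Matrix (Fin 1 ⊕ Fin q) (Fin 1 ⊕ Fin q) O)
    (r1 r2 : Fin 1 ⊕ Fin q → Ω) (a z : Ω)
    (hr1 : ∀ j, a * r1 j = ∑ i, ρ' (M₀ i j) * r1 i)
    (hr2 : ∀ j, z * r2 j = ∑ i, V (ρ' (M₀ i j)) * r2 i)
    (h10 : r1 (Sum.inl 0) ≠ 0) (h1r : ∀ k, r1 (Sum.inr k) = 0)
    (h20 : r2 (Sum.inl 0) = 0)
    (hind : ∀ y : Fin q → O, ∑ k, V (ρ' (y k)) * r2 (Sum.inr k) = 0 → ∀ k, ρ' (y k) = 0)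
    (hz : ∃ c : O, z ^ q = V (ρ' c)) :
    V (ρ' M₀.det) = V a * z ^ q := by
  classical
  -- the lower-left block of the reduction vanishes
  have h21 : ∀ k, ρ' (M₀ (Sum.inr k) (Sum.inl 0)) = 0 := by
    have h := hr2 (Sum.inl 0)
    rw [h20, mul_zero, Fintype.sum_sum_type, Fin.sum_univ_one, h20, mul_zero, zero_add] at h
    exact hind (fun k => M₀ (Sum.inr k) (Sum.inl 0)) h.symm
  -- the upper-left entry is `a`
  have h11 : ρ' (M₀ (Sum.inl 0) (Sum.inl 0)) = a := by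
    have h := hr1 (Sum.inl 0)
    rw [Fintype.sum_sum_type, Fin.sum_univ_one] at h
    have h0 : ∑ k, ρ' (M₀ (Sum.inr k) (Sum.inl 0)) * r1 (Sum.inr k) = 0 :=
      Finset.sum_eq_zero fun k _ => by rw [h1r, mul_zero]
    rw [h0, add_zero] at h
    exact (mul_right_cancel₀ h10 h).symm
  -- the lower-right block
  set D₀ : Matrix (Fin q) (Fin q) O := M₀.toBlocks₂₂ with hD₀
  set r : Fin q → Ω := fun k => r2 (Sum.inr k) with hr
  set φ : O →+* Ω := V.comp ρ' with hφ
  have heig : r ᵥ* (φ.mapMatrix D₀) = z • r := by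
    funext l
    have h := hr2 (Sum.inr l)
    rw [Fintype.sum_sum_type, Fin.sum_univ_one, h20, mul_zero, zero_add] at h
    rw [Pi.smul_apply, smul_eq_mul, h]
    simp only [Matrix.vecMul, dotProduct, RingHom.mapMatrix_apply, Matrix.map_apply, hD₀,
      Matrix.toBlocks₂₂, Matrix.of_apply, hφ, RingHom.comp_apply, hr]
    exact Finset.sum_congr rfl fun k _ => mul_comm _ _
  obtain ⟨c, hc⟩ := hz
  have hpow := vecMul_pow_of_eigen (φ.mapMatrix D₀) r z heig q
  rw [← map_pow] at hpow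
  -- `(D₀ ^ q - c • 1)` reduces to zero
  have hE : ∀ k l, ρ' ((D₀ ^ q - c • (1 : Matrix (Fin q) (Fin q) O)) k l) = 0 := by
    intro k l
    refine hind (fun k => (D₀ ^ q - c • (1 : Matrix (Fin q) (Fin q) O)) k l) ?_ k
    have h1 := congrFun hpow l
    rw [Pi.smul_apply, smul_eq_mul, hc] at h1
    simp only [Matrix.vecMul, dotProduct, RingHom.mapMatrix_apply, Matrix.map_apply] at h1
    have h2 : ∑ k, V (ρ' ((D₀ ^ q - c • (1 : Matrix (Fin q) (Fin q) O)) k l)) * r k =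
        ∑ k, r k * φ ((D₀ ^ q) k l) - V (ρ' c) * r l := by
      simp only [Matrix.sub_apply, Matrix.smul_apply, smul_eq_mul, map_sub, map_mul, sub_mul,
        Finset.sum_sub_distrib]
      congr 1
      · exact Finset.sum_congr rfl fun k _ => mul_comm _ _
      · rw [Finset.sum_eq_single l]
        · rw [Matrix.one_apply_eq, map_one, map_one, mul_one]
        · intro k _ hkl
          rw [Matrix.one_apply_ne hkl, map_zero, map_zero, mul_zero, zero_mul]
        · intro h; exact absurd (Finset.mem_univ l) h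
    rw [h2, h1, sub_self]
  have hDq : (ρ'.mapMatrix D₀) ^ q = ρ' c • (1 : Matrix (Fin q) (Fin q) Ω) := by
    have h0 : ρ'.mapMatrix (D₀ ^ q - c • (1 : Matrix (Fin q) (Fin q) O)) = 0 := by
      ext k l
      rw [RingHom.mapMatrix_apply, Matrix.map_apply, hE k l]
      rfl
    rw [map_sub, sub_eq_zero, map_pow] at h0
    rw [h0]
    ext k l
    simp only [RingHom.mapMatrix_apply, Matrix.map_apply, Matrix.smul_apply, smul_eq_mul,
      map_mul]
    by_cases hkl : k = l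
    · subst hkl; simp
    · simp [Matrix.one_apply_ne hkl]
  have hdetD : (ρ'.mapMatrix D₀).det ^ q = ρ' c ^ q := by
    rw [← Matrix.det_pow, hDq, Matrix.det_smul, Matrix.det_one, mul_one, Fintype.card_fin]
  have hVdet : V (ρ'.mapMatrix D₀).det = z ^ q := by
    have h1 : (V (ρ'.mapMatrix D₀).det) ^ q = (z ^ q) ^ q := by
      rw [← map_pow, hdetD, map_pow, hc]
    exact frobenius_inj Ω q h1
  -- the block decomposition of the determinant
  have hblock : M₀.map ρ' =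
      Matrix.fromBlocks (M₀.toBlocks₁₁.map ρ') (M₀.toBlocks₁₂.map ρ') 0 (D₀.map ρ') := by
    ext i j
    rcases i with i | i <;> rcases j with j | j
    · simp [Matrix.toBlocks₁₁]
    · simp [Matrix.toBlocks₁₂]
    · have hj : j = 0 := Subsingleton.elim _ _
      subst hj
      simp [h21 i]
    · simp [hD₀, Matrix.toBlocks₂₂]
  have hdet : ρ' M₀.det = a * (ρ'.mapMatrix D₀).det := by
    rw [RingHom.map_det, RingHom.mapMatrix_apply, hblock, Matrix.det_fromBlocks_zero₂₁,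
      Matrix.det_fin_one, RingHom.mapMatrix_apply]
    have h11' : (M₀.toBlocks₁₁.map ρ') 0 0 = a := h11
    rw [h11']
  rw [hdet, map_mul, hVdet]

end Core

/-! ### The formula for an adapted basis -/

section Basis

variable {O K E Ω : Type*} [CommRing O] [Field K] [Field E] [Algebra O K] [Algebra K E]
  [Algebra O E] [IsScalarTower O K E] [Field Ω]

/-- **Norm-residue formula for an adapted basis.** `C ⊆ E` is a subring which is the free
`O`-module on a `K`-basis `b` of `E`, indexed by `Fin 1 ⊕ Fin q`; `ρ₁ ρ₂ : C → Ω` are ring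
homomorphisms extending `ρ'` and `V ∘ ρ'` on `O`; `ρ₂` kills `b (inl 0)`, `ρ₁` kills the
`b (inr k)` but not `b (inl 0)`; the `ρ₂ (b (inr k))` are independent over `V (ρ' O)` and their
`q`-th powers lie in `V (ρ' O)`. Then `N_{E/K} u ∈ O` and `V (ρ' (N u)) = V (ρ₁ u) * ρ₂ u ^ q`
for every `u ∈ C`. -/
theorem norm_residue_of_basis (q : ℕ) [hq : Fact q.Prime] [CharP Ω q]
    (C : Subring E) (hOC : ∀ c : O, algebraMap O E c ∈ C)
    (b : Module.Basis (Fin 1 ⊕ Fin q) K E) (hbC : ∀ i, b i ∈ C)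
    (hcoord : ∀ x ∈ C, ∃ a : Fin 1 ⊕ Fin q → O, x = ∑ i, algebraMap O E (a i) * b i)
    (ρ' : O →+* Ω) (ρ1 ρ2 : C →+* Ω) (V : Ω →+* Ω)
    (h1 : ∀ c : O, ρ1 ⟨algebraMap O E c, hOC c⟩ = ρ' c)
    (h2 : ∀ c : O, ρ2 ⟨algebraMap O E c, hOC c⟩ = V (ρ' c))
    (hb1 : ρ1 ⟨b (Sum.inl 0), hbC _⟩ ≠ 0) (hb1' : ρ2 ⟨b (Sum.inl 0), hbC _⟩ = 0)
    (hb2 : ∀ k, ρ1 ⟨b (Sum.inr k), hbC _⟩ = 0)
    (hind2 : ∀ y : Fin q → O,
      ∑ k, V (ρ' (y k)) * ρ2 ⟨b (Sum.inr k), hbC _⟩ = 0 → ∀ k, ρ' (y k) = 0)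
    (hpi : ∀ k, ∃ c : O, ρ2 ⟨b (Sum.inr k), hbC _⟩ ^ q = V (ρ' c))
    (u : C) :
    ∃ n : O, algebraMap O K n = Algebra.norm K (u : E) ∧
      V (ρ' n) = V (ρ1 u) * ρ2 u ^ q := by
  classical
  -- `ρ` of an `O`-combination of the basis
  have hρ : ∀ (ρ : C →+* Ω) (g : O →+* Ω)
      (_ : ∀ c : O, ρ ⟨algebraMap O E c, hOC c⟩ = g c) (x : C) (a : Fin 1 ⊕ Fin q → O),
      (x : E) = ∑ i, algebraMap O E (a i) * b i →
        ρ x = ∑ i, g (a i) * ρ ⟨b i, hbC i⟩ := by
    intro ρ g hg x a hx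
    have hxC : x = ∑ i, (⟨algebraMap O E (a i), hOC _⟩ : C) * ⟨b i, hbC i⟩ := by
      apply Subtype.ext
      rw [hx, AddSubmonoidClass.coe_finsetSum]
      rfl
    rw [hxC, map_sum]
    exact Finset.sum_congr rfl fun i _ => by rw [map_mul, hg]
  -- the matrix of multiplication by `u`
  have hM : ∀ j, ∃ a : Fin 1 ⊕ Fin q → O,
      (u : E) * b j = ∑ i, algebraMap O E (a i) * b i :=
    fun j => hcoord _ (C.mul_mem u.2 (hbC j))
  choose col hcol using hM
  let M₀ : Matrix (Fin 1 ⊕ Fin q) (Fin 1 ⊕ Fin q) O := Matrix.of fun i j => col j i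
  have hleft : Algebra.leftMulMatrix b (u : E) = M₀.map (algebraMap O K) := by
    ext i j
    rw [Algebra.leftMulMatrix_eq_repr_mul, hcol j, Matrix.map_apply]
    have h3 : ∑ i, algebraMap O E (col j i) * b i = ∑ i, (algebraMap O K (col j i)) • b i := by
      refine Finset.sum_congr rfl fun i _ => ?_
      rw [Algebra.smul_def, IsScalarTower.algebraMap_apply O K E]
    rw [h3, Module.Basis.repr_sum_self]
    rfl
  refine ⟨M₀.det, ?_, ?_⟩
  · rw [Algebra.norm_eq_matrix_det b, hleft, ← RingHom.mapMatrix_apply, ← RingHom.map_det]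
  · obtain ⟨a, ha⟩ := hcoord _ u.2
    choose cq hcq using hpi
    have hz : ∃ c : O, ρ2 u ^ q = V (ρ' c) := by
      refine ⟨∑ k, a (Sum.inr k) ^ q * cq k, ?_⟩
      rw [hρ ρ2 (V.comp ρ') h2 u a ha, Fintype.sum_sum_type, Fin.sum_univ_one, hb1', mul_zero,
        zero_add, sum_pow_char, map_sum, map_sum]
      refine Finset.sum_congr rfl fun k _ => ?_
      rw [mul_pow, hcq k, map_mul, map_mul, map_pow, map_pow]
      rfl
    refine det_core q ρ' V M₀ (fun j => ρ1 ⟨b j, hbC j⟩) (fun j => ρ2 ⟨b j, hbC j⟩) (ρ1 u)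
      (ρ2 u) ?_ ?_ hb1 hb2 hb1' hind2 hz
    · intro j
      rw [← map_mul]
      exact hρ ρ1 ρ' h1 (u * ⟨b j, hbC j⟩) (col j) (hcol j)
    · intro j
      rw [← map_mul]
      exact hρ ρ2 (V.comp ρ') h2 (u * ⟨b j, hbC j⟩) (col j) (hcol j)

end Basis

/-! ### The formula in the two-extension setting -/

section Main

open Fermat.Agent.S34 IsLocalRing

variable {O K E Ω : Type*} [CommRing O] [IsDomain O] [IsDiscreteValuationRing O]
  [Field K] [Field E] [Algebra O K] [IsFractionRing O K] [Algebra K E] [Algebra O E]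
  [IsScalarTower O K E] [FiniteDimensional K E] [Algebra.IsSeparable K E] [Field Ω]

omit [IsDomain O] [IsDiscreteValuationRing O] [Algebra.IsSeparable K E] [FiniteDimensional K E]
  [IsFractionRing O K] [Algebra O K] [IsScalarTower O K E] [Field K] [Algebra K E]
  [CommRing O] [Algebra O E] in
/-- a member times a non-unit is a non-unit -/
theorem mul_mem_nonunits (V : ValuationSubring E) {a m : E} (ha : a ∈ V)
    (hm : m ∈ V.nonunits) : a * m ∈ V.nonunits := by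
  rw [ValuationSubring.mem_nonunits_iff, map_mul]
  exact Right.mul_lt_one_of_le_of_lt ((V.valuation_le_one_iff a).mpr ha)
    ((ValuationSubring.mem_nonunits_iff V).mp hm)

/-- **Adapted basis.** In the two-extension setting with families `1` and `b₂` there is a
`K`-basis of `E` consisting of integral elements, `e₁ ≡ 1, 0` and `f k ≡ 0, b₂ k` at
`(V₁, V₂)`, on which every element of `V₁ ∩ V₂` has coordinates in `O`. -/
theorem exists_adapted_basis {q : ℕ} {π : O} {V₁ V₂ : ValuationSubring E} {b₂ : Fin q → E}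
    (h : TwoExt.Hyp K π V₁ V₂ (fun _ : Fin 1 => (1 : E)) b₂) :
    ∃ b : Module.Basis (Fin 1 ⊕ Fin q) K E,
      (∀ i, b i ∈ V₁) ∧ (∀ i, b i ∈ V₂) ∧
      b (Sum.inl 0) - 1 ∈ V₁.nonunits ∧ b (Sum.inl 0) ∈ V₂.nonunits ∧
      (∀ k, b (Sum.inr k) ∈ V₁.nonunits) ∧ (∀ k, b (Sum.inr k) - b₂ k ∈ V₂.nonunits) ∧
      ∀ x : E, x ∈ V₁ → x ∈ V₂ →
        ∃ a : Fin 1 ⊕ Fin q → O, x = ∑ i, algebraMap O E (a i) * b i := by
  classical
  have hint : ∀ x : E, IsIntegral O x ↔ x ∈ V₁ ∧ x ∈ V₂ := fun x => h.isIntegral_iff K x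
  obtain ⟨e₁, he₁i, he₁1, he₁2⟩ :=
    h.exists_isIntegral_approx K (x₁ := 1) (x₂ := 0) V₁.one_mem V₂.zero_mem
  rw [sub_zero] at he₁2
  have hf : ∀ k, ∃ z : E, IsIntegral O z ∧ z - 0 ∈ V₁.nonunits ∧ z - b₂ k ∈ V₂.nonunits :=
    fun k => h.exists_isIntegral_approx K (x₁ := 0) (x₂ := b₂ k) V₁.zero_mem (h.mem₂ k)
  choose f hfi hf1 hf2 using hf
  simp only [sub_zero] at hf1
  set fam : Fin 1 ⊕ Fin q → E := Sum.elim (fun _ => e₁) f with hfam
  have hfami : ∀ i, IsIntegral O (fam i) := by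
    rintro (i | k)
    · exact he₁i
    · exact hfi k
  have hπ0 : algebraMap O E π ≠ 0 := by
    intro h0
    apply h.inv_notMem₁
    rw [h0, _root_.inv_zero]
    exact V₁.zero_mem
  have hπmax : π ∈ maximalIdeal O := by
    rw [h.irreducible.maximalIdeal_eq]
    exact Ideal.mem_span_singleton_self π
  -- Nakayama: the integral closure is spanned over `O` by the family
  let Cm : Submodule O E := Subalgebra.toSubmodule (integralClosure O E)
  let N : Submodule O E := Submodule.span O (Set.range fam)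
  have hfin : Module.Finite O (integralClosure O E) :=
    IsIntegralClosure.finite O K E (integralClosure O E)
  have hCfg : Cm.FG := Module.Finite.iff_fg.mp hfin
  have hNN : Cm ≤ N ⊔ maximalIdeal O • Cm := by
    intro x hx
    have hxi : IsIntegral O x := hx
    obtain ⟨hx₁, hx₂⟩ := (hint x).mp hxi
    obtain ⟨c, hc⟩ := h.exists_sub_sum_mem_nonunits₁ K hx₁
    obtain ⟨d, hd⟩ := h.exists_sub_sum_mem_nonunits₂ K hx₂
    rw [Fin.sum_univ_one, mul_one] at hc
    set comb : E := algebraMap O E (c 0) * e₁ + ∑ k, algebraMap O E (d k) * f k with hcomb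
    have hcombN : comb ∈ N := by
      refine add_mem ?_ (sum_mem fun k _ => ?_)
      · rw [← Algebra.smul_def]
        exact N.smul_mem _ (Submodule.subset_span ⟨Sum.inl 0, rfl⟩)
      · rw [← Algebra.smul_def]
        exact N.smul_mem _ (Submodule.subset_span ⟨Sum.inr k, rfl⟩)
    have hcombi : IsIntegral O comb :=
      (isIntegral_algebraMap.mul he₁i).add
        (IsIntegral.sum _ fun k _ => isIntegral_algebraMap.mul (hfi k))
    have hyi : IsIntegral O (x - comb) := hxi.sub hcombi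
    have hy1 : x - comb ∈ V₁.nonunits := by
      have e : x - comb = (x - algebraMap O E (c 0)) - algebraMap O E (c 0) * (e₁ - 1)
          - ∑ k, algebraMap O E (d k) * f k := by
        rw [hcomb]; ring
      rw [e]
      refine sub_mem (sub_mem hc (mul_mem_nonunits V₁ (h.le₁ _) he₁1))
        (sum_mem fun k _ => mul_mem_nonunits V₁ (h.le₁ _) (hf1 k))
    have hy2 : x - comb ∈ V₂.nonunits := by
      have e : x - comb = (x - ∑ k, algebraMap O E (d k) * b₂ k) - algebraMap O E (c 0) * e₁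
          - ∑ k, algebraMap O E (d k) * (f k - b₂ k) := by
        rw [hcomb]
        simp only [mul_sub, Finset.sum_sub_distrib]
        ring
      rw [e]
      refine sub_mem (sub_mem hd (mul_mem_nonunits V₂ (h.le₂ _) he₁2))
        (sum_mem fun k _ => mul_mem_nonunits V₂ (h.le₂ _) (hf2 k))
    obtain ⟨y₁, hy₁, hxy₁⟩ := h.exists_eq_pi_mul₁ K hy1
    obtain ⟨y₂, hy₂, hxy₂⟩ := h.exists_eq_pi_mul₂ K hy2
    have hyy : y₁ = y₂ := mul_left_cancel₀ hπ0 (hxy₁.symm.trans hxy₂)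
    have hy₁i : IsIntegral O y₁ := (hint y₁).mpr ⟨hy₁, hyy ▸ hy₂⟩
    have hx' : x = comb + π • y₁ := by
      rw [Algebra.smul_def, ← hxy₁]; ring
    rw [hx']
    exact Submodule.add_mem_sup hcombN (Submodule.smul_mem_smul hπmax hy₁i)
  have hCN : Cm ≤ N :=
    Submodule.le_of_le_smul_of_le_jacobson_bot hCfg (maximalIdeal_le_jacobson ⊥) hNN
  have hcoord : ∀ x : E, x ∈ V₁ → x ∈ V₂ →
      ∃ a : Fin 1 ⊕ Fin q → O, x = ∑ i, algebraMap O E (a i) * fam i := by
    intro x hx₁ hx₂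
    have hxN : x ∈ N := hCN ((hint x).mpr ⟨hx₁, hx₂⟩)
    obtain ⟨a, ha⟩ := (Submodule.mem_span_range_iff_exists_fun O).mp hxN
    refine ⟨a, ?_⟩
    rw [← ha]
    exact Finset.sum_congr rfl fun i _ => Algebra.smul_def _ _
  -- the family spans `E` over `K`
  have hspan : ⊤ ≤ Submodule.span K (Set.range fam) := by
    intro x _
    have hxalg : IsAlgebraic O x :=
      (IsFractionRing.isAlgebraic_iff O K E).mpr (Algebra.IsAlgebraic.isAlgebraic x)
    obtain ⟨y, hy0, hyx⟩ := hxalg.exists_integral_multiple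
    obtain ⟨hyx₁, hyx₂⟩ := (hint _).mp hyx
    obtain ⟨a, ha⟩ := hcoord _ hyx₁ hyx₂
    have hyK : algebraMap O K y ≠ 0 := by
      rw [Ne, map_eq_zero_iff _ (IsFractionRing.injective O K)]
      exact hy0
    have hx : x = ∑ i, ((algebraMap O K y)⁻¹ * algebraMap O K (a i)) • fam i := by
      have h1 : (algebraMap O K y) • x = ∑ i, algebraMap O K (a i) • fam i := by
        rw [algebraMap_smul, ha]
        refine Finset.sum_congr rfl fun i _ => ?_
        rw [Algebra.smul_def, IsScalarTower.algebraMap_apply O K E]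
      calc x = (algebraMap O K y)⁻¹ • ((algebraMap O K y) • x) := by
            rw [smul_smul, inv_mul_cancel₀ hyK, one_smul]
        _ = _ := by
            rw [h1, Finset.smul_sum]
            exact Finset.sum_congr rfl fun i _ => by rw [smul_smul]
    rw [hx]
    exact sum_mem fun i _ => Submodule.smul_mem _ _ (Submodule.subset_span ⟨i, rfl⟩)
  have hcard : Fintype.card (Fin 1 ⊕ Fin q) = Module.finrank K E := by
    rw [h.finrank_eq K]
    simp
  refine ⟨basisOfTopLeSpanOfCardEqFinrank fam hspan hcard, ?_⟩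
  rw [coe_basisOfTopLeSpanOfCardEqFinrank]
  refine ⟨fun i => ((hint _).mp (hfami i)).1, fun i => ((hint _).mp (hfami i)).2, he₁1, he₁2,
    hf1, hf2, hcoord⟩

/-- **Norm-residue formula.** `O` a discrete valuation ring, `E / K` finite separable with
exactly two valuation rings `V₁`, `V₂` above `O` (`TwoExt.Hyp` with the families `1` of size `1`
and `b₂` of size `q`), residue maps `ρ₁ : V₁ → Ω`, `ρ₂ : V₂ → Ω` into a field of characteristic
`q` with `ρ₁ = ρ'` and `ρ₂ = V ∘ ρ'` on `O`, and `ρ₂ (b₂ k) ^ q ∈ V (ρ' O)`. Then for every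
`u ∈ V₁ ∩ V₂` the norm `N_{E/K} u` is (the image of) an element `n` of `O` with
`V (ρ' n) = V (ρ₁ u) * ρ₂ u ^ q`. -/
theorem norm_residue (q : ℕ) [hq : Fact q.Prime] [CharP Ω q]
    {π : O} {V₁ V₂ : ValuationSubring E} {b₂ : Fin q → E}
    (h : TwoExt.Hyp K π V₁ V₂ (fun _ : Fin 1 => (1 : E)) b₂)
    (ρ' : O →+* Ω) (ρ1 : V₁ →+* Ω) (ρ2 : V₂ →+* Ω) (V : Ω →+* Ω)
    (hρ1 : ∀ x : V₁, (x : E) ∈ V₁.nonunits → ρ1 x = 0)
    (hρ2 : ∀ x : V₂, ρ2 x = 0 ↔ (x : E) ∈ V₂.nonunits)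
    (h1 : ∀ c : O, ρ1 ⟨algebraMap O E c, h.le₁ c⟩ = ρ' c)
    (h2 : ∀ c : O, ρ2 ⟨algebraMap O E c, h.le₂ c⟩ = V (ρ' c))
    (hpi : ∀ k, ∃ c : O, ρ2 ⟨b₂ k, h.mem₂ k⟩ ^ q = V (ρ' c))
    (u : E) (hu₁ : u ∈ V₁) (hu₂ : u ∈ V₂) :
    ∃ n : O, algebraMap O K n = Algebra.norm K u ∧
      V (ρ' n) = V (ρ1 ⟨u, hu₁⟩) * ρ2 ⟨u, hu₂⟩ ^ q := by
  classical
  obtain ⟨b, hb₁, hb₂, he1, he2, hf1, hf2, hcoord⟩ := exists_adapted_basis h
  let C : Subring E := V₁.toSubring ⊓ V₂.toSubring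
  let ρ1C : C →+* Ω := ρ1.comp (Subring.inclusion (inf_le_left : C ≤ V₁.toSubring))
  let ρ2C : C →+* Ω := ρ2.comp (Subring.inclusion (inf_le_right : C ≤ V₂.toSubring))
  have hOC : ∀ c : O, algebraMap O E c ∈ C := fun c => ⟨h.le₁ c, h.le₂ c⟩
  have hbC : ∀ i, b i ∈ C := fun i => ⟨hb₁ i, hb₂ i⟩
  have hπ1 : algebraMap O E π ∈ V₁.nonunits :=
    (ValuationSubring.mem_nonunits_iff_or V₁).mpr (Or.inr h.inv_notMem₁)
  have hρ'max : ∀ c ∈ maximalIdeal O, ρ' c = 0 := by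
    intro c hc
    rw [h.irreducible.maximalIdeal_eq, Ideal.mem_span_singleton] at hc
    obtain ⟨t, rfl⟩ := hc
    rw [← h1]
    apply hρ1
    show algebraMap O E (π * t) ∈ V₁.nonunits
    rw [map_mul, mul_comm]
    exact mul_mem_nonunits V₁ (h.le₁ t) hπ1
  -- the residues of the adapted basis
  have hρe1 : ρ1 ⟨b (Sum.inl 0), hb₁ _⟩ = 1 := by
    have h0 : ρ1 (⟨b (Sum.inl 0), hb₁ _⟩ - 1) = 0 := hρ1 _ he1
    rw [map_sub, map_one, sub_eq_zero] at h0
    exact h0
  have hρe2 : ρ2 ⟨b (Sum.inl 0), hb₂ _⟩ = 0 := (hρ2 _).mpr he2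
  have hρf1 : ∀ k, ρ1 ⟨b (Sum.inr k), hb₁ _⟩ = 0 := fun k => hρ1 _ (hf1 k)
  have hρf2 : ∀ k, ρ2 ⟨b (Sum.inr k), hb₂ _⟩ = ρ2 ⟨b₂ k, h.mem₂ k⟩ := by
    intro k
    have h0 : ρ2 (⟨b (Sum.inr k), hb₂ _⟩ - ⟨b₂ k, h.mem₂ k⟩) = 0 := (hρ2 _).mpr (hf2 k)
    rw [map_sub, sub_eq_zero] at h0
    exact h0
  have key := norm_residue_of_basis (K := K) q C hOC b hbC (fun x hx => hcoord x hx.1 hx.2) ρ'
    ρ1C ρ2C V (fun c => h1 c) (fun c => h2 c)
    (by
      show ρ1 ⟨b (Sum.inl 0), hb₁ _⟩ ≠ 0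
      rw [hρe1]; exact one_ne_zero)
    hρe2 hρf1
    (by
      intro y hy k
      have hy' : ∑ k, V (ρ' (y k)) * ρ2 ⟨b₂ k, h.mem₂ k⟩ = 0 := by
        rw [← hy]
        exact Finset.sum_congr rfl fun k _ => by rw [← hρf2 k]; rfl
      have hsum : ρ2 (∑ k, (⟨algebraMap O E (y k), h.le₂ _⟩ : V₂) * ⟨b₂ k, h.mem₂ k⟩) = 0 := by
        rw [map_sum, ← hy']
        exact Finset.sum_congr rfl fun k _ => by rw [map_mul, h2]
      have hmem := (hρ2 _).mp hsum
      have hcoe : ((∑ k, (⟨algebraMap O E (y k), h.le₂ _⟩ : V₂) * ⟨b₂ k, h.mem₂ k⟩ : V₂) : E) =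
          ∑ k, algebraMap O E (y k) * b₂ k := by
        rw [AddSubmonoidClass.coe_finsetSum]
        rfl
      rw [hcoe] at hmem
      exact hρ'max _ (h.indep₂ y hmem k))
    (by
      intro k
      obtain ⟨c, hc⟩ := hpi k
      refine ⟨c, ?_⟩
      rw [← hc, ← hρf2 k]
      rfl)
    ⟨u, hu₁, hu₂⟩
  exact key

end Main

end Fermat.Agent.S35.NormRes
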