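import Mathlib
import Fermat.Agent.S34.ResField
import Fermat.Agent.S35.NormRes

/-!
# S35, package (Ga), instance: the norm-residue formula for the degeneracy map `α`

`W` a discrete valuation ring of `L` with residue characteristic `ℓ ∤ M`, `w` the Atkin–Lehner
automorphism of `FF L (M * ℓ)`.  For `u` in both Gauss valuation rings of level `M * ℓ`
(`u` and `w u` have `W`-integral `q`-expansions) the norm `N_α u ∈ FF L M` along
`α = heckeAlphaBar` is Gauss-integral and

  `red (N_α u) = red u * Frob (red (w u))`,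

`Frob` the coefficientwise Frobenius of `κ((q))`.
-/

set_option autoImplicit false

noncomputable section

namespace Fermat.Agent.S35.NormResInst

open ModularCurve AlgebraicCurve Fermat.Agent.S18 Fermat.Agent.S18.Gauss Fermat.Agent.S24
  Fermat.Agent.S34 Fermat.Agent.S34.ResField

variable {L : Type*} [Field L] [Algebra ℚ L] (W : ValuationSubring L) [IsDiscreteValuationRing W]

/-- The residue map of the Gauss valuation ring, with values in `κ((q))`. -/
def resV (N : ℕ) : gaussVS W N →+* LaurentSeries (IsLocalRing.ResidueField W) :=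
  (red W).comp ((algebraMap (FF L N) (LaurentSeries L)).restrict (gaussVS W N) (contentRing W)
    (fun _ hx => hx))

theorem resV_mk {N : ℕ} {x : FF L N} (hx : x ∈ gaussVS W N) :
    resV W N ⟨x, hx⟩ = red W ⟨(x : LaurentSeries L), hx⟩ := rfl

/-- The residue map of the second Gauss valuation ring `w⁻¹ (gaussVS)`. -/
def resV2 (N : ℕ) (w : FF L N ≃ₐ[L] FF L N) :
    ((gaussVS W N).comap (w : FF L N →ₐ[L] FF L N).toRingHom) →+*
      LaurentSeries (IsLocalRing.ResidueField W) :=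
  (resV W N).comp ((w : FF L N →ₐ[L] FF L N).toRingHom.restrict
    ((gaussVS W N).comap (w : FF L N →ₐ[L] FF L N).toRingHom) (gaussVS W N) (fun _ hx => hx))

theorem resV2_mk {N : ℕ} (w : FF L N ≃ₐ[L] FF L N) {x : FF L N}
    (hx : x ∈ (gaussVS W N).comap (w : FF L N →ₐ[L] FF L N).toRingHom) :
    resV2 W N w ⟨x, hx⟩ = red W ⟨((w x : FF L N) : LaurentSeries L), hx⟩ := rfl

theorem resV_eq_of_coe {N : ℕ} (x : gaussVS W N) (y : LaurentSeries L)
    (hy : y ∈ contentRing W) (h : ((x : FF L N) : LaurentSeries L) = y) :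
    resV W N x = red W ⟨y, hy⟩ := by
  subst h
  rfl

theorem resV2_eq_of_coe {N : ℕ} (w : FF L N ≃ₐ[L] FF L N)
    (x : (gaussVS W N).comap (w : FF L N →ₐ[L] FF L N).toRingHom) (y : LaurentSeries L)
    (hy : y ∈ contentRing W) (h : ((w (x : FF L N) : FF L N) : LaurentSeries L) = y) :
    resV2 W N w x = red W ⟨y, hy⟩ := by
  subst h
  rfl

variable (M ℓ : ℕ) [NeZero M] [NeZero ℓ]

/-- **Norm-residue formula along `α`.** -/
theorem norm_alpha_red (ι₀ : L →+* ℂ) [hℓ : Fact ℓ.Prime] (hℓM : ¬ ℓ ∣ M)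
    [CharP (IsLocalRing.ResidueField W) ℓ]
    (w : FF L (M * ℓ) ≃ₐ[L] FF L (M * ℓ))
    (hwα : ∀ y : FF L M, w (heckeAlphaBar L M ℓ y) = heckeBetaBar L M ℓ y)
    (hwβ : ∀ y : FF L M, w (heckeBetaBar L M ℓ y) = heckeAlphaBar L M ℓ y)
    (u : FF L (M * ℓ)) (hu₁ : (u : LaurentSeries L) ∈ contentRing W)
    (hu₂ : ((w u : FF L (M * ℓ)) : LaurentSeries L) ∈ contentRing W) :
    letI := algebraAlong (heckeAlphaBar L M ℓ)
    ∃ hn : ((Algebra.norm (FF L M) u : FF L M) : LaurentSeries L) ∈ contentRing W,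
      red W ⟨_, hn⟩ = red W ⟨(u : LaurentSeries L), hu₁⟩ *
        coeffMap (frobenius (IsLocalRing.ResidueField W) ℓ)
          (red W ⟨((w u : FF L (M * ℓ)) : LaurentSeries L), hu₂⟩) := by
  obtain ⟨ϖ, hϖ⟩ := IsDiscreteValuationRing.exists_irreducible W
  have H := hyp_level W M ℓ ι₀ hℓM hϖ w hwα hwβ
  letI := algebraAlong (heckeAlphaBar L M ℓ)
  letI : Algebra (gaussVS W M) (FF L (M * ℓ)) :=
    ((algebraMap (FF L M) (FF L (M * ℓ))).comp (algebraMap (gaussVS W M) (FF L M))).toAlgebra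
  haveI : IsScalarTower (gaussVS W M) (FF L M) (FF L (M * ℓ)) :=
    IsScalarTower.of_algebraMap_eq (fun _ => rfl)
  haveI : FiniteDimensional (FF L M) (FF L (M * ℓ)) :=
    (Fermat.Agent.S34.DegreeL.finrank_alpha_level L ι₀ M ℓ hℓ.out hℓM).1
  haveI : CharZero L := charZero_of_injective_algebraMap (algebraMap ℚ L).injective
  haveI : CharZero (FF L M) := charZero_of_injective_algebraMap (algebraMap L (FF L M)).injective
  haveI : Algebra.IsSeparable (FF L M) (FF L (M * ℓ)) := inferInstance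
  haveI hch : CharP (LaurentSeries (IsLocalRing.ResidueField W)) ℓ :=
    charP_of_injective_ringHom
      (f := (HahnSeries.C : IsLocalRing.ResidueField W →+* LaurentSeries (IsLocalRing.ResidueField W)))
      HahnSeries.C_injective ℓ
  have hj : ((jBC L M : FF L M) : LaurentSeries L) = jqModC L := coe_jBC_eq L M
  have hjmem : jqModC L ∈ contentRing W := jq_mem_contentRing W
  have hmap : ∀ a : gaussVS W M, algebraMap (gaussVS W M) (FF L (M * ℓ)) a =
      heckeAlphaBar L M ℓ (a : FF L M) := fun a => rfl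
  have hcoeα : ∀ c : gaussVS W M,
      ((algebraMap (gaussVS W M) (FF L (M * ℓ)) c : FF L (M * ℓ)) : LaurentSeries L) =
        ((c : FF L M) : LaurentSeries L) := fun c =>
    (congrArg (fun z : FF L (M * ℓ) => (z : LaurentSeries L)) (hmap c)).trans
      (coe_heckeAlphaBar M ℓ (c : FF L M))
  have hcoewα : ∀ c : gaussVS W M,
      ((w (algebraMap (gaussVS W M) (FF L (M * ℓ)) c) : FF L (M * ℓ)) : LaurentSeries L) =
        qExpand L ℓ ((c : FF L M) : LaurentSeries L) := fun c =>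
    (congrArg (fun z : FF L (M * ℓ) => ((w z : FF L (M * ℓ)) : LaurentSeries L)) (hmap c)).trans
      ((congrArg (fun z : FF L (M * ℓ) => (z : LaurentSeries L)) (hwα (c : FF L M))).trans
        (coe_heckeBetaBar M ℓ (c : FF L M)))
  have hjk : ∀ k : ℕ, (jBC L M : FF L M) ^ k ∈ gaussVS W M := by
    intro k
    show (((jBC L M : FF L M) ^ k : FF L M) : LaurentSeries L) ∈ contentRing W
    rw [SubmonoidClass.coe_pow, hj]
    exact pow_mem hjmem _
  have hcoejk : ∀ k : ℕ, (((jBC L M : FF L M) ^ k : FF L M) : LaurentSeries L) = jqModC L ^ k := by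
    intro k
    rw [SubmonoidClass.coe_pow, hj]
  have hcoewβ : ∀ k : ℕ,
      ((w (heckeBetaBar L M ℓ (jBC L M) ^ k) : FF L (M * ℓ)) : LaurentSeries L) =
        jqModC L ^ k := by
    intro k
    rw [map_pow, hwβ, SubmonoidClass.coe_pow, coe_heckeAlphaBar, hj]
  have hredpow : ∀ k : ℕ, red W ⟨jqModC L ^ k, pow_mem hjmem k⟩ =
      jqModC (IsLocalRing.ResidueField W) ^ k := by
    intro k
    have e : (⟨jqModC L ^ k, pow_mem hjmem k⟩ : contentRing W) = ⟨jqModC L, hjmem⟩ ^ k :=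
      Subtype.ext rfl
    rw [e, map_pow, red_jq]
  obtain ⟨n, hn, hform⟩ := NormRes.norm_residue (K := FF L M) ℓ H (resV W M) (resV W (M * ℓ))
    (resV2 W (M * ℓ) w) (qExpand (IsLocalRing.ResidueField W) ℓ)
    (fun x hx => (mem_nonunits_gaussVS W x.2).1 hx)
    (fun x => by
      rw [mem_nonunits_comap]
      exact (mem_nonunits_gaussVS W x.2).symm)
    (fun c => resV_eq_of_coe W _ _ c.2 (hcoeα c))
    (fun c => by
      rw [resV2_eq_of_coe W w _ _ (qExpand_mem_contentRing W ℓ c.2) (hcoewα c)]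
      exact red_qExpand W ℓ c.2)
    (fun k => by
      refine ⟨⟨_, hjk k⟩, ?_⟩
      rw [resV2_eq_of_coe W w _ _ (pow_mem hjmem k) (hcoewβ k),
        resV_eq_of_coe W _ _ (pow_mem hjmem k) (hcoejk k), hredpow, map_pow,
        qExpand_jqModC_eq_pow, ← pow_mul, ← pow_mul, mul_comm])
    u hu₁ hu₂
  have hn' : ((n : FF L M) : LaurentSeries L) ∈ contentRing W := n.2
  have hnorm : (n : FF L M) = Algebra.norm (FF L M) u := hn
  have hmem : ((Algebra.norm (FF L M) u : FF L M) : LaurentSeries L) ∈ contentRing W := by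
    rw [← hnorm]; exact hn'
  refine ⟨hmem, ?_⟩
  have e3 : (⟨((Algebra.norm (FF L M) u : FF L M) : LaurentSeries L), hmem⟩ : contentRing W) =
      ⟨((n : FF L M) : LaurentSeries L), hn'⟩ :=
    Subtype.ext (congrArg (fun z : FF L M => (z : LaurentSeries L)) hnorm.symm)
  rw [e3]
  have hform' : qExpand (IsLocalRing.ResidueField W) ℓ (red W ⟨((n : FF L M) : LaurentSeries L), hn'⟩)
      = qExpand (IsLocalRing.ResidueField W) ℓ (red W ⟨(u : LaurentSeries L), hu₁⟩) *
        red W ⟨((w u : FF L (M * ℓ)) : LaurentSeries L), hu₂⟩ ^ ℓ := hform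
  rw [Fermat.Agent.S37.Kronecker.pow_char_eq ℓ, ← map_mul] at hform'
  exact qExpand_injective ℓ hform'

/-- The norm along `b` is the norm along `a` after applying an automorphism `w` with
`w ∘ b = a`. -/
theorem norm_toAlgebra_eq {F E : Type*} [Field F] [Field E] (a b : F →+* E) (w : E ≃+* E)
    (hw : ∀ c, w (b c) = a c) (x : E) :
    @Algebra.norm F E _ _ b.toAlgebra x = @Algebra.norm F E _ _ a.toAlgebra (w x) := by
  have h := @Algebra.norm_eq_of_equiv_equiv F E F E _ _ _ _ b.toAlgebra a.toAlgebra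
    (RingEquiv.refl F) w (by
      ext c
      exact (hw c).symm) x
  exact h

/-- **Norm-residue formula along `β`.** -/
theorem norm_beta_red (ι₀ : L →+* ℂ) [hℓ : Fact ℓ.Prime] (hℓM : ¬ ℓ ∣ M)
    [CharP (IsLocalRing.ResidueField W) ℓ]
    (w : FF L (M * ℓ) ≃ₐ[L] FF L (M * ℓ))
    (hwα : ∀ y : FF L M, w (heckeAlphaBar L M ℓ y) = heckeBetaBar L M ℓ y)
    (hwβ : ∀ y : FF L M, w (heckeBetaBar L M ℓ y) = heckeAlphaBar L M ℓ y)
    (u : FF L (M * ℓ)) (hu₁ : (u : LaurentSeries L) ∈ contentRing W)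
    (hu₂ : ((w u : FF L (M * ℓ)) : LaurentSeries L) ∈ contentRing W) :
    letI := algebraAlong (heckeBetaBar L M ℓ)
    ∃ hn : ((Algebra.norm (FF L M) u : FF L M) : LaurentSeries L) ∈ contentRing W,
      red W ⟨_, hn⟩ = red W ⟨((w u : FF L (M * ℓ)) : LaurentSeries L), hu₂⟩ *
        coeffMap (frobenius (IsLocalRing.ResidueField W) ℓ)
          (red W ⟨(u : LaurentSeries L), hu₁⟩) := by
  have hnorm : @Algebra.norm (FF L M) (FF L (M * ℓ)) _ _ (algebraAlong (heckeBetaBar L M ℓ)) u =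
      @Algebra.norm (FF L M) (FF L (M * ℓ)) _ _ (algebraAlong (heckeAlphaBar L M ℓ)) (w u) :=
    norm_toAlgebra_eq (heckeAlphaBar L M ℓ).toRingHom (heckeBetaBar L M ℓ).toRingHom
      w.toRingEquiv (fun c => hwβ c) u
  have hsymm : ((w.symm (w u) : FF L (M * ℓ)) : LaurentSeries L) = (u : LaurentSeries L) := by
    rw [AlgEquiv.symm_apply_apply]
  have hu₁' : ((w.symm (w u) : FF L (M * ℓ)) : LaurentSeries L) ∈ contentRing W := by
    rw [hsymm]; exact hu₁
  obtain ⟨hn, hform⟩ := norm_alpha_red W M ℓ ι₀ hℓM w.symm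
    (fun y => by rw [AlgEquiv.symm_apply_eq, hwβ])
    (fun y => by rw [AlgEquiv.symm_apply_eq, hwα]) (w u) hu₂ hu₁'
  have hmem : ((@Algebra.norm (FF L M) (FF L (M * ℓ)) _ _ (algebraAlong (heckeBetaBar L M ℓ)) u :
      FF L M) : LaurentSeries L) ∈ contentRing W := by
    rw [hnorm]; exact hn
  refine ⟨hmem, ?_⟩
  have e1 : (⟨((@Algebra.norm (FF L M) (FF L (M * ℓ)) _ _ (algebraAlong (heckeBetaBar L M ℓ)) u :
      FF L M) : LaurentSeries L), hmem⟩ : contentRing W) =
      ⟨((@Algebra.norm (FF L M) (FF L (M * ℓ)) _ _ (algebraAlong (heckeAlphaBar L M ℓ)) (w u) :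
      FF L M) : LaurentSeries L), hn⟩ :=
    Subtype.ext (congrArg (fun z : FF L M => (z : LaurentSeries L)) hnorm)
  have e2 : (⟨((w.symm (w u) : FF L (M * ℓ)) : LaurentSeries L), hu₁'⟩ : contentRing W) =
      ⟨(u : LaurentSeries L), hu₁⟩ := Subtype.ext hsymm
  rw [e1, hform, e2]

end Fermat.Agent.S35.NormResInst
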