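import Mathlib
import Fermat.Agent.S34.DDLocal

/-!
# S35: divisor bookkeeping for single differences (package (Gc))

Setting as in `S34.DDLocal`: `F / K` a function field, `g` a semilinear automorphism of
`F / K` (the arithmetic action of a Galois element, e.g. the square of a Frobenius lift),
`ψ : FL →+* F` the level, `τL` a ring automorphism of `FL` with `ψ (τL x) = g • ψ x`, and `C` a
class of places (the places through a closed point of a chart).

* `LocEq ψ C D` : the divisor `D` has a local equation on the class `C` (a nonzero `h ∈ FL` with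
  `ord_Q h = D Q` at every place `Q` of the class); closure under `0`, `+`, `-`, multiples,
  restriction of the class, and transport by `τL` (`LocEq.smul`: a local equation on `g⁻¹ C`
  is carried to a local equation of `g • D` on `C`; the class need not be stable);
* `locEq_of_good` : if every point of the class in the support of `D` is good, then `D` has a
  local equation on the class (smooth points);
* `exists_sd_of_stable` : on a `g`-stable class, if every point of the support is `g`-fixed, or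
  good, or has a good translate (the conclusion of `S34.LocDD.hloc_of_struct`), then
  `g • D - D` is generated on the class by `τL h / h` for ONE function `h` (node fixed by `g`:
  the non-good point is `g`-fixed and cancels);
* `ord_twist`, `exists_twist_of_stable`, `LocEq.twist` : the divisor `g • E - m • E` and its
  generator `τL γ' / γ ^ m`;
* `exists_sd_datum_ord`, `exists_sd_datum_ord_of_good` : with `ord_P f = p ^ n * D P` everywhere,
  `τL f / f` and the `p ^ n`-th power of the local generator have the same order on the class;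
* `sd_mem_principal_of_root`, `twist_mem_principal_of_root` : end of the Kummer induction.
-/

set_option autoImplicit false

noncomputable section

namespace Fermat.Agent.S35.SDLocal

open AlgebraicCurve Fermat.Agent.S34.DDLocal

variable {K F FL : Type*} [Field K] [Field F] [Algebra K F] [Field FL]

/-- The divisor `D` **has a local equation on the class `C`** at the level `ψ : FL →+* F`:
a nonzero `h ∈ FL` with `ord_Q h = D Q` at every place `Q` of the class. -/
def LocEq (ψ : FL →+* F) (C : Place K F → Prop) (D : Divisor K F) : Prop :=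
  ∃ h : FL, h ≠ 0 ∧ ∀ Q : Place K F, C Q → Q.ord (ψ h) = D Q

/-! ### Orders -/

section Orders

variable (g : SemilinearAut K F) (ψ : FL →+* F) (τL : FL ≃+* FL)

/-- `ord_Q (τL x) = ord_{g⁻¹ Q} x`. -/
theorem ord_map (hτ : ∀ x : FL, ψ (τL x) = g • ψ x) (Q : Place K F) (x : FL) :
    Q.ord (ψ (τL x)) = (g⁻¹ • Q).ord (ψ x) := by
  rw [hτ, ord_smul_left]

/-- The order of a power. -/
theorem ord_map_pow (Q : Place K F) (x : FL) (m : ℕ) :
    Q.ord (ψ (x ^ m)) = (m : ℤ) * Q.ord (ψ x) := by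
  rw [map_pow, ← zpow_natCast, Place.ord_zpow]

/-- The order of a twisted difference `τL x / y ^ m`. -/
theorem ord_twist₂ (hτ : ∀ x : FL, ψ (τL x) = g • ψ x) (Q : Place K F) {x y : FL}
    (hx : x ≠ 0) (hy : y ≠ 0) (m : ℕ) :
    Q.ord (ψ (τL x / y ^ m)) = (g⁻¹ • Q).ord (ψ x) - (m : ℤ) * Q.ord (ψ y) := by
  have h1 : ψ (τL x) ≠ 0 := (map_ne_zero ψ).mpr ((map_ne_zero τL).mpr hx)
  have h2 : (ψ (y ^ m))⁻¹ ≠ 0 := inv_ne_zero ((map_ne_zero ψ).mpr (pow_ne_zero m hy))
  rw [map_div₀, div_eq_mul_inv, Q.ord_mul h1 h2, Place.ord_inv, ord_map g ψ τL hτ,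
    ord_map_pow]
  ring

/-- The order of a twisted difference `τL x / x ^ m`. -/
theorem ord_twist (hτ : ∀ x : FL, ψ (τL x) = g • ψ x) (Q : Place K F) {x : FL}
    (hx : x ≠ 0) (m : ℕ) :
    Q.ord (ψ (τL x / x ^ m)) = (g⁻¹ • Q).ord (ψ x) - (m : ℤ) * Q.ord (ψ x) :=
  ord_twist₂ g ψ τL hτ Q hx hx m

/-- The order of a single difference `τL x / y`. -/
theorem ord_singleDiff₂ (hτ : ∀ x : FL, ψ (τL x) = g • ψ x) (Q : Place K F) {x y : FL}
    (hx : x ≠ 0) (hy : y ≠ 0) :
    Q.ord (ψ (τL x / y)) = (g⁻¹ • Q).ord (ψ x) - Q.ord (ψ y) := by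
  have h := ord_twist₂ g ψ τL hτ Q hx hy 1
  rwa [pow_one, Nat.cast_one, one_mul] at h

/-- The order of a single difference `τL x / x`. -/
theorem ord_singleDiff (hτ : ∀ x : FL, ψ (τL x) = g • ψ x) (Q : Place K F) {x : FL}
    (hx : x ≠ 0) :
    Q.ord (ψ (τL x / x)) = (g⁻¹ • Q).ord (ψ x) - Q.ord (ψ x) :=
  ord_singleDiff₂ g ψ τL hτ Q hx hx

/-- The coefficients of a single difference of divisors. -/
theorem sd_eval (D : Divisor K F) (Q : Place K F) :
    (g • D - D) Q = D (g⁻¹ • Q) - D Q := by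
  rw [Finsupp.sub_apply, SemilinearAut.divisor_smul_apply]

/-- The coefficients of a twisted difference of divisors. -/
theorem twist_eval (E : Divisor K F) (m : ℕ) (Q : Place K F) :
    (g • E - m • E) Q = E (g⁻¹ • Q) - (m : ℤ) * E Q := by
  rw [Finsupp.sub_apply, SemilinearAut.divisor_smul_apply, Finsupp.smul_apply, nsmul_eq_mul]

theorem twist_ne_zero {x y : FL} (hx : x ≠ 0) (hy : y ≠ 0) (m : ℕ) : τL x / y ^ m ≠ 0 :=
  div_ne_zero ((map_ne_zero τL).mpr hx) (pow_ne_zero m hy)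

theorem singleDiff_ne_zero {x y : FL} (hx : x ≠ 0) (hy : y ≠ 0) : τL x / y ≠ 0 :=
  div_ne_zero ((map_ne_zero τL).mpr hx) hy

end Orders

/-! ### Closure properties of `LocEq` -/

section Closure

variable (ψ : FL →+* F) {C : Place K F → Prop} {D E : Divisor K F}

theorem locEq_zero (C : Place K F → Prop) : LocEq ψ C (0 : Divisor K F) :=
  ⟨1, one_ne_zero, fun Q _ => by rw [map_one, Place.ord_one]; rfl⟩

variable {ψ}

/-- Restriction of the class. -/
theorem LocEq.mono {C' : Place K F → Prop} (h : LocEq ψ C D)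
    (hCC : ∀ Q : Place K F, C' Q → C Q) : LocEq ψ C' D := by
  obtain ⟨x, hx0, hx⟩ := h
  exact ⟨x, hx0, fun Q hQ => hx Q (hCC Q hQ)⟩

theorem LocEq.add (h₁ : LocEq ψ C D) (h₂ : LocEq ψ C E) : LocEq ψ C (D + E) := by
  obtain ⟨x, hx0, hx⟩ := h₁
  obtain ⟨y, hy0, hy⟩ := h₂
  refine ⟨x * y, mul_ne_zero hx0 hy0, fun Q hQ => ?_⟩
  rw [map_mul, Q.ord_mul ((map_ne_zero ψ).mpr hx0) ((map_ne_zero ψ).mpr hy0), hx Q hQ, hy Q hQ,
    Finsupp.add_apply]

theorem LocEq.neg (h : LocEq ψ C D) : LocEq ψ C (-D) := by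
  obtain ⟨x, hx0, hx⟩ := h
  refine ⟨x⁻¹, inv_ne_zero hx0, fun Q hQ => ?_⟩
  rw [map_inv₀, Place.ord_inv, hx Q hQ, Finsupp.neg_apply]

theorem LocEq.sub (h₁ : LocEq ψ C D) (h₂ : LocEq ψ C E) : LocEq ψ C (D - E) := by
  rw [sub_eq_add_neg]
  exact h₁.add h₂.neg

theorem LocEq.zsmul (h : LocEq ψ C D) (m : ℤ) : LocEq ψ C (m • D) := by
  obtain ⟨x, hx0, hx⟩ := h
  refine ⟨x ^ m, zpow_ne_zero m hx0, fun Q hQ => ?_⟩
  rw [map_zpow₀, Place.ord_zpow, hx Q hQ, Finsupp.smul_apply, smul_eq_mul]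

theorem LocEq.nsmul (h : LocEq ψ C D) (m : ℕ) : LocEq ψ C (m • D) := by
  have h1 := h.zsmul (m : ℤ)
  rwa [natCast_zsmul] at h1

variable (g : SemilinearAut K F) (τL : FL ≃+* FL)

/-- **Transport of a local equation** by an automorphism which need not fix the class: a local
equation of `D` on `g⁻¹ C` is carried by `τL` to a local equation of `g • D` on `C`. -/
theorem LocEq.smul (hτ : ∀ x : FL, ψ (τL x) = g • ψ x)
    (h : LocEq ψ (fun Q => C (g • Q)) D) : LocEq ψ C (g • D) := by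
  obtain ⟨x, hx0, hx⟩ := h
  refine ⟨τL x, (map_ne_zero τL).mpr hx0, fun Q hQ => ?_⟩
  rw [ord_map g ψ τL hτ, SemilinearAut.divisor_smul_apply]
  refine hx (g⁻¹ • Q) ?_
  show C (g • g⁻¹ • Q)
  rw [smul_inv_smul]
  exact hQ

/-- The same for a stable class. -/
theorem LocEq.smul_of_stable (hτ : ∀ x : FL, ψ (τL x) = g • ψ x)
    (hC : ∀ P : Place K F, C (g • P) ↔ C P) (h : LocEq ψ C D) : LocEq ψ C (g • D) :=
  LocEq.smul g τL hτ (h.mono fun Q hQ => (hC Q).mp hQ)

/-- **Transport of a good point** by an automorphism which need not fix the class. -/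
theorem good_smul (hτ : ∀ x : FL, ψ (τL x) = g • ψ x) {P : Place K F}
    (h : Good ψ (fun Q => C (g • Q)) P) : Good ψ C (g • P) := by
  obtain ⟨x, hx0, hx1, hx2⟩ := h
  refine ⟨τL x, (map_ne_zero τL).mpr hx0, ?_, fun Q hQ hQP => ?_⟩
  · rw [ord_map g ψ τL hτ, inv_smul_smul, hx1]
  · rw [ord_map g ψ τL hτ]
    refine hx2 (g⁻¹ • Q) ?_ fun h => hQP ?_
    · show C (g • g⁻¹ • Q)
      rw [smul_inv_smul]
      exact hQ
    · rw [← h, smul_inv_smul]

/-- **The twisted difference of a divisor with local equations.**  If `E` has the local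
equation `γ'` on `g⁻¹ C` and `γ` on `C`, then `τL γ' / γ ^ m` is a local equation of
`g • E - m • E` on `C`. -/
theorem ord_twist_of_locEq (hτ : ∀ x : FL, ψ (τL x) = g • ψ x) (m : ℕ) {γ γ' : FL}
    (hγ0 : γ ≠ 0) (hγ'0 : γ' ≠ 0) (hγ : ∀ Q : Place K F, C Q → Q.ord (ψ γ) = E Q)
    (hγ' : ∀ Q : Place K F, C (g • Q) → Q.ord (ψ γ') = E Q) (Q : Place K F) (hQ : C Q) :
    Q.ord (ψ (τL γ' / γ ^ m)) = (g • E - m • E) Q := by
  rw [ord_twist₂ g ψ τL hτ Q hγ'0 hγ0 m, twist_eval, hγ Q hQ, hγ' (g⁻¹ • Q)]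
  show C (g • g⁻¹ • Q)
  rw [smul_inv_smul]
  exact hQ

/-- `g • E - m • E` has a local equation on `C` if `E` has one on `C` and on `g⁻¹ C`. -/
theorem LocEq.twist (hτ : ∀ x : FL, ψ (τL x) = g • ψ x) (m : ℕ) (h : LocEq ψ C E)
    (h' : LocEq ψ (fun Q => C (g • Q)) E) : LocEq ψ C (g • E - m • E) :=
  (LocEq.smul g τL hτ h').sub (h.nsmul m)

end Closure

/-! ### Local equations from good points -/

section Good

variable (ψ : FL →+* F)

open Classical in
/-- **The good part of a divisor on a class has a local equation**: there is `h ≠ 0` in `FL`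
with `ord_Q h = D Q` at the good points of the class in the support of `D` and `ord_Q h = 0`
at the other places of the class. -/
theorem exists_partial (C : Place K F → Prop) (D : Divisor K F) :
    ∃ h : FL, h ≠ 0 ∧ ∀ Q : Place K F, C Q →
      Q.ord (ψ h) = if D Q ≠ 0 ∧ Good ψ C Q then D Q else 0 := by
  set S : Finset (Place K F) := D.support.filter fun P => C P ∧ Good ψ C P with hS
  have hmemS : ∀ P : Place K F, P ∈ S ↔ D P ≠ 0 ∧ C P ∧ Good ψ C P := by
    intro P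
    rw [hS, Finset.mem_filter, Finsupp.mem_support_iff]
  have hgoodS : ∀ P ∈ S, Good ψ C P := fun P hP => ((hmemS P).mp hP).2.2
  let x : Place K F → FL := fun P => if hP : P ∈ S then (hgoodS P hP).choose else 1
  have hx0 : ∀ P ∈ S, x P ≠ 0 := by
    intro P hP
    simp only [x, dif_pos hP]
    exact (hgoodS P hP).choose_spec.1
  have hx1 : ∀ P ∈ S, P.ord (ψ (x P)) = 1 := by
    intro P hP
    simp only [x, dif_pos hP]
    exact (hgoodS P hP).choose_spec.2.1
  have hx2 : ∀ P ∈ S, ∀ Q : Place K F, C Q → Q ≠ P → Q.ord (ψ (x P)) = 0 := by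
    intro P hP
    simp only [x, dif_pos hP]
    exact (hgoodS P hP).choose_spec.2.2
  have hh0 : (∏ P ∈ S, x P ^ D P) ≠ 0 :=
    Finset.prod_ne_zero_iff.mpr fun P hP => zpow_ne_zero _ (hx0 P hP)
  refine ⟨∏ P ∈ S, x P ^ D P, hh0, fun Q hQ => ?_⟩
  rw [ord_prod_zpow ψ Q S x (fun P => D P) hx0]
  by_cases hQS : Q ∈ S
  · have hc : D Q ≠ 0 ∧ Good ψ C Q := ⟨((hmemS Q).mp hQS).1, ((hmemS Q).mp hQS).2.2⟩
    rw [if_pos hc, Finset.sum_eq_single Q]
    · rw [hx1 Q hQS, mul_one]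
    · intro P hP hPQ
      rw [hx2 P hP Q hQ (Ne.symm hPQ), mul_zero]
    · intro h
      exact absurd hQS h
  · have hc : ¬ (D Q ≠ 0 ∧ Good ψ C Q) := fun hc => hQS ((hmemS Q).mpr ⟨hc.1, hQ, hc.2⟩)
    rw [if_neg hc]
    refine Finset.sum_eq_zero fun P hP => ?_
    have hPQ : Q ≠ P := fun h => hQS (h ▸ hP)
    rw [hx2 P hP Q hQ hPQ, mul_zero]

/-- **A divisor whose points on the class are all good has a local equation on the class**
(smooth points: every rational place through a smooth point is good). -/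
theorem locEq_of_good (C : Place K F → Prop) (D : Divisor K F)
    (hgood : ∀ P : Place K F, C P → D P ≠ 0 → Good ψ C P) : LocEq ψ C D := by
  classical
  obtain ⟨h, hh0, hh⟩ := exists_partial ψ C D
  refine ⟨h, hh0, fun Q hQ => ?_⟩
  rw [hh Q hQ]
  by_cases hD : D Q = 0
  · rw [if_neg (fun hc => hc.1 hD), hD]
  · rw [if_pos ⟨hD, hgood Q hQ hD⟩]

variable (g : SemilinearAut K F) (τL : FL ≃+* FL)

/-- **Local single difference at a fixed point.**  On a `g`-stable class `C`, if every point `P`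
of the class in the support of `D` is `g`-fixed, or good, or has a good translate, then there is
ONE function `h ≠ 0` in `FL` such that `τL h / h` has order `(g • D - D) Q` at every place `Q` of
the class. -/
theorem exists_sd_of_stable (hτ : ∀ x : FL, ψ (τL x) = g • ψ x) (C : Place K F → Prop)
    (hC : ∀ P : Place K F, C (g • P) ↔ C P) (D : Divisor K F)
    (hloc : ∀ P : Place K F, C P → D P ≠ 0 → g • P = P ∨ Good ψ C P ∨ Good ψ C (g • P)) :
    ∃ h : FL, h ≠ 0 ∧ ∀ Q : Place K F, C Q → Q.ord (ψ (τL h / h)) = (g • D - D) Q := by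
  classical
  obtain ⟨h, hh0, hh⟩ := exists_partial ψ C D
  have hCinv : ∀ P : Place K F, C P → C (g⁻¹ • P) := by
    intro P hP
    rw [← hC, smul_inv_smul]
    exact hP
  -- a point of the support which is not good is fixed
  have hfix : ∀ Q : Place K F, C Q → D Q ≠ 0 → ¬ Good ψ C Q → g • Q = Q := by
    intro Q hQ hD hQS
    rcases hloc Q hQ hD with h | h | h
    · exact h
    · exact absurd h hQS
    · exact absurd (good_of_good_smul g ψ τL hτ hC h) hQS
  -- `b := D - ord h` is `g⁻¹`-invariant on the class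
  have hb : ∀ Q : Place K F, C Q →
      D (g⁻¹ • Q) - (if D (g⁻¹ • Q) ≠ 0 ∧ Good ψ C (g⁻¹ • Q) then D (g⁻¹ • Q) else 0) =
        D Q - (if D Q ≠ 0 ∧ Good ψ C Q then D Q else 0) := by
    intro Q hQ
    by_cases h1 : D Q ≠ 0 ∧ ¬ Good ψ C Q
    · have hfx := hfix Q hQ h1.1 h1.2
      have : g⁻¹ • Q = Q := by
        rw [inv_smul_eq_iff, hfx]
      rw [this]
    · have hQ0 : D Q - (if D Q ≠ 0 ∧ Good ψ C Q then D Q else 0) = 0 := by
        by_cases hQS : D Q ≠ 0 ∧ Good ψ C Q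
        · rw [if_pos hQS, sub_self]
        · have : D Q = 0 := by
            by_contra h
            exact h1 ⟨h, fun hg => hQS ⟨h, hg⟩⟩
          rw [if_neg hQS, this, sub_zero]
      rw [hQ0]
      by_cases h2 : D (g⁻¹ • Q) ≠ 0 ∧ ¬ Good ψ C (g⁻¹ • Q)
      · have hfx := hfix (g⁻¹ • Q) (hCinv Q hQ) h2.1 h2.2
        rw [smul_inv_smul] at hfx
        rw [← hfx] at h2
        exact absurd h2 h1
      · by_cases hQS : D (g⁻¹ • Q) ≠ 0 ∧ Good ψ C (g⁻¹ • Q)
        · rw [if_pos hQS, sub_self]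
        · have : D (g⁻¹ • Q) = 0 := by
            by_contra h
            exact h2 ⟨h, fun hg => hQS ⟨h, hg⟩⟩
          rw [if_neg hQS, this, sub_zero]
  refine ⟨h, hh0, fun Q hQ => ?_⟩
  rw [ord_singleDiff g ψ τL hτ Q hh0, hh Q hQ, hh _ (hCinv Q hQ), sd_eval]
  have e1 := hb Q hQ
  linarith

/-- `g • D - D` has a local equation on a `g`-stable class under the hypothesis of
`exists_sd_of_stable`. -/
theorem locEq_sd_of_stable (hτ : ∀ x : FL, ψ (τL x) = g • ψ x) (C : Place K F → Prop)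
    (hC : ∀ P : Place K F, C (g • P) ↔ C P) (D : Divisor K F)
    (hloc : ∀ P : Place K F, C P → D P ≠ 0 → g • P = P ∨ Good ψ C P ∨ Good ψ C (g • P)) :
    LocEq ψ C (g • D - D) := by
  obtain ⟨h, hh0, hh⟩ := exists_sd_of_stable ψ g τL hτ C hC D hloc
  exact ⟨τL h / h, singleDiff_ne_zero τL hh0 hh0, hh⟩

/-- **Local twisted difference at a fixed point.**  In the situation of `exists_sd_of_stable`,
with `γ := τL h / h`, the function `τL γ / γ ^ m` has order `(g • E - m • E) Q`,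
`E := g • D - D`, at every place `Q` of the class. -/
theorem exists_twist_of_stable (hτ : ∀ x : FL, ψ (τL x) = g • ψ x) (C : Place K F → Prop)
    (hC : ∀ P : Place K F, C (g • P) ↔ C P) (D : Divisor K F)
    (hloc : ∀ P : Place K F, C P → D P ≠ 0 → g • P = P ∨ Good ψ C P ∨ Good ψ C (g • P))
    (m : ℕ) :
    ∃ h : FL, h ≠ 0 ∧ (∀ Q : Place K F, C Q → Q.ord (ψ (τL h / h)) = (g • D - D) Q) ∧
      ∀ Q : Place K F, C Q →
        Q.ord (ψ (τL (τL h / h) / (τL h / h) ^ m)) = (g • (g • D - D) - m • (g • D - D)) Q := by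
  obtain ⟨h, hh0, hh⟩ := exists_sd_of_stable ψ g τL hτ C hC D hloc
  have hγ0 : τL h / h ≠ 0 := singleDiff_ne_zero τL hh0 hh0
  refine ⟨h, hh0, hh, fun Q hQ => ?_⟩
  exact ord_twist_of_locEq (C := C) g τL hτ m hγ0 hγ0 hh
    (fun Q' hQ' => hh Q' ((hC Q').mp hQ')) Q hQ

/-- **Local single difference at a moved point.**  If all points of the support of `D` on the
class `C` and on `g⁻¹ C` are good, then `g • D - D` is generated on `C` by `τL h₂ / h₁`, where
`h₁`, `h₂` are local equations of `D` on `C` and on `g⁻¹ C`. -/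
theorem exists_sd_of_good (hτ : ∀ x : FL, ψ (τL x) = g • ψ x) (C : Place K F → Prop)
    (D : Divisor K F) (hgood : ∀ P : Place K F, C P → D P ≠ 0 → Good ψ C P)
    (hgood' : ∀ P : Place K F, C (g • P) → D P ≠ 0 → Good ψ (fun Q => C (g • Q)) P) :
    ∃ h₁ h₂ : FL, h₁ ≠ 0 ∧ h₂ ≠ 0 ∧ (∀ Q : Place K F, C Q → Q.ord (ψ h₁) = D Q) ∧
      (∀ Q : Place K F, C (g • Q) → Q.ord (ψ h₂) = D Q) ∧
      ∀ Q : Place K F, C Q → Q.ord (ψ (τL h₂ / h₁)) = (g • D - D) Q := by
  obtain ⟨h₁, h₁0, hh₁⟩ := locEq_of_good ψ C D hgood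
  obtain ⟨h₂, h₂0, hh₂⟩ := locEq_of_good ψ (fun Q => C (g • Q)) D hgood'
  refine ⟨h₁, h₂, h₁0, h₂0, hh₁, hh₂, fun Q hQ => ?_⟩
  rw [ord_singleDiff₂ g ψ τL hτ Q h₂0 h₁0, sd_eval, hh₁ Q hQ, hh₂ (g⁻¹ • Q)]
  show C (g • g⁻¹ • Q)
  rw [smul_inv_smul]
  exact hQ

end Good

/-! ### The local datum of a function with `div f = p ^ n • D` -/

section Datum

variable (g : SemilinearAut K F) (ψ : FL →+* F) (τL : FL ≃+* FL)

/-- The order of the single difference of a function with `div f = p ^ n • D`. -/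
theorem ord_sd_of_div (hτ : ∀ x : FL, ψ (τL x) = g • ψ x) (D : Divisor K F) (p n : ℕ)
    (f : FL) (hf0 : f ≠ 0) (hf : ∀ P : Place K F, P.ord (ψ f) = (p : ℤ) ^ n * D P)
    (Q : Place K F) : Q.ord (ψ (τL f / f)) = (p : ℤ) ^ n * (g • D - D) Q := by
  rw [ord_singleDiff g ψ τL hτ Q hf0, hf, hf, sd_eval]
  ring

/-- The order of the twisted difference of a function with `div f = p ^ n • E`. -/
theorem ord_twist_of_div (hτ : ∀ x : FL, ψ (τL x) = g • ψ x) (E : Divisor K F) (p n : ℕ)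
    (f : FL) (hf0 : f ≠ 0) (hf : ∀ P : Place K F, P.ord (ψ f) = (p : ℤ) ^ n * E P) (m : ℕ)
    (Q : Place K F) : Q.ord (ψ (τL f / f ^ m)) = (p : ℤ) ^ n * (g • E - m • E) Q := by
  rw [ord_twist g ψ τL hτ Q hf0, hf, hf, twist_eval]
  ring

/-- The order of a `p ^ n`-th power. -/
theorem ord_pow_prime_pow (Q : Place K F) (x : FL) (p n : ℕ) :
    Q.ord (ψ (x ^ (p ^ n))) = (p : ℤ) ^ n * Q.ord (ψ x) := by
  rw [ord_map_pow]
  push_cast
  rfl

/-- **Local datum, single difference, fixed point.**  With `ord_P f = p ^ n * D P` at every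
place, `τL f / f` and the `p ^ n`-th power of `τL h / h` (`h` the local function of
`exists_sd_of_stable`) have the same order at every place of the class. -/
theorem exists_sd_datum_ord (hτ : ∀ x : FL, ψ (τL x) = g • ψ x) (C : Place K F → Prop)
    (hC : ∀ P : Place K F, C (g • P) ↔ C P) (D : Divisor K F)
    (hloc : ∀ P : Place K F, C P → D P ≠ 0 → g • P = P ∨ Good ψ C P ∨ Good ψ C (g • P))
    (p n : ℕ) (f : FL) (hf0 : f ≠ 0) (hf : ∀ P : Place K F, P.ord (ψ f) = (p : ℤ) ^ n * D P) :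
    ∃ h : FL, h ≠ 0 ∧ ∀ Q : Place K F, C Q →
      Q.ord (ψ (τL f / f)) = Q.ord (ψ ((τL h / h) ^ (p ^ n))) := by
  obtain ⟨h, hh0, hh⟩ := exists_sd_of_stable ψ g τL hτ C hC D hloc
  refine ⟨h, hh0, fun Q hQ => ?_⟩
  rw [ord_pow_prime_pow, hh Q hQ, ord_sd_of_div g ψ τL hτ D p n f hf0 hf]

/-- **Local datum, single difference, moved point.** -/
theorem exists_sd_datum_ord_of_good (hτ : ∀ x : FL, ψ (τL x) = g • ψ x)
    (C : Place K F → Prop) (D : Divisor K F)
    (hgood : ∀ P : Place K F, C P → D P ≠ 0 → Good ψ C P)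
    (hgood' : ∀ P : Place K F, C (g • P) → D P ≠ 0 → Good ψ (fun Q => C (g • Q)) P)
    (p n : ℕ) (f : FL) (hf0 : f ≠ 0) (hf : ∀ P : Place K F, P.ord (ψ f) = (p : ℤ) ^ n * D P) :
    ∃ h₁ h₂ : FL, h₁ ≠ 0 ∧ h₂ ≠ 0 ∧ ∀ Q : Place K F, C Q →
      Q.ord (ψ (τL f / f)) = Q.ord (ψ ((τL h₂ / h₁) ^ (p ^ n))) := by
  obtain ⟨h₁, h₂, h₁0, h₂0, -, -, hh⟩ := exists_sd_of_good ψ g τL hτ C D hgood hgood'
  refine ⟨h₁, h₂, h₁0, h₂0, fun Q hQ => ?_⟩
  rw [ord_pow_prime_pow, hh Q hQ, ord_sd_of_div g ψ τL hτ D p n f hf0 hf]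

/-- **Local datum for a divisor with a local equation.**  If `D` has the local equation `γ` on
the class and `ord_P f = p ^ n * D P` everywhere, then `f` and `γ ^ (p ^ n)` have the same
order on the class. -/
theorem ord_eq_of_locEq (C : Place K F → Prop) (D : Divisor K F) (p n : ℕ) (f : FL)
    (hf : ∀ P : Place K F, P.ord (ψ f) = (p : ℤ) ^ n * D P) {γ : FL}
    (hγ : ∀ Q : Place K F, C Q → Q.ord (ψ γ) = D Q) (Q : Place K F) (hQ : C Q) :
    Q.ord (ψ f) = Q.ord (ψ (γ ^ (p ^ n))) := by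
  rw [ord_pow_prime_pow, hγ Q hQ, hf]

/-- The quotient `f / γ ^ (p ^ n)` has order `0` on the class. -/
theorem ord_div_pow_eq_zero (C : Place K F → Prop) (D : Divisor K F) (p n : ℕ) (f : FL)
    (hf0 : f ≠ 0) (hf : ∀ P : Place K F, P.ord (ψ f) = (p : ℤ) ^ n * D P) {γ : FL}
    (hγ0 : γ ≠ 0) (hγ : ∀ Q : Place K F, C Q → Q.ord (ψ γ) = D Q) (Q : Place K F) (hQ : C Q) :
    Q.ord (ψ (f / γ ^ (p ^ n))) = 0 := by
  have h1 : ψ f ≠ 0 := (map_ne_zero ψ).mpr hf0
  have h2 : (ψ (γ ^ (p ^ n)))⁻¹ ≠ 0 :=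
    inv_ne_zero ((map_ne_zero ψ).mpr (pow_ne_zero _ hγ0))
  rw [map_div₀, div_eq_mul_inv, Q.ord_mul h1 h2, Place.ord_inv,
    ord_eq_of_locEq ψ C D p n f hf hγ Q hQ]
  ring

/-- **End of the Kummer induction, single difference.**  If `τL f / f` (`div f = p ^ n • D`) is
a constant times a `p ^ n`-th power, then `g • D - D` is principal. -/
theorem sd_mem_principal_of_root (hτ : ∀ x : FL, ψ (τL x) = g • ψ x) (D : Divisor K F)
    (p n : ℕ) (hp : p ≠ 0) (f : FL) (hf0 : f ≠ 0)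
    (hf : ∀ P : Place K F, P.ord (ψ f) = (p : ℤ) ^ n * D P) (a h : FL)
    (ha : ∀ P : Place K F, P.ord (ψ a) = 0) (hroot : τL f / f = a * h ^ (p ^ n)) :
    g • D - D ∈ Divisor.principal (K := K) (F := F) := by
  have hne : τL f / f ≠ 0 := singleDiff_ne_zero τL hf0 hf0
  rw [hroot] at hne
  have ha0 : a ≠ 0 := left_ne_zero_of_mul hne
  have hh0 : h ≠ 0 := fun h0 => by
    rw [h0, zero_pow (pow_ne_zero n hp), mul_zero] at hne
    exact hne rfl
  refine ⟨ψ h, (map_ne_zero ψ).mpr hh0, fun P => ?_⟩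
  have h1 := ord_sd_of_div g ψ τL hτ D p n f hf0 hf P
  rw [hroot, map_mul, P.ord_mul ((map_ne_zero ψ).mpr ha0)
    ((map_ne_zero ψ).mpr (pow_ne_zero _ hh0)), ha P, ord_pow_prime_pow, zero_add] at h1
  have hpn : ((p : ℤ) ^ n) ≠ 0 := pow_ne_zero n (Int.natCast_ne_zero.mpr hp)
  exact (mul_left_cancel₀ hpn h1).symm

/-- **End of the Kummer induction, twisted difference.**  If `τL f / f ^ m`
(`div f = p ^ n • E`) is a constant times a `p ^ n`-th power, then `g • E - m • E` is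
principal. -/
theorem twist_mem_principal_of_root (hτ : ∀ x : FL, ψ (τL x) = g • ψ x) (E : Divisor K F)
    (p n : ℕ) (hp : p ≠ 0) (f : FL) (hf0 : f ≠ 0)
    (hf : ∀ P : Place K F, P.ord (ψ f) = (p : ℤ) ^ n * E P) (m : ℕ) (a h : FL)
    (ha : ∀ P : Place K F, P.ord (ψ a) = 0) (hroot : τL f / f ^ m = a * h ^ (p ^ n)) :
    g • E - m • E ∈ Divisor.principal (K := K) (F := F) := by
  have hne : τL f / f ^ m ≠ 0 := twist_ne_zero τL hf0 hf0 m
  rw [hroot] at hne
  have ha0 : a ≠ 0 := left_ne_zero_of_mul hne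
  have hh0 : h ≠ 0 := fun h0 => by
    rw [h0, zero_pow (pow_ne_zero n hp), mul_zero] at hne
    exact hne rfl
  refine ⟨ψ h, (map_ne_zero ψ).mpr hh0, fun P => ?_⟩
  have h1 := ord_twist_of_div g ψ τL hτ E p n f hf0 hf m P
  rw [hroot, map_mul, P.ord_mul ((map_ne_zero ψ).mpr ha0)
    ((map_ne_zero ψ).mpr (pow_ne_zero _ hh0)), ha P, ord_pow_prime_pow, zero_add] at h1
  have hpn : ((p : ℤ) ^ n) ≠ 0 := pow_ne_zero n (Int.natCast_ne_zero.mpr hp)
  exact (mul_left_cancel₀ hpn h1).symm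

end Datum

end Fermat.Agent.S35.SDLocal
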