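import Mathlib
import Fermat.Agent.S35.SmoothGenInst

/-!
# S35, route C, (C4) feeder: normalised local parameters, `red ≠ 0` form

The statements of `S35.SmoothGenInst` (`good_of_smooth_fin`, `cusp_good`) with the normalisation
of the parameter `u` stated as *nonvanishing of the two reductions* (`red (coe u) ≠ 0`,
`red (coe (w u)) ≠ 0`, for EVERY proof of membership in the content ring), which is the shape
consumed by `S35.EsSmoothRaw.smooth_chart`; and the same with the uniformiser written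
`algebraMap W R ϖ` for a `W`-algebra structure on the carrier compatible with `W[X]`.

* `good_fin_red_of`, `good_fin_red` : finite chart, smooth point `𝔪 = (C ϖ, u₀)`, `u₀ ∈ 𝔫`.
* `good_fin_struct` : the same from `∃ u : R, 𝔪_R = (ϖ, u)` (left disjunct of `hstruct`), in
  `W`-algebra form.
* `cusp_good_red`, `cusp_good_struct` : every cusp of the chart `W[1/j]`.
-/

set_option autoImplicit false
set_option linter.unusedSectionVars false
set_option linter.style.haveILetI false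

noncomputable section

namespace Fermat.Agent.S35.SmoothGenRed

open Polynomial ModularCurve Fermat.Agent.S18 Fermat.Agent.S18.Gauss Fermat.Agent.S24
  IsLocalRing

local notation "Qb" => AlgebraicClosure ℚ

/-- the uniformiser of `W` in a localisation of a `W[X]`-algebra, two spellings -/
theorem algebraMap_C_eq {W B R : Type*} [CommRing W] [CommRing B] [CommRing R]
    [Algebra W[X] B] [Algebra W B] [IsScalarTower W W[X] B] [Algebra B R] [Algebra W R]
    [IsScalarTower W B R] (c : W) :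
    algebraMap B R (algebraMap W[X] B (C c)) = algebraMap W R c := by
  rw [Polynomial.C_eq_algebraMap, ← IsScalarTower.algebraMap_apply W W[X] B,
    ← IsScalarTower.algebraMap_apply W B R]

/-- the uniformiser of `W` in a `W[X]`-algebra, two spellings -/
theorem algebraMap_C_eq' {W B : Type*} [CommRing W] [CommRing B]
    [Algebra W[X] B] [Algebra W B] [IsScalarTower W W[X] B] (c : W) :
    algebraMap W[X] B (C c) = algebraMap W B c := by
  rw [Polynomial.C_eq_algebraMap, ← IsScalarTower.algebraMap_apply W W[X] B]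

/-! ### The finite chart -/

section Chart

variable {L : Type} [Field L] [Algebra ℚ L] (W : ValuationSubring L)
  [IsDiscreteValuationRing ↥W] (M q : ℕ) [NeZero M] [NeZero q]
  [Algebra (↥W)[X] (FF L (M * q))]
  (B : Type*) [CommRing B] [Algebra (↥W)[X] B] [Algebra B (FF L (M * q))]
  [IsScalarTower (↥W)[X] B (FF L (M * q))]
  [IsIntegralClosure B (↥W)[X] (FF L (M * q))]

/-- **Every smooth point of the finite chart has a normalised parameter** (raw form, `(S1)` as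
hypothesis, `red ≠ 0` conclusion). -/
theorem good_fin_red_of (hq : q.Prime) (π : ↥W) (hπ : Irreducible π)
    (w : FF L (M * q) ≃ₐ[L] FF L (M * q))
    (hwα : (w : FF L (M * q) →ₐ[L] FF L (M * q)).comp (heckeAlphaBar L M q) =
      heckeBetaBar L M q)
    (hS1 : ∀ x : FF L (M * q), (evF W (M * q)).IsIntegralElem x →
      ∀ (h1 : (x : LaurentSeries L) ∈ contentRing W)
        (h2 : ((w x : FF L (M * q)) : LaurentSeries L) ∈ contentRing W),
        red W ⟨_, h1⟩ = 0 → red W ⟨_, h2⟩ = 0 →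
        ∃ y, (evF W (M * q)).IsIntegralElem y ∧
          x = algebraMap L (FF L (M * q)) ((π : W) : L) * y)
    (halg : algebraMap (↥W)[X] (FF L (M * q)) = evF W (M * q))
    (𝔫 : Ideal B) [𝔫.IsMaximal] (hπ𝔫 : algebraMap (↥W)[X] B (C π) ∈ 𝔫)
    (R : Type*) [CommRing R] [Algebra B R] [IsLocalization.AtPrime R 𝔫] [IsLocalRing R]
    (hsm : ∃ u ∈ 𝔫, maximalIdeal R =
        Ideal.span {algebraMap B R (algebraMap (↥W)[X] B (C π)), algebraMap B R u}) :
    ∃ u ∈ 𝔫, maximalIdeal R =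
        Ideal.span {algebraMap B R (algebraMap (↥W)[X] B (C π)), algebraMap B R u} ∧
      (∀ h : ((algebraMap B (FF L (M * q)) u : FF L (M * q)) : LaurentSeries L) ∈
        contentRing W, red W ⟨_, h⟩ ≠ 0) ∧
      (∀ h : ((w (algebraMap B (FF L (M * q)) u) : FF L (M * q)) : LaurentSeries L) ∈
        contentRing W, red W ⟨_, h⟩ ≠ 0) := by
  obtain ⟨r₁, r₂, hr₁, hr₂, hm₁, hm₂, hπ₁, hπ₂, hS1', x, hx, hx₁, hx₂⟩ :=
    Fermat.Agent.S35.SmoothGenInst.exists_red_maps_fin W M q B hq π hπ w hwα hS1 halg 𝔫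
  obtain ⟨u₀, hu₀, h𝔪⟩ := hsm
  obtain ⟨u, hu, h𝔪', hu₁, hu₂⟩ := Fermat.Agent.S35.SmoothGen.exists_good_gen_of_smooth r₁ r₂
    𝔫 R (algebraMap (↥W)[X] B (C π)) hS1' hπ𝔫 hx hx₁ hx₂ hu₀ h𝔪
  refine ⟨u, hu, h𝔪', fun h => ?_, fun h => ?_⟩
  · rw [← hr₁ u h]; exact hu₁
  · rw [← hr₂ u h]; exact hu₂

end Chart

section Level

variable {L : Type} [Field L] [Algebra ℚ L] (ι : L →+* Qb) (W : ValuationSubring L)
  [IsDiscreteValuationRing ↥W] (M q : ℕ) [NeZero M] [NeZero q] [Fact q.Prime]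
  [CharP (ResidueField ↥W) q]

include ι in
/-- **Every smooth point of the finite chart of level `M q` has a normalised parameter**: if
`𝔪_{B_𝔫} = (ϖ, u₀)` with `u₀ ∈ 𝔫` then `𝔪_{B_𝔫} = (ϖ, u)` for some `u ∈ 𝔫` which does not
vanish on either component of the special fibre (`red u ≠ 0`, `red (w u) ≠ 0`). -/
theorem good_fin_red (hqM : ¬ q ∣ M) {π : ↥W} (hπ : Irreducible π)
    (w : FF L (M * q) ≃ₐ[L] FF L (M * q))
    (hwα : (w : FF L (M * q) →ₐ[L] FF L (M * q)).comp (heckeAlphaBar L M q) =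
      heckeBetaBar L M q)
    (hwβ : (w : FF L (M * q) →ₐ[L] FF L (M * q)).comp (heckeBetaBar L M q) =
      heckeAlphaBar L M q)
    [Algebra (↥W)[X] (FF L (M * q))]
    (halg : algebraMap (↥W)[X] (FF L (M * q)) = evF W (M * q))
    (B : Type*) [CommRing B] [Algebra (↥W)[X] B] [Algebra B (FF L (M * q))]
    [IsScalarTower (↥W)[X] B (FF L (M * q))]
    [IsIntegralClosure B (↥W)[X] (FF L (M * q))]
    (𝔫 : Ideal B) [𝔫.IsMaximal] (hπ𝔫 : algebraMap (↥W)[X] B (C π) ∈ 𝔫)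
    (R : Type*) [CommRing R] [Algebra B R] [IsLocalization.AtPrime R 𝔫] [IsLocalRing R]
    (hsm : ∃ u ∈ 𝔫, maximalIdeal R =
        Ideal.span {algebraMap B R (algebraMap (↥W)[X] B (C π)), algebraMap B R u}) :
    ∃ u ∈ 𝔫, maximalIdeal R =
        Ideal.span {algebraMap B R (algebraMap (↥W)[X] B (C π)), algebraMap B R u} ∧
      (∀ h : ((algebraMap B (FF L (M * q)) u : FF L (M * q)) : LaurentSeries L) ∈
        contentRing W, red W ⟨_, h⟩ ≠ 0) ∧
      (∀ h : ((w (algebraMap B (FF L (M * q)) u) : FF L (M * q)) : LaurentSeries L) ∈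
        contentRing W, red W ⟨_, h⟩ ≠ 0) :=
  good_fin_red_of W M q B (Fact.out : q.Prime) π hπ w hwα
    (fun x hint h1 h2 hr1 hr2 =>
      Fermat.Agent.S34.FinDich.s1_fin_level ι W M q hqM hπ w hwα hwβ x hint h1 h2 hr1 hr2)
    halg 𝔫 hπ𝔫 R hsm

include ι in
/-- **The same in `W`-algebra form, from the left disjunct of `hstruct`**: if
`𝔪_R = (ϖ, u₀)` for some `u₀ : R` (`R` a localisation of `B` at `𝔫`) then `𝔪_R = (ϖ, u)` for some
`u ∈ 𝔫` with `red u ≠ 0`, `red (w u) ≠ 0`. -/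
theorem good_fin_struct (hqM : ¬ q ∣ M) {π : ↥W} (hπ : Irreducible π)
    (w : FF L (M * q) ≃ₐ[L] FF L (M * q))
    (hwα : (w : FF L (M * q) →ₐ[L] FF L (M * q)).comp (heckeAlphaBar L M q) =
      heckeBetaBar L M q)
    (hwβ : (w : FF L (M * q) →ₐ[L] FF L (M * q)).comp (heckeBetaBar L M q) =
      heckeAlphaBar L M q)
    [Algebra (↥W)[X] (FF L (M * q))]
    (halg : algebraMap (↥W)[X] (FF L (M * q)) = evF W (M * q))
    (B : Type*) [CommRing B] [Algebra (↥W)[X] B] [Algebra B (FF L (M * q))]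
    [IsScalarTower (↥W)[X] B (FF L (M * q))]
    [IsIntegralClosure B (↥W)[X] (FF L (M * q))]
    [Algebra ↥W B] [IsScalarTower ↥W (↥W)[X] B]
    (𝔫 : Ideal B) [𝔫.IsMaximal] (hπ𝔫 : algebraMap ↥W B π ∈ 𝔫)
    (R : Type*) [CommRing R] [Algebra B R] [IsLocalization.AtPrime R 𝔫] [IsLocalRing R]
    [Algebra ↥W R] [IsScalarTower ↥W B R]
    (hsm : ∃ u : R, maximalIdeal R = Ideal.span {algebraMap ↥W R π, u}) :
    ∃ u ∈ 𝔫, maximalIdeal R = Ideal.span {algebraMap ↥W R π, algebraMap B R u} ∧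
      (∀ h : ((algebraMap B (FF L (M * q)) u : FF L (M * q)) : LaurentSeries L) ∈
        contentRing W, red W ⟨_, h⟩ ≠ 0) ∧
      (∀ h : ((w (algebraMap B (FF L (M * q)) u) : FF L (M * q)) : LaurentSeries L) ∈
        contentRing W, red W ⟨_, h⟩ ≠ 0) := by
  have e1 : algebraMap (↥W)[X] B (C π) = algebraMap ↥W B π := algebraMap_C_eq' π
  have e2 : algebraMap B R (algebraMap (↥W)[X] B (C π)) = algebraMap ↥W R π :=
    algebraMap_C_eq π
  have hπ𝔫' : algebraMap (↥W)[X] B (C π) ∈ 𝔫 := by rw [e1]; exact hπ𝔫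
  obtain ⟨u₀', h𝔪₀⟩ := hsm
  rw [← e2] at h𝔪₀
  obtain ⟨u₀, hu₀, h𝔪⟩ := Fermat.Agent.S35.SmoothGen.exists_mem_of_loc 𝔫 R
    (algebraMap (↥W)[X] B (C π)) u₀' h𝔪₀
  obtain ⟨u, hu, h𝔪', h1, h2⟩ := good_fin_red ι W M q hqM hπ w hwα hwβ halg B 𝔫 hπ𝔫' R
    ⟨u₀, hu₀, h𝔪⟩
  rw [e2] at h𝔪'
  exact ⟨u, hu, h𝔪', h1, h2⟩

/-! ### The chart at infinity -/

include ι in
/-- **Every cusp of level `M q` has a normalised parameter**: on every carrier `B` of the chart
`W[1/j]`, at every maximal ideal `𝔫 ∋ ϖ, 1/j`, `𝔪_{B_𝔫} = (ϖ, u)` for some `u ∈ 𝔫` with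
`red u ≠ 0`, `red (w u) ≠ 0`. -/
theorem cusp_good_red [IsAlgClosed (ResidueField ↥W)] (hqM : ¬ q ∣ M) {π : ↥W}
    (hπ : Irreducible π)
    (hroots : ∀ x : Qb, (∃ n : ℕ, ¬ q ∣ n ∧ x ^ n = 1) → ∃ b : L, ι b = x)
    (w : FF L (M * q) ≃ₐ[L] FF L (M * q))
    (hwα : (w : FF L (M * q) →ₐ[L] FF L (M * q)).comp (heckeAlphaBar L M q) =
      heckeBetaBar L M q)
    (hwβ : (w : FF L (M * q) →ₐ[L] FF L (M * q)).comp (heckeBetaBar L M q) =
      heckeAlphaBar L M q)
    [Algebra (↥W)[X] (FF L (M * q))]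
    (halg : algebraMap (↥W)[X] (FF L (M * q)) = evFinf W (M * q))
    (B : Type*) [CommRing B] [Algebra (↥W)[X] B] [Algebra B (FF L (M * q))]
    [IsScalarTower (↥W)[X] B (FF L (M * q))]
    [IsIntegralClosure B (↥W)[X] (FF L (M * q))]
    (𝔫 : Ideal B) [h𝔫 : 𝔫.IsMaximal] (hπ𝔫 : algebraMap (↥W)[X] B (C π) ∈ 𝔫)
    (hX𝔫 : algebraMap (↥W)[X] B X ∈ 𝔫) :
    ∃ u ∈ 𝔫, maximalIdeal (Localization.AtPrime 𝔫) =
        Ideal.span {algebraMap B (Localization.AtPrime 𝔫) (algebraMap (↥W)[X] B (C π)),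
          algebraMap B (Localization.AtPrime 𝔫) u} ∧
      (∀ h : ((algebraMap B (FF L (M * q)) u : FF L (M * q)) : LaurentSeries L) ∈
        contentRing W, red W ⟨_, h⟩ ≠ 0) ∧
      (∀ h : ((w (algebraMap B (FF L (M * q)) u) : FF L (M * q)) : LaurentSeries L) ∈
        contentRing W, red W ⟨_, h⟩ ≠ 0) := by
  classical
  have hinj : Function.Injective (algebraMap B (FF L (M * q))) :=
    IsIntegralClosure.algebraMap_injective B (↥W)[X] (FF L (M * q))
  have hsurj : ∀ x : FF L (M * q), (evFinf W (M * q)).IsIntegralElem x →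
      ∃ b : B, algebraMap B (FF L (M * q)) b = x := fun x hx =>
    (Fermat.Agent.S34.ChartAct.exists_algebraMap_eq_iff_inf W (M * q) halg B x).mpr hx
  have hint : ∀ b : B, (evFinf W (M * q)).IsIntegralElem (algebraMap B (FF L (M * q)) b) :=
    fun b =>
    (Fermat.Agent.S34.ChartAct.exists_algebraMap_eq_iff_inf W (M * q) halg B _).mp ⟨b, rfl⟩
  have hXF : algebraMap B (FF L (M * q)) (algebraMap (↥W)[X] B X) = (jBC L (M * q))⁻¹ := by
    rw [← IsScalarTower.algebraMap_apply, halg, evFinf_X]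
  have hπF : algebraMap B (FF L (M * q)) (algebraMap (↥W)[X] B (C π)) =
      algebraMap L (FF L (M * q)) ((π : W) : L) := by
    rw [← IsScalarTower.algebraMap_apply, halg, evFinf_C]
  have hφ₁ : ∀ b : B, ((algebraMap B (FF L (M * q)) b : FF L (M * q)) : LaurentSeries L) ∈
      contentRing W := fun b =>
    Fermat.Agent.S34.CuspRes.mem_contentRing_of_int_inf W (M * q) (hint b)
  have hφ₂ : ∀ b : B, (((((w : FF L (M * q) →ₐ[L] FF L (M * q)) :
      FF L (M * q) →+* FF L (M * q)).comp (algebraMap B (FF L (M * q)))) b : FF L (M * q)) :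
      LaurentSeries L) ∈ contentRing W := fun b =>
    Fermat.Agent.S34.CuspRes.mem_contentRing_w_of_int_inf W M q w hwα (hint b)
  -- (S1)
  have hspan := Fermat.Agent.S34.CuspRes.span_eq_ker_inf_ker ι W (M * q) hπ w
    (Fermat.Agent.S34.FinDich.v3a W M q hqM w hwα hwβ) (algebraMap B (FF L (M * q))) hinj hint
    hsurj hφ₁ hφ₂ (algebraMap (↥W)[X] B (C π)) hπF
  set r₁ := Fermat.Agent.S34.CuspRes.res W (M * q) (algebraMap B (FF L (M * q))) hφ₁ with hr₁
  set r₂ := Fermat.Agent.S34.CuspRes.res W (M * q) (((w : FF L (M * q) →ₐ[L] FF L (M * q)) :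
    FF L (M * q) →+* FF L (M * q)).comp (algebraMap B (FF L (M * q)))) hφ₂ with hr₂
  have hS1' : ∀ b, r₁ b = 0 → r₂ b = 0 → algebraMap (↥W)[X] B (C π) ∣ b := by
    intro b h1 h2
    have hb : b ∈ Ideal.span {algebraMap (↥W)[X] B (C π)} := by
      rw [hspan]
      exact ⟨h1, h2⟩
    exact Ideal.mem_span_singleton.mp hb
  -- `1/j ∈ 𝔫` does not vanish on either component
  have hx₁ : r₁ (algebraMap (↥W)[X] B X) ≠ 0 := by
    have hm : (((jBC L (M * q))⁻¹ : FF L (M * q)) : LaurentSeries L) ∈ contentRing W := by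
      rw [← hXF]; exact hφ₁ _
    rw [hr₁, Fermat.Agent.S34.CuspRes.res_apply W (M * q) _ hφ₁ _ (hφ₁ _),
      Fermat.Agent.S34.CuspRes.red_congr W (hφ₁ _) hm (by rw [hXF])]
    exact Fermat.Agent.S34.CuspRes.red_jInv_ne_zero W (M * q) hm
  have hx₂ : r₂ (algebraMap (↥W)[X] B X) ≠ 0 := by
    have hm : ((w (jBC L (M * q))⁻¹ : FF L (M * q)) : LaurentSeries L) ∈ contentRing W := by
      rw [← hXF]; exact hφ₂ _
    rw [hr₂, Fermat.Agent.S34.CuspRes.res_apply W (M * q) _ hφ₂ _ (hφ₂ _),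
      Fermat.Agent.S34.CuspRes.red_congr W (hφ₂ _) hm
        (by show ((w (algebraMap B (FF L (M * q)) (algebraMap (↥W)[X] B X)) :
              FF L (M * q)) : LaurentSeries L) = _
            rw [hXF])]
    exact Fermat.Agent.S34.CuspRes.red_w_jInv_ne_zero W M q w hwα hm
  -- the smooth structure at the cusp
  obtain ⟨u₀', h𝔪₀⟩ := Fermat.Agent.S34.CuspPt.cusp_dich_carrier_of ι W M q w B hqM hπ hroots
    hwα hwβ halg 𝔫 hπ𝔫 hX𝔫
    (fun hψ₁ hψ₂ => Fermat.Agent.S34.CuspSep.exists_separator W M q w hwα hwβ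
      (algebraMap B (FF L (M * q))) hinj hsurj hψ₁ hψ₂ 𝔫 h𝔫 hXF hX𝔫)
  obtain ⟨u₀, hu₀, h𝔪⟩ := Fermat.Agent.S35.SmoothGen.exists_mem_of_loc 𝔫
    (Localization.AtPrime 𝔫) (algebraMap (↥W)[X] B (C π)) u₀' h𝔪₀
  obtain ⟨u, hu, h𝔪', hu₁, hu₂⟩ := Fermat.Agent.S35.SmoothGen.exists_good_gen_of_smooth r₁ r₂
    𝔫 (Localization.AtPrime 𝔫) (algebraMap (↥W)[X] B (C π)) hS1' hπ𝔫 hX𝔫 hx₁ hx₂ hu₀ h𝔪
  refine ⟨u, hu, h𝔪', fun h => ?_, fun h => ?_⟩
  · rw [← Fermat.Agent.S34.CuspRes.res_apply W (M * q) _ hφ₁ u h]; exact hu₁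
  · have h' : (((((w : FF L (M * q) →ₐ[L] FF L (M * q)) :
        FF L (M * q) →+* FF L (M * q)).comp (algebraMap B (FF L (M * q)))) u : FF L (M * q)) :
        LaurentSeries L) ∈ contentRing W := h
    have e := Fermat.Agent.S34.CuspRes.res_apply W (M * q) _ hφ₂ u h'
    intro h0
    apply hu₂
    rw [hr₂, e]
    exact h0

include ι in
/-- **The same in `W`-algebra form.** -/
theorem cusp_good_struct [IsAlgClosed (ResidueField ↥W)] (hqM : ¬ q ∣ M) {π : ↥W}
    (hπ : Irreducible π)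
    (hroots : ∀ x : Qb, (∃ n : ℕ, ¬ q ∣ n ∧ x ^ n = 1) → ∃ b : L, ι b = x)
    (w : FF L (M * q) ≃ₐ[L] FF L (M * q))
    (hwα : (w : FF L (M * q) →ₐ[L] FF L (M * q)).comp (heckeAlphaBar L M q) =
      heckeBetaBar L M q)
    (hwβ : (w : FF L (M * q) →ₐ[L] FF L (M * q)).comp (heckeBetaBar L M q) =
      heckeAlphaBar L M q)
    [Algebra (↥W)[X] (FF L (M * q))]
    (halg : algebraMap (↥W)[X] (FF L (M * q)) = evFinf W (M * q))
    (B : Type*) [CommRing B] [Algebra (↥W)[X] B] [Algebra B (FF L (M * q))]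
    [IsScalarTower (↥W)[X] B (FF L (M * q))]
    [IsIntegralClosure B (↥W)[X] (FF L (M * q))]
    [Algebra ↥W B] [IsScalarTower ↥W (↥W)[X] B]
    (𝔫 : Ideal B) [h𝔫 : 𝔫.IsMaximal] (hπ𝔫 : algebraMap ↥W B π ∈ 𝔫)
    (hX𝔫 : algebraMap (↥W)[X] B X ∈ 𝔫) :
    ∃ u ∈ 𝔫, maximalIdeal (Localization.AtPrime 𝔫) =
        Ideal.span {algebraMap ↥W (Localization.AtPrime 𝔫) π,
          algebraMap B (Localization.AtPrime 𝔫) u} ∧
      (∀ h : ((algebraMap B (FF L (M * q)) u : FF L (M * q)) : LaurentSeries L) ∈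
        contentRing W, red W ⟨_, h⟩ ≠ 0) ∧
      (∀ h : ((w (algebraMap B (FF L (M * q)) u) : FF L (M * q)) : LaurentSeries L) ∈
        contentRing W, red W ⟨_, h⟩ ≠ 0) := by
  have e1 : algebraMap (↥W)[X] B (C π) = algebraMap ↥W B π := algebraMap_C_eq' π
  have e2 : algebraMap B (Localization.AtPrime 𝔫) (algebraMap (↥W)[X] B (C π)) =
      algebraMap ↥W (Localization.AtPrime 𝔫) π := algebraMap_C_eq π
  have hπ𝔫' : algebraMap (↥W)[X] B (C π) ∈ 𝔫 := by rw [e1]; exact hπ𝔫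
  obtain ⟨u, hu, h𝔪', h1, h2⟩ := cusp_good_red ι W M q hqM hπ hroots w hwα hwβ halg B 𝔫 hπ𝔫'
    hX𝔫
  rw [e2] at h𝔪'
  exact ⟨u, hu, h𝔪', h1, h2⟩

end Level

end Fermat.Agent.S35.SmoothGenRed
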