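import Mathlib
import Fermat.Agent.S34.KummerInd

/-
S35 (route of findings 220, steps 3 and 4), package (Gd): UNIT NORMALISATION at a closed point of
the special fibre.  Abstract (Mathlib + the `InC` / `GaussOne` currency of `S34.KummerInd`).

* pure ring theory:
  `exists_sub_mem_of_mem_sup`     fibre product: `a₁ - a₂ ∈ I ⊔ J` gives `r ≡ a₁ (I)`, `r ≡ a₂ (J)`;
  `maximalIdeal_le_sup_of_struct` transversality `𝔪 ≤ 𝔭₁ ⊔ 𝔭₂` of the two vertical primes from the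
                                  structure `𝔪 = (ϖ, u)` / `𝔪 = (ϖ, X, Y)`, `ϖ ∣ X Y`;
  `exists_mul_mem_sup_of_struct`  the same on a chart `B` with `R = B_𝔫`;
  `exists_unit_frac_of_pow`       a root of a unit at `𝔫` of a normal component is a unit at `𝔫`.
* chart currency (`ψ : B →+* F`, the two vertical primes as subsets `m₁ m₂ ⊆ F`, `IsVertChart`):
  `exists_frac_node`, `exists_frac_smooth`  a function whose two residues are fractions of the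
                                  chart which are units at `𝔫` (with equal values at a node) is
                                  congruent modulo `m₁` and `m₂` to ONE fraction `e / d`, `e, d ∉ 𝔫`;
  `hloc_node`, `hloc_smooth`      the local datum of `S35.KummerConst.kummer_descent_const`
                                  (`g ≡ 1`, `y * g ^ N` integral at `𝔫`) from a raw local generator.
-/

set_option autoImplicit false
set_option linter.unusedSectionVars false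

namespace Fermat.Agent.S35.UnitNorm

open Polynomial Fermat.Agent.S18 Fermat.Agent.S18.Endgame Fermat.Agent.S34.KummerStep
open Fermat.Agent.S34 Fermat.Agent.S34.KummerInd

/-! ### Pure ring theory -/

section Ring

variable {B : Type*} [CommRing B]

/-- **Fibre product.**  If `a₁ ≡ a₂` modulo `I + J`, some `r` is `≡ a₁` modulo `I` and `≡ a₂`
modulo `J`. -/
theorem exists_sub_mem_of_mem_sup (I J : Ideal B) (a₁ a₂ : B) (h : a₁ - a₂ ∈ I ⊔ J) :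
    ∃ r : B, r - a₁ ∈ I ∧ r - a₂ ∈ J := by
  obtain ⟨x, hx, y, hy, hxy⟩ := Submodule.mem_sup.mp h
  refine ⟨a₁ - x, ?_, ?_⟩
  · have : a₁ - x - a₁ = -x := by ring
    rw [this]; exact I.neg_mem hx
  · have : a₁ - x - a₂ = y := by linear_combination -hxy
    rw [this]; exact hy

/-- Fibre product, units of a local ring. -/
theorem exists_isUnit_sub_mem_of_mem_sup [IsLocalRing B] (I J : Ideal B) (hI : I ≠ ⊤)
    (a₁ a₂ : B) (ha₁ : IsUnit a₁) (h : a₁ - a₂ ∈ I ⊔ J) :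
    ∃ r : B, IsUnit r ∧ r - a₁ ∈ I ∧ r - a₂ ∈ J := by
  obtain ⟨r, hr₁, hr₂⟩ := exists_sub_mem_of_mem_sup I J a₁ a₂ h
  refine ⟨r, ?_, hr₁, hr₂⟩
  by_contra hr
  have h1 : r ∈ IsLocalRing.maximalIdeal B := (IsLocalRing.mem_maximalIdeal r).mpr hr
  have h2 : r - a₁ ∈ IsLocalRing.maximalIdeal B := IsLocalRing.le_maximalIdeal hI hr₁
  have h3 : a₁ ∈ IsLocalRing.maximalIdeal B := by
    have := (IsLocalRing.maximalIdeal B).sub_mem h1 h2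
    rwa [sub_sub_cancel] at this
  exact (IsLocalRing.mem_maximalIdeal a₁).mp h3 ha₁

end Ring

section Struct

variable {R : Type*} [CommRing R] [IsLocalRing R] [IsNoetherianRing R]

open IsLocalRing

/-- If the maximal ideal is `(ϖ, u)` and `𝔭₁ ∋ ϖ` is a prime not contained in the ideal `𝔭₂ ∋ ϖ`,
then `u ∈ 𝔭₁` (Krull's intersection theorem in `R / ϖ`). -/
theorem mem_of_maximalIdeal_eq_span_pair (ϖ u : R) (𝔭₁ 𝔭₂ : Ideal R) [h₁ : 𝔭₁.IsPrime]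
    (hϖ₁ : ϖ ∈ 𝔭₁) (hϖ₂ : ϖ ∈ 𝔭₂) (h12 : ¬ 𝔭₁ ≤ 𝔭₂)
    (hm : maximalIdeal R = Ideal.span {ϖ, u}) : u ∈ 𝔭₁ := by
  by_contra hu
  obtain ⟨x, hx₁, hx₂⟩ := SetLike.not_le_iff_exists.mp h12
  have hum : u ∈ maximalIdeal R := by
    rw [hm]; exact Ideal.subset_span (by simp)
  have hle : 𝔭₁ ≤ maximalIdeal R := le_maximalIdeal h₁.ne_top
  -- `x = ϖ c + a u ^ k` with `a ∈ 𝔭₁`, for all `k`
  have hind : ∀ k : ℕ, ∃ a ∈ 𝔭₁, ∃ c : R, x = ϖ * c + a * u ^ k := by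
    intro k
    induction k with
    | zero => exact ⟨x, hx₁, 0, by ring⟩
    | succ k ih =>
      obtain ⟨a, ha, c, hxc⟩ := ih
      have ha' : a ∈ Ideal.span {ϖ, u} := hm ▸ hle ha
      obtain ⟨c', a', hca⟩ := Ideal.mem_span_pair.mp ha'
      have ha'u : a' * u ∈ 𝔭₁ := by
        have h1 : a' * u = a - c' * ϖ := by linear_combination hca
        rw [h1]
        exact 𝔭₁.sub_mem ha (𝔭₁.mul_mem_left _ hϖ₁)
      refine ⟨a', (h₁.mem_or_mem ha'u).resolve_right hu, c + c' * u ^ k, ?_⟩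
      rw [hxc, ← hca]; ring
  -- Krull in `R / ϖ`
  have hkrull := Ideal.iInf_pow_smul_eq_bot_of_isLocalRing (M := R ⧸ Ideal.span {ϖ})
    (maximalIdeal R) (Ideal.IsPrime.ne_top inferInstance)
  have hmem : (Ideal.Quotient.mk (Ideal.span {ϖ}) x : R ⧸ Ideal.span {ϖ}) ∈
      ⨅ i : ℕ, maximalIdeal R ^ i • (⊤ : Submodule R (R ⧸ Ideal.span {ϖ})) := by
    rw [Submodule.mem_iInf]
    intro k
    obtain ⟨a, _, c, hxc⟩ := hind k
    have h1 : (Ideal.Quotient.mk (Ideal.span {ϖ}) x : R ⧸ Ideal.span {ϖ}) =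
        (u ^ k) • (Ideal.Quotient.mk (Ideal.span {ϖ}) a : R ⧸ Ideal.span {ϖ}) := by
      rw [hxc, map_add, Algebra.smul_def, Ideal.Quotient.algebraMap_eq, ← map_mul]
      have h2 : (Ideal.Quotient.mk (Ideal.span {ϖ})) (ϖ * c) = 0 :=
        Ideal.Quotient.eq_zero_iff_mem.mpr
          (Ideal.mul_mem_right _ _ (Ideal.mem_span_singleton_self ϖ))
      rw [h2, zero_add, mul_comm]
    rw [h1]
    exact Submodule.smul_mem_smul (Ideal.pow_mem_pow hum k) Submodule.mem_top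
  rw [hkrull, Submodule.mem_bot, Ideal.Quotient.eq_zero_iff_mem, Ideal.mem_span_singleton] at hmem
  obtain ⟨c, rfl⟩ := hmem
  exact hx₂ (𝔭₂.mul_mem_right _ hϖ₂)

/-- **Transversality at a node from the structure of the maximal ideal.**  `R` noetherian local,
`𝔭₁, 𝔭₂ ∋ ϖ` two primes, neither contained in the other, with `𝔭₁ ∩ 𝔭₂ ⊆ (ϖ)`.  If the maximal
ideal is `(ϖ, u)` or `(ϖ, X, Y)` with `ϖ ∣ X Y`, it is `𝔭₁ + 𝔭₂`. -/
theorem maximalIdeal_le_sup_of_struct (ϖ : R) (𝔭₁ 𝔭₂ : Ideal R) [h₁ : 𝔭₁.IsPrime]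
    [h₂ : 𝔭₂.IsPrime] (hϖ₁ : ϖ ∈ 𝔭₁) (hϖ₂ : ϖ ∈ 𝔭₂) (hS1 : 𝔭₁ ⊓ 𝔭₂ ≤ Ideal.span {ϖ})
    (h12 : ¬ 𝔭₁ ≤ 𝔭₂)
    (hstruct : (∃ u : R, maximalIdeal R = Ideal.span {ϖ, u}) ∨
      ∃ X Y : R, maximalIdeal R = Ideal.span {ϖ, X, Y} ∧ ϖ ∣ X * Y) :
    maximalIdeal R ≤ 𝔭₁ ⊔ 𝔭₂ := by
  have hpair : ∀ u : R, maximalIdeal R = Ideal.span {ϖ, u} → maximalIdeal R ≤ 𝔭₁ ⊔ 𝔭₂ := by
    intro u hm
    have hu := mem_of_maximalIdeal_eq_span_pair ϖ u 𝔭₁ 𝔭₂ hϖ₁ hϖ₂ h12 hm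
    rw [hm]
    refine le_trans ?_ (le_sup_left : 𝔭₁ ≤ 𝔭₁ ⊔ 𝔭₂)
    rw [Ideal.span_le]
    rintro z (rfl | rfl)
    · exact hϖ₁
    · exact hu
  rcases hstruct with ⟨u, hm⟩ | ⟨X, Y, hm, hXY⟩
  · exact hpair u hm
  · have hXY₁ : X * Y ∈ 𝔭₁ := by
      obtain ⟨c, hc⟩ := hXY
      rw [hc]; exact 𝔭₁.mul_mem_right _ hϖ₁
    have hXY₂ : X * Y ∈ 𝔭₂ := by
      obtain ⟨c, hc⟩ := hXY
      rw [hc]; exact 𝔭₂.mul_mem_right _ hϖ₂
    have hsup : ∀ a b : R, a ∈ 𝔭₁ ⊔ 𝔭₂ → b ∈ 𝔭₁ ⊔ 𝔭₂ →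
        Ideal.span {ϖ, a, b} ≤ 𝔭₁ ⊔ 𝔭₂ := by
      intro a b ha hb
      rw [Ideal.span_le]
      rintro z (rfl | rfl | rfl)
      · exact Ideal.mem_sup_left hϖ₁
      · exact ha
      · exact hb
    rcases h₁.mem_or_mem hXY₁ with hX₁ | hY₁
    · rcases h₂.mem_or_mem hXY₂ with hX₂ | hY₂
      · -- `X ∈ 𝔭₁ ∩ 𝔭₂ ⊆ (ϖ)`, so `𝔪 = (ϖ, Y)`
        have hX : X ∈ Ideal.span {ϖ} := hS1 (Ideal.mem_inf.mpr ⟨hX₁, hX₂⟩)
        apply hpair Y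
        rw [hm]
        apply le_antisymm
        · rw [Ideal.span_le]
          rintro z (rfl | rfl | rfl)
          · exact Ideal.subset_span (by simp)
          · exact Ideal.span_mono (by simp) hX
          · exact Ideal.subset_span (by simp)
        · apply Ideal.span_mono
          intro z hz
          rcases hz with rfl | rfl
          · simp
          · simp
      · rw [hm]
        exact hsup X Y (Ideal.mem_sup_left hX₁) (Ideal.mem_sup_right hY₂)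
    · rcases h₂.mem_or_mem hXY₂ with hX₂ | hY₂
      · rw [hm]
        exact hsup X Y (Ideal.mem_sup_right hX₂) (Ideal.mem_sup_left hY₁)
      · have hY : Y ∈ Ideal.span {ϖ} := hS1 (Ideal.mem_inf.mpr ⟨hY₁, hY₂⟩)
        apply hpair X
        rw [hm]
        apply le_antisymm
        · rw [Ideal.span_le]
          rintro z (rfl | rfl | rfl)
          · exact Ideal.subset_span (by simp)
          · exact Ideal.subset_span (by simp)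
          · exact Ideal.span_mono (by simp) hY
        · apply Ideal.span_mono
          intro z hz
          rcases hz with rfl | rfl
          · simp
          · simp

end Struct

section StructChart

variable {B : Type*} [CommRing B] [IsNoetherianRing B]

open IsLocalRing

/-- **Transversality at a node of a chart.**  `𝔭₁, 𝔭₂ ∋ ϖ` two primes of `B` inside the prime `𝔫`,
`𝔭₁ ⊄ 𝔭₂`, `𝔭₁ ∩ 𝔭₂ ⊆ (ϖ)`, and the maximal ideal of `R = B_𝔫` is `(ϖ, u)` or `(ϖ, X, Y)` with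
`ϖ ∣ X Y`.  Then every element of `𝔫` has a multiple by some `t ∉ 𝔫` in `𝔭₁ + 𝔭₂`. -/
theorem exists_mul_mem_sup_of_struct (𝔫 : Ideal B) [h𝔫 : 𝔫.IsPrime] (ϖ : B) (𝔭₁ 𝔭₂ : Ideal B)
    [h₁ : 𝔭₁.IsPrime] [h₂ : 𝔭₂.IsPrime] (hle₁ : 𝔭₁ ≤ 𝔫) (hle₂ : 𝔭₂ ≤ 𝔫)
    (hϖ₁ : ϖ ∈ 𝔭₁) (hϖ₂ : ϖ ∈ 𝔭₂) (hS1 : 𝔭₁ ⊓ 𝔭₂ ≤ Ideal.span {ϖ}) (h12 : ¬ 𝔭₁ ≤ 𝔭₂)
    (R : Type*) [CommRing R] [Algebra B R] [IsLocalization.AtPrime R 𝔫] [IsLocalRing R]
    (ϖR : R) (hϖR : algebraMap B R ϖ = ϖR)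
    (hstruct : (∃ u : R, maximalIdeal R = Ideal.span {ϖR, u}) ∨
      ∃ X Y : R, maximalIdeal R = Ideal.span {ϖR, X, Y} ∧ ϖR ∣ X * Y) :
    ∀ x ∈ 𝔫, ∃ t : B, t ∉ 𝔫 ∧ t * x ∈ 𝔭₁ ⊔ 𝔭₂ := by
  have : IsNoetherianRing R := IsLocalization.isNoetherianRing 𝔫.primeCompl R inferInstance
  have hd₁ : Disjoint (𝔫.primeCompl : Set B) (𝔭₁ : Set B) :=
    Set.disjoint_left.mpr fun z hz hz' => hz (hle₁ hz')
  have hd₂ : Disjoint (𝔫.primeCompl : Set B) (𝔭₂ : Set B) :=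
    Set.disjoint_left.mpr fun z hz hz' => hz (hle₂ hz')
  have hq₁ : (𝔭₁.map (algebraMap B R)).IsPrime :=
    IsLocalization.isPrime_of_isPrime_disjoint 𝔫.primeCompl R 𝔭₁ h₁ hd₁
  have hq₂ : (𝔭₂.map (algebraMap B R)).IsPrime :=
    IsLocalization.isPrime_of_isPrime_disjoint 𝔫.primeCompl R 𝔭₂ h₂ hd₂
  have hc₁ : ∀ b : B, algebraMap B R b ∈ 𝔭₁.map (algebraMap B R) → b ∈ 𝔭₁ := by
    intro b hb
    have h := IsLocalization.under_map_of_isPrime_disjoint 𝔫.primeCompl R h₁ hd₁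
    rw [← h]
    exact hb
  have hc₂ : ∀ b : B, algebraMap B R b ∈ 𝔭₂.map (algebraMap B R) → b ∈ 𝔭₂ := by
    intro b hb
    have h := IsLocalization.under_map_of_isPrime_disjoint 𝔫.primeCompl R h₂ hd₂
    rw [← h]
    exact hb
  have hS1R : 𝔭₁.map (algebraMap B R) ⊓ 𝔭₂.map (algebraMap B R) ≤ Ideal.span {ϖR} := by
    intro z hz
    obtain ⟨hz₁, hz₂⟩ := Ideal.mem_inf.mp hz
    obtain ⟨b, s, rfl⟩ := IsLocalization.exists_mk'_eq 𝔫.primeCompl z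
    have hb : ∀ I : Ideal R, IsLocalization.mk' R b s ∈ I → algebraMap B R b ∈ I := by
      intro I hI
      rw [← IsLocalization.mk'_spec R b s]
      exact I.mul_mem_right _ hI
    have hb₁ : b ∈ 𝔭₁ := hc₁ b (hb _ hz₁)
    have hb₂ : b ∈ 𝔭₂ := hc₂ b (hb _ hz₂)
    obtain ⟨c, rfl⟩ := Ideal.mem_span_singleton.mp (hS1 (Ideal.mem_inf.mpr ⟨hb₁, hb₂⟩))
    rw [Ideal.mem_span_singleton]
    refine ⟨IsLocalization.mk' R c s, ?_⟩
    rw [← hϖR, ← IsLocalization.mul_mk'_eq_mk'_of_mul]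
  have h12R : ¬ 𝔭₁.map (algebraMap B R) ≤ 𝔭₂.map (algebraMap B R) := by
    intro hle
    apply h12
    intro b hb
    exact hc₂ b (hle (Ideal.mem_map_of_mem _ hb))
  have hmax := maximalIdeal_le_sup_of_struct ϖR (𝔭₁.map (algebraMap B R))
    (𝔭₂.map (algebraMap B R)) (hϖR ▸ Ideal.mem_map_of_mem _ hϖ₁)
    (hϖR ▸ Ideal.mem_map_of_mem _ hϖ₂) hS1R h12R hstruct
  intro x hx
  have hxm : algebraMap B R x ∈ maximalIdeal R :=
    (IsLocalization.AtPrime.to_map_mem_maximal_iff R 𝔫 x).mpr hx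
  have hx' : algebraMap B R x ∈ (𝔭₁ ⊔ 𝔭₂).map (algebraMap B R) := by
    rw [Ideal.map_sup]; exact hmax hxm
  obtain ⟨⟨i, s⟩, his⟩ := (IsLocalization.mem_map_algebraMap_iff 𝔫.primeCompl R).mp hx'
  rw [← map_mul] at his
  obtain ⟨c, hc⟩ := (IsLocalization.eq_iff_exists 𝔫.primeCompl R).mp his
  refine ⟨c * s, 𝔫.primeCompl.mul_mem c.2 s.2, ?_⟩
  have h3 : (c : B) * (s : B) * x = (c : B) * (i : B) := by
    rw [← hc]; ring
  rw [h3]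
  exact Ideal.mul_mem_left _ _ i.2

end StructChart

section Root

variable {B E Ω : Type*} [CommRing B] [CommRing E] [IsDomain E] [IsIntegrallyClosed E] [Field Ω]

/-- A root (in the fraction field of a normal component `E`) of a fraction of the chart, with the
same denominator. -/
theorem exists_frac_of_pow (r : B →+* Ω) (ε : E →+* Ω) (hε : Function.Injective ε)
    (hr : ∀ b : B, ∃ e : E, r b = ε e) (hsurj : ∀ e : E, ∃ b : B, r b = ε e)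
    (z : Ω) (b s : B) (hs : r s ≠ 0) (hz : z * r s = r b)
    (N : ℕ) (hN : N ≠ 0) (a d : B) (hzN : z ^ N * r d = r a) :
    ∃ b' : B, z * r d = r b' := by
  classical
  obtain ⟨eb, heb⟩ := hr b
  obtain ⟨es, hes⟩ := hr s
  obtain ⟨ea, hea⟩ := hr a
  obtain ⟨ed, hed⟩ := hr d
  have hes0 : es ≠ 0 := by
    rintro rfl
    rw [map_zero] at hes
    exact hs hes
  have hunit : ∀ y : nonZeroDivisors E, IsUnit (ε (y : E)) := by
    intro y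
    rw [isUnit_iff_ne_zero, Ne, map_eq_zero_iff ε hε]
    exact nonZeroDivisors.ne_zero y.2
  set ι : FractionRing E →+* Ω := IsLocalization.lift hunit with hι
  have hιalg : ∀ e : E, ι (algebraMap E (FractionRing E) e) = ε e :=
    fun e => IsLocalization.lift_eq hunit e
  have hιinj : Function.Injective ι := ι.injective
  have hes0' : algebraMap E (FractionRing E) es ≠ 0 := by
    rw [Ne, map_eq_zero_iff _ (IsFractionRing.injective E (FractionRing E))]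
    exact hes0
  set ζ : FractionRing E := algebraMap E (FractionRing E) eb / algebraMap E (FractionRing E) es
    with hζ
  have hιζ : ι ζ = z := by
    rw [hζ, map_div₀, hιalg, hιalg, ← heb, ← hes, ← hz, mul_div_assoc, div_self hs, mul_one]
  have hζN : ζ ^ N * algebraMap E (FractionRing E) ed = algebraMap E (FractionRing E) ea := by
    apply hιinj
    rw [map_mul, map_pow, hιζ, hιalg, hιalg, ← hed, ← hea, hzN]
  have hint : IsIntegral E ((ζ * algebraMap E (FractionRing E) ed) ^ N) := by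
    have h1 : (ζ * algebraMap E (FractionRing E) ed) ^ N =
        algebraMap E (FractionRing E) (ea * ed ^ (N - 1)) := by
      rw [map_mul, map_pow, ← hζN, mul_pow]
      have h2 : algebraMap E (FractionRing E) ed ^ N =
          algebraMap E (FractionRing E) ed * algebraMap E (FractionRing E) ed ^ (N - 1) := by
        rw [← pow_succ', Nat.sub_add_cancel (Nat.pos_of_ne_zero hN)]
      rw [h2]; ring
    rw [h1]
    exact isIntegral_algebraMap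
  obtain ⟨e₁, he₁⟩ := IsIntegrallyClosed.exists_algebraMap_eq_of_isIntegral_pow
    (Nat.pos_of_ne_zero hN) hint
  obtain ⟨b', hb'⟩ := hsurj e₁
  refine ⟨b', ?_⟩
  rw [hb', ← hιalg e₁, he₁, map_mul, hιζ, hιalg, hed]

/-- **A root of a unit at `𝔫` is a unit at `𝔫`.**  `r : B → Ω` a reduction map whose image is the
image of a normal domain `E`, `𝔫 ⊇ ker r` a prime of `B`.  If `z ∈ Ω` is a fraction of the chart
(`z = r b / r s`) and `z ^ N = r a / r d` with `a, d ∉ 𝔫`, `N ≠ 0`, then `z = r b' / r d` with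
`b' ∉ 𝔫`. -/
theorem exists_unit_frac_of_pow (r : B →+* Ω) (ε : E →+* Ω) (hε : Function.Injective ε)
    (hr : ∀ b : B, ∃ e : E, r b = ε e) (hsurj : ∀ e : E, ∃ b : B, r b = ε e)
    (𝔫 : Ideal B) [h𝔫 : 𝔫.IsPrime] (hker : ∀ b : B, r b = 0 → b ∈ 𝔫)
    (z : Ω) (b s : B) (hs : r s ≠ 0) (hz : z * r s = r b)
    (N : ℕ) (hN : N ≠ 0) (a d : B) (ha : a ∉ 𝔫) (hd : d ∉ 𝔫) (hzN : z ^ N * r d = r a) :
    ∃ b' : B, b' ∉ 𝔫 ∧ z * r d = r b' := by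
  have hra : r a ≠ 0 := fun h => ha (hker a h)
  have hrd : r d ≠ 0 := fun h => hd (hker d h)
  have hz0 : z ≠ 0 := by
    rintro rfl
    rw [zero_pow hN, zero_mul] at hzN
    exact hra hzN.symm
  have hrb : r b ≠ 0 := by
    rw [← hz]; exact mul_ne_zero hz0 hs
  obtain ⟨b', hb'⟩ := exists_frac_of_pow r ε hε hr hsurj z b s hs hz N hN a d hzN
  obtain ⟨b'', hb''⟩ := exists_frac_of_pow r ε hε hr hsurj z⁻¹ s b hrb
    (by rw [← hz]; field_simp) N hN d a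
    (by rw [← hzN, inv_pow, ← mul_assoc, inv_mul_cancel₀ (pow_ne_zero N hz0), one_mul])
  refine ⟨b', ?_, hb'⟩
  intro hmem
  have h1 : r (b' * b'' - d * a) = 0 := by
    rw [map_sub, map_mul, map_mul, ← hb', ← hb'']
    field_simp
    ring
  have h2 : d * a ∈ 𝔫 := by
    have h3 := 𝔫.sub_mem (𝔫.mul_mem_right b'' hmem) (hker _ h1)
    rwa [sub_sub_cancel] at h3
  rcases h𝔫.mem_or_mem h2 with h | h
  · exact hd h
  · exact ha h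

end Root

/-! ### Chart currency -/

section Chart

variable {F : Type*} [Field F] {B : Type*} [CommRing B]

/-- A "vertical prime" seen from a chart `ψ : B →+* F`, as a subset of `F`: an additive subgroup
stable under multiplication by the chart and under division by the elements of the chart outside
it (instances: `isVertChart_of_valuationSubring`, `isVertChart_of_res`). -/
structure IsVertChart (ψ : B →+* F) (m : Set F) : Prop where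
  zero_mem : (0 : F) ∈ m
  add_mem : ∀ {z z' : F}, z ∈ m → z' ∈ m → z + z' ∈ m
  neg_mem : ∀ {z : F}, z ∈ m → -z ∈ m
  mul_mem : ∀ {z : F}, z ∈ m → ∀ b : B, ψ b * z ∈ m
  div_mem : ∀ {z : F}, z ∈ m → ∀ b : B, ψ b ∉ m → z / ψ b ∈ m

namespace IsVertChart

variable {ψ : B →+* F} {m : Set F}

theorem sub_mem (h : IsVertChart ψ m) {z z' : F} (hz : z ∈ m) (hz' : z' ∈ m) : z - z' ∈ m := by
  rw [sub_eq_add_neg]; exact h.add_mem hz (h.neg_mem hz')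

theorem ne_zero (h : IsVertChart ψ m) {b : B} (hb : ψ b ∉ m) : ψ b ≠ 0 :=
  fun h0 => hb (h0 ▸ h.zero_mem)

theorem map_mul_notMem (h : IsVertChart ψ m) {a b : B} (ha : ψ a ∉ m) (hb : ψ b ∉ m) :
    ψ (a * b) ∉ m := by
  intro hab
  apply ha
  have h1 := h.div_mem hab b hb
  rwa [map_mul, mul_div_assoc, div_self (h.ne_zero hb), mul_one] at h1

/-- The elements of the chart in a vertical prime form an ideal. -/
def ideal (h : IsVertChart ψ m) : Ideal B where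
  carrier := {b | ψ b ∈ m}
  add_mem' := fun {a b} ha hb => by
    show ψ (a + b) ∈ m
    rw [map_add]; exact h.add_mem ha hb
  zero_mem' := by
    show ψ 0 ∈ m
    rw [map_zero]; exact h.zero_mem
  smul_mem' := fun c b hb => by
    show ψ (c • b) ∈ m
    rw [smul_eq_mul, map_mul]; exact h.mul_mem hb c

theorem mem_ideal (h : IsVertChart ψ m) {b : B} : b ∈ h.ideal ↔ ψ b ∈ m := Iff.rfl

theorem ideal_isPrime (h : IsVertChart ψ m) (h1 : (1 : F) ∉ m) : h.ideal.IsPrime := by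
  refine ⟨?_, ?_⟩
  · rw [Ideal.ne_top_iff_one, mem_ideal, map_one]; exact h1
  · intro a b hab
    by_contra hcon
    rw [not_or] at hcon
    exact h.map_mul_notMem hcon.1 hcon.2 hab

end IsVertChart

/-- The elements of valuation `< 1` at a valuation ring containing the chart. -/
theorem isVertChart_of_valuationSubring (ψ : B →+* F) (O : ValuationSubring F)
    (hO : ∀ b : B, ψ b ∈ O) : IsVertChart ψ {z | O.valuation z < 1} where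
  zero_mem := by
    show O.valuation 0 < 1
    rw [map_zero]; exact zero_lt_one
  add_mem := fun {z z'} hz hz' => by
    show O.valuation (z + z') < 1
    exact Valuation.map_add_lt _ hz hz'
  neg_mem := fun {z} hz => by
    show O.valuation (-z) < 1
    rw [Valuation.map_neg]; exact hz
  mul_mem := fun {z} hz b => by
    show O.valuation (ψ b * z) < 1
    rw [map_mul]
    calc O.valuation (ψ b) * O.valuation z ≤ 1 * O.valuation z :=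
          mul_le_mul_left ((O.valuation_le_one_iff _).mpr (hO b)) _
      _ = O.valuation z := one_mul _
      _ < 1 := hz
  div_mem := fun {z} hz b hb => by
    show O.valuation (z / ψ b) < 1
    have h1 : O.valuation (ψ b) = 1 :=
      le_antisymm ((O.valuation_le_one_iff _).mpr (hO b)) (not_lt.mp hb)
    rw [map_div₀, h1, div_one]
    exact hz

/-- The kernel of a residue map `ρ : O → Ω` on a subring `O ⊇ ψ B` of `F` in which every element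
with nonzero residue is invertible. -/
theorem isVertChart_of_res (ψ : B →+* F) (O : Subring F) {Ω : Type*} [CommRing Ω]
    (ρ : O →+* Ω) (hO : ∀ b : B, ψ b ∈ O) (hunit : ∀ u : O, ρ u ≠ 0 → (u : F)⁻¹ ∈ O) :
    IsVertChart ψ {z | ∃ h : z ∈ O, ρ ⟨z, h⟩ = 0} where
  zero_mem := ⟨O.zero_mem, map_zero ρ⟩
  add_mem := fun {z z'} hz hz' => by
    obtain ⟨h, hρ⟩ := hz
    obtain ⟨h', hρ'⟩ := hz'
    refine ⟨O.add_mem h h', ?_⟩
    have : (⟨z + z', O.add_mem h h'⟩ : O) = ⟨z, h⟩ + ⟨z', h'⟩ := rfl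
    rw [this, map_add, hρ, hρ', add_zero]
  neg_mem := fun {z} hz => by
    obtain ⟨h, hρ⟩ := hz
    refine ⟨O.neg_mem h, ?_⟩
    have : (⟨-z, O.neg_mem h⟩ : O) = -⟨z, h⟩ := rfl
    rw [this, map_neg, hρ, neg_zero]
  mul_mem := fun {z} hz b => by
    obtain ⟨h, hρ⟩ := hz
    refine ⟨O.mul_mem (hO b) h, ?_⟩
    have : (⟨ψ b * z, O.mul_mem (hO b) h⟩ : O) = ⟨ψ b, hO b⟩ * ⟨z, h⟩ := rfl
    rw [this, map_mul, hρ, mul_zero]
  div_mem := fun {z} hz b hb => by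
    obtain ⟨h, hρ⟩ := hz
    have hb' : ρ ⟨ψ b, hO b⟩ ≠ 0 := fun h0 => hb ⟨hO b, h0⟩
    have hinv : (ψ b)⁻¹ ∈ O := hunit ⟨ψ b, hO b⟩ hb'
    have hmem : z / ψ b ∈ O := by
      rw [div_eq_mul_inv]; exact O.mul_mem h hinv
    refine ⟨hmem, ?_⟩
    have : (⟨z / ψ b, hmem⟩ : O) = ⟨z, h⟩ * ⟨(ψ b)⁻¹, hinv⟩ := Subtype.ext (div_eq_mul_inv _ _)
    rw [this, map_mul, hρ, zero_mul]

variable (ψ : B →+* F) (m₁ m₂ : Set F)

/-- **(S1) ⇒ every point of the special fibre lies on a component.** -/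
theorem vert_le_or_vert_le (hm₁ : IsVertChart ψ m₁) (𝔫 : Ideal B) [h𝔫 : 𝔫.IsPrime]
    (hS1 : ∀ b : B, ψ b ∈ m₁ → ψ b ∈ m₂ → b ∈ 𝔫)
    (hm₂ : ∀ {z : F}, z ∈ m₂ → ∀ b : B, ψ b * z ∈ m₂) :
    (∀ b : B, ψ b ∈ m₁ → b ∈ 𝔫) ∨ (∀ b : B, ψ b ∈ m₂ → b ∈ 𝔫) := by
  by_cases h1 : ∀ b : B, ψ b ∈ m₁ → b ∈ 𝔫
  · exact Or.inl h1
  · right
    intro b₂ hb₂
    by_contra hb₂'
    apply h1
    intro b₁ hb₁
    by_contra hb₁'
    have h3 : b₂ * b₁ ∈ 𝔫 := by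
      apply hS1
      · rw [map_mul]; exact hm₁.mul_mem hb₁ b₂
      · rw [map_mul, mul_comm]; exact hm₂ hb₂ b₁
    rcases h𝔫.mem_or_mem h3 with h | h
    · exact hb₂' h
    · exact hb₁' h

/-- **Unit normalisation at a node.**  `𝔫` a prime of the chart through both vertical primes,
which are transversal at `𝔫` (`htrans`).  If the residues of `g₀` at the two vertical primes are
the fractions `b₁ / s₁` and `b₂ / s₂` of the chart, units at `𝔫` with the same value at `𝔫`, then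
`g₀` is congruent modulo both vertical primes to ONE fraction `e / d` with `e, d ∉ 𝔫`. -/
theorem exists_frac_node (hm₁ : IsVertChart ψ m₁) (hm₂ : IsVertChart ψ m₂)
    (𝔫 : Ideal B) [h𝔫 : 𝔫.IsPrime]
    (h𝔫₁ : ∀ b : B, ψ b ∈ m₁ → b ∈ 𝔫) (h𝔫₂ : ∀ b : B, ψ b ∈ m₂ → b ∈ 𝔫)
    (htrans : ∀ x ∈ 𝔫, ∃ t : B, t ∉ 𝔫 ∧ ∃ x₁ x₂ : B, ψ x₁ ∈ m₁ ∧ ψ x₂ ∈ m₂ ∧ t * x = x₁ + x₂)
    (g₀ : F) (b₁ s₁ b₂ s₂ : B) (hb₁ : b₁ ∉ 𝔫) (hs₁ : s₁ ∉ 𝔫) (hs₂ : s₂ ∉ 𝔫)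
    (h12 : b₁ * s₂ - b₂ * s₁ ∈ 𝔫)
    (hg₁ : ψ s₁ * g₀ - ψ b₁ ∈ m₁) (hg₂ : ψ s₂ * g₀ - ψ b₂ ∈ m₂) :
    ∃ e d : B, e ∉ 𝔫 ∧ d ∉ 𝔫 ∧ g₀ * ψ d / ψ e - 1 ∈ m₁ ∧ g₀ * ψ d / ψ e - 1 ∈ m₂ := by
  obtain ⟨t, ht, x₁, x₂, hx₁, hx₂, hx⟩ := htrans _ h12
  have hx₁𝔫 : x₁ ∈ 𝔫 := h𝔫₁ x₁ hx₁
  have he : t * b₁ * s₂ - x₁ ∉ 𝔫 := by
    intro h
    have h1 : t * b₁ * s₂ ∈ 𝔫 := by
      have := 𝔫.add_mem h hx₁𝔫
      rwa [sub_add_cancel] at this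
    rcases h𝔫.mem_or_mem h1 with h' | h'
    · rcases h𝔫.mem_or_mem h' with h'' | h''
      · exact ht h''
      · exact hb₁ h''
    · exact hs₂ h'
  have hd : t * s₁ * s₂ ∉ 𝔫 := by
    intro h1
    rcases h𝔫.mem_or_mem h1 with h' | h'
    · rcases h𝔫.mem_or_mem h' with h'' | h''
      · exact ht h''
      · exact hs₁ h''
    · exact hs₂ h'
  have hkey : ψ (t * b₁ * s₂ - x₁) = ψ (t * b₂ * s₁ + x₂) :=
    congrArg ψ (by linear_combination hx)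
  have hne₁ : ψ (t * b₁ * s₂ - x₁) ∉ m₁ := fun h => he (h𝔫₁ _ h)
  have hne₂ : ψ (t * b₁ * s₂ - x₁) ∉ m₂ := fun h => he (h𝔫₂ _ h)
  have hform : g₀ * ψ (t * s₁ * s₂) / ψ (t * b₁ * s₂ - x₁) - 1 =
      (ψ (t * s₁ * s₂) * g₀ - ψ (t * b₁ * s₂ - x₁)) / ψ (t * b₁ * s₂ - x₁) := by
    have := hm₁.ne_zero hne₁
    field_simp
  refine ⟨t * b₁ * s₂ - x₁, t * s₁ * s₂, he, hd, ?_, ?_⟩
  · rw [hform]
    refine hm₁.div_mem ?_ _ hne₁
    have h1 : ψ (t * s₁ * s₂) * g₀ - ψ (t * b₁ * s₂ - x₁) =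
        ψ (t * s₂) * (ψ s₁ * g₀ - ψ b₁) + ψ x₁ := by
      simp only [map_mul, map_sub]; ring
    rw [h1]
    exact hm₁.add_mem (hm₁.mul_mem hg₁ _) hx₁
  · rw [hform]
    refine hm₂.div_mem ?_ _ hne₂
    have h1 : ψ (t * s₁ * s₂) * g₀ - ψ (t * b₁ * s₂ - x₁) =
        ψ (t * s₁) * (ψ s₂ * g₀ - ψ b₂) + -ψ x₂ := by
      rw [hkey]
      simp only [map_mul, map_add]; ring
    rw [h1]
    exact hm₂.add_mem (hm₂.mul_mem hg₂ _) (hm₂.neg_mem hx₂)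

/-- **Unit normalisation at a smooth point** (`𝔫` on the first vertical prime only: `f` vanishes
on the second and not at `𝔫`; `a` vanishes on the first and not on the second).  If the residue of
`g₀` at the first vertical prime is a fraction `b₁ / s₁` of the chart, unit at `𝔫`, and its residue
at the second is any nonzero fraction `b₂ / s₂`, then `g₀` is congruent modulo both vertical primes
to ONE fraction `e / d` with `e, d ∉ 𝔫` (CRT). -/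
theorem exists_frac_smooth (hm₁ : IsVertChart ψ m₁) (hm₂ : IsVertChart ψ m₂)
    (𝔫 : Ideal B) [h𝔫 : 𝔫.IsPrime] (h𝔫₁ : ∀ b : B, ψ b ∈ m₁ → b ∈ 𝔫)
    (f : B) (hf : ψ f ∈ m₂) (hf𝔫 : f ∉ 𝔫) (a : B) (ha₁ : ψ a ∈ m₁) (ha₂ : ψ a ∉ m₂)
    (g₀ : F) (b₁ s₁ b₂ s₂ : B) (hb₁ : b₁ ∉ 𝔫) (hs₁ : s₁ ∉ 𝔫) (hb₂ : ψ b₂ ∉ m₂)
    (hs₂ : ψ s₂ ∉ m₂)
    (hg₁ : ψ s₁ * g₀ - ψ b₁ ∈ m₁) (hg₂ : ψ s₂ * g₀ - ψ b₂ ∈ m₂) :
    ∃ e d : B, e ∉ 𝔫 ∧ d ∉ 𝔫 ∧ ψ e ≠ 0 ∧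
      g₀ * ψ d / ψ e - 1 ∈ m₁ ∧ g₀ * ψ d / ψ e - 1 ∈ m₂ := by
  have ha𝔫 : a ∈ 𝔫 := h𝔫₁ a ha₁
  have hnotMem : ∀ u : B, u ∉ 𝔫 → f * u + a * b₂ ∉ 𝔫 ∧ f * u + a * s₂ ∉ 𝔫 := by
    intro u hu
    have hfu : f * u ∉ 𝔫 := fun h => (h𝔫.mem_or_mem h).elim hf𝔫 hu
    constructor
    · intro h
      apply hfu
      have := 𝔫.sub_mem h (𝔫.mul_mem_right b₂ ha𝔫)
      rwa [add_sub_cancel_right] at this
    · intro h
      apply hfu
      have := 𝔫.sub_mem h (𝔫.mul_mem_right s₂ ha𝔫)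
      rwa [add_sub_cancel_right] at this
  have he : f * b₁ + a * b₂ ∉ 𝔫 := (hnotMem b₁ hb₁).1
  have hd : f * s₁ + a * s₂ ∉ 𝔫 := (hnotMem s₁ hs₁).2
  have hs₁m : ψ s₁ ∉ m₁ := fun h => hs₁ (h𝔫₁ _ h)
  have hs₁0 : ψ s₁ ≠ 0 := hm₁.ne_zero hs₁m
  have hs₂0 : ψ s₂ ≠ 0 := hm₂.ne_zero hs₂
  have hne₁ : ψ (f * b₁ + a * b₂) ∉ m₁ := fun h => he (h𝔫₁ _ h)
  have hne₂ : ψ (f * b₁ + a * b₂) ∉ m₂ := by
    intro h
    have h1 : ψ (a * b₂) ∈ m₂ := by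
      have h2 : ψ (a * b₂) = ψ (f * b₁ + a * b₂) + -(ψ b₁ * ψ f) := by
        simp only [map_mul, map_add]; ring
      rw [h2]
      exact hm₂.add_mem h (hm₂.neg_mem (hm₂.mul_mem hf b₁))
    exact hm₂.map_mul_notMem ha₂ hb₂ h1
  have hne0 : ψ (f * b₁ + a * b₂) ≠ 0 := hm₁.ne_zero hne₁
  -- `ψ a * g₀ ∈ m₁` and `ψ f * g₀ ∈ m₂`
  have hag : ψ a * g₀ ∈ m₁ := by
    have h1 : ψ a * g₀ = ψ a * ((ψ s₁ * g₀ - ψ b₁) / ψ s₁) + ψ b₁ * ψ a / ψ s₁ := by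
      field_simp; ring
    rw [h1]
    exact hm₁.add_mem (hm₁.mul_mem (hm₁.div_mem hg₁ s₁ hs₁m) a)
      (hm₁.div_mem (hm₁.mul_mem ha₁ b₁) s₁ hs₁m)
  have hfg : ψ f * g₀ ∈ m₂ := by
    have h1 : ψ f * g₀ = ψ f * ((ψ s₂ * g₀ - ψ b₂) / ψ s₂) + ψ b₂ * ψ f / ψ s₂ := by
      field_simp; ring
    rw [h1]
    exact hm₂.add_mem (hm₂.mul_mem (hm₂.div_mem hg₂ s₂ hs₂) f)
      (hm₂.div_mem (hm₂.mul_mem hf b₂) s₂ hs₂)
  have hform : g₀ * ψ (f * s₁ + a * s₂) / ψ (f * b₁ + a * b₂) - 1 =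
      (ψ (f * s₁ + a * s₂) * g₀ - ψ (f * b₁ + a * b₂)) / ψ (f * b₁ + a * b₂) := by
    field_simp
  refine ⟨f * b₁ + a * b₂, f * s₁ + a * s₂, he, hd, hne0, ?_, ?_⟩
  · rw [hform]
    refine hm₁.div_mem ?_ _ hne₁
    have h1 : ψ (f * s₁ + a * s₂) * g₀ - ψ (f * b₁ + a * b₂) =
        ψ f * (ψ s₁ * g₀ - ψ b₁) + (ψ s₂ * (ψ a * g₀) + -(ψ b₂ * ψ a)) := by
      simp only [map_mul, map_add]; ring
    rw [h1]
    exact hm₁.add_mem (hm₁.mul_mem hg₁ f)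
      (hm₁.add_mem (hm₁.mul_mem hag s₂) (hm₁.neg_mem (hm₁.mul_mem ha₁ b₂)))
  · rw [hform]
    refine hm₂.div_mem ?_ _ hne₂
    have h1 : ψ (f * s₁ + a * s₂) * g₀ - ψ (f * b₁ + a * b₂) =
        ψ a * (ψ s₂ * g₀ - ψ b₂) + (ψ s₁ * (ψ f * g₀) + -(ψ b₁ * ψ f)) := by
      simp only [map_mul, map_add]; ring
    rw [h1]
    exact hm₂.add_mem (hm₂.mul_mem hg₂ a)
      (hm₂.add_mem (hm₂.mul_mem hfg s₁) (hm₂.neg_mem (hm₂.mul_mem hf b₁)))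

/-- **Transversality at a node in chart currency**, from the structure of the maximal ideal of
`R = B_𝔫` (`(ϖ, u)` or `(ϖ, X, Y)` with `ϖ ∣ X Y`), `(S1)` on the chart and a separator `a`. -/
theorem htrans_of_struct [IsNoetherianRing B] (hm₁ : IsVertChart ψ m₁) (hm₂ : IsVertChart ψ m₂)
    (h1₁ : (1 : F) ∉ m₁) (h1₂ : (1 : F) ∉ m₂) (𝔫 : Ideal B) [h𝔫 : 𝔫.IsPrime]
    (h𝔫₁ : ∀ b : B, ψ b ∈ m₁ → b ∈ 𝔫) (h𝔫₂ : ∀ b : B, ψ b ∈ m₂ → b ∈ 𝔫)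
    (ϖ : B) (hϖ₁ : ψ ϖ ∈ m₁) (hϖ₂ : ψ ϖ ∈ m₂)
    (hS1 : ∀ b : B, ψ b ∈ m₁ → ψ b ∈ m₂ → ϖ ∣ b)
    (a : B) (ha₁ : ψ a ∈ m₁) (ha₂ : ψ a ∉ m₂)
    (R : Type*) [CommRing R] [Algebra B R] [IsLocalization.AtPrime R 𝔫] [IsLocalRing R]
    (ϖR : R) (hϖR : algebraMap B R ϖ = ϖR)
    (hstruct : (∃ u : R, IsLocalRing.maximalIdeal R = Ideal.span {ϖR, u}) ∨
      ∃ X Y : R, IsLocalRing.maximalIdeal R = Ideal.span {ϖR, X, Y} ∧ ϖR ∣ X * Y) :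
    ∀ x ∈ 𝔫, ∃ t : B, t ∉ 𝔫 ∧ ∃ x₁ x₂ : B, ψ x₁ ∈ m₁ ∧ ψ x₂ ∈ m₂ ∧ t * x = x₁ + x₂ := by
  have hp₁ : hm₁.ideal.IsPrime := hm₁.ideal_isPrime h1₁
  have hp₂ : hm₂.ideal.IsPrime := hm₂.ideal_isPrime h1₂
  have hS1' : hm₁.ideal ⊓ hm₂.ideal ≤ Ideal.span {ϖ} := by
    intro b hb
    obtain ⟨hb₁, hb₂⟩ := Ideal.mem_inf.mp hb
    exact Ideal.mem_span_singleton.mpr (hS1 b hb₁ hb₂)
  have h12 : ¬ hm₁.ideal ≤ hm₂.ideal := fun hle => ha₂ (hle ha₁)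
  intro x hx
  obtain ⟨t, ht, htx⟩ := exists_mul_mem_sup_of_struct 𝔫 ϖ hm₁.ideal hm₂.ideal
    (fun b hb => h𝔫₁ b hb) (fun b hb => h𝔫₂ b hb) hϖ₁ hϖ₂ hS1' h12 R ϖR hϖR hstruct x hx
  obtain ⟨x₁, hx₁, x₂, hx₂, hxx⟩ := Submodule.mem_sup.mp htx
  exact ⟨t, ht, x₁, x₂, hx₁, hx₂, hxx.symm⟩

end Chart

/-! ### The local datum of the Kummer descent -/

section Hloc

variable {W F : Type*} [CommRing W] [IsDomain W] [Field F] [Algebra W F]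

/-- The chart ring `integralClosure (W[x₀]) F` as a chart of `F`. -/
abbrev chartVal (x₀ : F) : integralClosure (Algebra.adjoin W {x₀}) F →+* F :=
  (integralClosure (Algebra.adjoin W {x₀}) F).val.toRingHom

/-- **From a normalised fraction to the local datum.**  If `g₀ ≡ e / d` modulo both vertical
primes (`e, d` in the chart ring, `e ∉ 𝔫`) and `y * g₀ ^ N` is integral at `𝔫`, then
`g := g₀ * d / e` is `≡ 1` and `y * g ^ N` is integral at `𝔫`. -/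
theorem hloc_of_frac (π : W) (hπF : algebraMap W F π ≠ 0) (j x₀ : F) (m₁ m₂ : Set F)
    (hS1 : ∀ z : F, z ∈ m₁ → z ∈ m₂ → ∃ c : F, InC π j c ∧ z = algebraMap W F π * c)
    (𝔫 : Ideal (integralClosure (Algebra.adjoin W {x₀}) F)) [h𝔫 : 𝔫.IsPrime]
    (g₀ : F) (e d : integralClosure (Algebra.adjoin W {x₀}) F) (he : e ∉ 𝔫) (he0 : (e : F) ≠ 0)
    (h₁ : g₀ * (d : F) / (e : F) - 1 ∈ m₁) (h₂ : g₀ * (d : F) / (e : F) - 1 ∈ m₂)
    (y : F) (N : ℕ)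
    (hint : ∃ d' : integralClosure (Algebra.adjoin W {x₀}) F, d' ∉ 𝔫 ∧
      IsIntegral (Algebra.adjoin W {x₀}) ((d' : F) * (y * g₀ ^ N))) :
    ∃ g : F, GaussOne π j g ∧ ∃ d'' : integralClosure (Algebra.adjoin W {x₀}) F, d'' ∉ 𝔫 ∧
      IsIntegral (Algebra.adjoin W {x₀}) ((d'' : F) * (y * g ^ N)) := by
  obtain ⟨d', hd', hi⟩ := hint
  refine ⟨g₀ * (d : F) / (e : F), (gaussOne_iff_cong hπF).mpr (hS1 _ h₁ h₂), d' * e ^ N, ?_, ?_⟩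
  · intro h
    rcases h𝔫.mem_or_mem h with h' | h'
    · exact hd' h'
    · exact he (h𝔫.mem_of_pow_mem N h')
  · have h1 : ((d' * e ^ N : integralClosure (Algebra.adjoin W {x₀}) F) : F) *
        (y * (g₀ * (d : F) / (e : F)) ^ N) = (d' : F) * (y * g₀ ^ N) * (d : F) ^ N := by
      have h2 : (g₀ * (d : F) / (e : F)) ^ N = g₀ ^ N * (d : F) ^ N / (e : F) ^ N := by
        rw [div_pow, mul_pow]
      have h3 : ((d' * e ^ N : integralClosure (Algebra.adjoin W {x₀}) F) : F) =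
          (d' : F) * (e : F) ^ N := by push_cast; rfl
      rw [h2, h3]
      have he0' : (e : F) ^ N ≠ 0 := pow_ne_zero N he0
      field_simp
    rw [h1]
    exact hi.mul (d.2.pow N)

variable (π : W) (j x₀ : F) (m₁ m₂ : Set F)

/-- **The local datum at a node.**  Hypotheses of `exists_frac_node` on the chart ring
`integralClosure (W[x₀]) F`, `(S1)` in the form of `S35.KummerConst.kummer_descent_const`, and a
raw local generator `g₀` with `y * g₀ ^ N` integral at `𝔫`.  Conclusion: the clause `hloc` of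
`kummer_descent_const` at `𝔫`. -/
theorem hloc_node (hπF : algebraMap W F π ≠ 0) (hm₁ : IsVertChart (chartVal (W := W) x₀) m₁)
    (hm₂ : IsVertChart (chartVal (W := W) x₀) m₂)
    (hS1 : ∀ z : F, z ∈ m₁ → z ∈ m₂ → ∃ c : F, InC π j c ∧ z = algebraMap W F π * c)
    (𝔫 : Ideal (integralClosure (Algebra.adjoin W {x₀}) F)) [h𝔫 : 𝔫.IsPrime]
    (h𝔫₁ : ∀ b : integralClosure (Algebra.adjoin W {x₀}) F, (b : F) ∈ m₁ → b ∈ 𝔫)
    (h𝔫₂ : ∀ b : integralClosure (Algebra.adjoin W {x₀}) F, (b : F) ∈ m₂ → b ∈ 𝔫)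
    (htrans : ∀ x ∈ 𝔫, ∃ t : integralClosure (Algebra.adjoin W {x₀}) F, t ∉ 𝔫 ∧
      ∃ x₁ x₂ : integralClosure (Algebra.adjoin W {x₀}) F,
        (x₁ : F) ∈ m₁ ∧ (x₂ : F) ∈ m₂ ∧ t * x = x₁ + x₂)
    (g₀ : F) (b₁ s₁ b₂ s₂ : integralClosure (Algebra.adjoin W {x₀}) F)
    (hb₁ : b₁ ∉ 𝔫) (hs₁ : s₁ ∉ 𝔫) (hs₂ : s₂ ∉ 𝔫) (h12 : b₁ * s₂ - b₂ * s₁ ∈ 𝔫)
    (hg₁ : (s₁ : F) * g₀ - (b₁ : F) ∈ m₁) (hg₂ : (s₂ : F) * g₀ - (b₂ : F) ∈ m₂)
    (y : F) (N : ℕ)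
    (hint : ∃ d' : integralClosure (Algebra.adjoin W {x₀}) F, d' ∉ 𝔫 ∧
      IsIntegral (Algebra.adjoin W {x₀}) ((d' : F) * (y * g₀ ^ N))) :
    ∃ g : F, GaussOne π j g ∧ ∃ d'' : integralClosure (Algebra.adjoin W {x₀}) F, d'' ∉ 𝔫 ∧
      IsIntegral (Algebra.adjoin W {x₀}) ((d'' : F) * (y * g ^ N)) := by
  obtain ⟨e, d, he, _, h₁, h₂⟩ := exists_frac_node (chartVal (W := W) x₀) m₁ m₂ hm₁ hm₂ 𝔫
    h𝔫₁ h𝔫₂ htrans g₀ b₁ s₁ b₂ s₂ hb₁ hs₁ hs₂ h12 hg₁ hg₂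
  have he0 : (e : F) ≠ 0 := hm₁.ne_zero (b := e) (fun h => he (h𝔫₁ e h))
  exact hloc_of_frac π hπF j x₀ m₁ m₂ hS1 𝔫 g₀ e d he he0 h₁ h₂ y N hint

/-- **The local datum at a smooth point** (on the first vertical prime only).  Hypotheses of
`exists_frac_smooth` on the chart ring `integralClosure (W[x₀]) F`. -/
theorem hloc_smooth (hπF : algebraMap W F π ≠ 0)
    (hm₁ : IsVertChart (chartVal (W := W) x₀) m₁)
    (hm₂ : IsVertChart (chartVal (W := W) x₀) m₂)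
    (hS1 : ∀ z : F, z ∈ m₁ → z ∈ m₂ → ∃ c : F, InC π j c ∧ z = algebraMap W F π * c)
    (𝔫 : Ideal (integralClosure (Algebra.adjoin W {x₀}) F)) [h𝔫 : 𝔫.IsPrime]
    (h𝔫₁ : ∀ b : integralClosure (Algebra.adjoin W {x₀}) F, (b : F) ∈ m₁ → b ∈ 𝔫)
    (f : integralClosure (Algebra.adjoin W {x₀}) F) (hf : (f : F) ∈ m₂) (hf𝔫 : f ∉ 𝔫)
    (a : integralClosure (Algebra.adjoin W {x₀}) F) (ha₁ : (a : F) ∈ m₁) (ha₂ : (a : F) ∉ m₂)
    (g₀ : F) (b₁ s₁ b₂ s₂ : integralClosure (Algebra.adjoin W {x₀}) F)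
    (hb₁ : b₁ ∉ 𝔫) (hs₁ : s₁ ∉ 𝔫) (hb₂ : (b₂ : F) ∉ m₂) (hs₂ : (s₂ : F) ∉ m₂)
    (hg₁ : (s₁ : F) * g₀ - (b₁ : F) ∈ m₁) (hg₂ : (s₂ : F) * g₀ - (b₂ : F) ∈ m₂)
    (y : F) (N : ℕ)
    (hint : ∃ d' : integralClosure (Algebra.adjoin W {x₀}) F, d' ∉ 𝔫 ∧
      IsIntegral (Algebra.adjoin W {x₀}) ((d' : F) * (y * g₀ ^ N))) :
    ∃ g : F, GaussOne π j g ∧ ∃ d'' : integralClosure (Algebra.adjoin W {x₀}) F, d'' ∉ 𝔫 ∧
      IsIntegral (Algebra.adjoin W {x₀}) ((d'' : F) * (y * g ^ N)) := by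
  obtain ⟨e, d, he, _, he0, h₁, h₂⟩ := exists_frac_smooth (chartVal (W := W) x₀) m₁ m₂ hm₁ hm₂ 𝔫
    h𝔫₁ f hf hf𝔫 a ha₁ ha₂ g₀ b₁ s₁ b₂ s₂ hb₁ hs₁ hb₂ hs₂ hg₁ hg₂
  exact hloc_of_frac π hπF j x₀ m₁ m₂ hS1 𝔫 g₀ e d he he0 h₁ h₂ y N hint

/-- **The local datum at any closed point of the special fibre** (node, or smooth point on either
vertical prime), from the structure of the maximal ideal of `R = B_𝔫` and the residues of a raw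
local generator `g₀`:
* `hres₁`, `hres₂` : if the `i`-th vertical prime passes through `𝔫`, the residue of `g₀` there is
  a fraction `b / s` of the chart with `b, s ∉ 𝔫` — and `b ≡ s` modulo `𝔫` when both pass;
* `hfrac₁`, `hfrac₂` : the residue of `g₀` at the `i`-th vertical prime is a nonzero fraction of
  the chart.
Conclusion: the clause `hloc` of `S35.KummerConst.kummer_descent_const` at `𝔫`. -/
theorem hloc_point [IsNoetherianRing (integralClosure (Algebra.adjoin W {x₀}) F)]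
    (hπF : algebraMap W F π ≠ 0)
    (hm₁ : IsVertChart (chartVal (W := W) x₀) m₁) (hm₂ : IsVertChart (chartVal (W := W) x₀) m₂)
    (h1₁ : (1 : F) ∉ m₁) (h1₂ : (1 : F) ∉ m₂)
    (hS1 : ∀ z : F, z ∈ m₁ → z ∈ m₂ → ∃ c : F, InC π j c ∧ z = algebraMap W F π * c)
    (ϖ : integralClosure (Algebra.adjoin W {x₀}) F) (hϖ₁ : (ϖ : F) ∈ m₁) (hϖ₂ : (ϖ : F) ∈ m₂)
    (hS1B : ∀ b : integralClosure (Algebra.adjoin W {x₀}) F, (b : F) ∈ m₁ → (b : F) ∈ m₂ → ϖ ∣ b)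
    (a₁ : integralClosure (Algebra.adjoin W {x₀}) F) (ha₁ : (a₁ : F) ∈ m₁) (ha₁' : (a₁ : F) ∉ m₂)
    (a₂ : integralClosure (Algebra.adjoin W {x₀}) F) (ha₂ : (a₂ : F) ∈ m₂) (ha₂' : (a₂ : F) ∉ m₁)
    (𝔫 : Ideal (integralClosure (Algebra.adjoin W {x₀}) F)) [h𝔫 : 𝔫.IsPrime] (hϖ𝔫 : ϖ ∈ 𝔫)
    (R : Type*) [CommRing R] [Algebra (integralClosure (Algebra.adjoin W {x₀}) F) R]
    [IsLocalization.AtPrime R 𝔫] [IsLocalRing R]
    (ϖR : R) (hϖR : algebraMap (integralClosure (Algebra.adjoin W {x₀}) F) R ϖ = ϖR)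
    (hstruct : (∃ u : R, IsLocalRing.maximalIdeal R = Ideal.span {ϖR, u}) ∨
      ∃ X Y : R, IsLocalRing.maximalIdeal R = Ideal.span {ϖR, X, Y} ∧ ϖR ∣ X * Y)
    (g₀ : F)
    (hres₁ : (∀ b : integralClosure (Algebra.adjoin W {x₀}) F, (b : F) ∈ m₁ → b ∈ 𝔫) →
      ∃ b s : integralClosure (Algebra.adjoin W {x₀}) F, b ∉ 𝔫 ∧ s ∉ 𝔫 ∧
        (s : F) * g₀ - (b : F) ∈ m₁ ∧
        ((∀ b : integralClosure (Algebra.adjoin W {x₀}) F, (b : F) ∈ m₂ → b ∈ 𝔫) → b - s ∈ 𝔫))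
    (hres₂ : (∀ b : integralClosure (Algebra.adjoin W {x₀}) F, (b : F) ∈ m₂ → b ∈ 𝔫) →
      ∃ b s : integralClosure (Algebra.adjoin W {x₀}) F, b ∉ 𝔫 ∧ s ∉ 𝔫 ∧
        (s : F) * g₀ - (b : F) ∈ m₂ ∧
        ((∀ b : integralClosure (Algebra.adjoin W {x₀}) F, (b : F) ∈ m₁ → b ∈ 𝔫) → b - s ∈ 𝔫))
    (hfrac₁ : ∃ b s : integralClosure (Algebra.adjoin W {x₀}) F, (b : F) ∉ m₁ ∧ (s : F) ∉ m₁ ∧
      (s : F) * g₀ - (b : F) ∈ m₁)
    (hfrac₂ : ∃ b s : integralClosure (Algebra.adjoin W {x₀}) F, (b : F) ∉ m₂ ∧ (s : F) ∉ m₂ ∧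
      (s : F) * g₀ - (b : F) ∈ m₂)
    (y : F) (N : ℕ)
    (hint : ∃ d' : integralClosure (Algebra.adjoin W {x₀}) F, d' ∉ 𝔫 ∧
      IsIntegral (Algebra.adjoin W {x₀}) ((d' : F) * (y * g₀ ^ N))) :
    ∃ g : F, GaussOne π j g ∧ ∃ d'' : integralClosure (Algebra.adjoin W {x₀}) F, d'' ∉ 𝔫 ∧
      IsIntegral (Algebra.adjoin W {x₀}) ((d'' : F) * (y * g ^ N)) := by
  by_cases h𝔫₁ : ∀ b : integralClosure (Algebra.adjoin W {x₀}) F, (b : F) ∈ m₁ → b ∈ 𝔫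
  · by_cases h𝔫₂ : ∀ b : integralClosure (Algebra.adjoin W {x₀}) F, (b : F) ∈ m₂ → b ∈ 𝔫
    · -- node
      obtain ⟨b₁, s₁, hb₁, hs₁, hg₁, hbs₁⟩ := hres₁ h𝔫₁
      obtain ⟨b₂, s₂, _, hs₂, hg₂, hbs₂⟩ := hres₂ h𝔫₂
      have h12 : b₁ * s₂ - b₂ * s₁ ∈ 𝔫 := by
        have h1 : b₁ * s₂ - b₂ * s₁ = (b₁ - s₁) * s₂ - (b₂ - s₂) * s₁ := by ring
        rw [h1]
        exact 𝔫.sub_mem (𝔫.mul_mem_right _ (hbs₁ h𝔫₂)) (𝔫.mul_mem_right _ (hbs₂ h𝔫₁))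
      have htrans := htrans_of_struct (chartVal (W := W) x₀) m₁ m₂ hm₁ hm₂ h1₁ h1₂ 𝔫 h𝔫₁ h𝔫₂ ϖ
        hϖ₁ hϖ₂ hS1B a₁ ha₁ ha₁' R ϖR hϖR hstruct
      exact hloc_node π j x₀ m₁ m₂ hπF hm₁ hm₂ hS1 𝔫 h𝔫₁ h𝔫₂ htrans g₀ b₁ s₁ b₂ s₂ hb₁ hs₁ hs₂
        h12 hg₁ hg₂ y N hint
    · -- smooth point on the first vertical prime
      obtain ⟨b₁, s₁, hb₁, hs₁, hg₁, _⟩ := hres₁ h𝔫₁
      obtain ⟨b₂, s₂, hb₂, hs₂, hg₂⟩ := hfrac₂
      rw [not_forall] at h𝔫₂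
      obtain ⟨f, hf⟩ := h𝔫₂
      rw [Classical.not_imp] at hf
      exact hloc_smooth π j x₀ m₁ m₂ hπF hm₁ hm₂ hS1 𝔫 h𝔫₁ f hf.1 hf.2 a₁ ha₁ ha₁' g₀ b₁ s₁ b₂ s₂
        hb₁ hs₁ hb₂ hs₂ hg₁ hg₂ y N hint
  · -- smooth point on the second vertical prime
    have h𝔫₂ : ∀ b : integralClosure (Algebra.adjoin W {x₀}) F, (b : F) ∈ m₂ → b ∈ 𝔫 := by
      have h := vert_le_or_vert_le (chartVal (W := W) x₀) m₁ m₂ hm₁ 𝔫
        (fun b hb₁ hb₂ => by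
          obtain ⟨c, rfl⟩ := hS1B b hb₁ hb₂
          exact 𝔫.mul_mem_right _ hϖ𝔫)
        (fun {z} hz b => hm₂.mul_mem hz b)
      exact h.resolve_left h𝔫₁
    obtain ⟨b₂, s₂, hb₂, hs₂, hg₂, _⟩ := hres₂ h𝔫₂
    obtain ⟨b₁, s₁, hb₁, hs₁, hg₁⟩ := hfrac₁
    rw [not_forall] at h𝔫₁
    obtain ⟨f, hf⟩ := h𝔫₁
    rw [Classical.not_imp] at hf
    exact hloc_smooth π j x₀ m₂ m₁ hπF hm₂ hm₁ (fun z h2 h1 => hS1 z h1 h2) 𝔫 h𝔫₂ f hf.1 hf.2 a₂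
      ha₂ ha₂' g₀ b₂ s₂ b₁ s₁ hb₂ hs₂ hb₁ hs₁ hg₂ hg₁ y N hint

end Hloc

end Fermat.Agent.S35.UnitNorm
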